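import Fermat.Agent.Corollaries.HW.Split
import Mathlib.NumberTheory.LegendreSymbol.Basic
import Mathlib.NumberTheory.LegendreSymbol.ZModChar

/-!
# The local sign at a prime of multiplicative reduction in closed form

`W` a Weierstrass curve over `ℤ`, `q` a prime of multiplicative reduction, `a = W.apOfModel q - 1`.
For `q ≠ 2` the sign `a` is the Legendre symbol of `-c₆` modulo `q`; for `q = 2` it is the
Kronecker symbol `(-c₆ / 2)`.
-/

set_option autoImplicit false

noncomputable section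

open Polynomial WeierstrassCurve WeierstrassCurve.Affine
open scoped WeierstrassCurve.Affine

namespace Fermat.Agent.Cor.HW

namespace Node

variable {F : Type*} [Field F] {W : Affine F} {e n s t : F} (h : Node W e n s t)

include h

theorem a₁_eq : W.a₁ = -(s + t) := by linear_combination h.sum

theorem a₂_eq : W.a₂ = -(s * t + 3 * e) := by linear_combination h.prod

theorem a₃_eq : W.a₃ = -(2 * n) + (s + t) * e := by linear_combination h.dy - e * h.sum

theorem a₄_eq : W.a₄ = -(s + t) * n - 3 * e ^ 2 + 2 * (s * t + 3 * e) * e := by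
  linear_combination -h.dx + n * h.sum - 2 * e * h.prod

theorem b₂_eq : W.b₂ + 12 * e = (s - t) ^ 2 := by
  rw [WeierstrassCurve.b₂, h.a₁_eq, h.a₂_eq]
  ring

theorem c₄_eq : W.c₄ = (s - t) ^ 4 := by
  rw [WeierstrassCurve.c₄, WeierstrassCurve.b₂, WeierstrassCurve.b₄, h.a₁_eq, h.a₂_eq, h.a₃_eq,
    h.a₄_eq]
  ring

theorem neg_c₆_eq : -W.c₆ = (s - t) ^ 6 := by
  have h6 := h.eq
  rw [WeierstrassCurve.c₆, WeierstrassCurve.b₂, WeierstrassCurve.b₄, WeierstrassCurve.b₆]
  rw [h.a₁_eq, h.a₂_eq, h.a₃_eq, h.a₄_eq] at h6 ⊢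
  linear_combination -864 * h6

end Node

section finite

open Fermat.Agent.ECFrob

variable {k : Type*} [Field k] [Fintype k] {K : Type*} [Field K] [Algebra k K]
  {W : Affine k} [DecidableEq K] {e n s t : K}

/-- The Frobenius permutes the two slopes and acts accordingly on the points. -/
theorem frob_slopes (h : Node (W⁄K) e n s t) :
    e ^ Fintype.card k = e ∧ n ^ Fintype.card k = n ∧
    ((s ^ Fintype.card k = s ∧ t ^ Fintype.card k = t ∧
        ∀ P : (W⁄K).Point, frob W K P = Fintype.card k • P) ∨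
      (s ^ Fintype.card k = t ∧ t ^ Fintype.card k = s ∧
        ∀ P : (W⁄K).Point, frob W K P = -(Fintype.card k • P))) := by
  set φ : K →+* K := (FiniteField.frobeniusAlgHom k K : K →+* K) with hφ
  have hc : ∀ a : k, φ (algebraMap k K a) = algebraMap k K a := fun a =>
    (FiniteField.frobeniusAlgHom k K).commutes a
  have hpow : ∀ x : K, φ x = x ^ Fintype.card k := fun x => rfl
  obtain ⟨he, hn, hst⟩ := h.unique (h.map φ (hc _) (hc _) (hc _) (hc _) (hc _))
  refine ⟨he, hn, ?_⟩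
  rcases hst with hst | hst
  · left
    refine ⟨hst.1, hst.2, fun P => ?_⟩
    apply h.par_injective
    rw [h.par_nsmul]
    rcases P with _ | ⟨x, y, hP⟩
    · change par e n s t (frob W K (0 : (W⁄K).Point)) = par e n s t (0 : (W⁄K).Point) ^ _
      rw [_root_.map_zero, par_zero, one_pow]
    · rw [frob_some, par_some, par_some]
      change lin e n s (φ x) (φ y) / lin e n t (φ x) (φ y) = _
      have h1 : lin e n s (φ x) (φ y) = φ (lin e n s x y) := by
        simp only [lin, map_sub, map_mul, he, hn, hst.1]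
      have h2 : lin e n t (φ x) (φ y) = φ (lin e n t x y) := by
        simp only [lin, map_sub, map_mul, he, hn, hst.2]
      rw [h1, h2, ← map_div₀, hpow]
  · right
    refine ⟨hst.1, hst.2, fun P => ?_⟩
    apply h.par_injective
    rw [h.par_neg, h.par_nsmul]
    rcases P with _ | ⟨x, y, hP⟩
    · change par e n s t (frob W K (0 : (W⁄K).Point)) = (par e n s t (0 : (W⁄K).Point) ^ _)⁻¹
      rw [_root_.map_zero, par_zero, one_pow, inv_one]
    · rw [frob_some, par_some, par_some]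
      change lin e n s (φ x) (φ y) / lin e n t (φ x) (φ y) = _
      have h1 : lin e n s (φ x) (φ y) = φ (lin e n t x y) := by
        simp only [lin, map_sub, map_mul, he, hn, hst.2]
      have h2 : lin e n t (φ x) (φ y) = φ (lin e n s x y) := by
        simp only [lin, map_sub, map_mul, he, hn, hst.1]
      rw [h1, h2, ← map_div₀, hpow, ← inv_pow, inv_div]

/-- The number of points and the slopes. -/
theorem card_slopes [IsAlgClosed K] [DecidableEq k] (h : Node (W⁄K) e n s t) :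
    (s ^ Fintype.card k = s ∧ t ^ Fintype.card k = t ∧ Nat.card W.Point + 1 = Fintype.card k) ∨
    (s ^ Fintype.card k = t ∧ t ^ Fintype.card k = s ∧
      Nat.card W.Point = Fintype.card k + 1) := by
  have hcard := card_frob_fixed (K := K) W
  have hq0 : ((Fintype.card k : ℕ) : K) = 0 := by
    rw [← map_natCast (algebraMap k K), FiniteField.cast_card_eq_zero, map_zero]
  have hq1 : 1 < Fintype.card k := Fintype.one_lt_card
  obtain ⟨-, -, ⟨h1, h2, h3⟩ | ⟨h1, h2, h3⟩⟩ := frob_slopes h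
  · left
    refine ⟨h1, h2, ?_⟩
    obtain ⟨m, hm⟩ : ∃ m, Fintype.card k = m + 1 := ⟨Fintype.card k - 1, by omega⟩
    have hmK : ((m : ℕ) : K) ≠ 0 := by
      intro h0
      rw [hm, Nat.cast_add, h0, zero_add, Nat.cast_one] at hq0
      exact one_ne_zero hq0
    rw [← hcard, hm, Nat.add_right_cancel_iff, ← h.card_torsion hmK]
    refine Nat.card_congr (Equiv.subtypeEquivRight fun P => ?_)
    rw [h3 P, hm, succ_nsmul, add_eq_right]
  · right
    refine ⟨h1, h2, ?_⟩
    have hmK : ((Fintype.card k + 1 : ℕ) : K) ≠ 0 := by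
      rw [Nat.cast_add, hq0, zero_add, Nat.cast_one]
      exact one_ne_zero
    rw [← hcard, ← h.card_torsion hmK]
    refine Nat.card_congr (Equiv.subtypeEquivRight fun P => ?_)
    rw [h3 P, succ_nsmul, neg_eq_iff_add_eq_zero]

end finite

section curve

open Fermat.Agent.ECRed Fermat.Agent.ECFrob

variable {W : WeierstrassCurve ℤ} {A : ValuationSubring (AlgebraicClosure ℚ)} {q : ℕ}

/-- the sign and the slopes of the node of the reduced curve. -/
theorem sign_slopes (hW : IsMultAt W q) (hA : A.LiesOverPrime q) :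
    ∃ e n s t : IsLocalRing.ResidueField A, Node (Ek W A) e n s t ∧ e ^ q = e ∧ n ^ q = n ∧
      ((s ^ q = s ∧ t ^ q = t ∧ W.apOfModel q - 1 = 1) ∨
        (s ^ q = t ∧ t ^ q = s ∧ W.apOfModel q - 1 = -1)) := by
  classical
  have hF : Fact q.Prime := ⟨hW.prime⟩
  have hchar := charP_residueField_of_liesOver hW.prime hA
  let _ : Algebra (ZMod q) (IsLocalRing.ResidueField A) := ZMod.algebra _ q
  obtain ⟨e, n, s, t, h⟩ := exists_node_red hW hA
  refine ⟨e, n, s, t, h, ?_⟩
  rw [Ek_eq (q := q)] at h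
  have hz : Fintype.card (ZMod q) = q := ZMod.card q
  have hn : Nat.card (ZMod q) = q := by rw [Nat.card_eq_fintype_card, hz]
  have hap : W.apOfModel q = (q : ℤ) + 1 - (Nat.card (W.reductionMod q).toAffine.Point : ℤ) := by
    rw [WeierstrassCurve.apOfModel, WeierstrassCurve.traceOfFrobenius, hn]
    rfl
  obtain ⟨he, hn', -⟩ := frob_slopes h
  rw [hz] at he hn'
  refine ⟨he, hn', ?_⟩
  rcases card_slopes h with ⟨h1, h2, h3⟩ | ⟨h1, h2, h3⟩
  · left
    rw [hz] at h1 h2 h3
    refine ⟨h1, h2, ?_⟩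
    rw [hap]
    have : (Nat.card (W.reductionMod q).toAffine.Point : ℤ) + 1 = q := by exact_mod_cast h3
    linarith
  · right
    rw [hz] at h1 h2 h3
    refine ⟨h1, h2, ?_⟩
    rw [hap, h3]
    push_cast
    ring

/-- **The local sign for `q ≠ 2` is the Legendre symbol of `-c₆`.** -/
theorem apOfModel_eq_legendreSym (hW : IsMultAt W q) [Fact q.Prime] (hq2 : q ≠ 2) :
    W.apOfModel q - 1 = legendreSym q (-W.c₆) := by
  obtain ⟨A, hA⟩ := Fermat.Agent.Frob.exists_liesOverPrime q hW.prime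
  have hchar := charP_residueField_of_liesOver hW.prime hA
  let _ : Algebra (ZMod q) (IsLocalRing.ResidueField A) := ZMod.algebra _ q
  obtain ⟨e, n, s, t, h, -, -, hst⟩ := sign_slopes hW hA
  have h6 : ((-W.c₆ : ℤ) : IsLocalRing.ResidueField A) = (s - t) ^ 6 := by
    rw [← h.neg_c₆_eq, Int.cast_neg]
    congr 1
    exact (WeierstrassCurve.map_c₆ W (Int.castRingHom (IsLocalRing.ResidueField A))).symm
  have hd : s - t ≠ 0 := sub_ne_zero.mpr h.ne
  have hodd : 2 * (q / 2) + 1 = q := by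
    have := hW.prime.eq_two_or_odd.resolve_left hq2
    omega
  have hpow := congrArg (algebraMap (ZMod q) (IsLocalRing.ResidueField A))
    (legendreSym.eq_pow q (-W.c₆))
  rw [map_pow, map_intCast, map_intCast, h6, ← pow_mul,
    show 6 * (q / 2) = (2 * (q / 2)) * 3 by ring, pow_mul] at hpow
  have h2 : (2 : IsLocalRing.ResidueField A) ≠ 0 := by
    intro h0
    have h1 : ((2 : ℕ) : IsLocalRing.ResidueField A) = 0 := by exact_mod_cast h0
    rw [CharP.cast_eq_zero_iff (IsLocalRing.ResidueField A) q 2] at h1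
    exact hq2 ((Nat.prime_dvd_prime_iff_eq hW.prime Nat.prime_two).mp h1)
  have hfr : (s - t) ^ q = s ^ q - t ^ q := sub_pow_expChar (p := q) ..
  have hne : ((-W.c₆ : ℤ) : ZMod q) ≠ 0 := by
    intro h0
    have h1 := congrArg (algebraMap (ZMod q) (IsLocalRing.ResidueField A)) h0
    rw [map_intCast, h6, map_zero] at h1
    exact pow_ne_zero 6 hd h1
  have hcases := legendreSym.eq_one_or_neg_one q hne
  rcases hst with ⟨h1, h2', h3⟩ | ⟨h1, h2', h3⟩
  · have h4 : (s - t) ^ (2 * (q / 2)) = 1 := by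
      apply mul_right_cancel₀ hd
      rw [← pow_succ, hodd, hfr, h1, h2', one_mul]
    rw [h4, one_pow] at hpow
    rcases hcases with h5 | h5
    · rw [h3, h5]
    · exfalso
      rw [h5, Int.cast_neg, Int.cast_one] at hpow
      exact h2 (by linear_combination -hpow)
  · have h4 : (s - t) ^ (2 * (q / 2)) = -1 := by
      apply mul_right_cancel₀ hd
      rw [← pow_succ, hodd, hfr, h1, h2']
      ring
    rw [h4] at hpow
    rcases hcases with h5 | h5
    · exfalso
      rw [h5, Int.cast_one] at hpow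
      exact h2 (by linear_combination hpow)
    · rw [h3, h5]

theorem key_even : ∀ x y z : ZMod 8, 4 * x = 4 → 4 * (y + z) = 0 →
    (x ^ 2 + 4 * y) ^ 3 + 4 * (x ^ 2 + 4 * y) * x * z = 1 := by decide

theorem key_odd : ∀ x y z : ZMod 8, 4 * x = 4 → 4 * (y + z) = 4 →
    (x ^ 2 + 4 * y) ^ 3 + 4 * (x ^ 2 + 4 * y) * x * z = 5 := by decide

theorem neg_c₆_mod_eight (W : WeierstrassCurve ℤ) : ((-W.c₆ : ℤ) : ZMod 8) =
    ((W.a₁ : ZMod 8) ^ 2 + 4 * (W.a₂ : ZMod 8)) ^ 3 +
      4 * ((W.a₁ : ZMod 8) ^ 2 + 4 * (W.a₂ : ZMod 8)) * (W.a₁ : ZMod 8) * (W.a₃ : ZMod 8) := by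
  have h8 : (8 : ZMod 8) = 0 := rfl
  rw [WeierstrassCurve.c₆, WeierstrassCurve.b₂, WeierstrassCurve.b₄, WeierstrassCurve.b₆]
  push_cast
  linear_combination (-9 * ((W.a₁ : ZMod 8) ^ 2 + 4 * (W.a₂ : ZMod 8)) * (W.a₄ : ZMod 8) -
    5 * ((W.a₁ : ZMod 8) ^ 2 + 4 * (W.a₂ : ZMod 8)) * (W.a₁ : ZMod 8) * (W.a₃ : ZMod 8) +
    27 * ((W.a₃ : ZMod 8) ^ 2 + 4 * (W.a₆ : ZMod 8))) * h8

/-- **The local sign at `2` is the Kronecker symbol `(-c₆ / 2)`.** -/
theorem apOfModel_two (hW : IsMultAt W 2) :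
    W.apOfModel 2 - 1 = ZMod.χ₈ ((-W.c₆ : ℤ) : ZMod 8) := by
  have hF : Fact (Nat.Prime 2) := ⟨Nat.prime_two⟩
  obtain ⟨A, hA⟩ := Fermat.Agent.Frob.exists_liesOverPrime 2 hW.prime
  have hchar := charP_residueField_of_liesOver hW.prime hA
  obtain ⟨e, n, s, t, h, -, -, hst⟩ := sign_slopes hW hA
  have h2 : (2 : IsLocalRing.ResidueField A) = 0 := by
    have := CharP.cast_eq_zero (IsLocalRing.ResidueField A) 2
    exact_mod_cast this
  have hdvd : ∀ z : ℤ, (z : IsLocalRing.ResidueField A) = 0 ↔ (2 : ℤ) ∣ z := fun z =>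
    CharP.intCast_eq_zero_iff (IsLocalRing.ResidueField A) 2 z
  -- `a₁` is odd
  have ha1 : ¬ (2 : ℤ) ∣ W.a₁ := by
    intro h0
    apply hW.ndvd
    obtain ⟨m, hm⟩ := h0
    rw [WeierstrassCurve.c₄, WeierstrassCurve.b₂, WeierstrassCurve.b₄, hm]
    exact ⟨8 * (m ^ 2 + W.a₂) ^ 2 - 12 * (2 * W.a₄ + 2 * m * W.a₃), by push_cast; ring⟩
  have ha1' : (2 : ℤ) ∣ W.a₁ - 1 := by omega
  have hk1 : (Ek W A).a₁ = 1 := by
    have h0 := (hdvd _).mpr ha1'
    rw [Int.cast_sub, Int.cast_one, sub_eq_zero] at h0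
    exact h0
  have hk2 : (Ek W A).a₂ = (W.a₂ : IsLocalRing.ResidueField A) := rfl
  have hk3 : (Ek W A).a₃ = (W.a₃ : IsLocalRing.ResidueField A) := rfl
  have hsum := h.sum
  have hprod := h.prod
  have hdy := h.dy
  rw [hk1] at hsum hdy
  rw [hk2] at hprod
  rw [hk3] at hdy
  have hquad : s ^ 2 = s + ((W.a₂ + W.a₃ : ℤ) : IsLocalRing.ResidueField A) := by
    push_cast
    linear_combination s * hsum - hprod + hdy + (-s + e - n - (W.a₃ : _)) * h2
  have hz4 : (4 : ZMod 8) * (W.a₁ : ZMod 8) = 4 := by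
    obtain ⟨m, hm⟩ := ha1'
    have : W.a₁ = 2 * m + 1 := by omega
    have h8 : (8 : ZMod 8) = 0 := rfl
    rw [this]
    push_cast
    linear_combination (m : ZMod 8) * h8
  rcases hst with ⟨h1, -, h3⟩ | ⟨h1, -, h3⟩
  · have h4 : (2 : ℤ) ∣ W.a₂ + W.a₃ := by
      rw [← hdvd]
      linear_combination h1 - hquad
    have h5 : (4 : ZMod 8) * ((W.a₂ : ZMod 8) + (W.a₃ : ZMod 8)) = 0 := by
      obtain ⟨m, hm⟩ := h4
      have h8 : (8 : ZMod 8) = 0 := rfl
      have : ((W.a₂ + W.a₃ : ℤ) : ZMod 8) = ((2 * m : ℤ) : ZMod 8) := by rw [hm]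
      push_cast at this
      linear_combination 4 * this + (m : ZMod 8) * h8
    rw [h3, neg_c₆_mod_eight, key_even _ _ _ hz4 h5]
    rfl
  · have h4 : (2 : ℤ) ∣ W.a₂ + W.a₃ - 1 := by
      rw [← hdvd]
      push_cast
      push_cast at hquad
      linear_combination h1 - hquad + hsum - (s + 1) * h2
    have h5 : (4 : ZMod 8) * ((W.a₂ : ZMod 8) + (W.a₃ : ZMod 8)) = 4 := by
      obtain ⟨m, hm⟩ := h4
      have h8 : (8 : ZMod 8) = 0 := rfl
      have : ((W.a₂ + W.a₃ - 1 : ℤ) : ZMod 8) = ((2 * m : ℤ) : ZMod 8) := by rw [hm]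
      push_cast at this
      linear_combination 4 * this + (m : ZMod 8) * h8
    rw [h3, neg_c₆_mod_eight, key_odd _ _ _ hz4 h5]
    rfl

end curve

end Fermat.Agent.Cor.HW

end
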