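import Fermat.Agent.Corollaries.HW.SmallRank
import Fermat.Agent.Corollaries.HW.Legendre

/-!
# The value `L(E, 1)`, and the analytic rank of some curves of prime conductor

* `exists_coeff_L_one`: `L(E, 1) = (1 + w) ∑ a_n / n · e^(-2πn/√N)` for every semistable elliptic
  curve, `w` the root number;
* `L_one_pos`: `L(E, 1) > 0` if `N ≤ 50` and `w = 1`;
* `order_37a`, `order_43a`: the `L`-functions of the curves `y² + y = x³ - x` of conductor `37` and
  `y² + y = x³ + x²` of conductor `43` have a simple zero at `s = 1`; `L_one_11a`: `L(E, 1) > 0` for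
  `y² + y = x³ - x²` of conductor `11`.
-/

set_option autoImplicit false

noncomputable section

open UpperHalfPlane hiding I
open CongruenceSubgroup ModularFormClass Complex MeasureTheory Filter Topology Set
open scoped MatrixGroups ModularForm Nat

namespace Fermat.Agent.Cor.HW

theorem jint_zero {w x : ℝ} (hx : 0 < x) {n : ℕ} (hn : n ≠ 0) :
    jint w 0 x n = (1 + w) / (n * x) := by
  have hn0 : (0 : ℝ) < n := by exact_mod_cast Nat.pos_of_ne_zero hn
  have e1 : ∀ t ∈ Ioi (0 : ℝ), gker w 0 t * Real.exp (-(n * (x * t))) =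
      (1 + w) * Real.exp (-(n * x) * t) := by
    intro t _
    rw [gker, neg_zero, Real.rpow_zero, mul_one]
    congr 2
    ring
  rw [jint, setIntegral_congr_fun measurableSet_Ioi e1, integral_const_mul,
    integral_exp_mul_Ioi (by have := mul_pos hn0 hx; linarith) 0, mul_zero, Real.exp_zero]
  field_simp

variable {N : ℕ} [NeZero N]

theorem L_one_eq (f : CuspForm (Gamma0 N) 2) :
    ModularForm.L two_pos f 1 = (xpar N : ℂ) * LamN f 1 := by
  have hN := sqrt_pos_of_neZero (N := N)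
  have h1 : (N : ℂ) ^ ((1 : ℂ) / 2) = ((√(N : ℝ) : ℝ) : ℂ) := by
    rw [Real.sqrt_eq_rpow, ofReal_cpow (Nat.cast_nonneg N)]
    push_cast
    rfl
  have h2 : ((√(N : ℝ) : ℝ) : ℂ) ≠ 0 := by exact_mod_cast hN.ne'
  rw [LamN_eq_L f (s := 1) (by simp), h1, Gamma_one, cpow_neg_one, xpar]
  push_cast
  have h3 := two_pi_ne_zero'
  have h4 : (Real.pi : ℂ) ≠ 0 := ofReal_ne_zero.mpr Real.pi_ne_zero
  field_simp

/-- **`L(f, 1) = (1 + w) ∑ a_n / n · e^(-2πn/√N)`.** -/
theorem hasSum_L_one {A : GL (Fin 2) ℝ}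
    (hA : (A : Matrix (Fin 2) (Fin 2) ℝ) = !![0, -1; (N : ℝ), 0]) {f : CuspForm (Gamma0 N) 2}
    {w : ℝ} (hw : w = 1 ∨ w = -1) (hf : (⇑f : ℍ → ℂ) ∣[(2 : ℤ)] A = (-(w : ℂ)) • ⇑f) :
    HasSum (fun n : ℕ => (1 + (w : ℂ)) * (qCoeff f n / n * (Real.exp (-(n * xpar N)) : ℂ)))
      (ModularForm.L two_pos f 1) := by
  have hx0 : 0 < xpar N := xpar_pos
  have h := (hasSum_LamN hA hw hf le_rfl zero_le_one).mul_left (xpar N : ℂ)
  rw [ofReal_zero, add_zero, ← L_one_eq] at h
  refine h.congr_fun fun n => ?_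
  rcases eq_or_ne n 0 with rfl | hn
  · rw [FermatAgent.HeckeEigen.qCoeff_at_zero f]
    simp
  · have hn0 : (n : ℂ) ≠ 0 := Nat.cast_ne_zero.mpr hn
    have hx1 : (xpar N : ℂ) ≠ 0 := by exact_mod_cast hx0.ne'
    rw [jint_zero hx0 hn]
    push_cast
    field_simp

/-- `L(f, 1) > 0` if the root number is `1`, the coefficients are integers and `S < 1`. -/
theorem L_one_pos_of_tailS {A : GL (Fin 2) ℝ}
    (hA : (A : Matrix (Fin 2) (Fin 2) ℝ) = !![0, -1; (N : ℝ), 0]) {f : CuspForm (Gamma0 N) 2}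
    (hf : (⇑f : ℍ → ℂ) ∣[(2 : ℤ)] A = (-((1 : ℝ) : ℂ)) • ⇑f) {a : ℕ → ℤ}
    (ha : ∀ n, qCoeff f n = a n) (h1 : a 1 = 1) (hS : tailS f < 1) :
    ∃ y : ℝ, 0 < y ∧ ModularForm.L two_pos f 1 = y := by
  have h := hasSum_L_one hA (Or.inl rfl) hf
  set x := xpar N with hx
  set r : ℕ → ℝ := fun n => 2 * ((a n : ℝ) / n * Real.exp (-(n * x))) with hr
  have h2 : HasSum (fun n => ((r n : ℝ) : ℂ)) (ModularForm.L two_pos f 1) := by
    refine h.congr_fun fun n => ?_
    rw [ha n, hr]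
    push_cast
    ring
  have hs : Summable r := by
    have := h2.summable
    exact_mod_cast this
  have h3 : HasSum (fun n => ((r n : ℝ) : ℂ)) ((∑' n, r n : ℝ) : ℂ) := by
    exact_mod_cast hs.hasSum
  refine ⟨∑' n, r n, ?_, h2.unique h3⟩
  have ha0 : a 0 = 0 := by
    have h4 := ha 0
    rw [FermatAgent.HeckeEigen.qCoeff_at_zero f] at h4
    exact_mod_cast h4.symm
  have h5 := hs.sum_add_tsum_nat_add 2
  have r0 : r 0 = 0 := by simp [hr, ha0]
  have r1 : r 1 = 2 * Real.exp (-x) := by simp [hr, h1]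
  rw [Finset.sum_range_succ, Finset.sum_range_one, r0, r1, zero_add] at h5
  have hsum2 : Summable fun n : ℕ => ‖qCoeff f (n + 2)‖ / ((n + 2 : ℕ) : ℝ) *
      Real.exp (-((n + 1 : ℕ) * x)) := by
    have h6 := ((summable_nat_add_iff 2).mpr (summable_norm_phi f)).mul_left (Real.exp x)
    refine Summable.of_nonneg_of_le (fun n => by positivity) (fun n => ?_) h6
    have e1 : Real.exp x * (‖qCoeff f (n + 2)‖ * Real.exp (-(((n + 2 : ℕ) : ℝ) * x))) =
        ‖qCoeff f (n + 2)‖ * Real.exp (-((n + 1 : ℕ) * x)) := by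
      rw [mul_left_comm, ← Real.exp_add]
      congr 2
      push_cast
      ring
    rw [← hx, e1]
    refine mul_le_mul_of_nonneg_right (div_le_self (norm_nonneg _) ?_) (Real.exp_nonneg _)
    push_cast
    linarith [(Nat.cast_nonneg n : (0 : ℝ) ≤ n)]
  have htail : ‖∑' n, r (n + 2)‖ ≤ 2 * Real.exp (-x) * tailS f := by
    rw [tailS, ← tsum_mul_left]
    refine tsum_of_norm_bounded (hsum2.mul_left (2 * Real.exp (-x))).hasSum fun n => ?_
    have e1 : Real.exp (-(((n + 2 : ℕ) : ℝ) * x)) =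
        Real.exp (-x) * Real.exp (-(((n + 1 : ℕ) : ℝ) * x)) := by
      rw [← Real.exp_add]
      congr 1
      push_cast
      ring
    have e2 : ‖qCoeff f (n + 2)‖ = |(a (n + 2) : ℝ)| := by
      rw [ha, norm_intCast]
    rw [hr]
    simp only
    rw [e1, Real.norm_eq_abs, abs_mul, abs_mul, abs_mul, abs_div, Real.abs_exp, Real.abs_exp,
      abs_of_pos (two_pos : (0 : ℝ) < 2), Nat.abs_cast, e2]
    refine le_of_eq ?_
    ring
  rw [Real.norm_eq_abs] at htail
  have h7 := (abs_le.mp htail).1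
  have h8 := Real.exp_pos (-x)
  nlinarith

/-! ### Semistable elliptic curves -/

section

variable {W : WeierstrassCurve ℤ} (hΔ : W.Δ ≠ 0) (hW : W.IsSemistableModel) {L : ℂ → ℂ}
  (hL : IsHasseWeil W L)

theorem det_fricke_ne_zero (W : WeierstrassCurve ℤ) :
    (!![0, -1; (W.conductorLevel : ℝ), 0] : Matrix (Fin 2) (Fin 2) ℝ).det ≠ 0 := by
  have hN0 : (W.conductorLevel : ℝ) ≠ 0 := by exact_mod_cast W.conductorLevel_pos.ne'
  rw [Matrix.det_fin_two_of]
  simpa using hN0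

/-- The Fricke matrix. -/
def frickeMat (W : WeierstrassCurve ℤ) : GL (Fin 2) ℝ :=
  Matrix.GeneralLinearGroup.mkOfDetNeZero _ (det_fricke_ne_zero W)

theorem frickeMat_val (W : WeierstrassCurve ℤ) :
    (frickeMat W : Matrix (Fin 2) (Fin 2) ℝ) = !![0, -1; (W.conductorLevel : ℝ), 0] := rfl

include hΔ in
theorem slash_frickeMat {f : CuspForm (Gamma0 W.conductorLevel) 2} (hf : f.IsNewform)
    (ha : ∀ p : ℕ, p.Prime → qCoeff f p = (ap W p : ℂ)) :
    (⇑f : ℍ → ℂ) ∣[(2 : ℤ)] frickeMat W = (-(((rootNumber W : ℤ) : ℝ) : ℂ)) • ⇑f := by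
  have hsl := slash_fricke W.squarefree_conductorLevel hf (frickeMat_val W)
  have hc := rootNumber_cast hΔ ha
  rw [hsl]
  congr 1
  push_cast
  rw [hc, neg_neg]

include hΔ hW hL in
/-- **The value at the centre**: the `L`-function of a semistable elliptic curve over `ℚ` is
`L(s) = ∑ a_n n^(-s)` for `re s > 3/2` with integers `a_n`, and
`L(1) = (1 + w) ∑ a_n / n · e^(-2πn/√N)`, `w` the root number. -/
theorem exists_coeff_L_one : ∃ a : ℕ → ℤ, a 0 = 0 ∧ a 1 = 1 ∧
    (∀ p : ℕ, p.Prime → a p = ap W p) ∧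
    (∀ s : ℂ, 3 / 2 < s.re → HasSum (fun n : ℕ => (a n : ℂ) / (n : ℂ) ^ s) (L s)) ∧
    HasSum (fun n : ℕ => (1 + (rootNumber W : ℂ)) * ((a n : ℂ) / n *
      (Real.exp (-(n * (2 * Real.pi / √(W.conductorLevel : ℝ)))) : ℂ))) (L 1) := by
  obtain ⟨f, ⟨hf, ha⟩, -⟩ := existsUnique_newform_ap hΔ hW
  have hL' : L = ModularForm.L two_pos f := hL.unique (isHasseWeil hΔ hf ha)
  have hH := isHasse hΔ hf ha
  have hw := rootNumber_eq_one_or hΔ ha hf
  have hwR : ((rootNumber W : ℤ) : ℝ) = 1 ∨ ((rootNumber W : ℤ) : ℝ) = -1 := by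
    rcases hw with h | h <;> rw [h] <;> norm_num
  choose a haq using exists_int_qCoeff hf.1 fun p hp => ⟨ap W p, ha p hp⟩
  refine ⟨a, ?_, ?_, ?_, ?_, ?_⟩
  · have h := haq 0
    rw [FermatAgent.HeckeEigen.qCoeff_at_zero f] at h
    exact_mod_cast h.symm
  · have h := haq 1
    rw [hf.1.qCoeff_one] at h
    exact_mod_cast h.symm
  · intro p hp
    have h := haq p
    rw [ha p hp] at h
    exact_mod_cast h.symm
  · intro s hs
    have h1 := summable_of_hasse hf.1 hH hs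
    have h2 : ∑' n : ℕ, qCoeff f n / (n : ℂ) ^ s = L s := by
      rw [hL', ← lseries_eq_of_hasse hf.1 hH hs, LSeries]
      refine tsum_congr fun n => ?_
      rcases eq_or_ne n 0 with rfl | hn
      · rw [LSeries.term_zero, FermatAgent.HeckeEigen.qCoeff_at_zero, zero_div]
      · rw [LSeries.term_of_ne_zero hn]
    have h3 := h1.hasSum
    rw [h2] at h3
    exact h3.congr_fun fun n => by rw [haq n]
  · have h := hasSum_L_one (frickeMat_val W) hwR (slash_frickeMat hΔ hf ha)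
    rw [← hL'] at h
    refine h.congr_fun fun n => ?_
    rw [haq n, xpar]
    push_cast
    rfl

include hΔ hW hL in
/-- **`L(E, 1) > 0`** for a semistable elliptic curve of conductor at most `50` and root number
`1`. -/
theorem L_one_pos (hN : W.conductorLevel ≤ 50) (hw : rootNumber W = 1) :
    ∃ y : ℝ, 0 < y ∧ L 1 = y := by
  obtain ⟨f, ⟨hf, ha⟩, -⟩ := existsUnique_newform_ap hΔ hW
  have hL' : L = ModularForm.L two_pos f := hL.unique (isHasseWeil hΔ hf ha)
  have hH := isHasse hΔ hf ha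
  choose a haq using exists_int_qCoeff hf.1 fun p hp => ⟨ap W p, ha p hp⟩
  have h1 : a 1 = 1 := by
    have h := haq 1
    rw [hf.1.qCoeff_one] at h
    exact_mod_cast h.symm
  have hsl := slash_frickeMat hΔ hf ha
  rw [hw, Int.cast_one] at hsl
  rw [hL']
  exact L_one_pos_of_tailS (frickeMat_val W) hsl haq h1 (tailS_lt_one hf.1 hH hN)

end

/-! ### Curves whose discriminant is a prime up to sign -/

theorem conductorLevel_of_prime {W : WeierstrassCurve ℤ} {q : ℕ} (hq : q.Prime)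
    (h : W.Δ.natAbs = q) : W.conductorLevel = q := by
  rw [WeierstrassCurve.conductorLevel, h, UniqueFactorizationMonoid.radical_of_prime hq.prime,
    normalize_eq]

theorem rootNumber_of_prime {W : WeierstrassCurve ℤ} {q : ℕ} (hq : q.Prime)
    (h : W.Δ.natAbs = q) : rootNumber W = ap W q := by
  rw [rootNumber, h, Nat.Prime.primeFactors hq, Finset.prod_singleton, neg_neg]

theorem ap_eq_legendreSym {W : WeierstrassCurve ℤ} {q : ℕ} [hq : Fact q.Prime]
    (h : W.Δ.natAbs = q) (hc : ¬ (q : ℤ) ∣ W.c₄) (hq2 : q ≠ 2) :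
    ap W q = legendreSym q (-W.c₆) := by
  have hd : (q : ℤ) ∣ W.Δ := by
    rw [Int.natCast_dvd, h]
  have h0 : W.Δ ≠ 0 := by
    intro h1
    rw [h1, Int.natAbs_zero] at h
    exact hq.out.ne_zero h.symm
  rw [ap, if_pos hd, apOfModel_eq_legendreSym ⟨hq.out, hd, hc, h0⟩ hq2]

theorem isSemistableModel_of_prime {W : WeierstrassCurve ℤ} {q : ℕ} (hq : q.Prime)
    (h : W.Δ.natAbs = q) (hc : ¬ (q : ℤ) ∣ W.c₄) : W.IsSemistableModel := by
  intro r hr hd
  have h1 : r = q := by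
    rw [Int.natCast_dvd, h] at hd
    exact (Nat.prime_dvd_prime_iff_eq hr hq).mp hd
  rw [h1]
  exact hc

/-- The curve `37a`: `y² + y = x³ - x`. -/
def E37 : WeierstrassCurve ℤ := ⟨0, 0, 1, -1, 0⟩

/-- The curve `43a`: `y² + y = x³ + x²`. -/
def E43 : WeierstrassCurve ℤ := ⟨0, 1, 1, 0, 0⟩

/-- The curve `11a3`: `y² + y = x³ - x²`. -/
def E11 : WeierstrassCurve ℤ := ⟨0, -1, 1, 0, 0⟩

/-- **The `L`-function of `y² + y = x³ - x` (conductor `37`) has a simple zero at `s = 1`.** -/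
theorem order_37a {L : ℂ → ℂ} (hL : IsHasseWeil E37 L) : analyticOrderNatAt L 1 = 1 := by
  have hq : Nat.Prime 37 := by norm_num
  have : Fact (Nat.Prime 37) := ⟨hq⟩
  have hΔ : E37.Δ.natAbs = 37 := by decide
  have hc : ¬ ((37 : ℕ) : ℤ) ∣ E37.c₄ := by decide
  have hΔ0 : E37.Δ ≠ 0 := by decide
  have hw : rootNumber E37 = -1 := by
    rw [rootNumber_of_prime hq hΔ, ap_eq_legendreSym hΔ hc (by norm_num),
      show -E37.c₆ = 216 from by decide]
    norm_num
  rw [analyticOrderNatAt_eq hΔ0 (isSemistableModel_of_prime hq hΔ hc) hL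
    (by rw [conductorLevel_of_prime hq hΔ]; norm_num), hw]
  norm_num

/-- **The `L`-function of `y² + y = x³ + x²` (conductor `43`) has a simple zero at `s = 1`.** -/
theorem order_43a {L : ℂ → ℂ} (hL : IsHasseWeil E43 L) : analyticOrderNatAt L 1 = 1 := by
  have hq : Nat.Prime 43 := by norm_num
  have : Fact (Nat.Prime 43) := ⟨hq⟩
  have hΔ : E43.Δ.natAbs = 43 := by decide
  have hc : ¬ ((43 : ℕ) : ℤ) ∣ E43.c₄ := by decide
  have hΔ0 : E43.Δ ≠ 0 := by decide
  have hw : rootNumber E43 = -1 := by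
    rw [rootNumber_of_prime hq hΔ, ap_eq_legendreSym hΔ hc (by norm_num),
      show -E43.c₆ = 280 from by decide]
    norm_num
  rw [analyticOrderNatAt_eq hΔ0 (isSemistableModel_of_prime hq hΔ hc) hL
    (by rw [conductorLevel_of_prime hq hΔ]; norm_num), hw]
  norm_num

/-- **`L(E, 1) > 0`** for the curve `y² + y = x³ - x²` of conductor `11`. -/
theorem L_one_11a {L : ℂ → ℂ} (hL : IsHasseWeil E11 L) : ∃ y : ℝ, 0 < y ∧ L 1 = y := by
  have hq : Nat.Prime 11 := by norm_num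
  have : Fact (Nat.Prime 11) := ⟨hq⟩
  have hΔ : E11.Δ.natAbs = 11 := by decide
  have hc : ¬ ((11 : ℕ) : ℤ) ∣ E11.c₄ := by decide
  have hΔ0 : E11.Δ ≠ 0 := by decide
  have hw : rootNumber E11 = 1 := by
    rw [rootNumber_of_prime hq hΔ, ap_eq_legendreSym hΔ hc (by norm_num)]
    norm_num [E11, WeierstrassCurve.c₆, WeierstrassCurve.b₂, WeierstrassCurve.b₄,
      WeierstrassCurve.b₆]
  exact L_one_pos hΔ0 (isSemistableModel_of_prime hq hΔ hc) hL
    (by rw [conductorLevel_of_prime hq hΔ]; norm_num) hw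

end Fermat.Agent.Cor.HW
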