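import Fermat.Agent.Corollaries.HW.WEigen
import Fermat.Agent.Ribet.FrobW
import Fermat.Agent.Ribet.WJ
import Fermat.Agent.S44w.Old
import Fermat.Agent.S44w.Final
import Fermat.Agent.S44w.Main

/-!
# Frobenius at a prime `q ∥ N` on the mod `p` representation of a newform

`(σ - 1)(φ - a_q(f)) = 0` on `E[p]` for `σ` in inertia, `φ` a Frobenius at `q ∥ N`, for all large
primes `p` with `E[p]` irreducible.

* `parEval_w`, `wJ_inclS`: an identity `w_q t = - ε t` on cusp forms holds on integral parabolic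
  homomorphisms and on the torsion of `J₀(N)`;
* `exists_bound_frob`: the theorem.
-/

set_option autoImplicit false
set_option linter.style.haveILetI false
set_option linter.unusedSectionVars false

noncomputable section

open CongruenceSubgroup CuspForm ModularFormClass ModularCurve ModularCurve.Period AlgebraicCurve
open Fermat.Agent.GalRep Fermat.Agent.Oldforms FermatAgent.HeckeEigen Fermat.Agent.S44w
open Fermat.Agent.HeckePar Fermat.Agent.S21per Fermat.Agent.Cofaith Fermat.Agent.Ribet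
open Fermat.Agent.QX4 (wJ wJ_wJ wJ_galois)
open Fermat.Agent.ECFrob Fermat.Agent.ECRed Fermat.Agent.Torsion
open WeierstrassCurve WeierstrassCurve.Affine WeierstrassCurve.Affine.Point
open scoped MatrixGroups ModularForm ComplexConjugate

namespace Fermat.Agent.Cor.HW

/-! ### From cusp forms to parabolic homomorphisms -/

section Par

variable {m q : ℕ} [NeZero m] [NeZero (m * q)] (D : ALData (m * q) m q) (hm : ¬ q ∣ m)
  {S : Set ℕ} {t : HeckeAlgS S} {ε : ℤ}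

include D in
/-- An identity `w_q t = - ε t` on cusp forms holds on integral parabolic homomorphisms. -/
theorem parEval_w
    (ht : ∀ g : CuspForm (Gamma0 (m * q)) 2,
      D.w 2 ((evS (m * q) S t : Module.End ℂ (CuspForm (Gamma0 (m * q)) 2)) g) =
        -(ε • (evS (m * q) S t : Module.End ℂ (CuspForm (Gamma0 (m * q)) 2)) g))
    {φ : Additive (Gamma0 (m * q)) →+ ℤ} (hφ : IsParabolicHom (Gamma0 (m * q)) φ) :
    wHomA D.hq hm (parEval (m * q) S ℤ t φ) = -(ε • parEval (m * q) S ℤ t φ) := by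
  have hper : ∀ f : CuspForm (Gamma0 (m * q)) 2,
      wHomA D.hq hm (parEval (m * q) S ℂ t (periodLin (m * q) f)) =
        -(ε • parEval (m * q) S ℂ t (periodLin (m * q) f)) := fun f => by
    rw [← periodLin_evS, ← SO.periodLin_w D hm, ht, map_neg, map_zsmul]
  have hC : ∀ ψ : Additive (Gamma0 (m * q)) →+ ℂ, IsParabolicHom (Gamma0 (m * q)) ψ →
      wHomA D.hq hm (parEval (m * q) S ℂ t ψ) = -(ε • parEval (m * q) S ℂ t ψ) := by
    intro ψ hψ
    obtain ⟨f, g, rfl⟩ := exists_theta (m * q) hψ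
    rw [map_add, map_add, hper, smul_add, neg_add]
    congr 1
    rw [conjHom, parEval_comp]
    have h1 := congrArg (fun x : Additive (Gamma0 (m * q)) →+ ℂ =>
      (starRingEnd ℂ).toAddMonoidHom.comp x) (hper g)
    have h2 : ∀ x : Additive (Gamma0 (m * q)) →+ ℂ,
        wHomA D.hq hm ((starRingEnd ℂ).toAddMonoidHom.comp x) =
          (starRingEnd ℂ).toAddMonoidHom.comp (wHomA D.hq hm x) := fun x => rfl
    rw [h2]
    refine h1.trans ?_
    ext γ
    simp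
  have h1 := hC ((Int.castAddHom ℂ).comp φ) (fun γ hγ => by
    show ((φ (Additive.ofMul γ) : ℤ) : ℂ) = 0
    rw [hφ γ hγ, Int.cast_zero])
  rw [parEval_comp] at h1
  refine AddMonoidHom.ext fun γ => ?_
  have h2 := DFunLike.congr_fun h1 γ
  have h3 : (((wHomA D.hq hm (parEval (m * q) S ℤ t φ)) γ : ℤ) : ℂ) =
      -(ε • (((parEval (m * q) S ℤ t φ) γ : ℤ) : ℂ)) := h2
  have h4 : (-(ε • parEval (m * q) S ℤ t φ)) γ = -(ε * (parEval (m * q) S ℤ t φ) γ) := rfl
  rw [h4]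
  rw [zsmul_eq_mul] at h3
  exact_mod_cast h3

/-- An identity `w_q t = - ε t` on cusp forms holds on the torsion of `J₀(m q)`. -/
theorem wJ_inclS (hS : ∀ ℓ : ℕ, ℓ.Prime → ℓ ∣ m * q → ℓ ∈ S)
    (ht : ∀ g : CuspForm (Gamma0 (m * q)) 2,
      D.w 2 ((evS (m * q) S t : Module.End ℂ (CuspForm (Gamma0 (m * q)) 2)) g) =
        -(ε • (evS (m * q) S t : Module.End ℂ (CuspForm (Gamma0 (m * q)) 2)) g))
    [NeZero q] {n : ℕ} (hn : n ≠ 0) {x : JZero (m * q)} (hx : n • x = 0) :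
    letI := heckeModuleBar (m * q)
    wJ D.hq hm (inclS S t • x) = -(ε • (inclS S t • x)) := by
  letI := heckeModuleBar (m * q)
  show wJ D.hq hm (inclS S t • x) = -(ε • (inclS S t • x))
  obtain ⟨e, he, h⟩ := exists_rel_charOf (m * q)
  obtain ⟨y, rfl⟩ := S34aux.jzero_divisible (m * q) he x
  have hen : e * n ≠ 0 := mul_ne_zero he hn
  have h1 : (e * n) • y = 0 := by rw [mul_comm e n, mul_smul, hx]
  obtain ⟨φ, hφ, h2⟩ := h (e * n) hen y h1
  have h3 := Rel.heckePoly (heckeBridges (m * q) S hS)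
    (Fermat.Agent.HeckeComm.heckeOperatorsCommuteBar (m * q)) hen t h2
  have h4 := rel_wJ X0Emb.iota D.hq hm h3
  have h5 : (charOf (e * n) (parEval (m * q) S ℤ t φ)).comp (TwHecke.wHom D.hq hm) =
      charOf (e * n) (wHomA D.hq hm (parEval (m * q) S ℤ t φ)) := rfl
  rw [h5, parEval_w D hm ht hφ, ← neg_smul] at h4
  have h6 := Rel.zsmul_charOf hen h3 (-ε)
  rw [← neg_smul]
  exact Rel.unique (bridge X0Emb.iota (m * q)) hen (charOf_pow hen _) h4 h6

end Par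

/-! ### The mod `p` eigenspace -/

section Lin

/-- cancelling an integer prime to `p` -/
theorem eq_neg_of_coprime {J : Type*} [AddCommGroup J] (w : J →+ J) {p : ℕ} {c ε : ℤ}
    (hpc : IsCoprime (p : ℤ) c) {x : J} (hpx : p • x = 0) (h : w (c • x) = -(ε • (c • x))) :
    w x = -(ε • x) := by
  rw [map_zsmul] at h
  have h3 : c • (w x + ε • x) = 0 := by
    rw [smul_add, h, smul_comm ε c x, neg_add_cancel]
  have h5 : (p : ℤ) • x = 0 := by rw [natCast_zsmul]; exact hpx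
  have h4 : (p : ℤ) • (w x + ε • x) = 0 := by
    rw [smul_add, ← map_zsmul, h5, _root_.map_zero, smul_comm (p : ℤ) ε x, h5, smul_zero, add_zero]
  obtain ⟨u, v, huv⟩ := hpc
  have h6 : w x + ε • x = 0 := by
    have h7 : (u * p + v * c) • (w x + ε • x) = (1 : ℤ) • (w x + ε • x) := by rw [huv]
    rw [add_smul, mul_smul, h4, smul_zero, zero_add, mul_smul, h3, smul_zero, one_smul] at h7
    exact h7.symm
  exact eq_neg_of_add_eq_zero_left h6

variable {W : WeierstrassCurve ℤ} {p : ℕ} [hp : Fact p.Prime] {S : Finset ℕ} {a : ℕ → ℤ}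
  {J : Type*} [AddCommGroup J] [Module HeckeAlg J] [DistribMulAction GQ J]
  [SMulCommClass GQ HeckeAlg J]

/-- A relation `(σ - 1)(φ - ε) = 0` on the eigenspace holds on `E[p]`. -/
theorem mul_eq_zero_of_eigen (hΔ : W.Δ ≠ 0) (hp2 : p ≠ 2)
    (hspan : Submodule.span (ZMod p) (Set.range (rho W p)) = ⊤)
    (hX : ∀ g : GQ, eigenRep S p a J g * eigenRep S p a J g =
      LinearMap.trace (ZMod p) _ (rho W p g) • eigenRep S p a J g -
        algebraMap (ZMod p) _ (LinearMap.det (rho W p g)))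
    (hne : ∃ x ∈ eigenPart S p a J, x ≠ 0) (σ φ : GQ) (ε : ℤ)
    (h : ∀ x ∈ eigenPart S p a J, σ • (φ • x - ε • x) = φ • x - ε • x) :
    (rho W p σ - 1) * (rho W p φ - algebraMap (ZMod p) _ (ε : ZMod p)) = 0 := by
  haveI := finite_rat hΔ hp.out.ne_zero
  haveI : Module.Finite (ZMod p)
      (Submodule.torsionBy ℤ ((W.map (Int.castRingHom ℚ))⁄(AlgebraicClosure ℚ)).Point p) :=
    Module.Finite.of_finite
  let b := Module.finBasisOfFinrankEq _ _ (finrank_rat hΔ (p := p))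
  haveI : Nontrivial (eigenPart S p a J) := by
    obtain ⟨x, hx, hx0⟩ := hne
    exact ⟨⟨x, hx⟩, 0, fun h => hx0 (congrArg Subtype.val h)⟩
  have h3 := blr_converse (rho W p) (eigenRep S p a J) (two_ne_zero_zmod hp2) b hspan hX
    ((MonoidAlgebra.of (ZMod p) GQ σ - 1) *
      (MonoidAlgebra.of (ZMod p) GQ φ - algebraMap (ZMod p) _ (ε : ZMod p))) (by
      rw [_root_.map_mul, _root_.map_sub, _root_.map_sub, _root_.map_one, AlgHom.commutes]
      refine LinearMap.ext fun x => Subtype.ext ?_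
      have h5 : (((MonoidAlgebra.lift (ZMod p) _ _ (eigenRep S p a J)
          (MonoidAlgebra.of (ZMod p) GQ φ) -
          algebraMap (ZMod p) (Module.End (ZMod p) (eigenPart S p a J)) (ε : ZMod p)) x :
          eigenPart S p a J) : J) = φ • (x : J) - ε • (x : J) := by
        rw [LinearMap.sub_apply, Module.algebraMap_end_apply, Int.cast_smul_eq_zsmul]
        simp
      rw [Module.End.mul_apply, LinearMap.sub_apply, Module.End.one_apply]
      have h6 : ∀ y : eigenPart S p a J, ((MonoidAlgebra.lift (ZMod p) _ _ (eigenRep S p a J)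
          (MonoidAlgebra.of (ZMod p) GQ σ) y - y : eigenPart S p a J) : J) =
          σ • (y : J) - (y : J) := fun y => by simp
      rw [h6, h5, h x x.2, sub_self]
      rfl)
  rw [_root_.map_mul, _root_.map_sub, _root_.map_sub, _root_.map_one, AlgHom.commutes] at h3
  simpa using h3

end Lin

section Eigen

variable {m q : ℕ} [NeZero m] [NeZero (m * q)] [NeZero q] (D : ALData (m * q) m q) (hm : ¬ q ∣ m)
  {S : Finset ℕ} {t : HeckeAlgS (↑S : Set ℕ)} {ε : ℤ} {a : ℕ → ℤ} {p : ℕ} [hp : Fact p.Prime]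

include D in
/-- `w_q = - ε` on the mod `p` eigenspace. -/
theorem wJ_of_mem (hS : ∀ ℓ : ℕ, ℓ.Prime → ℓ ∣ m * q → ℓ ∈ S)
    (ht : ∀ g : CuspForm (Gamma0 (m * q)) 2,
      D.w 2 ((evS (m * q) (↑S : Set ℕ) t : Module.End ℂ (CuspForm (Gamma0 (m * q)) 2)) g) =
        -(ε • (evS (m * q) (↑S : Set ℕ) t : Module.End ℂ (CuspForm (Gamma0 (m * q)) 2)) g))
    (hpt : ¬ (p : ℤ) ∣ thetaZ S a t) {x : JZero (m * q)}
    (hx : letI := heckeModuleBar (m * q); x ∈ eigenPart S p a (JZero (m * q))) :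
    wJ D.hq hm x = -(ε • x) := by
  have hpx : p • x = 0 := hx.1
  have h1 := wJ_inclS D hm (S := (↑S : Set ℕ)) (fun ℓ hℓ hd => hS ℓ hℓ hd) ht hp.out.ne_zero hpx
  have h2 : (letI := heckeModuleBar (m * q); inclS (↑S : Set ℕ) t • x) = thetaZ S a t • x := by
    letI := heckeModuleBar (m * q)
    exact inclS_smul_of_mem hx t
  refine eq_neg_of_coprime (wJ D.hq hm) ((Prime.coprime_iff_not_dvd
    (Nat.prime_iff_prime_int.mp hp.out)).mpr hpt) hpx ?_
  rw [← h2]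
  exact h1

include hm in
/-- `(σ - 1)(φ - ε) = 0` on the mod `p` eigenspace. -/
theorem smul_frob_sub_of_mem (hS : ∀ ℓ : ℕ, ℓ.Prime → ℓ ∣ m * q → ℓ ∈ S)
    (ht : ∀ g : CuspForm (Gamma0 (m * q)) 2,
      D.w 2 ((evS (m * q) (↑S : Set ℕ) t : Module.End ℂ (CuspForm (Gamma0 (m * q)) 2)) g) =
        -(ε • (evS (m * q) (↑S : Set ℕ) t : Module.End ℂ (CuspForm (Gamma0 (m * q)) 2)) g))
    (hpt : ¬ (p : ℤ) ∣ thetaZ S a t) (hqp : q ≠ p) {A : ValuationSubring (AlgebraicClosure ℚ)}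
    (hA : A.LiesOverPrime q) {σ φ : GQ} (hσ : σ ∈ A.inertiaSubgroupIn ℚ)
    (hφ : A.IsFrobeniusAt φ q) {x : JZero (m * q)}
    (hx : letI := heckeModuleBar (m * q); x ∈ eigenPart S p a (JZero (m * q))) :
    σ • (φ • x - ε • x) = φ • x - ε • x := by
  have hpx : p • x = 0 := hx.1
  have h1 := smul_frob_add_wJ (m := m) D.hq (hm := hm) hA hqp (k := 1) hσ hφ
    (by rw [pow_one]; exact hpx)
  rw [wJ_of_mem D hm hS ht hpt hx, ← sub_eq_add_neg] at h1
  exact h1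

include hm in
/-- The relation on `E[p]` for one prime `p`. -/
theorem mul_eq_zero_of_newform {W : WeierstrassCurve ℤ} (hΔ : W.Δ ≠ 0)
    (hS : ∀ ℓ : ℕ, ℓ.Prime → ℓ ∣ m * q → ℓ ∈ S)
    (hS' : ∀ ℓ : ℕ, ℓ.Prime → ℓ ∉ S → ¬ ℓ ∣ m * q)
    {f : CuspForm (Gamma0 (m * q)) 2} (hf : f.IsNormalizedEigenform)
    (ha : ∀ ℓ : ℕ, ℓ.Prime → ¬ ℓ ∣ m * q → qCoeff ⇑f ℓ = ((W.apOfModel ℓ : ℤ) : ℂ))
    (ht : ∀ g : CuspForm (Gamma0 (m * q)) 2,
      D.w 2 ((evS (m * q) (↑S : Set ℕ) t : Module.End ℂ (CuspForm (Gamma0 (m * q)) 2)) g) =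
        -(ε • (evS (m * q) (↑S : Set ℕ) t : Module.End ℂ (CuspForm (Gamma0 (m * q)) 2)) g))
    (hpt : ¬ (p : ℤ) ∣ thetaZ S (fun ℓ => W.apOfModel ℓ) t) (hp2 : p ≠ 2) (hqp : q ≠ p)
    (hirr : W.ModRepIsIrreducible p) {A : ValuationSubring (AlgebraicClosure ℚ)}
    (hA : A.LiesOverPrime q) {σ φ : GQ} (hσ : σ ∈ A.inertiaSubgroupIn ℚ)
    (hφ : A.IsFrobeniusAt φ q) :
    (rho W p σ - 1) * (rho W p φ - algebraMap (ZMod p) _ (ε : ZMod p)) = 0 := by
  classical
  letI := heckeModuleBar (m * q)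
  haveI := Cofaith.smulCommClass_JZero (m * q)
  have hES := esInput (m * q) hp.out (↑S : Set ℕ) (fun ℓ hℓ hd => hS ℓ hℓ hd)
  have hrel := fun g => eigenRep_relation (a := fun ℓ => W.apOfModel ℓ) hES hΔ
    (S ∪ {p} ∪ W.Δ.natAbs.primeFactors)
    (Finset.subset_union_left.trans Finset.subset_union_left)
    (Finset.mem_union_left _ (Finset.mem_union_right _ (Finset.mem_singleton_self p)))
    (fun r hr hd => Finset.mem_union_left _ (Finset.mem_union_left _ (hS r hr hd)))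
    (fun r hr hd => Finset.mem_union_right _
      (Nat.mem_primeFactors.2 ⟨hr, Int.natCast_dvd.1 hd, Int.natAbs_ne_zero.2 hΔ⟩))
    (fun ℓ _ _ => rfl) g
  have hspan := span_range_rho hΔ hp2 hirr
  obtain ⟨𝔪, h𝔪, hp𝔪⟩ := FLTPrelim.exists_maximalIdeal_natCast_prime_mem hp.out
  have hne := exists_mem_eigenPart_ne_zero (a := fun ℓ => W.apOfModel ℓ) hES
    (fun n => Cofaith.finite_torsion_set (m * q) (pow_ne_zero n hp.out.ne_zero)) hf h𝔪 hp𝔪
    (fun ℓ hℓ hℓS => ⟨((W.apOfModel ℓ : ℤ) : integralClosure ℤ ℂ), by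
      rw [ha ℓ hℓ (hS' ℓ hℓ hℓS)]
      rfl, by rw [sub_self]; exact 𝔪.zero_mem⟩)
  exact mul_eq_zero_of_eigen hΔ hp2 hspan hrel hne σ φ ε fun x hx =>
    smul_frob_sub_of_mem D hm hS ht hpt hqp hA hσ hφ hx

end Eigen

/-! ### The theorem -/

section Main

/-- **`(σ - 1)(φ - a_q(f)) = 0` on `E[p]`** for `σ` in inertia and `φ` a Frobenius at `q ∥ N`, for
all large primes `p` with `E[p]` irreducible. -/
theorem exists_bound_frob {W : WeierstrassCurve ℤ} (hΔ : W.Δ ≠ 0) {m q : ℕ} [NeZero m]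
    (hq : q.Prime) (hm : ¬ q ∣ m) {f : CuspForm (Gamma0 (m * q)) 2} (hf : f.IsNewform)
    (ha : ∀ ℓ : ℕ, ℓ.Prime → ¬ ℓ ∣ m * q → qCoeff ⇑f ℓ = ((W.apOfModel ℓ : ℤ) : ℂ)) :
    ∃ ε : ℤ, (ε : ℂ) = qCoeff ⇑f q ∧ ε * ε = 1 ∧ ∃ B : ℕ, ∀ (p : ℕ) [Fact p.Prime], B < p →
      W.ModRepIsIrreducible p → ∀ A : ValuationSubring (AlgebraicClosure ℚ),
        A.LiesOverPrime q → ∀ σ ∈ A.inertiaSubgroupIn ℚ, ∀ φ : GQ, A.IsFrobeniusAt φ q →
          (rho W p σ - 1) * (rho W p φ - algebraMap (ZMod p) _ (ε : ZMod p)) = 0 := by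
  haveI : NeZero q := ⟨hq.ne_zero⟩
  haveI : NeZero (m * q) := ⟨mul_ne_zero (NeZero.ne m) hq.ne_zero⟩
  obtain ⟨D⟩ := exists_ALData hq (mul_comm m q) hm
  obtain ⟨ε, hε, hεε⟩ : ∃ ε : ℤ, (ε : ℂ) = qCoeff ⇑f q ∧ ε * ε = 1 := by
    have h1 := qCoeff_mul_self D hm hf
    rcases mul_self_eq_one_iff.mp h1 with h2 | h2
    · exact ⟨1, by rw [h2, Int.cast_one], by norm_num⟩
    · exact ⟨-1, by rw [h2, Int.cast_neg, Int.cast_one], by norm_num⟩
  obtain ⟨t, ht0, ht⟩ := exists_hecke_newform D hm hf (a := fun ℓ => W.apOfModel ℓ) ha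
  refine ⟨ε, hε, hεε, max 2 (max (m * q)
    (thetaZ (m * q).primeFactors (fun ℓ => W.apOfModel ℓ) t).natAbs),
    fun p hp hB hirr A hA σ hσ φ hφ => ?_⟩
  have hp2 : 2 < p := lt_of_le_of_lt (le_max_left _ _) hB
  have hpN : m * q < p := lt_of_le_of_lt ((le_max_left _ _).trans (le_max_right _ _)) hB
  have hpt' : (thetaZ (m * q).primeFactors (fun ℓ => W.apOfModel ℓ) t).natAbs < p :=
    lt_of_le_of_lt ((le_max_right _ _).trans (le_max_right _ _)) hB
  have hpt : ¬ (p : ℤ) ∣ thetaZ (m * q).primeFactors (fun ℓ => W.apOfModel ℓ) t := fun hd => by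
    have h1 := Int.natAbs_dvd_natAbs.mpr hd
    rw [Int.natAbs_natCast] at h1
    exact absurd (Nat.le_of_dvd (Int.natAbs_pos.mpr ht0) h1) (not_le.mpr hpt')
  have hqp : q ≠ p := fun h => by
    have h1 : q ≤ m * q := Nat.le_mul_of_pos_left q (Nat.pos_of_ne_zero (NeZero.ne m))
    omega
  exact mul_eq_zero_of_newform D hm hΔ
    (fun ℓ hℓ hd => Nat.mem_primeFactors.mpr ⟨hℓ, hd, NeZero.ne _⟩)
    (fun ℓ hℓ hℓS hd => hℓS (Nat.mem_primeFactors.mpr ⟨hℓ, hd, NeZero.ne _⟩)) hf.1 ha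
    (fun g => by rw [ht g, ← hε, Int.cast_smul_eq_zsmul]) hpt (by omega) hqp hirr hA hσ hφ

end Main

end Fermat.Agent.Cor.HW

end
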