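import Fermat.Agent.Classic.Rep3
import Fermat.Agent.GalW.Final

/-!
# The mod `p` representation of a semistable curve is irreducible for almost all `p`

If `W` is semistable, `p` odd and `W[p]` is reducible, then one of the two characters of `W[p]` is
unramified everywhere, hence trivial (Minkowski), and the other one is the cyclotomic character; so
`p` divides `#W(𝔽_ℓ) = ℓ + 1 - a_ℓ` for every good prime `ℓ ≠ p`. This is possible only for finitely
many `p`.
-/

set_option autoImplicit false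

noncomputable section

namespace Fermat.Agent.Cor.HW

open WeierstrassCurve WeierstrassCurve.Affine FermatAgent.ECVal Fermat.Agent.ECRed
open Fermat.Agent.Tate Fermat.Agent.ECFrob Fermat.Agent.FlatGS IsLocalRing Fermat.Agent.Torsion
open Fermat.Agent.S53norm (M2 HasMat)
open Fermat.Agent.FlatP Fermat.Agent.TW Fermat.Agent.GalW Fermat.Agent.Classic
open scoped WeierstrassCurve.Affine Matrix

/-! ### Linear algebra -/

section linear

variable {k : Type} [Field k]

/-- The determinant in terms of an eigenvalue. -/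
lemma det_eq_of_eigen {X : M2 k} {v : Fin 2 → k} (hv : v ≠ 0) {a : k} (h : X *ᵥ v = a • v) :
    X.det = a * (X.trace - a) := by
  have h0 := congrFun h 0
  have h1 := congrFun h 1
  simp only [Matrix.mulVec, dotProduct, Fin.sum_univ_two, Pi.smul_apply, smul_eq_mul] at h0 h1
  have key : ∀ i, (X.det - a * (X.trace - a)) * v i = 0 := by
    intro i
    rw [Matrix.det_fin_two, Matrix.trace_fin_two]
    fin_cases i
    · simp only [Fin.zero_eta]
      linear_combination (X 1 1 - a) * h0 - X 0 1 * h1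
    · simp only [Fin.mk_one]
      linear_combination (X 0 0 - a) * h1 - X 1 0 * h0
  by_contra hne
  apply hv
  funext i
  rcases mul_eq_zero.mp (key i) with h2 | h2
  · exact absurd (sub_eq_zero.mp h2) hne
  · exact h2

/-- The eigenvalues of a unipotent matrix. -/
lemma eigen_of_unip {X : M2 k} {v : Fin 2 → k} (hv : v ≠ 0) {a : k} (h : X *ᵥ v = a • v)
    (hX : (X - 1) * (X - 1) = 0) : a = 1 ∧ X.trace - a = 1 := by
  have h1 : (X - 1) *ᵥ v = (a - 1) • v := by
    rw [Matrix.sub_mulVec, h, Matrix.one_mulVec, sub_smul, one_smul]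
  have h2 : ((X - 1) * (X - 1)) *ᵥ v = ((a - 1) * (a - 1)) • v := by
    rw [← Matrix.mulVec_mulVec, h1, Matrix.mulVec_smul, h1, smul_smul]
  rw [hX, Matrix.zero_mulVec] at h2
  have h3 := (smul_eq_zero.mp h2.symm).resolve_right hv
  have ha : a = 1 := sub_eq_zero.mp (mul_self_eq_zero.mp h3)
  have h4 : IsNilpotent (X - 1) := ⟨2, by rw [pow_two]; exact hX⟩
  have h5 := (Matrix.isNilpotent_trace_of_isNilpotent h4).eq_zero
  rw [Matrix.trace_sub, Matrix.trace_one, Fintype.card_fin] at h5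
  refine ⟨ha, ?_⟩
  push_cast at h5
  rw [ha]
  linear_combination h5

end linear

/-! ### The two characters -/

section characters

variable {k : Type} [Field k] {p : ℕ} {r : GQ →* M2 k}

/-- **A representation with a stable line `v`, unipotent away from `p` and ordinary at `p`: the
character on the line or the character on the quotient is trivial** (Minkowski). -/
theorem eigen_eq_one_of_stable (hp : p.Prime) (hlev : IsFiniteLevel r) (hun : UnipAway p r)
    {A : ValuationSubring Om} (hA : A.LiesOverPrime p)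
    (hloc : ∀ σ ∈ A.inertiaSubgroupIn ℚ, (r σ).trace = 1 + (r σ).det)
    {v : Fin 2 → k} (hv : v ≠ 0) (hstab : ∀ σ, ∃ a : k, r σ *ᵥ v = a • v) :
    (∀ σ, r σ *ᵥ v = v) ∨
      (∀ σ, r σ *ᵥ v = (r σ).det • v ∧ (r σ).trace = (r σ).det + 1) := by
  choose a ha using hstab
  have hdet := fun σ => det_eq_of_eigen hv (ha σ)
  have hone : a 1 = 1 := by
    have h1 := ha 1
    rw [map_one, Matrix.one_mulVec] at h1
    have h2 : (1 : k) • v = a 1 • v := by rw [one_smul]; exact h1
    exact (smul_left_injective k hv h2).symm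
  have hmul : ∀ σ τ, a (σ * τ) = a σ * a τ := by
    intro σ τ
    have h1 := ha (σ * τ)
    rw [map_mul, ← Matrix.mulVec_mulVec, ha τ, Matrix.mulVec_smul, ha σ, smul_smul] at h1
    have h2 := smul_left_injective k hv h1
    rw [← h2, mul_comm]
  have ha0 : ∀ σ, a σ ≠ 0 := by
    intro σ h0
    have h1 := hmul σ σ⁻¹
    rw [mul_inv_cancel, hone, h0, zero_mul] at h1
    exact one_ne_zero h1
  set b : GQ → k := fun σ => (r σ).trace - a σ with hb
  have hab : ∀ σ, (r σ).det = a σ * b σ := hdet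
  have hbone : b 1 = 1 := by
    have h1 := hab 1
    rw [map_one, Matrix.det_one, hone, one_mul] at h1
    exact h1.symm
  have hbmul : ∀ σ τ, b (σ * τ) = b σ * b τ := by
    intro σ τ
    have h1 := hab (σ * τ)
    rw [map_mul, Matrix.det_mul, hab σ, hab τ, hmul] at h1
    have h2 : a σ * a τ * b (σ * τ) = a σ * a τ * (b σ * b τ) := by rw [← h1]; ring
    exact mul_left_cancel₀ (mul_ne_zero (ha0 σ) (ha0 τ)) h2
  let χ₁ : GQ →* k := ⟨⟨a, hone⟩, hmul⟩
  let χ₂ : GQ →* k := ⟨⟨b, hbone⟩, hbmul⟩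
  have hker₁ : ∀ σ, r σ = 1 → σ ∈ χ₁.ker := by
    intro σ hσ
    have h1 := ha σ
    rw [hσ, Matrix.one_mulVec] at h1
    have h2 : (1 : k) • v = a σ • v := by rw [one_smul]; exact h1
    exact (smul_left_injective k hv h2).symm
  have hker₂ : ∀ σ, r σ = 1 → σ ∈ χ₂.ker := by
    intro σ hσ
    have h1 : a σ = 1 := hker₁ σ hσ
    have h2 := hab σ
    rw [hσ, Matrix.det_one, h1, one_mul] at h2
    exact h2.symm
  have hunip : ∀ ℓ : ℕ, ℓ.Prime → ℓ ≠ p → ∀ B : ValuationSubring Om, B.LiesOverPrime ℓ →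
      B.inertiaSubgroupIn ℚ ≤ χ₁.ker ∧ B.inertiaSubgroupIn ℚ ≤ χ₂.ker := by
    intro ℓ hℓ hℓp B hB
    exact ⟨fun σ hσ => (eigen_of_unip hv (ha σ) (hun ℓ hℓ hℓp B hB σ hσ)).1,
      fun σ hσ => (eigen_of_unip hv (ha σ) (hun ℓ hℓ hℓp B hB σ hσ)).2⟩
  have hunion : (A.inertiaSubgroupIn ℚ : Set GQ) ⊆ χ₁.ker ∪ χ₂.ker := by
    intro σ hσ
    have h1 := hloc σ hσ
    rw [hab σ] at h1
    have h2 : (1 - a σ) * (1 - b σ) = 0 := by
      have h3 : (r σ).trace = a σ + b σ := by rw [hb]; ring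
      rw [h3] at h1
      linear_combination -h1
    rcases mul_eq_zero.mp h2 with h3 | h3
    · exact Or.inl (sub_eq_zero.mp h3).symm
    · exact Or.inr (sub_eq_zero.mp h3).symm
  rcases SubgroupClass.subset_union.mp hunion with h | h
  · left
    have h1 := eq_top_of_inertia hp (isOpen_of_ker_le hlev hker₁)
      (fun ℓ hℓ hℓp B hB => (hunip ℓ hℓ hℓp B hB).1) hA h
    intro σ
    have h2 : a σ = 1 := by
      have : σ ∈ χ₁.ker := by rw [h1]; trivial
      exact this
    rw [ha σ, h2, one_smul]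
  · right
    have h1 := eq_top_of_inertia hp (isOpen_of_ker_le hlev hker₂)
      (fun ℓ hℓ hℓp B hB => (hunip ℓ hℓ hℓp B hB).2) hA h
    intro σ
    have h2 : b σ = 1 := by
      have : σ ∈ χ₂.ker := by rw [h1]; trivial
      exact this
    have h3 : (r σ).trace = a σ + b σ := by rw [hb]; ring
    have h4 := hab σ
    rw [h2, mul_one] at h4
    exact ⟨by rw [h4]; exact ha σ, by rw [h3, h4, h2]⟩

/-- **A representation with a stable line, unipotent away from `p` and ordinary at `p`, is an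
extension of `1` and `ω` up to semisimplification.** -/
theorem trace_eq_of_stable (hp : p.Prime) (hlev : IsFiniteLevel r) (hun : UnipAway p r)
    {A : ValuationSubring Om} (hA : A.LiesOverPrime p)
    (hloc : ∀ σ ∈ A.inertiaSubgroupIn ℚ, (r σ).trace = 1 + (r σ).det)
    {v : Fin 2 → k} (hv : v ≠ 0) (hstab : ∀ σ, ∃ a : k, r σ *ᵥ v = a • v) (σ : GQ) :
    (r σ).trace = 1 + (r σ).det := by
  rcases eigen_eq_one_of_stable hp hlev hun hA hloc hv hstab with h | h
  · have h1 := det_eq_of_eigen hv (a := 1) (by rw [one_smul]; exact h σ)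
    rw [h1]; ring
  · rw [(h σ).2]; ring

end characters

/-! ### Elliptic curves -/

variable {W : WeierstrassCurve ℤ}

/-- If `W` is semistable, `p` odd and `v` spans a stable line of `W[p]`, then `v` is fixed, or
`G_ℚ` acts trivially on the quotient (and by `det` on `v`). -/
theorem fixed_or_trivial_quotient (hΔ : W.Δ ≠ 0) (hW : W.IsSemistableModel) {p : ℕ}
    [hp : Fact p.Prime] (hp2 : p ≠ 2) {v : Fin 2 → ZMod p} (hv : v ≠ 0)
    (hstab : ∀ σ, ∃ a : ZMod p, mr hΔ p σ *ᵥ v = a • v) :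
    (∀ σ, mr hΔ p σ *ᵥ v = v) ∨
      (∀ σ, mr hΔ p σ *ᵥ v = (mr hΔ p σ).det • v ∧
        (mr hΔ p σ).trace = (mr hΔ p σ).det + 1) := by
  -- extension of scalars to a field with `p²` elements
  let K := GaloisField p 2
  have hfK : Finite K := inferInstance
  let κ := ResidueField K
  let _ : Algebra (ZMod p) κ := ((algebraMap K κ).comp (algebraMap (ZMod p) K)).toAlgebra
  have hfin : Finite κ := Finite.of_surjective _ residue_surjective
  have hbij : Function.Bijective (residue K) := ⟨(residue K).injective, residue_surjective⟩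
  have hcard : Nat.card κ = p ^ 2 := by
    rw [← Nat.card_congr (Equiv.ofBijective _ hbij)]
    exact GaloisField.card p 2 two_ne_zero
  have hsplit := fun σ => split_of_card p hp2 hcard (mr hΔ p σ)
  obtain ⟨A, hA⟩ : ∃ A : ValuationSubring Om, A.LiesOverPrime p :=
    ⟨_, CFT.Bridge.padicPlace_liesOverPrime p⟩
  have hloc := local_mrk hΔ p (phi2 p) (phi2_local p) hW hp2 hsplit hA
  have hlev := isFiniteLevel_ext (K := κ) (isFiniteLevel_mr hΔ p)
  have hun := unipAway_mrk hΔ p (phi2 p) (phi2_local p) hW hp2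
  set f := algebraMap (ZMod p) κ with hf
  have hfinj : Function.Injective f := f.injective
  set w : Fin 2 → κ := fun i => f (v i) with hw
  have hw0 : w ≠ 0 := fun h0 => hv (by
    funext i
    exact (map_eq_zero f).mp (congrFun h0 i))
  have hstabκ : ∀ σ (a : ZMod p), mr hΔ p σ *ᵥ v = a • v → mrk hΔ p κ σ *ᵥ w = f a • w := by
    intro σ a ha
    funext i
    have h1 := congrArg f (congrFun ha i)
    rw [ext_apply]
    simp only [Matrix.mulVec, dotProduct, map_sum, map_mul, Pi.smul_apply, smul_eq_mul,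
      Matrix.map_apply, hw] at h1 ⊢
    exact h1
  have htr : ∀ σ, (mrk hΔ p κ σ).trace = f (mr hΔ p σ).trace := fun σ => by
    rw [ext_apply]; simp [Matrix.trace_fin_two, hf]
  have hdt : ∀ σ, (mrk hΔ p κ σ).det = f (mr hΔ p σ).det := fun σ => by
    rw [ext_apply]; simp [Matrix.det_fin_two, hf]
  have hord : ∀ σ ∈ A.inertiaSubgroupIn ℚ, (mrk hΔ p κ σ).trace = 1 + (mrk hΔ p κ σ).det := by
    rcases hloc with ⟨v₀, -, h⟩ | ⟨v₁, v₂, ψ, hli, hψ, g, hg, hgo⟩
    · exact fun σ hσ => (h σ hσ).2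
    · -- the eigenvalues would be in the prime field
      exfalso
      obtain ⟨a, ha⟩ := hstab g
      have h1 := det_eq_of_eigen (hli.ne_zero 0) (hψ g hg).1
      have h2 := det_eq_of_eigen hw0 (hstabκ g a ha)
      have h3 : (ψ g - f a) * (ψ g - ((mrk hΔ p κ g).trace - f a)) = 0 := by
        linear_combination h1 - h2
      have hpow : ∀ c : ZMod p, f c ≠ 0 → f c ^ (p - 1) = 1 := by
        intro c hc
        have hc0 : c ≠ 0 := fun h => hc (by rw [h, map_zero])
        rw [← map_pow, ZMod.pow_card_sub_one_eq_one hc0, map_one]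
      have hpp := hp.out.two_le
      have hψ0 : ψ g ≠ 0 := by
        intro h0
        rw [h0, orderOf_zero] at hgo
        have h4 := two_le_sq_sub_one hp.out
        omega
      have h4 : ψ g ^ (p - 1) = 1 := by
        rcases mul_eq_zero.mp h3 with h5 | h5
        · have h6 := sub_eq_zero.mp h5
          rw [h6]
          exact hpow a (by rw [← h6]; exact hψ0)
        · have h6 := sub_eq_zero.mp h5
          rw [htr, ← map_sub] at h6
          rw [h6]
          exact hpow _ (by rw [← h6]; exact hψ0)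
      have h5 := orderOf_dvd_of_pow_eq_one h4
      rw [hgo] at h5
      have h6 := Nat.le_of_dvd (by omega) h5
      have h8 : p ^ 2 - 1 = (p + 1) * (p - 1) := by
        have := Nat.sq_sub_sq p 1
        simpa using this
      rw [h8] at h6
      have h9 : p + 1 ≤ 1 := Nat.le_of_mul_le_mul_right (by simpa using h6) (by omega)
      omega
  have hmain := eigen_eq_one_of_stable hp.out hlev hun hA hord hw0 (fun σ => by
    obtain ⟨a, ha⟩ := hstab σ
    exact ⟨f a, hstabκ σ a ha⟩)
  rcases hmain with h | h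
  · left
    intro σ
    obtain ⟨a, ha⟩ := hstab σ
    have h1 := h σ
    rw [hstabκ σ a ha] at h1
    have h2 : f a • w = (1 : κ) • w := by rw [one_smul]; exact h1
    have h3 : f a = f 1 := by rw [map_one]; exact smul_left_injective κ hw0 h2
    rw [ha, hfinj h3, one_smul]
  · right
    intro σ
    obtain ⟨a, ha⟩ := hstab σ
    obtain ⟨h1, h2⟩ := h σ
    rw [hstabκ σ a ha, hdt] at h1
    have h3 := hfinj (smul_left_injective κ hw0 h1)
    refine ⟨by rw [ha, h3], hfinj ?_⟩
    rw [map_add, map_one, ← htr, ← hdt]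
    exact h2

/-- The stable line of a reducible `W[p]`. -/
lemma exists_stable_of_reducible (hΔ : W.Δ ≠ 0) {p : ℕ} [hp : Fact p.Prime]
    (hred : ¬ W.ModRepIsIrreducible p) :
    ∃ v : Fin 2 → ZMod p, v ≠ 0 ∧ ∀ σ, ∃ a : ZMod p, mr hΔ p σ *ᵥ v = a • v := by
  rw [noInvLine_range_iff p hΔ] at hred
  unfold NoInvLine at hred
  push Not at hred
  obtain ⟨v, hv, hstab⟩ := hred
  exact ⟨v, hv, fun σ => hstab (repP p hΔ σ) ⟨σ, rfl⟩⟩

/-- If `W` is semistable, `p` odd and `W[p]` reducible, then `tr = 1 + det` on `W[p]`. -/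
theorem trace_mr_of_reducible (hΔ : W.Δ ≠ 0) (hW : W.IsSemistableModel) {p : ℕ}
    [hp : Fact p.Prime] (hp2 : p ≠ 2) (hred : ¬ W.ModRepIsIrreducible p) (σ : GQ) :
    (mr hΔ p σ).trace = 1 + (mr hΔ p σ).det := by
  obtain ⟨v, hv, hstab⟩ := exists_stable_of_reducible hΔ hred
  rcases fixed_or_trivial_quotient hΔ hW hp2 hv hstab with h | h
  · have h1 := det_eq_of_eigen hv (a := 1) (by rw [one_smul]; exact h σ)
    rw [h1]; ring
  · rw [(h σ).2]; ring

/-- **If `W` is semistable, `p` odd and `W[p]` reducible, then `p ∣ ℓ + 1 - a_ℓ = #W(𝔽_ℓ)` for every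
good prime `ℓ ≠ p`.** -/
theorem dvd_of_reducible (hΔ : W.Δ ≠ 0) (hW : W.IsSemistableModel) {p : ℕ} (hp : p.Prime)
    (hp2 : p ≠ 2) (hred : ¬ W.ModRepIsIrreducible p) {ℓ : ℕ} (hℓ : ℓ.Prime)
    (hgood : W.IsGoodPrimeFor ℓ) (hne : ℓ ≠ p) : (p : ℤ) ∣ (ℓ : ℤ) + 1 - W.apOfModel ℓ := by
  have : Fact p.Prime := ⟨hp⟩
  obtain ⟨A, hA, σ, hσ⟩ := Frob.exists_frobenius ℓ hℓ
  have h1 := trace_mr_of_reducible hΔ hW hp2 hred σ
  have h2 : (mr hΔ p σ).trace = (W.apOfModel ℓ : ZMod p) :=
    trace_repP_frobenius hΔ hℓ hgood hne hA hσ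
  have h3 : (mr hΔ p σ).det = (ℓ : ZMod p) := det_repP_frobenius hΔ hℓ hgood hne hA hσ
  rw [h2, h3] at h1
  rw [← ZMod.intCast_zmod_eq_zero_iff_dvd]
  push_cast
  rw [h1]
  ring

/-- The number of points modulo `ℓ` is positive. -/
theorem apOfModel_lt {ℓ : ℕ} (hℓ : ℓ.Prime) : 0 < (ℓ : ℤ) + 1 - W.apOfModel ℓ := by
  have : Fact ℓ.Prime := ⟨hℓ⟩
  have : Finite (W.reductionMod ℓ).toAffine.Point := inferInstance
  have h1 : (ℓ : ℤ) + 1 - W.apOfModel ℓ = (W.reductionMod ℓ).card := by
    rw [apOfModel, traceOfFrobenius, Nat.card_zmod]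
    ring
  rw [h1, WeierstrassCurve.card]
  exact_mod_cast Nat.card_pos

/-- **For a semistable curve `W`, `W[p]` is irreducible for almost all `p`.** -/
theorem exists_bound_irreducible (hΔ : W.Δ ≠ 0) (hW : W.IsSemistableModel) :
    ∃ B : ℕ, ∀ p : ℕ, p.Prime → B < p → W.ModRepIsIrreducible p := by
  obtain ⟨ℓ, hℓge, hℓ⟩ := Nat.exists_infinite_primes (W.Δ.natAbs + 1)
  have hgood : W.IsGoodPrimeFor ℓ := by
    intro h
    have h1 := Nat.le_of_dvd (Int.natAbs_pos.mpr hΔ) (Int.natCast_dvd.mp h)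
    omega
  refine ⟨2 + ℓ + ((ℓ : ℤ) + 1 - W.apOfModel ℓ).natAbs, fun p hp hB => ?_⟩
  by_contra hred
  have h1 := dvd_of_reducible hΔ hW hp (by omega) hred hℓ hgood (by omega)
  have h2 := apOfModel_lt (W := W) hℓ
  have h3 := Nat.le_of_dvd (Int.natAbs_pos.mpr h2.ne') (Int.natCast_dvd.mp h1)
  omega

end Fermat.Agent.Cor.HW
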