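import Fermat.Agent.Corollaries.HW.Node
import Fermat.Agent.EC.MultFrob
import Fermat.Agent.EC.RedFrobMod
import Fermat.Agent.ECFrob.Main
import Fermat.Agent.Frob.Exists

/-!
# The sign of the Frobenius at a prime of multiplicative reduction

`W` a Weierstrass curve over `ℤ`, `q` a prime of multiplicative reduction. The number
`a = W.apOfModel q - 1` is `1` or `-1`, and a Frobenius at a place above `q` acts as
multiplication by `a q` on the prime-to-`q` torsion with non-singular reduction; the
characteristic polynomial of the Frobenius on the `p`-adic Tate module, `p ≠ 2, q`, is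
`(X - a) (X - a q)`.
-/

set_option autoImplicit false

noncomputable section

open Polynomial WeierstrassCurve WeierstrassCurve.Affine
open scoped WeierstrassCurve.Affine

namespace Fermat.Agent.Cor.HW

section finite

open Fermat.Agent.ECFrob

variable {k : Type*} [Field k] [Fintype k] {K : Type*} [Field K] [Algebra k K]
  {W : Affine k}

/-- The Frobenius on the points of a nodal cubic over a finite field. -/
theorem frob_cases [DecidableEq K] {e n s t : K} (h : Node (W⁄K) e n s t) :
    (∀ P : (W⁄K).Point, frob W K P = Fintype.card k • P) ∨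
      (∀ P : (W⁄K).Point, frob W K P = -(Fintype.card k • P)) := by
  set φ : K →+* K := (FiniteField.frobeniusAlgHom k K : K →+* K) with hφ
  have hc : ∀ a : k, φ (algebraMap k K a) = algebraMap k K a := fun a =>
    (FiniteField.frobeniusAlgHom k K).commutes a
  have hpow : ∀ x : K, φ x = x ^ Fintype.card k := fun x => rfl
  rcases h.map_cases φ (hc _) (hc _) (hc _) (hc _) (hc _) with h1 | h1
  · left
    intro P
    apply h.par_injective
    rw [h.par_nsmul]
    rcases P with _ | ⟨x, y, hP⟩
    · change par e n s t (frob W K (0 : (W⁄K).Point)) = par e n s t (0 : (W⁄K).Point) ^ _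
      rw [_root_.map_zero, par_zero, one_pow]
    · rw [frob_some, par_some, par_some]
      change lin e n s (φ x) (φ y) / lin e n t (φ x) (φ y) = _
      rw [(h1 x y).1, (h1 x y).2, ← map_div₀, hpow]
  · right
    intro P
    apply h.par_injective
    rw [h.par_neg, h.par_nsmul]
    rcases P with _ | ⟨x, y, hP⟩
    · change par e n s t (frob W K (0 : (W⁄K).Point)) = (par e n s t (0 : (W⁄K).Point) ^ _)⁻¹
      rw [_root_.map_zero, par_zero, one_pow, inv_one]
    · rw [frob_some, par_some, par_some]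
      change lin e n s (φ x) (φ y) / lin e n t (φ x) (φ y) = _
      rw [(h1 x y).1, (h1 x y).2, ← map_div₀, hpow, ← inv_pow, inv_div]

/-- The number of points of a nodal cubic over a finite field, and the Frobenius. -/
theorem frob_card [IsAlgClosed K] [DecidableEq k] [DecidableEq K] {e n s t : K}
    (h : Node (W⁄K) e n s t) :
    ((∀ P : (W⁄K).Point, frob W K P = Fintype.card k • P) ∧
      Nat.card W.Point + 1 = Fintype.card k) ∨
    ((∀ P : (W⁄K).Point, frob W K P = -(Fintype.card k • P)) ∧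
      Nat.card W.Point = Fintype.card k + 1) := by
  have hcard := card_frob_fixed (K := K) W
  have hq0 : ((Fintype.card k : ℕ) : K) = 0 := by
    rw [← map_natCast (algebraMap k K), FiniteField.cast_card_eq_zero, map_zero]
  have hq1 : 1 < Fintype.card k := Fintype.one_lt_card
  rcases frob_cases h with h1 | h1
  · left
    refine ⟨h1, ?_⟩
    obtain ⟨m, hm⟩ : ∃ m, Fintype.card k = m + 1 := ⟨Fintype.card k - 1, by omega⟩
    have hmK : ((m : ℕ) : K) ≠ 0 := by
      intro h0
      rw [hm, Nat.cast_add, h0, zero_add, Nat.cast_one] at hq0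
      exact one_ne_zero hq0
    rw [← hcard, hm, Nat.add_right_cancel_iff, ← h.card_torsion hmK]
    refine Nat.card_congr (Equiv.subtypeEquivRight fun P => ?_)
    rw [h1 P, hm, succ_nsmul, add_eq_right]
  · right
    refine ⟨h1, ?_⟩
    have hmK : ((Fintype.card k + 1 : ℕ) : K) ≠ 0 := by
      rw [Nat.cast_add, hq0, zero_add, Nat.cast_one]
      exact one_ne_zero
    rw [← hcard, ← h.card_torsion hmK]
    refine Nat.card_congr (Equiv.subtypeEquivRight fun P => ?_)
    rw [h1 P, succ_nsmul, neg_eq_iff_add_eq_zero]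

end finite

section curve

open Fermat.Agent.ECRed Fermat.Agent.ECFrob

variable {W : WeierstrassCurve ℤ} {A : ValuationSubring (AlgebraicClosure ℚ)} {q : ℕ}

/-- The reduced curve, in two forms. -/
lemma Ek_eq [Fact q.Prime] [Algebra (ZMod q) (IsLocalRing.ResidueField A)] :
    Ek W A = ((W.reductionMod q)⁄(IsLocalRing.ResidueField A)) := by
  have h : Int.castRingHom (IsLocalRing.ResidueField A) =
      (algebraMap (ZMod q) (IsLocalRing.ResidueField A)).comp (Int.castRingHom (ZMod q)) :=
    RingHom.ext_int _ _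
  rw [Ek, h, ← WeierstrassCurve.map_map]
  rfl

/-- The reduced curve has a node. -/
lemma exists_node_red (hW : IsMultAt W q) (hA : A.LiesOverPrime q) :
    ∃ e n s t : IsLocalRing.ResidueField A, Node (Ek W A) e n s t := by
  classical
  obtain ⟨e, D, NR⟩ := hW.exists_nodeRoot hA
  obtain ⟨e', -, i6, i8, iD⟩ := NR.node_red
  obtain ⟨n, s, t, h⟩ := exists_node i6 i8 iD
  exact ⟨e', n, s, t, h⟩

/-- **The local sign**: `a = W.apOfModel q - 1` is `1` or `-1` and the Frobenius acts on the points
of the reduced curve as multiplication by `a q`. -/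
theorem frob_reductionMod (hW : IsMultAt W q) (hA : A.LiesOverPrime q) [Fact q.Prime]
    [Algebra (ZMod q) (IsLocalRing.ResidueField A)]
    [DecidableEq (IsLocalRing.ResidueField A)] :
    (W.apOfModel q - 1 = 1 ∧ ∀ P : ((W.reductionMod q)⁄(IsLocalRing.ResidueField A)).Point,
      frob (W.reductionMod q) (IsLocalRing.ResidueField A) P = q • P) ∨
    (W.apOfModel q - 1 = -1 ∧ ∀ P : ((W.reductionMod q)⁄(IsLocalRing.ResidueField A)).Point,
      frob (W.reductionMod q) (IsLocalRing.ResidueField A) P = -(q • P)) := by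
  obtain ⟨e, n, s, t, h⟩ := exists_node_red hW hA
  rw [Ek_eq (q := q)] at h
  have hz : Fintype.card (ZMod q) = q := ZMod.card q
  have hn : Nat.card (ZMod q) = q := by rw [Nat.card_eq_fintype_card, hz]
  have hap : W.apOfModel q = (q : ℤ) + 1 - (Nat.card (W.reductionMod q).toAffine.Point : ℤ) := by
    rw [WeierstrassCurve.apOfModel, WeierstrassCurve.traceOfFrobenius, hn]
    rfl
  rcases frob_card h with ⟨h1, h2⟩ | ⟨h1, h2⟩
  · left
    rw [hz] at h1 h2
    refine ⟨?_, h1⟩
    rw [hap]
    have : (Nat.card (W.reductionMod q).toAffine.Point : ℤ) + 1 = q := by exact_mod_cast h2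
    linarith
  · right
    rw [hz] at h1 h2
    refine ⟨?_, h1⟩
    rw [hap, h2]
    push_cast
    ring

lemma apOfModel_sub_one (hW : IsMultAt W q) :
    W.apOfModel q - 1 = 1 ∨ W.apOfModel q - 1 = -1 := by
  classical
  have : Fact q.Prime := ⟨hW.prime⟩
  obtain ⟨A, hA⟩ := Fermat.Agent.Frob.exists_liesOverPrime q hW.prime
  have := charP_residueField_of_liesOver hW.prime hA
  let _ : Algebra (ZMod q) (IsLocalRing.ResidueField A) := ZMod.algebra _ q
  rcases frob_reductionMod hW hA with ⟨h, -⟩ | ⟨h, -⟩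
  · exact Or.inl h
  · exact Or.inr h

/-- **The Frobenius on prime-to-`q` torsion points with non-singular reduction.** -/
theorem frobenius_smul_of_mem_E0 [DecidableEq (IsLocalRing.ResidueField A)] (hW : IsMultAt W q)
    (hA : A.LiesOverPrime q) {σ : AlgebraicClosure ℚ ≃ₐ[ℚ] AlgebraicClosure ℚ}
    (hσ : A.IsFrobeniusAt σ q) {m : ℕ} (hm : ¬ q ∣ m) {x : (EQ W).Point} (hx : m • x = 0)
    (hx0 : x ∈ E0 (redEk W A) (isPlace_valuationSubring A)) :
    σ • x = ((W.apOfModel q - 1) * (q : ℤ)) • x := by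
  have hF : Fact q.Prime := ⟨hW.prime⟩
  have hchar := charP_residueField_of_liesOver hW.prime hA
  let _ : Algebra (ZMod q) (IsLocalRing.ResidueField A) := ZMod.algebra _ q
  have hE := redCurve_reductionMod W (A := A) (ℓ := q)
  have hpl := isPlace_valuationSubring A
  have hmk : (m : IsLocalRing.ResidueField A) ≠ 0 := by
    rw [Ne, CharP.cast_eq_zero_iff (IsLocalRing.ResidueField A) q m]
    exact hm
  have hv := v_natCast_eq_one hpl hmk
  obtain ⟨Q, hQ⟩ : ∃ Q : ((W.reductionMod q)⁄(IsLocalRing.ResidueField A)).Point,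
      IsRed A.valuation (IsLocalRing.residue A) x Q := by
    rw [← Ek_eq]
    exact hx0
  have hfr : IsRed A.valuation (IsLocalRing.residue A) (σ • x)
      (frob (W.reductionMod q) (IsLocalRing.ResidueField A) Q) := by
    refine hQ.smul_of_isFrobeniusAt hσ ?_ ?_
    · intro h
      rw [h, map_zero]
    · intro h
      obtain ⟨h1, h2⟩ := exists_eq_some h
      rw [h2, frob_some]
      refine ⟨Point.some_ne_zero _, ?_, ?_⟩
      · simp only [xc_some, frobeniusAlgHom_apply, ZMod.card]
      · simp only [yc_some, frobeniusAlgHom_apply, ZMod.card]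
  have hσx : m • (σ • x) = 0 := by
    rw [← natCast_zsmul, ← Point.algEquiv_smul_zsmul, natCast_zsmul, hx, smul_zero]
  have hqx : m • (q • x) = 0 := by rw [smul_comm, hx, nsmul_zero]
  rcases frob_reductionMod hW hA with ⟨h1, h2⟩ | ⟨h1, h2⟩
  · rw [h1, one_mul, natCast_zsmul]
    rw [h2] at hfr
    exact eq_of_isRed_of_nsmul hE hpl hv hfr (isRed_nsmul hE hpl hQ q)
      (by rw [nsmul_sub, hσx, hqx, sub_zero])
  · rw [h1, neg_one_mul, neg_smul, natCast_zsmul]
    rw [h2] at hfr
    exact eq_of_isRed_of_nsmul hE hpl hv hfr ((isRed_nsmul hE hpl hQ q).neg hE)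
      (by rw [nsmul_sub, hσx, smul_neg, hqx, neg_zero, sub_zero])

end curve

section tate

open Fermat.Agent.ECRed Fermat.Agent.Tate

theorem eval_charpoly_eq_zero {R M : Type*} [CommRing R] [IsDomain R] [AddCommGroup M]
    [Module R M] [Module.Free R M] [Module.Finite R M] (φ : Module.End R M) {c : R} {v : M}
    (hv : v ≠ 0) (h : φ v = c • v) : (LinearMap.charpoly φ).eval c = 0 := by
  have hev : φ.HasEigenvector c v :=
    Module.End.hasEigenvector_iff.mpr ⟨Module.End.mem_eigenspace_iff.mpr h, hv⟩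
  have h0 := Module.End.aeval_apply_of_hasEigenvector (p := LinearMap.charpoly φ) hev
  rw [LinearMap.aeval_self_charpoly, LinearMap.zero_apply] at h0
  exact (smul_eq_zero.mp h0.symm).resolve_right hv

theorem intCast_smul_apply {p : ℕ} [Fact p.Prime] {M : Type*} [AddCommGroup M] (z : ℤ)
    (f : TMod p M) (n : ℕ) : ((z : ℤ_[p]) • f : TMod p M) n = z • f n := by
  rw [Int.cast_smul_eq_zsmul]
  rfl

variable {W : WeierstrassCurve ℤ} (hΔ : (W.map (Int.castRingHom ℚ)).Δ ≠ 0)
  (p : ℕ) [hp : Fact p.Prime] {q : ℕ}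

/-- **The characteristic polynomial of a Frobenius at a prime `q ≠ p` of multiplicative reduction
on the `p`-adic Tate module**: `(X - a) (X - a q)` with `a = W.apOfModel q - 1 = ± 1`. -/
theorem charpoly_tateRep_frobenius_mult (hW : IsMultAt W q) (hne : q ≠ p) (hp2 : p ≠ 2)
    {A : ValuationSubring (AlgebraicClosure ℚ)} (hA : A.LiesOverPrime q)
    {σ : AlgebraicClosure ℚ ≃ₐ[ℚ] AlgebraicClosure ℚ} (hσ : A.IsFrobeniusAt σ q) :
    LinearMap.charpoly ((tateRep (W.map (Int.castRingHom ℚ)) hΔ p).ρ σ) =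
      (X - C ((W.apOfModel q - 1 : ℤ) : ℤ_[p])) *
        (X - C (((W.apOfModel q - 1) * (q : ℤ) : ℤ) : ℤ_[p])) := by
  classical
  have hT := hasTwoRank_curve hΔ p
  have := hT.free
  have := hT.finite_tmod
  obtain ⟨ε, hε, hch⟩ :=
    Fermat.Agent.Tate.charpoly_tateRep_frobenius_mult hΔ p hW hne hp2 hA hσ
  obtain ⟨f, hf1, hf⟩ := hT.exists_tmod_in (E0 (redEk W A) (isPlace_valuationSubring A))
    (fun n => pow_le_card_E0tors hW hA hp2 n)
  set a : ℤ := W.apOfModel q - 1 with ha
  have ha' : a = 1 ∨ a = -1 := apOfModel_sub_one hW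
  -- `f` is an eigenvector
  have hfe : (tateRep (W.map (Int.castRingHom ℚ)) hΔ p).ρ σ f = ((a * (q : ℤ) : ℤ) : ℤ_[p]) • f := by
    refine TMod.ext fun n => ?_
    have h1 : σ • (f n) = (a * (q : ℤ)) • f n := by
      refine frobenius_smul_of_mem_E0 hW hA hσ (m := p ^ n) ?_ ?_ (hf n)
      · intro h
        exact hne ((Nat.prime_dvd_prime_iff_eq hW.prime hp.out).mp (hW.prime.dvd_of_dvd_pow h))
      · exact mem_torsionBy_nat.mp (proj n f).2
    exact h1.trans (intCast_smul_apply _ f n).symm
  have hf0 : f ≠ 0 := fun h0 => hf1 (by rw [h0]; rfl)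
  have h1 := eval_charpoly_eq_zero ((tateRep (W.map (Int.castRingHom ℚ)) hΔ p).ρ σ) hf0 hfe
  rw [hch] at h1
  have hq1 : q ≠ 1 := hW.prime.one_lt.ne'
  have haa : a * a = 1 := by rcases ha' with h | h <;> rw [h] <;> norm_num
  have hε' : ε = (a : ℤ_[p]) := by
    rw [eval_mul, eval_sub, eval_sub, eval_X, eval_C, eval_C, mul_eq_zero] at h1
    rcases h1 with h1 | h1
    · exfalso
      have h2 : ε = ((a * (q : ℤ) : ℤ) : ℤ_[p]) := (sub_eq_zero.mp h1).symm
      rw [h2] at hε
      have h3 : (a * (q : ℤ)) ^ 2 = 1 := by exact_mod_cast hε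
      have h4 : ((q : ℤ)) ^ 2 = 1 := by linear_combination h3 - (q : ℤ) ^ 2 * haa
      have h5 : q ^ 2 = 1 := by exact_mod_cast h4
      exact hq1 (by nlinarith [hW.prime.two_le])
    · have h2 : (q : ℤ_[p]) ≠ 0 := by
        exact_mod_cast hW.prime.ne_zero
      apply mul_right_cancel₀ h2
      have h3 : ((a * (q : ℤ) : ℤ) : ℤ_[p]) = (a : ℤ_[p]) * (q : ℤ_[p]) := by push_cast; ring
      rw [← h3]
      exact (sub_eq_zero.mp h1).symm
  rw [hch, hε']
  push_cast
  ring

omit hp in
include hΔ in
/-- A bad prime of a semistable model is a prime of multiplicative reduction. -/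
theorem isMultAt_of_semistable (hss : W.IsSemistableModel) (hq : q.Prime)
    (hqΔ : (q : ℤ) ∣ W.Δ) : IsMultAt W q :=
  ⟨hq, hqΔ, hss q hq hqΔ, fun h0 => hΔ (by rw [WeierstrassCurve.map_Δ, h0, map_zero])⟩

omit hp in
theorem trace_of_charpoly {R M : Type*} [CommRing R] [Nontrivial R] [AddCommGroup M]
    [Module R M] [Module.Free R M] [Module.Finite R M] (b : Module.Basis (Fin 2) R M)
    (φ : Module.End R M) {x y : R} (h : LinearMap.charpoly φ = (X - C x) * (X - C y)) :
    LinearMap.trace R M φ = x + y := by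
  rw [← LinearMap.charpoly_toMatrix φ b, Matrix.charpoly_fin_two,
    ← LinearMap.trace_eq_matrix_trace] at h
  have e : (X - C x) * (X - C y) = X ^ 2 - C (x + y) * X + C (x * y) := by
    simp only [map_add, map_mul]
    ring
  rw [e] at h
  have h1 := congrArg (fun f : R[X] => f.coeff 1) h
  simp only [coeff_add, coeff_sub, coeff_X_pow, coeff_C_mul, coeff_X_one, coeff_C] at h1
  simp only [OfNat.one_ne_ofNat, if_false, mul_one, zero_sub, one_ne_zero, add_zero] at h1
  exact neg_inj.mp h1

/-- the trace of the Frobenius at a bad prime on the `p`-adic Tate module. -/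
theorem trace_tateRep_frobenius_mult (hW : IsMultAt W q) (hne : q ≠ p) (hp2 : p ≠ 2)
    {A : ValuationSubring (AlgebraicClosure ℚ)} (hA : A.LiesOverPrime q)
    {σ : AlgebraicClosure ℚ ≃ₐ[ℚ] AlgebraicClosure ℚ} (hσ : A.IsFrobeniusAt σ q) :
    LinearMap.trace ℤ_[p] _ ((tateRep (W.map (Int.castRingHom ℚ)) hΔ p).ρ σ) =
      (((W.apOfModel q - 1) * ((q : ℤ) + 1) : ℤ) : ℤ_[p]) := by
  have hT := hasTwoRank_curve hΔ p
  have := hT.free
  have := hT.finite_tmod
  have h1 := charpoly_tateRep_frobenius_mult hΔ p hW hne hp2 hA hσ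
  rw [trace_of_charpoly (Module.finBasisOfFinrankEq _ _
    (tateRep (W.map (Int.castRingHom ℚ)) hΔ p).finrank_eq) _ h1]
  push_cast
  ring

include hΔ in
/-- the trace of the Frobenius at a bad prime on the `p ^ n`-torsion. -/
theorem galoisTrace_frobenius_mult (hW : IsMultAt W q) (hne : q ≠ p) (hp2 : p ≠ 2)
    {A : ValuationSubring (AlgebraicClosure ℚ)} (hA : A.LiesOverPrime q)
    {σ : AlgebraicClosure ℚ ≃ₐ[ℚ] AlgebraicClosure ℚ} (hσ : A.IsFrobeniusAt σ q) (n : ℕ) :
    WeierstrassCurve.Affine.Point.galoisTrace (K := AlgebraicClosure ℚ) ℚ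
        (W.map (Int.castRingHom ℚ)) (p ^ n) σ =
      (((W.apOfModel q - 1) * ((q : ℤ) + 1) : ℤ) : ZMod (p ^ n)) := by
  rw [← toZModPow_trace_tateRep hΔ, trace_tateRep_frobenius_mult hΔ p hW hne hp2 hA hσ,
    map_intCast]

end tate

end Fermat.Agent.Cor.HW

end
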