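import Fermat.Agent.Corollaries.Surj.Inertia
import Fermat.Agent.Corollaries.HW.Irred
import Fermat.Agent.Corollaries.HW.Frob
import Fermat.Agent.Corollaries.HW.Split
import Fermat.Agent.EC.MultCount
import Fermat.Agent.ECFrob.DetCyc
import Fermat.Prelude.Def_CuspForm_Newforms

/-!
# The coefficient of the newform at a prime of multiplicative reduction
-/

set_option autoImplicit false

noncomputable section

namespace Fermat.Agent.Cor.HW

open WeierstrassCurve WeierstrassCurve.Affine WeierstrassCurve.Affine.Point Fermat.Agent.ECRed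
  Fermat.Agent.ECFrob

section Lin

variable {p : ℕ} [hp : Fact p.Prime] {V : Type*} [AddCommGroup V] [Module (ZMod p) V]

/-- Cayley-Hamilton in dimension two. -/
theorem mul_self_eq (hV : Module.finrank (ZMod p) V = 2) (φ : Module.End (ZMod p) V) :
    φ * φ = LinearMap.trace (ZMod p) V φ • φ - LinearMap.det φ • (1 : Module.End (ZMod p) V) := by
  have : Module.Finite (ZMod p) V := Module.finite_of_finrank_eq_succ hV
  let b := Module.finBasisOfFinrankEq _ _ hV
  have h1 := LinearMap.aeval_self_charpoly φ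
  rw [← LinearMap.charpoly_toMatrix φ b, Matrix.charpoly_fin_two,
    ← LinearMap.trace_eq_matrix_trace (ZMod p) b φ, LinearMap.det_toMatrix] at h1
  have h2 : φ * φ - LinearMap.trace (ZMod p) V φ • φ +
      LinearMap.det φ • (1 : Module.End (ZMod p) V) = 0 := by
    simpa [sq, Algebra.smul_def] using h1
  linear_combination (norm := module) h2

/-- an eigenvalue is a root of the characteristic polynomial. -/
theorem eigen_eq (hV : Module.finrank (ZMod p) V = 2) (φ : Module.End (ZMod p) V) {x : V}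
    (hx : x ≠ 0) {c : ZMod p} (h : φ x = c • x) :
    c * c - LinearMap.trace (ZMod p) V φ * c + LinearMap.det φ = 0 := by
  have h1 := LinearMap.congr_fun (mul_self_eq hV φ) x
  rw [Module.End.mul_apply, h, map_smul, h, LinearMap.sub_apply, LinearMap.smul_apply,
    LinearMap.smul_apply, h, Module.End.one_apply] at h1
  have h2 : (c * c - LinearMap.trace (ZMod p) V φ * c + LinearMap.det φ) • x = 0 := by
    linear_combination (norm := module) h1
  exact (smul_eq_zero.mp h2).resolve_right hx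

theorem sign_eq (hV : Module.finrank (ZMod p) V = 2) {φ σ : Module.End (ZMod p) V} {a ε : ℤ}
    {q : ℕ} (ha : a = 1 ∨ a = -1) (hε : ε * ε = 1) (hq : 2 ≤ q) (hqp : q + 1 < p)
    (hdet : LinearMap.det φ = (q : ZMod p))
    (hy : ∃ y : V, y ≠ 0 ∧ φ y = ((a * q : ℤ) : ZMod p) • y)
    (hσ : σ ≠ 1) (h : (σ - 1) * (φ - algebraMap (ZMod p) _ (ε : ZMod p)) = 0) : ε = a := by
  have : Module.Finite (ZMod p) V := Module.finite_of_finrank_eq_succ hV
  have hε' : ε = 1 ∨ ε = -1 := mul_self_eq_one_iff.mp hε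
  have ha1 : a * a = 1 := by rcases ha with rfl | rfl <;> norm_num
  -- an eigenvector for `ε`
  obtain ⟨x, hx, hφx⟩ : ∃ x : V, x ≠ 0 ∧ φ x = (ε : ZMod p) • x := by
    by_contra hcon
    push Not at hcon
    have hinj : Function.Injective ⇑(φ - algebraMap (ZMod p) (Module.End (ZMod p) V)
        (ε : ZMod p)) := by
      rw [injective_iff_map_eq_zero]
      intro x hx0
      by_contra hx
      apply hcon x hx
      rw [LinearMap.sub_apply, Module.algebraMap_end_apply, sub_eq_zero] at hx0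
      exact hx0
    have hsurj := LinearMap.injective_iff_surjective.mp hinj
    apply hσ
    refine LinearMap.ext fun y => ?_
    obtain ⟨x, rfl⟩ := hsurj y
    have h1 := LinearMap.congr_fun h x
    rw [Module.End.mul_apply, LinearMap.sub_apply, LinearMap.zero_apply, sub_eq_zero] at h1
    exact h1
  obtain ⟨y, hy, hφy⟩ := hy
  set t := LinearMap.trace (ZMod p) V φ with ht
  have e1 := eigen_eq hV φ hx hφx
  have e2 := eigen_eq hV φ hy hφy
  rw [hdet, ← ht] at e1 e2
  have ha2 : ((a : ℤ) : ZMod p) * (a : ZMod p) = 1 := by exact_mod_cast congrArg (Int.cast : ℤ → ZMod p) ha1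
  have hq0 : ((q : ℕ) : ZMod p) ≠ 0 := by
    intro h0
    rw [ZMod.natCast_eq_zero_iff] at h0
    exact absurd (Nat.le_of_dvd (by omega) h0) (by omega)
  have ha0 : ((a : ℤ) : ZMod p) ≠ 0 := by
    intro h0
    rw [h0, zero_mul] at ha2
    exact zero_ne_one ha2
  push_cast at e2
  have e3 : t = (a : ZMod p) * q + a := by
    have h3 : ((a : ZMod p) * q) * ((a : ZMod p) * q - t + a) = 0 := by
      linear_combination e2 + (q : ZMod p) * ha2
    rcases mul_eq_zero.mp h3 with h4 | h4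
    · rcases mul_eq_zero.mp h4 with h5 | h5
      · exact absurd h5 ha0
      · exact absurd h5 hq0
    · linear_combination -h4
  have e4 : ((ε : ZMod p) - a) * ((ε : ZMod p) - a * q) = 0 := by
    rw [e3] at e1
    linear_combination e1 + (q : ZMod p) * ha2
  rcases mul_eq_zero.mp e4 with h5 | h5
  · have h6 : ((ε - a : ℤ) : ZMod p) = 0 := by push_cast; exact h5
    rw [ZMod.intCast_zmod_eq_zero_iff_dvd] at h6
    by_contra hne
    have h7 := Int.natAbs_le_of_dvd_ne_zero h6 (sub_ne_zero.mpr hne)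
    rcases ha with rfl | rfl <;> rcases hε' with rfl | rfl <;> simp at h7 hne <;> omega
  · have h6 : ((ε * a - q : ℤ) : ZMod p) = 0 := by
      push_cast
      linear_combination (a : ZMod p) * h5 + (q : ZMod p) * ha2
    rw [ZMod.intCast_zmod_eq_zero_iff_dvd] at h6
    exfalso
    have h8 : ε * a - q ≠ 0 := by
      rcases ha with rfl | rfl <;> rcases hε' with rfl | rfl <;> intro h9 <;> omega
    have h7 := Int.le_of_dvd (by
      rcases ha with rfl | rfl <;> rcases hε' with rfl | rfl <;> omega : (0 : ℤ) < q - ε * a)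
      (by rw [← neg_sub]; exact (dvd_neg.mpr h6) : (p : ℤ) ∣ q - ε * a)
    rcases ha with rfl | rfl <;> rcases hε' with rfl | rfl <;> omega

end Lin

/-- **The junction**: if `(σ - 1) (φ - ε) = 0` on `W[p]`, `σ ≠ 1` on `W[p]`, and the Frobenius
element `φ` is multiplication by `a q` on the `p`-torsion points with nonsingular reduction, then
`ε = a`. -/
theorem sign_of_frob {W : WeierstrassCurve ℤ} {q : ℕ} (hW : IsMultAt W q) {a ε : ℤ}
    (ha : a = 1 ∨ a = -1) (hε : ε * ε = 1) {p : ℕ} [hp : Fact p.Prime] (hqp : q + 1 < p)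
    {A : ValuationSubring (AlgebraicClosure ℚ)} (hA : A.LiesOverPrime q)
    [DecidableEq (IsLocalRing.ResidueField A)]
    {φ σ : AlgebraicClosure ℚ ≃ₐ[ℚ] AlgebraicClosure ℚ} (hφ : A.IsFrobeniusAt φ q)
    (hE0 : ∀ P : (EQ W).Point, p • P = 0 →
      P ∈ E0 (redEk W A) (isPlace_valuationSubring A) → φ • P = (a * q) • P)
    (hσ : rho W p σ ≠ 1)
    (h : (rho W p σ - 1) * (rho W p φ - algebraMap (ZMod p) _ (ε : ZMod p)) = 0) : ε = a := by
  have hq := hW.prime.two_le
  have hdet : LinearMap.det (rho W p φ) = (q : ZMod p) := by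
    rw [det_rho hW.ne, cycMod_frobenius hW.prime hA hφ (by omega)]
  refine sign_eq (finrank_rat hW.ne) ha hε hq hqp hdet ?_ hσ h
  have hcard := pow_le_card_E0tors hW hA (p := p) (by omega) 1
  have hfin := finite_torsionBy_EQ hW.ne (N := p ^ 1) (pow_ne_zero _ hp.out.ne_zero)
  have h1 : 1 < Nat.card (E0tors W A (p ^ 1)) := by
    have := hp.out.two_le
    rw [pow_one] at hcard ⊢
    omega
  have : Nontrivial (E0tors W A (p ^ 1)) := Finite.one_lt_card_iff_nontrivial.mp h1
  obtain ⟨⟨⟨P, hP⟩, hPE⟩, hP0⟩ := exists_ne (0 : E0tors W A (p ^ 1))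
  have hPp : p • P = 0 := by
    have h2 := Fermat.Agent.Tate.mem_torsionBy_nat.mp hP
    rwa [pow_one] at h2
  have hPE' : P ∈ E0 (redEk W A) (isPlace_valuationSubring A) := mem_E0tors.mp hPE
  refine ⟨⟨P, Fermat.Agent.Tate.mem_torsionBy_nat.mpr hPp⟩, ?_, ?_⟩
  · intro h0
    apply hP0
    have h2 : P = 0 := congrArg Subtype.val h0
    exact Subtype.ext (Subtype.ext h2)
  · refine Subtype.ext ?_
    rw [galoisRepModuleEnd_apply, Int.cast_smul_eq_zsmul]
    exact hE0 P hPp hPE'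

/-- the junction, for one large prime `p`. -/
theorem sign_of_bound {W : WeierstrassCurve ℤ} {q : ℕ} (hW : IsMultAt W q) {a ε : ℤ}
    (ha : a = 1 ∨ a = -1) (hε : ε * ε = 1)
    (hirr : ∃ B : ℕ, ∀ p : ℕ, p.Prime → B < p → W.ModRepIsIrreducible p)
    (hF : ∃ B : ℕ, ∀ p : ℕ, p.Prime → B < p → W.ModRepIsIrreducible p →
      ∀ A : ValuationSubring (AlgebraicClosure ℚ), A.LiesOverPrime q →
        ∀ σ ∈ A.inertiaSubgroupIn ℚ, ∀ φ : AlgebraicClosure ℚ ≃ₐ[ℚ] AlgebraicClosure ℚ,
          A.IsFrobeniusAt φ q →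
            (rho W p σ - 1) * (rho W p φ - algebraMap (ZMod p) _ (ε : ZMod p)) = 0)
    (hE : ∀ p : ℕ, p.Prime → p ≠ q → ∀ A : ValuationSubring (AlgebraicClosure ℚ),
      ∀ [DecidableEq (IsLocalRing.ResidueField A)], A.LiesOverPrime q →
        ∀ φ : AlgebraicClosure ℚ ≃ₐ[ℚ] AlgebraicClosure ℚ, A.IsFrobeniusAt φ q →
          ∀ P : (EQ W).Point, p • P = 0 → P ∈ E0 (redEk W A) (isPlace_valuationSubring A) →
            φ • P = (a * q) • P)
    (hR : ∀ p : ℕ, p.Prime → p ≠ 2 → p ≠ q → ¬ p ∣ padicValInt q W.Δ →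
      ∀ A : ValuationSubring (AlgebraicClosure ℚ), A.LiesOverPrime q →
        ∃ σ ∈ A.inertiaSubgroupIn ℚ, rho W p σ ≠ 1) : ε = a := by
  classical
  obtain ⟨B₁, h1⟩ := hirr
  obtain ⟨B₂, h2⟩ := hF
  obtain ⟨p, hpB, hp⟩ := Nat.exists_infinite_primes (B₁ + B₂ + q + 2 + padicValInt q W.Δ)
  have : Fact p.Prime := ⟨hp⟩
  have hq := hW.prime.two_le
  have hv : padicValInt q W.Δ ≠ 0 := by
    have : Fact q.Prime := ⟨hW.prime⟩
    intro h0
    rw [padicValInt.eq_zero_iff] at h0
    rcases h0 with h | h | h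
    · exact hW.prime.one_lt.ne' h
    · exact hW.ne h
    · exact h hW.dvd
  obtain ⟨A, hA, φ, hφ⟩ := Fermat.Agent.Frob.exists_frobenius q hW.prime
  obtain ⟨σ, hσ, hσ1⟩ := hR p hp (by omega) (by omega) (fun hd => by
    have := Nat.le_of_dvd (Nat.pos_of_ne_zero hv) hd
    omega) A hA
  exact sign_of_frob hW ha hε (by omega) hA hφ (hE p hp (by omega) A hA φ hφ) hσ1
    (h2 p hp (by omega) (h1 p hp (by omega)) A hA σ hσ φ hφ)

/-- some element of the inertia group acts non trivially on `W[p]` if `p ∤ v_q(Δ)`. -/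
theorem exists_rho_ne_one {W : WeierstrassCurve ℤ} {q : ℕ} (hW : IsMultAt W q) {p : ℕ}
    (hp : p.Prime) (hp2 : p ≠ 2) (hv : ¬ p ∣ padicValInt q W.Δ)
    {A : ValuationSubring (AlgebraicClosure ℚ)} (hA : A.LiesOverPrime q) :
    ∃ σ ∈ A.inertiaSubgroupIn ℚ, rho W p σ ≠ 1 := by
  obtain ⟨σ, hσ, ho⟩ := exists_inertia_order hW hp hp2 hv hA
  refine ⟨σ, hσ, fun h1 => hp.one_lt.ne ?_⟩
  rw [← ho, eq_comm, orderOf_eq_one_iff]
  refine Equiv.ext fun x => ?_
  have h2 := LinearMap.congr_fun h1 x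
  rw [galoisRepModuleEnd_apply] at h2
  exact h2

/-- **The bad coefficient**, from the description of the Frobenius action on the torsion points
with nonsingular reduction. -/
theorem qCoeff_bad_of {W : WeierstrassCurve ℤ} (hΔ : W.Δ ≠ 0) (hW : W.IsSemistableModel)
    {N : ℕ} [NeZero N] (hsq : Squarefree N)
    (hN : ∀ q : ℕ, q.Prime → (q ∣ N ↔ (q : ℤ) ∣ W.Δ))
    {f : CuspForm (CongruenceSubgroup.Gamma0 N) 2} (hf : f.IsNewform)
    (ha : ∀ p : ℕ, p.Prime → ¬ p ∣ N → ModularFormClass.qCoeff f p = W.apOfModel p)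
    {q : ℕ} (hq : q.Prime) (hqN : q ∣ N)
    (ha1 : W.apOfModel q - 1 = 1 ∨ W.apOfModel q - 1 = -1)
    (hE : ∀ p : ℕ, p.Prime → p ≠ q → ∀ A : ValuationSubring (AlgebraicClosure ℚ),
      ∀ [DecidableEq (IsLocalRing.ResidueField A)], A.LiesOverPrime q →
        ∀ φ : AlgebraicClosure ℚ ≃ₐ[ℚ] AlgebraicClosure ℚ, A.IsFrobeniusAt φ q →
          ∀ P : (EQ W).Point, p • P = 0 → P ∈ E0 (redEk W A) (isPlace_valuationSubring A) →
            φ • P = ((W.apOfModel q - 1) * q) • P) :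
    ModularFormClass.qCoeff f q = ((W.apOfModel q - 1 : ℤ) : ℂ) := by
  have hqΔ : (q : ℤ) ∣ W.Δ := (hN q hq).mp hqN
  have hmult : IsMultAt W q := ⟨hq, hqΔ, hW q hq hqΔ, hΔ⟩
  obtain ⟨m, hNm⟩ : ∃ m, N = m * q := by
    obtain ⟨m, h⟩ := hqN
    exact ⟨m, by rw [h, mul_comm]⟩
  subst hNm
  have hm : ¬ q ∣ m := fun h => by
    have h1 : q * q ∣ m * q := mul_dvd_mul_right h q
    exact hq.one_lt.ne' (Nat.isUnit_iff.mp (hsq q h1))
  have : NeZero m := ⟨fun h => NeZero.ne (m * q) (by rw [h, zero_mul])⟩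
  obtain ⟨ε, hε, hε1, B, hB⟩ := exists_bound_frob hΔ hq hm hf ha
  rw [← hε, sign_of_bound hmult ha1 hε1 (exists_bound_irreducible hΔ hW)
    ⟨B, fun p hp hBp hirr A hA σ hσ φ hφ => by
      have : Fact p.Prime := ⟨hp⟩
      exact hB p hBp hirr A hA σ hσ φ hφ⟩ hE
    (fun p hp hp2 _ hv A hA => exists_rho_ne_one hmult hp hp2 hv hA)]

/-- **The coefficient of the newform at a bad prime**: let `W` be a semistable model and `f` a
newform of squarefree level `N`, the product of the bad primes, whose coefficients at the good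
primes are those of `W`. Then `a_q(f) = a_q(W)` at the bad primes `q` too: `1` if the
multiplicative reduction is split and `-1` if it is not (`apOfModel` counts the point at infinity,
so `apOfModel q - 1 = q - #E_ns(𝔽_q)`). -/
theorem qCoeff_bad {W : WeierstrassCurve ℤ} (hΔ : W.Δ ≠ 0) (hW : W.IsSemistableModel)
    {N : ℕ} [NeZero N] (hsq : Squarefree N)
    (hN : ∀ q : ℕ, q.Prime → (q ∣ N ↔ (q : ℤ) ∣ W.Δ))
    {f : CuspForm (CongruenceSubgroup.Gamma0 N) 2} (hf : f.IsNewform)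
    (ha : ∀ p : ℕ, p.Prime → ¬ p ∣ N → ModularFormClass.qCoeff f p = W.apOfModel p)
    {q : ℕ} (hq : q.Prime) (hqN : q ∣ N) :
    ModularFormClass.qCoeff f q = ((W.apOfModel q - 1 : ℤ) : ℂ) := by
  have hqΔ : (q : ℤ) ∣ W.Δ := (hN q hq).mp hqN
  have hmult : IsMultAt W q := ⟨hq, hqΔ, hW q hq hqΔ, hΔ⟩
  exact qCoeff_bad_of hΔ hW hsq hN hf ha hq hqN (apOfModel_sub_one hmult)
    (fun p hp hpq A _ hA φ hφ P hP hPE => frobenius_smul_of_mem_E0 hmult hA hφ
      (fun h => hpq ((Nat.prime_dvd_prime_iff_eq hq hp).mp h).symm) hP hPE)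

end Fermat.Agent.Cor.HW
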