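import Fermat.Agent.Corollaries.HW.Defs

/-!
# The root number and the number of primes of split multiplicative reduction (K8 (g), helper55)
-/

set_option autoImplicit false

noncomputable section

namespace Fermat.Agent.Cor.HW

/-- The primes of split multiplicative reduction of a semistable model (`a_q = 1`). -/
def splitPrimes (W : WeierstrassCurve ℤ) : Finset ℕ :=
  W.Δ.natAbs.primeFactors.filter fun q => ap W q = 1

theorem mem_splitPrimes {W : WeierstrassCurve ℤ} (hΔ : W.Δ ≠ 0) {q : ℕ} :
    q ∈ splitPrimes W ↔ q.Prime ∧ (q : ℤ) ∣ W.Δ ∧ ap W q = 1 := by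
  rw [splitPrimes, Finset.mem_filter, Nat.mem_primeFactors, ← Int.natCast_dvd]
  constructor
  · rintro ⟨⟨h1, h2, -⟩, h3⟩
    exact ⟨h1, h2, h3⟩
  · rintro ⟨h1, h2, h3⟩
    exact ⟨⟨h1, h2, Int.natAbs_ne_zero.mpr hΔ⟩, h3⟩

/-- **The root number is `(-1)^(1 + s)`**, `s` the number of primes of split multiplicative
reduction. -/
theorem rootNumber_eq_neg_one_pow_splitCount {W : WeierstrassCurve ℤ}
    (hap : ∀ q : ℕ, q.Prime → (q : ℤ) ∣ W.Δ → ap W q = 1 ∨ ap W q = -1) :
    rootNumber W = (-1) ^ (1 + (splitPrimes W).card) := by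
  have h1 : ∀ q ∈ W.Δ.natAbs.primeFactors, -ap W q = if ap W q = 1 then (-1 : ℤ) else 1 := by
    intro q hq
    rw [Nat.mem_primeFactors, ← Int.natCast_dvd] at hq
    rcases hap q hq.1 hq.2.1 with h | h
    · rw [h, if_pos rfl]
    · rw [h, if_neg (by norm_num), neg_neg]
  rw [rootNumber, Finset.prod_congr rfl h1, Finset.prod_ite, Finset.prod_const, Finset.prod_const,
    one_pow, mul_one, pow_add, pow_one, neg_one_mul]
  rfl

/-- The root number is `1` exactly if the number of primes of split multiplicative reduction is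
odd. -/
theorem rootNumber_eq_one_iff {W : WeierstrassCurve ℤ}
    (hap : ∀ q : ℕ, q.Prime → (q : ℤ) ∣ W.Δ → ap W q = 1 ∨ ap W q = -1) :
    rootNumber W = 1 ↔ Odd (splitPrimes W).card := by
  rw [rootNumber_eq_neg_one_pow_splitCount hap, neg_one_pow_eq_one_iff_even (by norm_num),
    add_comm, Nat.even_add_one, Nat.not_even_iff_odd]

end Fermat.Agent.Cor.HW

end
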