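import Fermat.Agent.Corollaries.HW.Newform
import Fermat.Agent.Corollaries.HW.Irred
import Fermat.Agent.Corollaries.CondLevel
import Fermat.Agent.LTF.MultOne

/-!
# The newform of a semistable elliptic curve

For every semistable Weierstrass equation `W` over `ℤ` (of non-zero discriminant) there is exactly
one newform of level the conductor whose coefficients at the primes of good reduction are the
numbers `a_p(W)`. It is even the only newform of this level with `a_p(f) = a_p(W)` for all primes
outside a finite set. The levels at which `W` is modular are the multiples of the conductor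
(`isModularModelOfLevel_iff`).
-/

set_option autoImplicit false

noncomputable section

open WeierstrassCurve CongruenceSubgroup ModularFormClass

namespace Fermat.Agent.Cor.HW

variable {W : WeierstrassCurve ℤ}

/-- **Semistable elliptic curves are modular, by a newform of level the conductor.** -/
theorem exists_newform (hΔ : W.Δ ≠ 0) (hW : W.IsSemistableModel) :
    ∃ f : CuspForm (Gamma0 W.conductorLevel) 2, f.IsNewform ∧
      ∀ p : ℕ, p.Prime → W.IsGoodPrimeFor p → qCoeff f p = (W.apOfModel p : ℂ) := by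
  obtain ⟨f, hf, ha⟩ := Cor.exists_form_conductor hΔ hW
  refine ⟨f, isNewform_of_exact hΔ hW W.squarefree_conductorLevel
    (fun q hq => W.prime_dvd_conductorLevel_iff hΔ hq) hf (fun p hp hpN => ha p hp fun h =>
      hpN ((W.prime_dvd_conductorLevel_iff hΔ hp).mpr h)) (exists_bound_irreducible hΔ hW), ha⟩

/-- Two newforms of the same level whose coefficients are `a_p(W)` for all primes outside a finite
set coincide. -/
theorem newform_eq {N : ℕ} [NeZero N] {f g : CuspForm (Gamma0 N) 2} (hf : f.IsNewform)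
    (hg : g.IsNewform) (S : Finset ℕ)
    (h : ∀ p : ℕ, p.Prime → p ∉ S → qCoeff f p = (W.apOfModel p : ℂ))
    (h' : ∀ p : ℕ, p.Prime → p ∉ S → qCoeff g p = (W.apOfModel p : ℂ)) : f = g :=
  LTF.MultOne.eq_of_isNewform hf hg S fun ℓ hℓ hℓS => (h ℓ hℓ hℓS).trans (h' ℓ hℓ hℓS).symm

/-- **The newform of a semistable elliptic curve** exists and is unique. -/
theorem existsUnique_newform (hΔ : W.Δ ≠ 0) (hW : W.IsSemistableModel) :
    ∃! f : CuspForm (Gamma0 W.conductorLevel) 2, f.IsNewform ∧
      ∀ p : ℕ, p.Prime → W.IsGoodPrimeFor p → qCoeff f p = (W.apOfModel p : ℂ) := by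
  obtain ⟨f, hf, ha⟩ := exists_newform hΔ hW
  have key : ∀ g : CuspForm (Gamma0 W.conductorLevel) 2,
      (∀ p : ℕ, p.Prime → W.IsGoodPrimeFor p → qCoeff g p = (W.apOfModel p : ℂ)) →
      ∀ p : ℕ, p.Prime → p ∉ W.Δ.natAbs.primeFactors → qCoeff g p = (W.apOfModel p : ℂ) :=
    fun g hg p hp hpS => hg p hp fun h => hpS
      (Nat.mem_primeFactors.mpr ⟨hp, Int.natCast_dvd.mp h, Int.natAbs_ne_zero.mpr hΔ⟩)
  exact ⟨f, ⟨hf, ha⟩, fun g hg => newform_eq hg.1 hf _ (key g hg.2) (key f ha)⟩

/-- **The conductor divides every level of a semistable elliptic curve.** -/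
theorem conductorLevel_dvd (hΔ : W.Δ ≠ 0) (hW : W.IsSemistableModel) {M : ℕ} (hM : M ≠ 0)
    (h : W.IsModularModelOfLevel M) : W.conductorLevel ∣ M := by
  rw [conductorLevel, Nat.radical_dvd_iff hM]
  intro q hq
  have hq' := Nat.prime_of_mem_primeFactors hq
  exact Nat.mem_primeFactors.mpr ⟨hq', dvd_of_isModularModelOfLevel hΔ hW
    (exists_bound_irreducible hΔ hW) hM h hq'
      (Int.natCast_dvd.mpr (Nat.dvd_of_mem_primeFactors hq)), hM⟩

/-- **The levels of a semistable elliptic curve are the multiples of its conductor.** -/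
theorem isModularModelOfLevel_iff (hΔ : W.Δ ≠ 0) (hW : W.IsSemistableModel) {M : ℕ} (hM : M ≠ 0) :
    W.IsModularModelOfLevel M ↔ W.conductorLevel ∣ M := by
  refine ⟨conductorLevel_dvd hΔ hW hM, fun h => ?_⟩
  have : NeZero M := ⟨hM⟩
  obtain ⟨f, hf, ha⟩ := Cor.exists_form_conductor hΔ hW
  obtain ⟨g, hg, hgf⟩ := Oldforms.exists_eigenform_raise h f hf
  exact ⟨g, hg, fun p hp hgood hpM =>
    (hgf p hp fun h' => absurd h' hpM).trans (ha p hp hgood)⟩

end Fermat.Agent.Cor.HW

end
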