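import Fermat.Agent.Corollaries.HW.Main
import Fermat.Agent.Corollaries.HW.Unique
import Fermat.Agent.Corollaries.HW.Bad
import Fermat.Agent.Corollaries.HW.SplitCount

/-!
# The Hasse-Weil conjecture for semistable elliptic curves over `ℚ`

Let `W` be a semistable (hence minimal) Weierstrass equation over `ℤ`, `N` its conductor (the
product of the primes dividing the discriminant).

* `existsUnique_newform_ap`: there is exactly one newform `f` of level `N` with
  `a_p(f) = a_p(W)` for **all** primes `p`, the primes of bad reduction included;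
* `hasseWeil`: the Euler product of `W` continues to an entire function `L`, the function
  `Λ(s) = N^(s/2) (2π)^(-s) Γ(s) L(s)` is entire with `Λ(2 - s) = w Λ(s)`, and the root number `w`
  is `(-1)^r`, `r` the order of vanishing of `L` at `s = 1`;
* `even_order_iff`: `r` is even iff the number of primes of split multiplicative reduction is odd.
-/

set_option autoImplicit false

noncomputable section

open CongruenceSubgroup ModularFormClass UpperHalfPlane Complex

namespace Fermat.Agent.Cor.HW

variable {W : WeierstrassCurve ℤ}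

/-- `a_q = ± 1` at the primes of bad reduction. -/
theorem ap_eq_one_or (hΔ : W.Δ ≠ 0) (hW : W.IsSemistableModel) (q : ℕ) (hq : q.Prime)
    (hqΔ : (q : ℤ) ∣ W.Δ) : ap W q = 1 ∨ ap W q = -1 := by
  rw [ap, if_pos hqΔ]
  exact apOfModel_sub_one ⟨hq, hqΔ, hW q hq hqΔ, hΔ⟩

/-- The coefficients of the newform of `W` are the numbers `a_p(W)` for **all** primes `p`. -/
theorem qCoeff_eq_ap (hΔ : W.Δ ≠ 0) (hW : W.IsSemistableModel)
    {f : CuspForm (Gamma0 W.conductorLevel) 2} (hf : f.IsNewform)
    (ha : ∀ p : ℕ, p.Prime → W.IsGoodPrimeFor p → qCoeff f p = (W.apOfModel p : ℂ)) (p : ℕ)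
    (hp : p.Prime) : qCoeff f p = (ap W p : ℂ) := by
  have hN := fun (q : ℕ) (hq : q.Prime) => W.prime_dvd_conductorLevel_iff hΔ hq
  by_cases hpΔ : (p : ℤ) ∣ W.Δ
  · rw [ap, if_pos hpΔ]
    exact qCoeff_bad hΔ hW W.squarefree_conductorLevel hN hf
      (fun q hq hqN => ha q hq fun h => hqN ((hN q hq).mpr h)) hp ((hN p hp).mpr hpΔ)
  · rw [ap, if_neg hpΔ, ha p hp hpΔ]

/-- **The newform of a semistable elliptic curve**: there is exactly one newform of level the
conductor whose coefficient at every prime `p` is `a_p(W)`. -/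
theorem existsUnique_newform_ap (hΔ : W.Δ ≠ 0) (hW : W.IsSemistableModel) :
    ∃! f : CuspForm (Gamma0 W.conductorLevel) 2, f.IsNewform ∧
      ∀ p : ℕ, p.Prime → qCoeff f p = (ap W p : ℂ) := by
  obtain ⟨f, ⟨hf, ha⟩, huniq⟩ := existsUnique_newform hΔ hW
  refine ⟨f, ⟨hf, qCoeff_eq_ap hΔ hW hf ha⟩, fun g hg => huniq g ⟨hg.1, fun p hp hpg => ?_⟩⟩
  have h1 : ¬ (p : ℤ) ∣ W.Δ := hpg
  rw [hg.2 p hp, ap, if_neg h1]

/-- **The Hasse-Weil conjecture for semistable elliptic curves over `ℚ`**: the `L`-function of `W`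
(Euler product over all primes) continues to an entire function, the completed `L`-function is
entire with the functional equation `Λ(2 - s) = w Λ(s)`, `w` the root number, and the order of
vanishing at `s = 1` is even iff `w = 1`. -/
theorem hasseWeil (hΔ : W.Δ ≠ 0) (hW : W.IsSemistableModel) : HasseWeilConj W := by
  obtain ⟨f, ⟨hf, ha⟩, -⟩ := existsUnique_newform_ap hΔ hW
  exact hasseWeilConj_of_newform hΔ hf ha

/-- The Hasse-Weil `L`-function exists and is unique. -/
theorem existsUnique_isHasseWeil (hΔ : W.Δ ≠ 0) (hW : W.IsSemistableModel) :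
    ∃! L : ℂ → ℂ, IsHasseWeil W L := by
  obtain ⟨L, -, hL, -⟩ := hasseWeil hΔ hW
  exact ⟨L, hL, fun L' hL' => hL'.unique hL⟩

/-- **Parity**: the order of vanishing of the `L`-function of `W` at `s = 1` is even iff the number
of primes of split multiplicative reduction is odd. -/
theorem even_order_iff (hΔ : W.Δ ≠ 0) (hW : W.IsSemistableModel) {L : ℂ → ℂ}
    (hL : IsHasseWeil W L) :
    Even (analyticOrderNatAt L 1) ↔ Odd (splitPrimes W).card := by
  obtain ⟨L', -, hL', -, -, -, -, -, hpar⟩ := hasseWeil hΔ hW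
  rw [hL.unique hL', ← rootNumber_eq_one_iff (ap_eq_one_or hΔ hW), hpar,
    neg_one_pow_eq_one_iff_even (by norm_num)]

/-- If the number of primes of split multiplicative reduction is even, then `L(W, 1) = 0`. -/
theorem eq_zero_of_even_split (hΔ : W.Δ ≠ 0) (hW : W.IsSemistableModel) {L : ℂ → ℂ}
    (hL : IsHasseWeil W L) (h : Even (splitPrimes W).card) : L 1 = 0 := by
  by_contra h0
  have h1 : analyticOrderAt L 1 = 0 := (hL.1.analyticAt 1).analyticOrderAt_eq_zero.mpr h0
  have h2 : Even (analyticOrderNatAt L 1) := by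
    rw [analyticOrderNatAt, h1]
    exact Even.zero
  have h3 := (even_order_iff hΔ hW hL).mp h2
  exact (Nat.not_odd_iff_even.mpr h) h3

end Fermat.Agent.Cor.HW
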