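import Fermat.Agent.Corollaries.HW.StrongMult
import Fermat.Agent.Corollaries.HW.Final

/-!
# Strong multiplicity one for the Hasse-Weil `L`-functions of semistable elliptic curves

* `ap_eq_of_almost_all` : if `a_ℓ(W) = a_ℓ(W')` for all primes `ℓ` outside a finite set, then the
  conductors are the same and `a_p(W) = a_p(W')` for **all** primes `p`; in particular the types of
  bad reduction (split or non-split) are the same;
* `IsHasseWeil.ap_eq` : the Hasse-Weil `L`-function determines all `a_p` and the conductor;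
* `isHasseWeil_iff_of_almost_all` : almost all `a_p` determine the Hasse-Weil `L`-function.
-/

set_option autoImplicit false

noncomputable section

open WeierstrassCurve CongruenceSubgroup ModularFormClass Filter

namespace Fermat.Agent.Cor.HW

variable {W W' : WeierstrassCurve ℤ}

/-- **Strong multiplicity one for semistable elliptic curves.** If the traces of Frobenius of two
semistable curves agree for almost all primes, then the conductors agree, and so do the numbers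
`a_p` for all primes `p`, good or bad. -/
theorem ap_eq_of_almost_all (hΔ : W.Δ ≠ 0) (hW : W.IsSemistableModel) (hΔ' : W'.Δ ≠ 0)
    (hW' : W'.IsSemistableModel) (S : Finset ℕ)
    (h : ∀ p : ℕ, p.Prime → p ∉ S → W.apOfModel p = W'.apOfModel p) :
    W.conductorLevel = W'.conductorLevel ∧ ∀ p : ℕ, p.Prime → ap W p = ap W' p := by
  refine ⟨conductorLevel_eq_of_eventually hΔ hW hΔ' hW' S h, fun p hp => ?_⟩
  obtain ⟨f, hf, ha⟩ := exists_newform hΔ hW
  obtain ⟨f', hf', ha'⟩ := exists_newform hΔ' hW'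
  have h1 := qCoeff_eq_of_eventually hΔ hW hΔ' hW' S h hf ha hf' ha' p
  rw [qCoeff_eq_ap hΔ hW hf ha p hp, qCoeff_eq_ap hΔ' hW' hf' ha' p hp] at h1
  exact_mod_cast h1

/-- The same for the numbers `a_p` with the convention of the Hasse-Weil `L`-function, where a
finite number of primes, good or bad, may be left out. -/
theorem ap_eq_of_almost_all' (hΔ : W.Δ ≠ 0) (hW : W.IsSemistableModel) (hΔ' : W'.Δ ≠ 0)
    (hW' : W'.IsSemistableModel) (S : Finset ℕ)
    (h : ∀ p : ℕ, p.Prime → p ∉ S → ap W p = ap W' p) :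
    W.conductorLevel = W'.conductorLevel ∧ ∀ p : ℕ, p.Prime → ap W p = ap W' p := by
  refine ap_eq_of_almost_all hΔ hW hΔ' hW'
    (S ∪ W.Δ.natAbs.primeFactors ∪ W'.Δ.natAbs.primeFactors) fun p hp hpS => ?_
  simp only [Finset.mem_union, not_or] at hpS
  have h1 : ¬ (p : ℤ) ∣ W.Δ := fun h' => hpS.1.2
    (Nat.mem_primeFactors.mpr ⟨hp, Int.natCast_dvd.mp h', Int.natAbs_ne_zero.mpr hΔ⟩)
  have h2 : ¬ (p : ℤ) ∣ W'.Δ := fun h' => hpS.2
    (Nat.mem_primeFactors.mpr ⟨hp, Int.natCast_dvd.mp h', Int.natAbs_ne_zero.mpr hΔ'⟩)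
  have h3 := h p hp hpS.1.1
  rwa [ap, ap, if_neg h1, if_neg h2] at h3

/-- In terms of the number of points modulo `p`: the traces agree at **all** primes. -/
theorem apOfModel_eq_of_almost_all (hΔ : W.Δ ≠ 0) (hW : W.IsSemistableModel) (hΔ' : W'.Δ ≠ 0)
    (hW' : W'.IsSemistableModel) (S : Finset ℕ)
    (h : ∀ p : ℕ, p.Prime → p ∉ S → W.apOfModel p = W'.apOfModel p) {p : ℕ} (hp : p.Prime) :
    W.apOfModel p = W'.apOfModel p := by
  have h1 := (ap_eq_of_almost_all hΔ hW hΔ' hW' S h).2 p hp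
  have h2 := dvd_Δ_iff_of_eventually hΔ hW hΔ' hW' S h hp
  rw [ap, ap] at h1
  by_cases h3 : (p : ℤ) ∣ W.Δ
  · rw [if_pos h3, if_pos (h2.mp h3)] at h1
    omega
  · rwa [if_neg h3, if_neg fun h' => h3 (h2.mpr h')] at h1

/-- The root numbers agree. -/
theorem rootNumber_eq_of_almost_all (hΔ : W.Δ ≠ 0) (hW : W.IsSemistableModel) (hΔ' : W'.Δ ≠ 0)
    (hW' : W'.IsSemistableModel) (S : Finset ℕ)
    (h : ∀ p : ℕ, p.Prime → p ∉ S → W.apOfModel p = W'.apOfModel p) :
    rootNumber W = rootNumber W' := by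
  have h1 : W.Δ.natAbs.primeFactors = W'.Δ.natAbs.primeFactors := by
    ext q
    rw [Nat.mem_primeFactors, Nat.mem_primeFactors]
    constructor
    · rintro ⟨hq, h1, -⟩
      exact ⟨hq, Int.natCast_dvd.mp ((dvd_Δ_iff_of_eventually hΔ hW hΔ' hW' S h hq).mp
        (Int.natCast_dvd.mpr h1)), Int.natAbs_ne_zero.mpr hΔ'⟩
    · rintro ⟨hq, h1, -⟩
      exact ⟨hq, Int.natCast_dvd.mp ((dvd_Δ_iff_of_eventually hΔ hW hΔ' hW' S h hq).mpr
        (Int.natCast_dvd.mpr h1)), Int.natAbs_ne_zero.mpr hΔ⟩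
  rw [rootNumber, rootNumber, h1]
  congr 1
  refine Finset.prod_congr rfl fun q hq => ?_
  rw [(ap_eq_of_almost_all hΔ hW hΔ' hW' S h).2 q (Nat.prime_of_mem_primeFactors hq)]

/-- Normalized eigenforms with the same `L`-function have the same coefficients. -/
theorem qCoeff_eq_of_L_eq {N N' : ℕ} [NeZero N] [NeZero N'] {f : CuspForm (Gamma0 N) 2}
    {g : CuspForm (Gamma0 N') 2} (h : ∀ s : ℂ, 2 < s.re →
      ModularForm.L (k := 2) two_pos f s = ModularForm.L (k := 2) two_pos g s) {n : ℕ}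
    (hn : n ≠ 0) : qCoeff f n = qCoeff g n := by
  have habs : ∀ {M : ℕ} [NeZero M] (F : CuspForm (Gamma0 M) 2),
      LSeries.abscissaOfAbsConv (qCoeff ⇑F) < ⊤ := by
    intro M _ F
    have h3 : (2 : ℝ) < (3 : ℂ).re := by norm_num
    have := (lseries_two F h3).1.abscissaOfAbsConv_le
    exact this.trans_lt (EReal.coe_lt_top _)
  refine LSeries.eq_of_LSeries_eventually_eq (habs f) (habs g) ?_ hn
  filter_upwards [eventually_gt_atTop (2 : ℝ)] with x hx
  have hx' : (2 : ℝ) < ((x : ℝ) : ℂ).re := by simpa using hx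
  rw [(lseries_two f hx').2, (lseries_two g hx').2, h _ hx']

/-- **The Hasse-Weil `L`-function determines the numbers `a_p` and the conductor.** -/
theorem IsHasseWeil.ap_eq {L : ℂ → ℂ} (hΔ : W.Δ ≠ 0) (hW : W.IsSemistableModel) (hΔ' : W'.Δ ≠ 0)
    (hW' : W'.IsSemistableModel) (h : IsHasseWeil W L) (h' : IsHasseWeil W' L) :
    W.conductorLevel = W'.conductorLevel ∧ ∀ p : ℕ, p.Prime → ap W p = ap W' p := by
  obtain ⟨f, ⟨hf, ha⟩, -⟩ := existsUnique_newform_ap hΔ hW
  obtain ⟨f', ⟨hf', ha'⟩, -⟩ := existsUnique_newform_ap hΔ' hW'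
  have h1 : L = ModularForm.L (k := 2) two_pos f := h.unique (isHasseWeil hΔ hf ha)
  have h2 : L = ModularForm.L (k := 2) two_pos f' := h'.unique (isHasseWeil hΔ' hf' ha')
  refine ap_eq_of_almost_all' hΔ hW hΔ' hW' ∅ fun p hp _ => ?_
  have h3 := qCoeff_eq_of_L_eq (f := f) (g := f')
    (fun s _ => congrFun (h1.symm.trans h2) s) hp.ne_zero
  rw [ha p hp, ha' p hp] at h3
  exact_mod_cast h3

/-- **Almost all traces of Frobenius determine the `L`-function.** -/
theorem isHasseWeil_of_almost_all (hΔ : W.Δ ≠ 0) (hW : W.IsSemistableModel) (hΔ' : W'.Δ ≠ 0)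
    (hW' : W'.IsSemistableModel) (S : Finset ℕ)
    (h : ∀ p : ℕ, p.Prime → p ∉ S → W.apOfModel p = W'.apOfModel p) {L : ℂ → ℂ}
    (hL : IsHasseWeil W L) : IsHasseWeil W' L := by
  obtain ⟨-, h2⟩ := ap_eq_of_almost_all hΔ hW hΔ' hW' S h
  refine ⟨hL.1, fun s hs => ?_⟩
  have h3 := hL.2 s hs
  have h4 : (fun p : Nat.Primes => (eulerPoly W p s)⁻¹) =
      fun p : Nat.Primes => (eulerPoly W' p s)⁻¹ := by
    funext p
    rw [eulerPoly, eulerPoly, h2 p p.2]
    congr 3
    exact propext (dvd_Δ_iff_of_eventually hΔ hW hΔ' hW' S h p.2) ▸ rfl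
  rwa [h4] at h3

/-- **Almost all traces of Frobenius determine the `L`-function**, as an equivalence. -/
theorem isHasseWeil_iff_of_almost_all (hΔ : W.Δ ≠ 0) (hW : W.IsSemistableModel) (hΔ' : W'.Δ ≠ 0)
    (hW' : W'.IsSemistableModel) (S : Finset ℕ)
    (h : ∀ p : ℕ, p.Prime → p ∉ S → W.apOfModel p = W'.apOfModel p) (L : ℂ → ℂ) :
    IsHasseWeil W L ↔ IsHasseWeil W' L :=
  ⟨isHasseWeil_of_almost_all hΔ hW hΔ' hW' S h,
    isHasseWeil_of_almost_all hΔ' hW' hΔ hW S fun p hp hpS => (h p hp hpS).symm⟩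

end Fermat.Agent.Cor.HW

end
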