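import Fermat.Agent.Corollaries.HW.StrongMultAp
import Fermat.Agent.Corollaries.Mazur.Main
import Fermat.Agent.S59.Frob
import Fermat.Agent.HeckeRep.AbsIrr

/-!
# Tate modules, points of order `p` and the `L`-function

`W`, `W'` are Weierstrass equations over `ℤ` of non-zero discriminant, `p` is an odd prime for which
the mod `p` representation of `W` is irreducible.

* `torsIso_iff` : the points of order `p` of `W` and `W'` are isomorphic Galois modules if and only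
  if `a_ℓ(W) ≡ a_ℓ(W')` modulo `p` for almost all primes `ℓ`;
* `tateIso_iff` : the `p`-adic Tate modules of `W` and `W'` are isomorphic Galois modules if and
  only if `a_ℓ(W) = a_ℓ(W')` for almost all primes `ℓ`;
* `tateIso_iff_hasseWeil` : for semistable `W`, `W'` this is the case if and only if `W` and `W'`
  have the same Hasse-Weil `L`-function; `tateIso_tfae` : the same for `p = 11` and `p ≥ 17`
  without a condition on the mod `p` representation (Mazur's theorem);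
* `apOfModel_eq_of_infinite_torsIso` : if the points of order `p` of `W` and `W'` are isomorphic
  for infinitely many `p`, then `a_ℓ(W) = a_ℓ(W')` for all primes `ℓ` of good reduction;
* `IsIsog.hasseWeil` : isogenous semistable curves have the same Hasse-Weil `L`-function.
-/

set_option autoImplicit false
set_option linter.style.haveILetI false

noncomputable section

open WeierstrassCurve WeierstrassCurve.Affine Polynomial
open Fermat.Agent.Tate hiding map_Δ_ne_zero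
open Fermat.Agent.ECFrob

namespace Fermat.Agent.Cor.HW

/-- the absolute Galois group of `ℚ` -/
local notation "GQ'" => (AlgebraicClosure ℚ ≃ₐ[ℚ] AlgebraicClosure ℚ)

/-- the points of `W` over `ℚ̄` -/
abbrev Pt (W : WeierstrassCurve ℤ) : Type :=
  ((W.map (Int.castRingHom ℚ))⁄(AlgebraicClosure ℚ)).Point

/-- `W[n]` and `W'[n]` are isomorphic as Galois modules. -/
def TorsIso (W W' : WeierstrassCurve ℤ) (n : ℕ) : Prop :=
  ∃ e : Submodule.torsionBy ℤ (Pt W) (n : ℤ) ≃+ Submodule.torsionBy ℤ (Pt W') (n : ℤ),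
    ∀ (σ : GQ') (x : Submodule.torsionBy ℤ (Pt W) (n : ℤ)), e (σ • x) = σ • e x

/-- The `p`-adic Tate modules of `W` and `W'` are isomorphic as Galois modules. -/
def TateIso (W W' : WeierstrassCurve ℤ) (p : ℕ) [Fact p.Prime] : Prop :=
  ∃ e : TMod p (Pt W) ≃ₗ[ℤ_[p]] TMod p (Pt W'),
    ∀ (σ : GQ') (x : TMod p (Pt W)),
      e (TMod.rep p GQ' (Pt W) σ x) = TMod.rep p GQ' (Pt W') σ (e x)

variable {W W' : WeierstrassCurve ℤ}

/-! ### The points of order `p` -/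

section Tors

variable {p : ℕ} [hp : Fact p.Prime]

/-- The mod `p` representation. -/
def repTors (hΔ : W.Δ ≠ 0) (p : ℕ) [hp : Fact p.Prime] : ResidualGaloisRep (ZMod p) :=
  (W.map (Int.castRingHom ℚ)).residualGaloisRepOf p
    (Torsion.card_torsionBy_rat (map_Δ_ne_zero hΔ) hp.out.ne_zero)
    (Torsion.galoisRep_factors (map_Δ_ne_zero hΔ) hp.out.ne_zero)

lemma repTors_apply (hΔ : W.Δ ≠ 0) (σ : GQ')
    (x : Submodule.torsionBy ℤ (Pt W) (p : ℤ)) :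
    ((repTors hΔ p).ρ σ x : Submodule.torsionBy ℤ (Pt W) (p : ℤ)) = σ • x := rfl

theorem charpoly_repTors (hΔ : W.Δ ≠ 0) {ℓ : ℕ} [Fact ℓ.Prime] (hg : W.IsGoodPrimeFor ℓ)
    (hℓp : ℓ ≠ p) {A : ValuationSubring (AlgebraicClosure ℚ)} (hA : A.LiesOverPrime ℓ) {σ : GQ'}
    (hσ : A.IsFrobeniusAt σ ℓ) : LinearMap.charpoly ((repTors hΔ p).ρ σ) =
      X ^ 2 - C (W.apOfModel ℓ : ZMod p) * X + C (ℓ : ZMod p) := by
  haveI := finite_rat hΔ hp.out.ne_zero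
  haveI : Module.Finite (ZMod p)
      (Submodule.torsionBy ℤ ((W.map (Int.castRingHom ℚ))⁄(AlgebraicClosure ℚ)).Point p) :=
    Module.Finite.of_finite
  exact charpoly_galoisRep hg hA hσ hℓp

theorem isIrreducible_repTors (hΔ : W.Δ ≠ 0) (hirr : W.ModRepIsIrreducible p) :
    (repTors hΔ p).IsIrreducible := fun V hV => hirr.2 V hV

theorem det_repTors (hΔ : W.Δ ≠ 0) :
    LinearMap.det ((repTors hΔ p).ρ complexConjugation) = -1 := by
  refine (det_rho (W := W) hΔ (p := p) complexConjugation).trans ?_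
  obtain ⟨ζ, hζ⟩ := exists_primitiveRoot p
  have h1 := cycMod_unique hζ (LTF.Deep.complexConjugation_root hp.out.ne_zero hζ.pow_eq_one)
  rw [h1, Nat.cast_sub hp.out.one_le, CharP.cast_eq_zero, Nat.cast_one, zero_sub]


theorem torsIso_iff_isEquiv (hΔ : W.Δ ≠ 0) (hΔ' : W'.Δ ≠ 0) :
    TorsIso W W' p ↔ (repTors hΔ p).IsEquiv (repTors hΔ' p) := by
  constructor
  · rintro ⟨e, he⟩
    let f : (repTors hΔ p).V →ₗ[ZMod p] (repTors hΔ' p).V := AddMonoidHom.toZModLinearMap p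
      (e.toAddMonoidHom : (repTors hΔ p).V →+ (repTors hΔ' p).V)
    exact ⟨⟨LinearEquiv.ofBijective f e.bijective, fun σ x => he σ x⟩⟩
  · rintro ⟨e⟩
    exact ⟨e.toLinearEquiv.toAddEquiv, fun σ x => e.map_apply σ x⟩

/-- The finite set of primes outside which everything is good. -/
def badSet (W W' : WeierstrassCurve ℤ) (p : ℕ) (S : Finset ℕ) : Finset ℕ :=
  S ∪ {p} ∪ W.Δ.natAbs.primeFactors ∪ W'.Δ.natAbs.primeFactors

omit hp in
theorem good_of_notMem (hΔ : W.Δ ≠ 0) (hΔ' : W'.Δ ≠ 0) {S : Finset ℕ} {ℓ : ℕ} (hℓ : ℓ.Prime)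
    (h : ℓ ∉ badSet W W' p S) :
    ℓ ∉ S ∧ ℓ ≠ p ∧ W.IsGoodPrimeFor ℓ ∧ W'.IsGoodPrimeFor ℓ := by
  rw [badSet] at h
  simp only [Finset.mem_union, Finset.mem_singleton, not_or] at h
  obtain ⟨⟨⟨h1, h2⟩, h3⟩, h4⟩ := h
  exact ⟨h1, h2, fun h' => h3 (Nat.mem_primeFactors.mpr
    ⟨hℓ, Int.natCast_dvd.mp h', Int.natAbs_ne_zero.mpr hΔ⟩), fun h' => h4
    (Nat.mem_primeFactors.mpr ⟨hℓ, Int.natCast_dvd.mp h', Int.natAbs_ne_zero.mpr hΔ'⟩)⟩

theorem coeff_eq {R : Type*} [CommRing R] {a a' b : R}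
    (h : (X ^ 2 - C a * X + C b : R[X]) = X ^ 2 - C a' * X + C b) : a = a' := by
  have := congrArg (fun P => P.coeff 1) h
  simpa [coeff_X, coeff_C] using this

/-- **Congruences from an isomorphism `W[p] ≅ W'[p]`.** -/
theorem TorsIso.dvd (hΔ : W.Δ ≠ 0) (hΔ' : W'.Δ ≠ 0) (h : TorsIso W W' p) {ℓ : ℕ} (hℓ : ℓ.Prime)
    (hℓp : ℓ ≠ p) (hg : W.IsGoodPrimeFor ℓ) (hg' : W'.IsGoodPrimeFor ℓ) :
    (p : ℤ) ∣ W.apOfModel ℓ - W'.apOfModel ℓ := by
  have : Fact ℓ.Prime := ⟨hℓ⟩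
  obtain ⟨A, hA, σ, hσ⟩ := Frob.exists_frobenius ℓ hℓ
  obtain ⟨e⟩ := (torsIso_iff_isEquiv hΔ hΔ').mp h
  have h1 : e.toLinearEquiv.conj ((repTors hΔ p).ρ σ) = (repTors hΔ' p).ρ σ := by
    refine LinearMap.ext fun x => ?_
    rw [LinearEquiv.conj_apply_apply, e.map_apply, LinearEquiv.apply_symm_apply]
  have h2 := charpoly_repTors hΔ hg hℓp hA hσ
  rw [← LinearEquiv.charpoly_conj e.toLinearEquiv, h1, charpoly_repTors hΔ' hg' hℓp hA hσ] at h2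
  have h3 := coeff_eq h2
  rw [← ZMod.intCast_zmod_eq_zero_iff_dvd, Int.cast_sub, h3, sub_self]

/-- **An isomorphism `W[p] ≅ W'[p]` from congruences** at almost all primes. -/
theorem torsIso_of_almost_all (hΔ : W.Δ ≠ 0) (hΔ' : W'.Δ ≠ 0) (hp2 : p ≠ 2)
    (hirr : W.ModRepIsIrreducible p) (S : Finset ℕ)
    (h : ∀ ℓ : ℕ, ℓ.Prime → ℓ ∉ S → (p : ℤ) ∣ W.apOfModel ℓ - W'.apOfModel ℓ) :
    TorsIso W W' p := by
  rw [torsIso_iff_isEquiv hΔ hΔ']
  have h2 : (2 : ZMod p) ≠ 0 := by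
    intro h0
    have h1 : ((2 : ℕ) : ZMod p) = 0 := by exact_mod_cast h0
    rw [ZMod.natCast_eq_zero_iff] at h1
    exact hp2 ((Nat.prime_dvd_prime_iff_eq hp.out Nat.prime_two).mp h1)
  refine HeckeRep.residual_isEquiv_of_frobenius complexConjugation_mul_self
    (mul_inv_cancel₀ h2) (det_repTors hΔ) (isIrreducible_repTors hΔ hirr)
    (badSet W W' p S : Set ℕ) (Finset.finite_toSet _) ?_
  intro ℓ hℓ hℓS A hA σ hσ
  have : Fact ℓ.Prime := ⟨hℓ⟩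
  obtain ⟨h3, h4, hg, hg'⟩ := good_of_notMem hΔ hΔ' hℓ hℓS
  have h5 := (ZMod.intCast_zmod_eq_zero_iff_dvd _ p).mpr (h ℓ hℓ h3)
  rw [Int.cast_sub, sub_eq_zero] at h5
  rw [charpoly_repTors hΔ hg h4 hA hσ, charpoly_repTors hΔ' hg' h4 hA hσ, h5]

/-- **Points of order `p` and congruences**: for `p` odd and `W[p]` irreducible, `W[p]` and `W'[p]`
are isomorphic Galois modules if and only if `a_ℓ(W) ≡ a_ℓ(W')` modulo `p` for almost all `ℓ`. -/
theorem torsIso_iff (hΔ : W.Δ ≠ 0) (hΔ' : W'.Δ ≠ 0) (hp2 : p ≠ 2)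
    (hirr : W.ModRepIsIrreducible p) : TorsIso W W' p ↔
      ∃ S : Finset ℕ, ∀ ℓ : ℕ, ℓ.Prime → ℓ ∉ S → (p : ℤ) ∣ W.apOfModel ℓ - W'.apOfModel ℓ := by
  refine ⟨fun h => ⟨badSet W W' p ∅, fun ℓ hℓ hℓS => ?_⟩, fun ⟨S, hS⟩ =>
    torsIso_of_almost_all hΔ hΔ' hp2 hirr S hS⟩
  obtain ⟨-, h4, hg, hg'⟩ := good_of_notMem hΔ hΔ' hℓ hℓS
  exact h.dvd hΔ hΔ' hℓ h4 hg hg'

/-- **If `W[p] ≅ W'[p]` for infinitely many primes `p`, then `a_ℓ(W) = a_ℓ(W')`** for all primes `ℓ`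
of good reduction. -/
theorem apOfModel_eq_of_infinite_torsIso (hΔ : W.Δ ≠ 0) (hΔ' : W'.Δ ≠ 0)
    (h : {p : ℕ | p.Prime ∧ TorsIso W W' p}.Infinite) {ℓ : ℕ} (hℓ : ℓ.Prime)
    (hg : W.IsGoodPrimeFor ℓ) (hg' : W'.IsGoodPrimeFor ℓ) : W.apOfModel ℓ = W'.apOfModel ℓ := by
  obtain ⟨p, ⟨hp, hi⟩, hlt⟩ := h.exists_gt (ℓ + (W.apOfModel ℓ - W'.apOfModel ℓ).natAbs)
  have : Fact p.Prime := ⟨hp⟩
  have h1 := hi.dvd hΔ hΔ' hℓ (by omega) hg hg'
  have h2 := Int.eq_zero_of_abs_lt_dvd h1 (by rw [Int.abs_eq_natAbs]; omega)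
  omega

end Tors

/-! ### The Tate modules -/

section Tate

variable {p : ℕ} [hp : Fact p.Prime]

theorem tateIso_iff_isEquiv (hΔ : W.Δ ≠ 0) (hΔ' : W'.Δ ≠ 0) : TateIso W W' p ↔
    (tateRep (W.map (Int.castRingHom ℚ)) (map_Δ_ne_zero hΔ) p).IsEquiv
      (tateRep (W'.map (Int.castRingHom ℚ)) (map_Δ_ne_zero hΔ') p) := by
  constructor
  · rintro ⟨e, he⟩
    exact ⟨⟨e, he⟩⟩
  · rintro ⟨e⟩
    exact ⟨e.toLinearEquiv, fun σ x => e.map_apply σ x⟩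

/-- **Traces of Frobenius from an isomorphism of Tate modules.** -/
theorem TateIso.apOfModel_eq (hΔ : W.Δ ≠ 0) (hΔ' : W'.Δ ≠ 0) (h : TateIso W W' p) {ℓ : ℕ}
    (hℓ : ℓ.Prime) (hℓp : ℓ ≠ p) (hg : W.IsGoodPrimeFor ℓ) (hg' : W'.IsGoodPrimeFor ℓ) :
    W.apOfModel ℓ = W'.apOfModel ℓ := by
  have : Fact ℓ.Prime := ⟨hℓ⟩
  obtain ⟨A, hA, σ, hσ⟩ := Frob.exists_frobenius ℓ hℓ
  obtain ⟨e⟩ := (tateIso_iff_isEquiv hΔ hΔ').mp h
  have h1 : e.toLinearEquiv.conj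
      ((tateRep (W.map (Int.castRingHom ℚ)) (map_Δ_ne_zero hΔ) p).ρ σ) =
      (tateRep (W'.map (Int.castRingHom ℚ)) (map_Δ_ne_zero hΔ') p).ρ σ := by
    refine LinearMap.ext fun x => ?_
    rw [LinearEquiv.conj_apply_apply, e.map_apply, LinearEquiv.apply_symm_apply]
  have h2 := charpoly_tateRep_frobenius p (map_Δ_ne_zero hΔ) hg (Ne.symm hℓp) hA hσ
  rw [← LinearEquiv.charpoly_conj e.toLinearEquiv, h1,
    charpoly_tateRep_frobenius p (map_Δ_ne_zero hΔ') hg' (Ne.symm hℓp) hA hσ] at h2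
  exact_mod_cast (coeff_eq h2).symm

theorem exists_half (hp2 : p ≠ 2) : ∃ κ : ℤ_[p], 2 * κ = 1 := by
  have h1 : IsUnit ((2 : ℕ) : ℤ_[p]) := by
    rw [PadicInt.isUnit_iff, PadicInt.norm_natCast_eq_one_iff]
    exact (Nat.coprime_primes hp.out Nat.prime_two).mpr hp2
  obtain ⟨u, hu⟩ := h1.exists_right_inv
  exact ⟨u, by exact_mod_cast hu⟩

/-- **An isomorphism of Tate modules from the traces of Frobenius** at almost all primes. -/
theorem tateIso_of_almost_all (hΔ : W.Δ ≠ 0) (hΔ' : W'.Δ ≠ 0) (hp2 : p ≠ 2)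
    (hirr : W.ModRepIsIrreducible p) (S : Finset ℕ)
    (h : ∀ ℓ : ℕ, ℓ.Prime → ℓ ∉ S → W.apOfModel ℓ = W'.apOfModel ℓ) : TateIso W W' p := by
  rw [tateIso_iff_isEquiv hΔ hΔ']
  obtain ⟨κ, hκ⟩ := exists_half hp2
  refine S59aux.isEquiv_of_frobenius hκ (Ribet.rbar_isAbsolutelyIrreducible _ p hp2 hirr)
    (Ribet.rbar_isOdd _ p hp2) (badSet W W' p S : Set ℕ) (Finset.finite_toSet _) ?_
  intro ℓ hℓ hℓS A hA σ hσ
  have : Fact ℓ.Prime := ⟨hℓ⟩
  obtain ⟨h3, h4, hg, hg'⟩ := good_of_notMem hΔ hΔ' hℓ hℓS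
  rw [charpoly_tateRep_frobenius p _ hg (Ne.symm h4) hA hσ,
    charpoly_tateRep_frobenius p _ hg' (Ne.symm h4) hA hσ, h ℓ hℓ h3]

/-- **Tate modules and traces of Frobenius**: for `p` odd and `W[p]` irreducible, the Tate modules
`T_p W` and `T_p W'` are isomorphic Galois modules if and only if `a_ℓ(W) = a_ℓ(W')` for almost all
primes `ℓ`. -/
theorem tateIso_iff (hΔ : W.Δ ≠ 0) (hΔ' : W'.Δ ≠ 0) (hp2 : p ≠ 2)
    (hirr : W.ModRepIsIrreducible p) : TateIso W W' p ↔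
      ∃ S : Finset ℕ, ∀ ℓ : ℕ, ℓ.Prime → ℓ ∉ S → W.apOfModel ℓ = W'.apOfModel ℓ := by
  refine ⟨fun h => ⟨badSet W W' p ∅, fun ℓ hℓ hℓS => ?_⟩, fun ⟨S, hS⟩ =>
    tateIso_of_almost_all hΔ hΔ' hp2 hirr S hS⟩
  obtain ⟨-, h4, hg, hg'⟩ := good_of_notMem hΔ hΔ' hℓ hℓS
  exact h.apOfModel_eq hΔ hΔ' hℓ h4 hg hg'

end Tate

/-! ### Semistable curves -/

section Semistable

variable (hΔ : W.Δ ≠ 0) (hW : W.IsSemistableModel) (hΔ' : W'.Δ ≠ 0) (hW' : W'.IsSemistableModel)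

include hΔ hW hΔ' hW'

/-- The same Hasse-Weil `L`-function, in terms of almost all traces of Frobenius. -/
theorem exists_common_L_iff : (∃ L : ℂ → ℂ, IsHasseWeil W L ∧ IsHasseWeil W' L) ↔
    ∃ S : Finset ℕ, ∀ ℓ : ℕ, ℓ.Prime → ℓ ∉ S → W.apOfModel ℓ = W'.apOfModel ℓ := by
  constructor
  · rintro ⟨L, hL, hL'⟩
    obtain ⟨-, h⟩ := IsHasseWeil.ap_eq hΔ hW hΔ' hW' hL hL'
    refine ⟨W.Δ.natAbs.primeFactors ∪ W'.Δ.natAbs.primeFactors, fun ℓ hℓ hℓS => ?_⟩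
    simp only [Finset.mem_union, not_or] at hℓS
    have h1 : ¬ (ℓ : ℤ) ∣ W.Δ := fun h' => hℓS.1
      (Nat.mem_primeFactors.mpr ⟨hℓ, Int.natCast_dvd.mp h', Int.natAbs_ne_zero.mpr hΔ⟩)
    have h2 : ¬ (ℓ : ℤ) ∣ W'.Δ := fun h' => hℓS.2
      (Nat.mem_primeFactors.mpr ⟨hℓ, Int.natCast_dvd.mp h', Int.natAbs_ne_zero.mpr hΔ'⟩)
    have h3 := h ℓ hℓ
    rwa [ap, ap, if_neg h1, if_neg h2] at h3
  · rintro ⟨S, hS⟩
    obtain ⟨L, hL, -⟩ := existsUnique_isHasseWeil hΔ hW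
    exact ⟨L, hL, isHasseWeil_of_almost_all hΔ hW hΔ' hW' S hS hL⟩

/-- **Tate modules and `L`-functions**: for `p` odd and `W[p]` irreducible, `T_p W` and `T_p W'` are
isomorphic Galois modules if and only if `W` and `W'` have the same Hasse-Weil `L`-function. -/
theorem tateIso_iff_hasseWeil {p : ℕ} [Fact p.Prime] (hp2 : p ≠ 2)
    (hirr : W.ModRepIsIrreducible p) :
    TateIso W W' p ↔ ∃ L : ℂ → ℂ, IsHasseWeil W L ∧ IsHasseWeil W' L := by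
  rw [exists_common_L_iff hΔ hW hΔ' hW', tateIso_iff hΔ hΔ' hp2 hirr]

/-- **Isomorphic Tate modules, the same conductor**. -/
theorem TateIso.conductorLevel_eq {p : ℕ} [Fact p.Prime] (h : TateIso W W' p) :
    W.conductorLevel = W'.conductorLevel := by
  refine conductorLevel_eq_of_eventually hΔ hW hΔ' hW' (badSet W W' p ∅) fun ℓ hℓ hℓS => ?_
  obtain ⟨-, h4, hg, hg'⟩ := good_of_notMem hΔ hΔ' hℓ hℓS
  exact h.apOfModel_eq hΔ hΔ' hℓ h4 hg hg'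

/-- **Isomorphic Tate modules, the same `a_ℓ`** for all primes `ℓ`: those of bad reduction and
`ℓ = p` are included. -/
theorem TateIso.ap_eq {p : ℕ} [Fact p.Prime] (h : TateIso W W' p) (ℓ : ℕ) (hℓ : ℓ.Prime) :
    ap W ℓ = ap W' ℓ := by
  refine (ap_eq_of_almost_all hΔ hW hΔ' hW' (badSet W W' p ∅) fun ℓ hℓ hℓS => ?_).2 ℓ hℓ
  obtain ⟨-, h4, hg, hg'⟩ := good_of_notMem hΔ hΔ' hℓ hℓS
  exact h.apOfModel_eq hΔ hΔ' hℓ h4 hg hg'

/-- **Isomorphic points of order `p` for infinitely many `p`**: the same `L`-function. -/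
theorem hasseWeil_of_infinite_torsIso
    (h : {p : ℕ | p.Prime ∧ TorsIso W W' p}.Infinite) :
    ∃ L : ℂ → ℂ, IsHasseWeil W L ∧ IsHasseWeil W' L := by
  rw [exists_common_L_iff hΔ hW hΔ' hW']
  refine ⟨badSet W W' 1 ∅, fun ℓ hℓ hℓS => ?_⟩
  obtain ⟨-, -, hg, hg'⟩ := good_of_notMem hΔ hΔ' hℓ hℓS
  exact apOfModel_eq_of_infinite_torsIso hΔ hΔ' h hℓ hg hg'

/-- **Tate modules, `L`-functions and traces of Frobenius of semistable elliptic curves.** For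
`p = 11` and for every prime `p ≥ 17` the following are equivalent: the `p`-adic Tate modules of `W`
and `W'` are isomorphic Galois modules; the traces of Frobenius agree at almost all primes; the
numbers `a_ℓ` agree at all primes; the Hasse-Weil `L`-functions agree; the points of order `q` are
isomorphic Galois modules for infinitely many primes `q`. -/
theorem tateIso_tfae {p : ℕ} [hp : Fact p.Prime] (h : p = 11 ∨ 17 ≤ p) :
    List.TFAE [TateIso W W' p,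
      ∃ S : Finset ℕ, ∀ ℓ : ℕ, ℓ.Prime → ℓ ∉ S → W.apOfModel ℓ = W'.apOfModel ℓ,
      ∀ ℓ : ℕ, ℓ.Prime → ap W ℓ = ap W' ℓ,
      ∃ L : ℂ → ℂ, IsHasseWeil W L ∧ IsHasseWeil W' L,
      {q : ℕ | q.Prime ∧ TorsIso W W' q}.Infinite] := by
  have hirr : W.ModRepIsIrreducible p := Cor.modRepIsIrreducible hp.out h hΔ hW
  tfae_have 1 ↔ 4 := tateIso_iff_hasseWeil hΔ hW hΔ' hW' (by omega) hirr
  tfae_have 2 ↔ 4 := (exists_common_L_iff hΔ hW hΔ' hW').symm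
  tfae_have 4 → 3 := fun ⟨L, hL, hL'⟩ => (IsHasseWeil.ap_eq hΔ hW hΔ' hW' hL hL').2
  tfae_have 3 → 4 := by
    intro h3
    obtain ⟨L, hL, -⟩ := existsUnique_isHasseWeil hΔ hW
    obtain ⟨hN, -⟩ := ap_eq_of_almost_all' hΔ hW hΔ' hW' ∅ fun ℓ hℓ _ => h3 ℓ hℓ
    refine (exists_common_L_iff hΔ hW hΔ' hW').mpr
      ⟨W.Δ.natAbs.primeFactors ∪ W'.Δ.natAbs.primeFactors, fun ℓ hℓ hℓS => ?_⟩
    simp only [Finset.mem_union, not_or] at hℓS
    have h1 : ¬ (ℓ : ℤ) ∣ W.Δ := fun h' => hℓS.1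
      (Nat.mem_primeFactors.mpr ⟨hℓ, Int.natCast_dvd.mp h', Int.natAbs_ne_zero.mpr hΔ⟩)
    have h2 : ¬ (ℓ : ℤ) ∣ W'.Δ := fun h' => hℓS.2
      (Nat.mem_primeFactors.mpr ⟨hℓ, Int.natCast_dvd.mp h', Int.natAbs_ne_zero.mpr hΔ'⟩)
    have h4 := h3 ℓ hℓ
    rwa [ap, ap, if_neg h1, if_neg h2] at h4
  tfae_have 2 → 5 := by
    rintro ⟨S, hS⟩
    refine Set.infinite_of_forall_exists_gt fun n => ?_
    obtain ⟨q, hq, hqp⟩ := Nat.exists_infinite_primes (n + 17)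
    have : Fact q.Prime := ⟨hqp⟩
    refine ⟨q, ⟨hqp, ?_⟩, by omega⟩
    refine torsIso_of_almost_all hΔ hΔ' (by omega)
      (Cor.modRepIsIrreducible hqp (by omega) hΔ hW) S fun ℓ hℓ hℓS => ?_
    rw [hS ℓ hℓ hℓS, sub_self]
    exact dvd_zero _
  tfae_have 5 → 4 := hasseWeil_of_infinite_torsIso hΔ hW hΔ' hW'
  tfae_finish

end Semistable

/-! ### Isogenies -/

/-- `φ` is an isogeny on the points over `ℚ̄`: a Galois equivariant homomorphism with finite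
kernel. -/
structure IsIsog (φ : Pt W →+ Pt W') : Prop where
  equivariant : ∀ (σ : GQ') (x : Pt W), φ (σ • x) = σ • φ x
  finite_ker : Finite φ.ker

/-- An isogeny is an isomorphism on the points of order `q`, `q` a prime which does not divide the
order of its kernel. -/
theorem IsIsog.torsIso (hΔ : W.Δ ≠ 0) (hΔ' : W'.Δ ≠ 0) {φ : Pt W →+ Pt W'} (hφ : IsIsog φ) {q : ℕ}
    (hq : q.Prime) (hd : ¬ q ∣ Nat.card φ.ker) : TorsIso W W' q := by
  have hfin := hφ.finite_ker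
  let f : Submodule.torsionBy ℤ (Pt W) (q : ℤ) →+ Submodule.torsionBy ℤ (Pt W') (q : ℤ) :=
    { toFun := fun x => ⟨φ x.1, by
        have h1 := x.2
        rw [Submodule.mem_torsionBy_iff] at h1 ⊢
        rw [← map_zsmul, h1, map_zero]⟩
      map_zero' := Subtype.ext (map_zero φ)
      map_add' := fun x y => Subtype.ext (map_add φ _ _) }
  have hinj : Function.Injective f := by
    rw [injective_iff_map_eq_zero]
    intro x hx
    have h1 : φ x.1 = 0 := congrArg Subtype.val hx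
    have h2 : q • (⟨x.1, h1⟩ : φ.ker) = 0 := by
      refine Subtype.ext ?_
      have h3 := x.2
      rw [Submodule.mem_torsionBy_iff, natCast_zsmul] at h3
      exact h3
    have h3 : Nat.card φ.ker • (⟨x.1, h1⟩ : φ.ker) = 0 := card_nsmul_eq_zero'
    have h4 : addOrderOf (⟨x.1, h1⟩ : φ.ker) ∣ 1 := by
      rw [← (Nat.Prime.coprime_iff_not_dvd hq).mpr hd]
      exact Nat.dvd_gcd (addOrderOf_dvd_of_nsmul_eq_zero h2) (addOrderOf_dvd_of_nsmul_eq_zero h3)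
    have h5 := addOrderOf_dvd_iff_nsmul_eq_zero.mp h4
    rw [one_smul] at h5
    have h6 : x.1 = 0 := congrArg Subtype.val h5
    exact Subtype.ext h6
  have h1 := Torsion.card_torsionBy_rat (map_Δ_ne_zero hΔ) hq.ne_zero
  have h2 := Torsion.card_torsionBy_rat (map_Δ_ne_zero hΔ') hq.ne_zero
  have := finite_rat hΔ hq.ne_zero
  have := finite_rat hΔ' hq.ne_zero
  have hbij : Function.Bijective f :=
    (Nat.bijective_iff_injective_and_card f).mpr ⟨hinj, h1.trans h2.symm⟩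
  exact ⟨AddEquiv.ofBijective f hbij, fun σ x => Subtype.ext (hφ.equivariant σ x.1)⟩

theorem IsIsog.infinite (hΔ : W.Δ ≠ 0) (hΔ' : W'.Δ ≠ 0) {φ : Pt W →+ Pt W'} (hφ : IsIsog φ) :
    {q : ℕ | q.Prime ∧ TorsIso W W' q}.Infinite := by
  refine Set.infinite_of_forall_exists_gt fun n => ?_
  have := hφ.finite_ker
  obtain ⟨q, hq, hqp⟩ := Nat.exists_infinite_primes (n + 1 + Nat.card φ.ker)
  have hpos : 0 < Nat.card φ.ker := Nat.card_pos
  refine ⟨q, ⟨hqp, hφ.torsIso hΔ hΔ' hqp fun hd => ?_⟩, by omega⟩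
  have := Nat.le_of_dvd hpos hd
  omega

/-- **Isogenous elliptic curves have the same number of points** over `𝔽_ℓ`, for all primes `ℓ` of good
reduction. -/
theorem IsIsog.apOfModel_eq (hΔ : W.Δ ≠ 0) (hΔ' : W'.Δ ≠ 0) {φ : Pt W →+ Pt W'} (hφ : IsIsog φ)
    {ℓ : ℕ} (hℓ : ℓ.Prime) (hg : W.IsGoodPrimeFor ℓ) (hg' : W'.IsGoodPrimeFor ℓ) :
    W.apOfModel ℓ = W'.apOfModel ℓ :=
  apOfModel_eq_of_infinite_torsIso hΔ hΔ' (hφ.infinite hΔ hΔ') hℓ hg hg'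

/-- **Isogenous semistable elliptic curves have the same Hasse-Weil `L`-function.** -/
theorem IsIsog.hasseWeil (hΔ : W.Δ ≠ 0) (hW : W.IsSemistableModel) (hΔ' : W'.Δ ≠ 0)
    (hW' : W'.IsSemistableModel) {φ : Pt W →+ Pt W'} (hφ : IsIsog φ) :
    ∃ L : ℂ → ℂ, IsHasseWeil W L ∧ IsHasseWeil W' L :=
  hasseWeil_of_infinite_torsIso hΔ hW hΔ' hW' (hφ.infinite hΔ hΔ')

/-- **Isogenous semistable elliptic curves have the same conductor and the same numbers `a_ℓ`**, bad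
primes included. -/
theorem IsIsog.ap_eq (hΔ : W.Δ ≠ 0) (hW : W.IsSemistableModel) (hΔ' : W'.Δ ≠ 0)
    (hW' : W'.IsSemistableModel) {φ : Pt W →+ Pt W'} (hφ : IsIsog φ) :
    W.conductorLevel = W'.conductorLevel ∧ ∀ ℓ : ℕ, ℓ.Prime → ap W ℓ = ap W' ℓ := by
  obtain ⟨L, hL, hL'⟩ := hφ.hasseWeil hΔ hW hΔ' hW'
  exact IsHasseWeil.ap_eq hΔ hW hΔ' hW' hL hL'

end Fermat.Agent.Cor.HW
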