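import Fermat.Agent.S41.Lift

/-!
# The periods of an eigenform with integral eigenvalues form a lattice

Let `f` be a normalized eigenform of weight two on `Γ₀(N)` whose eigenvalues are integers and
`ω(γ) = 2 π i ∫ f` over a path from `z` to `γ z`. There are positive real numbers `Ω₁, Ω₂` and
surjective homomorphisms `φ₁, φ₂ : Γ₀(N) → ℤ` with `ω = Ω₁ φ₁ + Ω₂ φ₂ i`.

The period map is an isomorphism onto the parabolic classes (S21), so each of the two eigenspaces
of complex conjugation in the space of parabolic classes with the eigenvalues of `f` is a line. The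
space of homomorphisms `Γ₀(N) → A` is a functor of the abelian group `A`: for every `ℚ`-linear
`λ : ℝ → ℚ` the class `λ ∘ Re ω` is a multiple of `Re ω`.
-/

set_option autoImplicit false

noncomputable section

open CongruenceSubgroup ModularCurve ModularCurve.Period UpperHalfPlane Filter Topology
open scoped MatrixGroups ComplexConjugate Real ModularForm

namespace Fermat.Agent.Cor.HW.Per

open Fermat.Agent.HeckePar Fermat.Agent.S21per FermatAgent.HeckeEigen ModularFormClass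
open Fermat.Agent.S41aux (heckeC heckeC_apply periodHomPair_heckeOp)

/-! ### A discreteness lemma -/

/-- A homomorphism from a finitely generated group to `ℝ` with values in `ℚ x` is `Ω φ` with
`φ` surjective onto `ℤ`. -/
theorem exists_generator {G : Type*} [AddGroup G] [hG : AddGroup.FG G] (ψ : G →+ ℝ) {x : ℝ}
    (hx : x ≠ 0) (hrat : ∀ g, ∃ q : ℚ, ψ g = q * x) (hne : ∃ g, ψ g ≠ 0) :
    ∃ Ω : ℝ, 0 < Ω ∧ ∃ φ : G →+ ℤ, Function.Surjective φ ∧ ∀ g, ψ g = Ω * φ g := by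
  classical
  choose q hq using hrat
  obtain ⟨s, hs⟩ := hG.out
  set d : ℕ := ∏ g ∈ s, (q g).den with hd
  have hd0 : d ≠ 0 := Finset.prod_ne_zero_iff.mpr fun g _ => (q g).den_nz
  have hdR : (d : ℝ) ≠ 0 := Nat.cast_ne_zero.mpr hd0
  have hmem : ∀ g, ψ g ∈ AddSubgroup.zmultiples (x / d) := by
    have h1 : AddSubgroup.closure (s : Set G) ≤
        (AddSubgroup.zmultiples (x / d)).comap ψ := by
      rw [AddSubgroup.closure_le]
      intro g hg
      have h2 : (q g).den ∣ d := Finset.dvd_prod_of_mem _ hg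
      obtain ⟨e, he⟩ := h2
      refine AddSubgroup.mem_zmultiples_iff.mpr ⟨(q g).num * e, ?_⟩
      have h3 : ((q g).den : ℝ) ≠ 0 := Nat.cast_ne_zero.mpr (q g).den_nz
      have h4 : (d : ℝ) = (q g).den * e := by rw [he]; push_cast; ring
      have h5 : (e : ℝ) ≠ 0 := by
        intro h0
        rw [h0, mul_zero] at h4
        exact hdR h4
      rw [hq g, h4, zsmul_eq_mul]
      push_cast
      rw [Rat.cast_def]
      field_simp
    rw [hs] at h1
    intro g
    exact h1 (AddSubgroup.mem_top g)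
  have hpos : 0 < |x / d| := abs_pos.mpr (div_ne_zero hx hdR)
  obtain ⟨b, hb⟩ := AddSubgroup.cyclic_of_isolated_zero (H := ψ.range) hpos (by
    rw [Set.disjoint_left]
    rintro _ ⟨g, rfl⟩ hg
    obtain ⟨n, hn⟩ := AddSubgroup.mem_zmultiples_iff.mp (hmem g)
    rw [← hn, zsmul_eq_mul] at hg
    have h1 : 0 < |(n : ℝ) * (x / d)| := abs_pos.mpr hg.1.ne'
    have h2 : |(n : ℝ) * (x / d)| < |x / d| := by
      rw [abs_of_pos hg.1]
      exact hg.2
    rw [abs_mul] at h1 h2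
    have h3 : n ≠ 0 := by
      rintro rfl
      simp at h1
    have h4 : (1 : ℝ) ≤ |(n : ℝ)| := by exact_mod_cast Int.one_le_abs h3
    nlinarith)
  rw [← AddSubgroup.zmultiples_eq_closure] at hb
  have hb0 : b ≠ 0 := by
    rintro rfl
    obtain ⟨g, hg⟩ := hne
    have h1 : ψ g ∈ ψ.range := ⟨g, rfl⟩
    rw [hb, AddSubgroup.zmultiples_zero_eq_bot] at h1
    exact hg h1
  -- make the generator positive
  obtain ⟨Ω, hΩ, hΩb⟩ : ∃ Ω : ℝ, 0 < Ω ∧ ψ.range = AddSubgroup.zmultiples Ω := by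
    rcases lt_or_gt_of_ne hb0 with h | h
    · exact ⟨-b, neg_pos.mpr h, by rw [AddSubgroup.zmultiples_neg, hb]⟩
    · exact ⟨b, h, hb⟩
  have h2 : ∀ g, ∃ n : ℤ, ψ g = Ω * n := by
    intro g
    have h1 : ψ g ∈ ψ.range := ⟨g, rfl⟩
    rw [hΩb] at h1
    obtain ⟨n, hn⟩ := AddSubgroup.mem_zmultiples_iff.mp h1
    exact ⟨n, by rw [← hn, zsmul_eq_mul, mul_comm]⟩
  choose φ hφ using h2
  refine ⟨Ω, hΩ, ⟨⟨φ, ?_⟩, ?_⟩, ?_, hφ⟩
  · have h1 := hφ 0
    rw [map_zero] at h1
    have h3 := (mul_eq_zero.mp h1.symm).resolve_left hΩ.ne'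
    exact_mod_cast h3
  · intro a c
    have h1 := hφ (a + c)
    rw [map_add, hφ a, hφ c, ← mul_add] at h1
    have h3 := mul_left_cancel₀ hΩ.ne' h1
    simp only
    exact_mod_cast h3.symm
  · intro n
    have h1 : Ω * n ∈ ψ.range := by
      rw [hΩb]
      exact AddSubgroup.mem_zmultiples_iff.mpr ⟨n, by rw [zsmul_eq_mul, mul_comm]⟩
    obtain ⟨g, hg⟩ := h1
    refine ⟨g, ?_⟩
    rw [hφ g] at hg
    have h3 := mul_left_cancel₀ hΩ.ne' hg
    change φ g = n
    exact_mod_cast h3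

variable {N : ℕ} [NeZero N] {f : CuspForm (Gamma0 N) 2}

/-! ### The eigenspaces -/

/-- The eigenvalues determine an eigenform up to a scalar. -/
theorem eq_smul_of_eigen (hf : f.IsNormalizedEigenform) {g : CuspForm (Gamma0 N) 2}
    (hg : ∀ ℓ : Nat.Primes, heckeOp N 2 ℓ g = qCoeff f ℓ • g) : g = qCoeff g 1 • f := by
  by_contra hne
  have h0 : g - qCoeff g 1 • f ≠ 0 := sub_ne_zero.mpr hne
  refine qCoeff_one_ne_zero_of_eigen (v := g - qCoeff g 1 • f) (χ := fun ℓ => qCoeff f ℓ)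
    (fun ℓ => ?_) h0 ?_
  · rw [map_sub, map_smul, hg, heckeOp_eq_of_isNormalizedEigenform hf, smul_sub, smul_comm]
  · rw [qCoeff_sub, qCoeff_smul, hf.qCoeff_one, mul_one, sub_self]

/-- Parabolic classes with the eigenvalues of `f` and the sign `ε`. -/
structure Eig (f : CuspForm (Gamma0 N) 2) (ε : ℂ) (φ : Additive (Gamma0 N) →+ ℂ) : Prop where
  par : IsParabolicHom (Gamma0 N) φ
  hecke : ∀ ℓ : Nat.Primes, heckeC N ℓ φ = qCoeff f ℓ • φ
  inv : charInvolution N ℂ ℂ φ = ε • φ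

theorem Eig.exists_eq (hf : f.IsNormalizedEigenform) {ε : ℂ} (hε : ε = 1 ∨ ε = -1)
    {φ : Additive (Gamma0 N) →+ ℂ} (h : Eig f ε φ) :
    ∃ c : ℂ, φ = c • (periodLin N f + ε • charInvolution N ℂ ℂ (periodLin N f)) := by
  obtain ⟨hinj, hrange⟩ := Fermat.Agent.S21.result N
  have h1 : φ ∈ LinearMap.range (periodHomPair N) := by
    rw [hrange]
    exact mem_parabolicHoms_iff.mpr h.par
  obtain ⟨g, hg⟩ := h1
  have h2 : ∀ ℓ : Nat.Primes, (heckeOp N 2 ℓ g.1, heckeOp N 2 ℓ g.2) = qCoeff f ℓ • g := by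
    intro ℓ
    apply hinj
    rw [← periodHomPair_heckeOp, map_smul, hg, h.hecke]
  have h3 := eq_smul_of_eigen hf (g := g.1) fun ℓ => congrArg Prod.fst (h2 ℓ)
  have h4 := eq_smul_of_eigen hf (g := g.2) fun ℓ => congrArg Prod.snd (h2 ℓ)
  set α : ℂ := qCoeff g.1 1 with hα
  set β : ℂ := qCoeff g.2 1 with hβ
  set P := periodLin N f with hP
  set ι := charInvolution N ℂ ℂ with hι
  have h5 : φ = α • (P + ι P) + β • (P - ι P) := by
    rw [← hg, periodHomPair_eq, LinearMap.coprod_apply]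
    conv_lhs => rw [h3, h4]
    simp only [LinearMap.comp_apply, LinearMap.add_apply, LinearMap.sub_apply,
      LinearMap.id_apply, map_smul]
    rfl
  have h6 : ι (ι P) = P := charInvolution_charInvolution N ℂ ℂ P
  have h7 : ι φ = ε • φ := h.inv
  rw [h5] at h7
  simp only [map_add, map_sub, map_smul, h6] at h7
  rcases hε with rfl | rfl
  · refine ⟨α, ?_⟩
    rw [one_smul] at h7 ⊢
    have h8 : (2 : ℂ) • (β • (P - ι P)) = 0 := by
      have h9 : (2 : ℂ) • (β • (P - ι P)) = (α • (P + ι P) + β • (P - ι P)) -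
        (α • (ι P + P) + β • (ι P - P)) := by
        module
      rw [h9, h7, sub_self]
    rw [smul_eq_zero, or_iff_right two_ne_zero] at h8
    rw [h5, h8, add_zero]
  · refine ⟨β, ?_⟩
    have h8 : (2 : ℂ) • (α • (P + ι P)) = 0 := by
      have h9 : (2 : ℂ) • (α • (P + ι P)) = (α • (ι P + P) + β • (ι P - P)) -
        (-1 : ℂ) • (α • (P + ι P) + β • (P - ι P)) := by
        module
      rw [h9, h7, sub_self]
    rw [smul_eq_zero, or_iff_right two_ne_zero] at h8
    rw [h5, h8, zero_add, neg_one_smul, sub_eq_add_neg]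

/-- The eigenspaces are lines. -/
theorem Eig.exists_smul (hf : f.IsNormalizedEigenform) {ε : ℂ} (hε : ε = 1 ∨ ε = -1)
    {φ φ' : Additive (Gamma0 N) →+ ℂ} (h : Eig f ε φ) (h' : Eig f ε φ') (h0 : φ ≠ 0) :
    ∃ c : ℂ, φ' = c • φ := by
  obtain ⟨a, ha⟩ := h.exists_eq hf hε
  obtain ⟨b, hb⟩ := h'.exists_eq hf hε
  have ha0 : a ≠ 0 := by
    rintro rfl
    rw [zero_smul] at ha
    exact h0 ha
  refine ⟨b / a, ?_⟩
  rw [ha, hb, smul_smul, div_mul_cancel₀ _ ha0]

theorem heckeC_periodLin (hf : f.IsNormalizedEigenform) (ℓ : Nat.Primes) :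
    heckeC N ℓ (periodLin N f) = qCoeff f ℓ • periodLin N f := by
  have : Fact (ℓ : ℕ).Prime := ⟨ℓ.2⟩
  have h2 : periodLin N (heckeOp N 2 ℓ f) = heckeC N ℓ (periodLin N f) := by
    by_cases hℓN : (ℓ : ℕ) ∣ N
    · rw [heckeOp_of_dvd hℓN]
      exact periodLin_heckeULin hℓN f
    · rw [heckeOp_of_not_dvd hℓN]
      exact periodLin_heckeTLin hℓN f
  rw [← h2, heckeOp_eq_of_isNormalizedEigenform hf, map_smul]

/-! ### Complex conjugation -/

/-- All coefficients are integers if the eigenvalues are. -/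
theorem exists_int_qCoeff (hf : f.IsNormalizedEigenform)
    (ha : ∀ ℓ : Nat.Primes, ∃ a : ℤ, qCoeff f ℓ = a) (n : ℕ) : ∃ a : ℤ, qCoeff f n = a := by
  induction n using Nat.strongRecOn with
  | ind n ih =>
    rcases Nat.lt_or_ge n 2 with hn | hn
    · interval_cases n
      · exact ⟨0, by rw [qCoeff_at_zero]; simp⟩
      · exact ⟨1, by rw [hf.qCoeff_one]; simp⟩
    · obtain ⟨p, hp, m, rfl⟩ := Nat.exists_prime_and_dvd (show n ≠ 1 by omega)
      have hm : m ≠ 0 := by rintro rfl; omega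
      have hmpos : 0 < m := Nat.pos_of_ne_zero hm
      have hlt : m < p * m := by nlinarith [hp.two_le]
      have h := coeff_rec_of_eigen (χ := fun ℓ => qCoeff f ℓ)
        (heckeOp_eq_of_isNormalizedEigenform hf) ⟨p, hp⟩ m
      obtain ⟨a, ha1⟩ := ha ⟨p, hp⟩
      obtain ⟨b, hb⟩ := ih m hlt
      obtain ⟨c, hc⟩ := ih (m / p) (lt_of_le_of_lt (Nat.div_le_self _ _) hlt)
      simp only at h ha1
      rw [ha1, hb, hc] at h
      refine ⟨a * b - (if p ∣ N then 0 else (p : ℤ)) * (if p ∣ m then c else 0), ?_⟩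
      rw [h]
      push_cast
      rfl

theorem qParam_J (τ : ℍ) :
    Function.Periodic.qParam 1 ((J • τ : ℍ) : ℂ) = conj (Function.Periodic.qParam 1 (τ : ℂ)) := by
  rw [J_smul_coe, Function.Periodic.qParam, Function.Periodic.qParam, ← Complex.exp_conj]
  congr 1
  simp only [map_div₀, map_mul, Complex.conj_I, Complex.conj_ofReal, map_ofNat,
    Complex.ofReal_one, map_one]
  ring

/-- `f(-z̄)` is the conjugate of `f(z)`. -/
theorem apply_J (hr : ∀ n, ∃ a : ℤ, qCoeff f n = a) (τ : ℍ) : f (J • τ) = conj (f τ) := by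
  have h1 := ModularForm.hasSum_qExpansion f one_pos (hperiod N) (J • τ)
  have h2 := (ModularForm.hasSum_qExpansion f one_pos (hperiod N) τ).map (starRingEnd ℂ)
    Complex.continuous_conj
  refine h1.unique ?_
  have h3 : (fun n => (qExpansion 1 f).coeff n * Function.Periodic.qParam 1
      ((J • τ : ℍ) : ℂ) ^ n) = (starRingEnd ℂ) ∘ fun n => (qExpansion 1 f).coeff n *
      Function.Periodic.qParam 1 (τ : ℂ) ^ n := by
    funext n
    obtain ⟨a, ha⟩ := hr n
    have ha' : (qExpansion 1 f).coeff n = (a : ℂ) := ha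
    simp only [Function.comp_apply, map_mul, map_pow, qParam_J, ha', map_intCast]
  rw [h3]
  exact h2

/-- `-conj F(-z̄)` is again a primitive. -/
theorem isPrim_refl (hr : ∀ n, ∃ a : ℤ, qCoeff f n = a) {F : ℍ → ℂ} (hF : IsPrim f F) :
    IsPrim f (fun z => -conj (F (J • z))) := by
  refine isPrim_of_eventuallyEq (G := fun z : ℂ => -conj ((F ∘ ofComplex) (-(conj z)))) ?_ ?_
  · intro τ
    have h1 := hF (J • τ)
    rw [J_smul_coe] at h1
    have h2 : HasDerivAt (fun z : ℂ => (F ∘ ofComplex) (-z)) (f (J • τ) * -1)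
        (conj (τ : ℂ)) := HasDerivAt.comp (conj (τ : ℂ)) h1 (hasDerivAt_neg _)
    have h3 := h2.conj_conj
    rw [Complex.conj_conj] at h3
    have h4 := h3.neg
    rw [apply_J hr] at h4
    have h5 : -conj (conj (f τ) * -1) = f τ := by
      rw [map_mul, map_neg, map_one, Complex.conj_conj]
      ring
    rw [h5] at h4
    exact h4
  · intro τ
    rw [Function.comp_apply, ← J_smul_coe, ofComplex_apply]

/-- The period map of a form with real coefficients and complex conjugation. -/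
theorem charInvolution_periodLin (hr : ∀ n, ∃ a : ℤ, qCoeff f n = a)
    (γ : Additive (Gamma0 N)) :
    charInvolution N ℂ ℂ (periodLin N f) γ = -conj (periodLin N f γ) := by
  obtain ⟨γ, rfl⟩ := Additive.ofMul.surjective γ
  obtain ⟨F, hF⟩ := exists_goodPrim f
  rw [charInvolution_apply, toMul_ofMul,
    periodLin_apply_of_isPrim hF.prim _ (J • UpperHalfPlane.I),
    periodLin_apply_of_isPrim (isPrim_refl hr hF.prim) γ UpperHalfPlane.I]
  rw [jConjGamma0_coe, ← J_smul_smul]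
  simp only [map_sub, map_neg, Complex.conj_conj]
  ring

/-- `2 π i ∫ f` from `z` to `γ z`. -/
def om (f : CuspForm (Gamma0 N) 2) : Additive (Gamma0 N) →+ ℂ :=
  (2 * π * Complex.I : ℂ) • periodLin N f

theorem om_apply (γ : Additive (Gamma0 N)) :
    om f γ = 2 * π * Complex.I * periodLin N f γ := rfl

theorem om_conj (hr : ∀ n, ∃ a : ℤ, qCoeff f n = a) (γ : Gamma0 N) :
    om f (Additive.ofMul (jConjGamma0 N γ)) = conj (om f (Additive.ofMul γ)) := by
  have h := charInvolution_periodLin hr (Additive.ofMul γ)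
  rw [charInvolution_apply, toMul_ofMul] at h
  rw [om_apply, om_apply, h, map_mul, map_mul, map_mul, Complex.conj_I, Complex.conj_ofReal,
    map_ofNat]
  ring

/-- Images of the period class under additive maps compatible with complex conjugation. -/
theorem eig_comp (hf : f.IsNormalizedEigenform)
    (ha : ∀ ℓ : Nat.Primes, ∃ a : ℤ, qCoeff f ℓ = a) {ε : ℂ} (L : ℂ →+ ℂ)
    (hL : ∀ z, L (conj z) = ε * L z) : Eig f ε (L.comp (om f)) := by
  have hr := exists_int_qCoeff hf ha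
  refine ⟨fun γ hγ => ?_, fun ℓ => ?_, ?_⟩
  · have h1 : periodLin N f (Additive.ofMul γ) = 0 := isParabolicHom_periodLin f γ hγ
    change L (om f (Additive.ofMul γ)) = 0
    rw [om_apply, h1, mul_zero, map_zero]
  · have : Fact (ℓ : ℕ).Prime := ⟨ℓ.2⟩
    obtain ⟨a, ha'⟩ := ha ℓ
    have h1 : heckeC N ℓ (om f) = qCoeff f ℓ • om f := by
      rw [om, map_smul, heckeC_periodLin hf, smul_comm]
    have h2 : heckeC N ℓ (L.comp (om f)) = L.comp (heckeC N ℓ (om f)) :=
      (heckeSys N (ℓ : ℕ)).addTransfer_comp L (om f)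
    rw [h2, h1, ha']
    refine AddMonoidHom.ext fun γ => ?_
    change L ((a : ℂ) * om f γ) = (a : ℂ) * L (om f γ)
    rw [← zsmul_eq_mul, ← zsmul_eq_mul, map_zsmul]
  · refine AddMonoidHom.ext fun γ => ?_
    obtain ⟨γ, rfl⟩ := Additive.ofMul.surjective γ
    rw [charInvolution_apply, toMul_ofMul]
    change L (om f (Additive.ofMul (jConjGamma0 N γ))) = ε * L (om f (Additive.ofMul γ))
    rw [om_conj hr, hL]

/-- The values of `pr ∘ ω` are rational multiples of each other. -/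
theorem exists_rat (hf : f.IsNormalizedEigenform)
    (ha : ∀ ℓ : Nat.Primes, ∃ a : ℤ, qCoeff f ℓ = a) {ε : ℤ} (hε : ε = 1 ∨ ε = -1)
    (pr : ℂ →+ ℝ) (hpr : ∀ z, pr (conj z) = ε * pr z) {γ₀ : Additive (Gamma0 N)}
    (h0 : pr (om f γ₀) ≠ 0) (γ : Additive (Gamma0 N)) :
    ∃ q : ℚ, pr (om f γ) = q * pr (om f γ₀) := by
  have hε' : (ε : ℂ) = 1 ∨ (ε : ℂ) = -1 := by
    rcases hε with rfl | rfl
    · left; simp
    · right; simp
  -- a functional which does not vanish
  obtain ⟨lam, hlam⟩ : ∃ lam : ℝ →ₗ[ℚ] ℚ, lam (pr (om f γ₀)) ≠ 0 := by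
    by_contra h
    push Not at h
    exact h0 ((Module.forall_dual_apply_eq_zero_iff ℚ _).mp h)
  let L₁ : ℂ →+ ℂ := (Complex.ofRealHom : ℝ →+* ℂ).toAddMonoidHom.comp pr
  let L₂ : ℂ →+ ℂ := (Rat.castHom ℂ).toAddMonoidHom.comp (lam.toAddMonoidHom.comp pr)
  have e₁ : Eig f (ε : ℂ) (L₁.comp (om f)) := eig_comp hf ha L₁ fun z => by
    change ((pr (conj z) : ℝ) : ℂ) = ε * ((pr z : ℝ) : ℂ)
    rw [hpr]
    push_cast
    rfl
  have e₂ : Eig f (ε : ℂ) (L₂.comp (om f)) := eig_comp hf ha L₂ fun z => by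
    change ((lam (pr (conj z)) : ℚ) : ℂ) = ε * ((lam (pr z) : ℚ) : ℂ)
    rw [hpr]
    have h1 : lam ((ε : ℝ) * pr z) = ε * lam (pr z) := by
      rw [← zsmul_eq_mul, map_zsmul, zsmul_eq_mul]
    rw [h1]
    push_cast
    rfl
  have hne : L₁.comp (om f) ≠ 0 := by
    intro h
    have h1 : ((pr (om f γ₀) : ℝ) : ℂ) = 0 := DFunLike.congr_fun h γ₀
    exact h0 (by exact_mod_cast h1)
  obtain ⟨c, hc⟩ := e₁.exists_smul hf hε' e₂ hne
  have hc1 : ∀ γ, ((lam (pr (om f γ)) : ℚ) : ℂ) = c * ((pr (om f γ) : ℝ) : ℂ) := fun γ =>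
    DFunLike.congr_fun hc γ
  have h2 := hc1 γ₀
  have h3 := hc1 γ
  have h0' : ((pr (om f γ₀) : ℝ) : ℂ) ≠ 0 := by exact_mod_cast h0
  have hlam' : ((lam (pr (om f γ₀)) : ℚ) : ℂ) ≠ 0 := by exact_mod_cast hlam
  refine ⟨lam (pr (om f γ)) / lam (pr (om f γ₀)), ?_⟩
  have hc0 : c ≠ 0 := by
    rintro rfl
    rw [zero_mul] at h2
    exact hlam' h2
  have h4 : ((pr (om f γ) : ℝ) : ℂ) =
      ((lam (pr (om f γ)) : ℚ) : ℂ) / ((lam (pr (om f γ₀)) : ℚ) : ℂ) *
        ((pr (om f γ₀) : ℝ) : ℂ) := by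
    rw [h3, h2]
    field_simp
  exact_mod_cast h4

/-- **The periods of an eigenform with integral eigenvalues form a lattice**: there are
`Ω₁, Ω₂ > 0` and homomorphisms `φ₁, φ₂` from `Γ₀(N)` onto `ℤ` with
`2 π i ∫ f = Ω₁ φ₁(γ) + Ω₂ φ₂(γ) i` over every path from `z` to `γ z`. -/
theorem exists_periods (hf : f.IsNormalizedEigenform)
    (ha : ∀ ℓ : Nat.Primes, ∃ a : ℤ, qCoeff f ℓ = a) :
    ∃ Ω₁ Ω₂ : ℝ, 0 < Ω₁ ∧ 0 < Ω₂ ∧ ∃ φ₁ φ₂ : Additive (Gamma0 N) →+ ℤ,
      Function.Surjective φ₁ ∧ Function.Surjective φ₂ ∧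
      (∀ γ, (om f γ).re = Ω₁ * φ₁ γ) ∧ ∀ γ, (om f γ).im = Ω₂ * φ₂ γ := by
  have hr := exists_int_qCoeff hf ha
  have hfg : Group.FG (Gamma0 N) := Fermat.Agent.S22alg.fg_Gamma0 N
  have hfg' : AddGroup.FG (Additive (Gamma0 N)) := inferInstance
  have hf0 : f ≠ 0 := by
    rintro rfl
    have h1 := hf.qCoeff_one
    rw [qCoeff_zero] at h1
    exact zero_ne_one h1
  have hpi : (2 * π * Complex.I : ℂ) ≠ 0 := Complex.two_pi_I_ne_zero
  have hre : ∃ γ, (om f γ).re ≠ 0 := by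
    by_contra h
    push Not at h
    refine hf0 (eq_zero_of_involution (ε := -1) (by norm_num) (AddMonoidHom.ext fun γ => ?_))
    rw [charInvolution_periodLin hr]
    change _ = ((-1 : ℝ) : ℂ) * periodLin N f γ
    have h1 : conj (om f γ) = -om f γ := by
      apply Complex.ext
      · rw [Complex.conj_re, Complex.neg_re, h γ, neg_zero]
      · rw [Complex.conj_im, Complex.neg_im]
    rw [om_apply, map_mul, map_mul, map_mul, Complex.conj_I, Complex.conj_ofReal,
      map_ofNat] at h1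
    apply mul_left_cancel₀ hpi
    push_cast
    linear_combination h1
  have him : ∃ γ, (om f γ).im ≠ 0 := by
    by_contra h
    push Not at h
    refine hf0 (eq_zero_of_involution (ε := 1) one_ne_zero (AddMonoidHom.ext fun γ => ?_))
    rw [charInvolution_periodLin hr]
    change _ = ((1 : ℝ) : ℂ) * periodLin N f γ
    have h1 : conj (om f γ) = om f γ := by
      apply Complex.ext
      · rw [Complex.conj_re]
      · rw [Complex.conj_im, h γ, neg_zero]
    rw [om_apply, map_mul, map_mul, map_mul, Complex.conj_I, Complex.conj_ofReal,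
      map_ofNat] at h1
    apply mul_left_cancel₀ hpi
    push_cast
    linear_combination h1
  obtain ⟨γ₁, hγ₁⟩ := hre
  obtain ⟨γ₂, hγ₂⟩ := him
  obtain ⟨Ω₁, hΩ₁, φ₁, hφ₁, h₁⟩ := exists_generator (Complex.reAddGroupHom.comp (om f)) hγ₁
    (fun γ => exists_rat hf ha (ε := 1) (Or.inl rfl) Complex.reAddGroupHom
      (fun z => by simp) hγ₁ γ) ⟨γ₁, hγ₁⟩
  obtain ⟨Ω₂, hΩ₂, φ₂, hφ₂, h₂⟩ := exists_generator (Complex.imAddGroupHom.comp (om f)) hγ₂
    (fun γ => exists_rat hf ha (ε := -1) (Or.inr rfl) Complex.imAddGroupHom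
      (fun z => by simp) hγ₂ γ) ⟨γ₂, hγ₂⟩
  exact ⟨Ω₁, Ω₂, hΩ₁, hΩ₂, φ₁, φ₂, hφ₁, hφ₂, h₁, h₂⟩

end Fermat.Agent.Cor.HW.Per
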