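import Fermat.Agent.Corollaries.HW.TwistFE
import Fermat.Agent.Corollaries.HW.PeriodRat

/-!
# Central values as periods

`F` is the primitive of the cusp form `f` of weight two vanishing at infinity. The value at `s = 1`
of the `L`-function of `f(z + r)`, `r = b / d` with `d` prime to `N`, is `2 π i` times the value of
`F` at the cusp `r`, i.e. the sum of `L(f, 1)` and a period.
-/

set_option autoImplicit false

noncomputable section

open UpperHalfPlane hiding I
open CongruenceSubgroup ModularCurve.Period ModularFormClass Complex Filter Topology Set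
open scoped MatrixGroups ComplexConjugate Real ModularForm

namespace Fermat.Agent.Cor.HW.Per

open Fermat.Agent.HeckePar Fermat.Agent.S21per FermatAgent.HeckeEigen
open Fermat.Agent.Cor.HW.Twist

/-! ### Vertical lines -/

/-- the point `r + i t` -/
def vert (r t : ℝ) : ℍ := r +ᵥ ofComplex (I * (t : ℂ))

theorem coe_vert (r : ℝ) {t : ℝ} (ht : 0 < t) : ((vert r t : ℍ) : ℂ) = r + I * t := by
  rw [vert, coe_vadd, coe_ofComplex_I ht]

theorem vert_im (r : ℝ) {t : ℝ} (ht : 0 < t) : (vert r t).im = t := by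
  rw [← coe_im, coe_vert r ht]
  simp

theorem tendsto_vert_atTop (r : ℝ) : Tendsto (fun t : ℝ => vert r t) atTop atImInfty := by
  rw [atImInfty, tendsto_comap_iff]
  refine tendsto_id.congr' ?_
  filter_upwards [eventually_gt_atTop 0] with t ht
  exact (vert_im r ht).symm

/-- The vertical line ends at the cusp `δ ∞ = a / c`. -/
theorem tendsto_vert_zero (δ : SL(2, ℤ)) (hc : δ 1 0 ≠ 0) {r : ℝ}
    (hr : (δ 0 0 : ℝ) = r * δ 1 0) :
    Tendsto (fun t : ℝ => δ⁻¹ • vert r t) (𝓝[>] 0) atImInfty := by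
  rw [atImInfty, tendsto_comap_iff]
  have hc' : (0 : ℝ) < (δ 1 0 : ℝ) ^ 2 := by positivity
  have h1 : Tendsto (fun t : ℝ => ((δ 1 0 : ℝ) ^ 2)⁻¹ * t⁻¹) (𝓝[>] 0) atTop :=
    tendsto_inv_nhdsGT_zero.const_mul_atTop (inv_pos.mpr hc')
  refine h1.congr' ?_
  filter_upwards [self_mem_nhdsWithin] with t ht
  have ht : 0 < t := ht
  rw [Function.comp_apply, ModularGroup.im_smul_eq_div_normSq, vert_im r ht]
  have h2 : denom ((δ⁻¹ : SL(2, ℤ)) : GL (Fin 2) ℝ) (vert r t) = -((δ 1 0 : ℝ) * t : ℝ) * I := by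
    rw [ModularGroup.denom_apply, coe_vert r ht, Matrix.SpecialLinearGroup.SL2_inv_expl]
    have h3 : ((δ 0 0 : ℤ) : ℂ) = (r : ℂ) * ((δ 1 0 : ℤ) : ℂ) := by
      have := congrArg (fun x : ℝ => (x : ℂ)) hr
      push_cast at this
      exact this
    simp only [Matrix.cons_val', Matrix.cons_val_zero, Matrix.cons_val_one,
      Matrix.cons_val_fin_one]
    push_cast
    rw [h3]
    ring
  rw [h2, normSq_mul, normSq_I, normSq_neg, normSq_ofReal, mul_one]
  field_simp

variable {N : ℕ} [NeZero N] {f : CuspForm (Gamma0 N) 2} {F : ℍ → ℂ}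

omit [NeZero N] in
theorem tendsto_F_atTop (hF : GoodPrim f F) (r : ℝ) :
    Tendsto (fun t : ℝ => F (vert r t)) atTop (𝓝 0) :=
  hF.zero.comp (tendsto_vert_atTop r)

omit [NeZero N] in
theorem tendsto_F_zero {δ : SL(2, ℤ)} (hc : δ 1 0 ≠ 0) {r : ℝ}
    (hr : (δ 0 0 : ℝ) = r * δ 1 0) {L : ℂ}
    (hL : Tendsto (fun w : ℍ => F (δ • w)) atImInfty (𝓝 L)) :
    Tendsto (fun t : ℝ => F (vert r t)) (𝓝[>] 0) (𝓝 L) := by
  have h := hL.comp (tendsto_vert_zero δ hc hr)
  refine h.congr fun t => ?_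
  simp only [Function.comp_apply, smul_inv_smul]

omit [NeZero N] in
theorem hasDerivAt_F (hF : IsPrim f F) (r : ℝ) {t : ℝ} (ht : 0 < t) :
    HasDerivAt (fun t : ℝ => F (vert r t)) (f (vert r t) * I) t := by
  have h1 := hF (vert r t)
  rw [coe_vert r ht] at h1
  have h2 : HasDerivAt (fun z : ℂ => (r : ℂ) + I * z) I (t : ℂ) := by
    simpa using ((hasDerivAt_id (t : ℂ)).const_mul I).const_add (r : ℂ)
  have h3 := (HasDerivAt.comp (t : ℂ) h1 h2).comp_ofReal
  refine h3.congr_of_eventuallyEq ?_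
  filter_upwards [isOpen_Ioi.mem_nhds ht] with x hx
  have hx : 0 < x := hx
  simp only [Function.comp_apply]
  rw [← coe_vert r hx, ofComplex_apply]

omit [NeZero N] in
/-- `∫_0^∞ f(r + i t) dt = i F(r)`. -/
theorem integral_vert (hF : GoodPrim f F) {r : ℝ} {L : ℂ}
    (hL : Tendsto (fun t : ℝ => F (vert r t)) (𝓝[>] 0) (𝓝 L))
    (hint : MeasureTheory.IntegrableOn (fun t : ℝ => f (vert r t)) (Ioi 0)) :
    ∫ t in Ioi (0 : ℝ), f (vert r t) = I * L := by
  have h1 := MeasureTheory.integral_Ioi_of_hasDerivAt_of_tendsto (a := 0)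
    (f := Function.update (fun t : ℝ => F (vert r t)) 0 L)
    (f' := fun t => f (vert r t) * I) (m := 0) ?_ ?_ (hint.mul_const I) ?_
  · rw [MeasureTheory.integral_mul_const, Function.update_self] at h1
    have h2 : I * I = -1 := I_mul_I
    linear_combination (-I) * h1 + (∫ t in Ioi (0 : ℝ), f (vert r t)) * h2
  · rw [continuousWithinAt_update_same, Ici_sdiff_left]
    exact hL
  · intro x hx
    refine (hasDerivAt_F hF.prim r hx).congr_of_eventuallyEq ?_
    filter_upwards [isOpen_Ioi.mem_nhds hx] with y hy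
    exact Function.update_of_ne (ne_of_gt hy) _ _
  · refine (tendsto_F_atTop hF r).congr' ?_
    filter_upwards [eventually_gt_atTop 0] with y hy
    exact (Function.update_of_ne (ne_of_gt hy) L (fun t : ℝ => F (vert r t))).symm

theorem Gammaℂ_one : (2 : ℂ) / Gammaℂ 1 = 2 * π := by
  have hpi : (π : ℂ) ≠ 0 := ofReal_ne_zero.mpr Real.pi_ne_zero
  rw [Gammaℂ_def, Gamma_one, cpow_neg_one]
  field_simp

/-- The value at `s = 1` of the `L`-function of `f(z + u/m)`. -/
theorem mellin_addT_one {m : ℕ} (hF : GoodPrim f F) (u : ZMod m) {L : ℂ}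
    (hL : Tendsto (fun t : ℝ => F (vert ((u.val : ℝ) / m) t)) (𝓝[>] 0) (𝓝 L)) :
    mellin (fun t : ℝ => addT f u (ofComplex (I * (t : ℂ)))) 1 * (2 / Gammaℂ 1) =
      2 * π * I * L := by
  have h0 : ∀ t : ℝ, addT f u (ofComplex (I * (t : ℂ))) = f (vert ((u.val : ℝ) / m) t) := by
    intro t
    rw [addT_eq, shift_apply, vert]
    push_cast
    rfl
  have h1 := (mellin_addT f u).1 1
  simp only [h0] at h1 ⊢
  have h2 : MeasureTheory.IntegrableOn (fun t : ℝ => f (vert ((u.val : ℝ) / m) t)) (Ioi 0) := by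
    refine (MeasureTheory.integrableOn_congr_fun (fun t _ => ?_) measurableSet_Ioi).mp h1
    simp only [sub_self, cpow_zero, one_smul]
  have h3 : mellin (fun t : ℝ => f (vert ((u.val : ℝ) / m) t)) 1 =
      ∫ t in Ioi (0 : ℝ), f (vert ((u.val : ℝ) / m) t) := by
    rw [mellin]
    refine MeasureTheory.setIntegral_congr_fun measurableSet_Ioi fun t _ => ?_
    simp only [sub_self, cpow_zero, one_smul]
  rw [h3, integral_vert hF hL h2, Gammaℂ_one]
  ring

/-- The value at `s = 1` of the `L`-function of `f`. -/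
theorem L_one_eq (hF : GoodPrim f F) {L : ℂ}
    (hL : Tendsto (fun t : ℝ => F (vert 0 t)) (𝓝[>] 0) (𝓝 L)) :
    ModularForm.L (k := 2) two_pos f 1 = 2 * π * I * L := by
  have h0 : ∀ t : ℝ, f (ofComplex (I * (t : ℂ))) = f (vert 0 t) := by
    intro t
    rw [vert, zero_vadd]
  have h1 := ((CuspForm.isStrongFEPair (k := 2) two_pos f).hasMellin 1).1
  have h1' : MellinConvergent (fun t : ℝ => f (ofComplex (I * (t : ℂ)))) 1 := h1
  simp only [h0] at h1'
  have h2 : MeasureTheory.IntegrableOn (fun t : ℝ => f (vert 0 t)) (Ioi 0) := by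
    refine (MeasureTheory.integrableOn_congr_fun (fun t _ => ?_) measurableSet_Ioi).mp h1'
    simp only [sub_self, cpow_zero, one_smul]
  have h3 : mellin (fun t : ℝ => f (ofComplex (I * (t : ℂ)))) 1 =
      ∫ t in Ioi (0 : ℝ), f (vert 0 t) := by
    rw [mellin]
    refine MeasureTheory.setIntegral_congr_fun measurableSet_Ioi fun t _ => ?_
    simp only [sub_self, cpow_zero, one_smul, h0]
  rw [ModularForm.L, CuspForm.Λ_eq_mellin, h3, integral_vert hF hL h2, Gammaℂ_one]
  ring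

/-! ### The value of `F` at the cusps `b / d`, `d` prime to `N` -/

/-- `F(0)` -/
theorem exists_cusp_zero (hF : GoodPrim f F) :
    ∃ L : ℂ, Tendsto (fun w : ℍ => F (ModularGroup.S • w)) atImInfty (𝓝 L) :=
  hF.cusp ModularGroup.S

/-- `F(b / d) = F(0) + P(γ)` for `γ = (a b; c d)` in `Γ₀(N)`. -/
theorem tendsto_cusp (hF : GoodPrim f F) {L : ℂ}
    (hL : Tendsto (fun w : ℍ => F (ModularGroup.S • w)) atImInfty (𝓝 L)) (γ : Gamma0 N)
    (hd : (γ : SL(2, ℤ)) 1 1 ≠ 0) {r : ℝ}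
    (hr : ((γ : SL(2, ℤ)) 0 1 : ℝ) = r * (γ : SL(2, ℤ)) 1 1) :
    Tendsto (fun t : ℝ => F (vert r t)) (𝓝[>] 0)
      (𝓝 (L + periodLin N f (Additive.ofMul γ))) := by
  have h00 : ((γ : SL(2, ℤ)) * ModularGroup.S) 0 0 = (γ : SL(2, ℤ)) 0 1 := by
    rw [Matrix.SpecialLinearGroup.coe_mul, ModularGroup.coe_S, Matrix.mul_apply,
      Fin.sum_univ_two]
    simp
  have h10 : ((γ : SL(2, ℤ)) * ModularGroup.S) 1 0 = (γ : SL(2, ℤ)) 1 1 := by
    rw [Matrix.SpecialLinearGroup.coe_mul, ModularGroup.coe_S, Matrix.mul_apply,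
      Fin.sum_univ_two]
    simp
  refine tendsto_F_zero (δ := (γ : SL(2, ℤ)) * ModularGroup.S) (by rwa [h10])
    (by rw [h00, h10, hr]) ?_
  have h1 : ∀ w : ℍ, F (((γ : SL(2, ℤ)) * ModularGroup.S) • w) =
      F (ModularGroup.S • w) + periodLin N f (Additive.ofMul γ) := by
    intro w
    rw [periodLin_apply_of_isPrim hF.prim γ (ModularGroup.S • w), mul_smul]
    ring
  simp only [h1]
  exact hL.add_const _

/-- `F(0)` along the imaginary axis. -/
theorem tendsto_cusp_zero (hF : GoodPrim f F) {L : ℂ}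
    (hL : Tendsto (fun w : ℍ => F (ModularGroup.S • w)) atImInfty (𝓝 L)) :
    Tendsto (fun t : ℝ => F (vert 0 t)) (𝓝[>] 0) (𝓝 L) := by
  have h := tendsto_cusp hF hL (1 : Gamma0 N) (by simp) (r := 0) (by simp)
  simpa using h

omit [NeZero N] in
/-- The matrices `(a u; c m)` of `Γ₀(N)`. -/
theorem exists_gamma {u m : ℕ} (h : (N * u).Coprime m) :
    ∃ γ : Gamma0 N, (γ : SL(2, ℤ)) 0 1 = u ∧ (γ : SL(2, ℤ)) 1 1 = m := by
  have h1 : IsCoprime ((N : ℤ) * u) (m : ℤ) := by
    have := Nat.isCoprime_iff_coprime.mpr h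
    push_cast at this
    exact this
  obtain ⟨x, a, hxa⟩ := h1
  let γ : SL(2, ℤ) := ⟨!![a, (u : ℤ); -(N * x), (m : ℤ)], by
    rw [Matrix.det_fin_two_of]
    linear_combination hxa⟩
  have hγ : γ ∈ Gamma0 N := by
    rw [Gamma0_mem]
    change ((-((N : ℤ) * x) : ℤ) : ZMod N) = 0
    simp
  exact ⟨⟨γ, hγ⟩, rfl, rfl⟩

/-! ### Symmetries of `F` -/

/-- `F(z + k) = F(z)` -/
theorem F_vadd (hF : GoodPrim f F) (k : ℤ) (z : ℍ) : F ((k : ℝ) +ᵥ z) = F z := by
  have hT : ModularGroup.T ^ k ∈ Gamma0 N := Subgroup.zpow_mem _ (T_mem_Gamma0 N) k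
  have h1 := periodLin_apply_of_isPrim hF.prim ⟨ModularGroup.T ^ k, hT⟩ z
  have h2 : periodLin N f (Additive.ofMul ⟨ModularGroup.T ^ k, hT⟩) = 0 := by
    refine isParabolicHom_periodLin f _ ?_
    change ((ModularGroup.T ^ k : SL(2, ℤ)) : Matrix (Fin 2) (Fin 2) ℤ).trace ^ 2 = 4
    rw [ModularGroup.coe_T_zpow, Matrix.trace_fin_two]
    simp
  rw [h2] at h1
  have h3 : (ModularGroup.T ^ k) • z = (k : ℝ) +ᵥ z := modular_T_zpow_smul z k
  change 0 = F ((ModularGroup.T ^ k) • z) - F z at h1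
  rw [h3] at h1
  linear_combination -h1

theorem vert_vadd (k : ℤ) (r t : ℝ) : (k : ℝ) +ᵥ vert r t = vert (k + r) t := by
  rw [vert, vert, vadd_vadd]

theorem J_vert (r : ℝ) {t : ℝ} (ht : 0 < t) : J • vert r t = vert (-r) t := by
  ext
  rw [J_smul_coe, coe_vert r ht, coe_vert (-r) ht]
  simp only [map_add, map_mul, conj_ofReal, conj_I, ofReal_neg]
  ring

/-- `F(-z̄) = - conj F(z)` for a form with real coefficients. -/
theorem F_J (hr : ∀ n, ∃ a : ℤ, qCoeff f n = a) (hF : GoodPrim f F) (z : ℍ) :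
    F (J • z) = -conj (F z) := by
  have h1 : GoodPrim f (fun z => -conj (F (J • z))) := by
    refine ⟨isPrim_refl hr hF.prim, ?_⟩
    have h2 := ((continuous_conj.tendsto 0).comp (hF.zero.comp tendsto_J_smul)).neg
    simpa using h2
  have h2 := congrFun (hF.unique h1) (J • z)
  rw [h2]
  simp only [J_smul_J_smul]

/-- `F(-r)`, `F(r)` at the cusps. -/
theorem cusp_neg (hr : ∀ n, ∃ a : ℤ, qCoeff f n = a) (hF : GoodPrim f F) {r r' : ℝ} {k : ℤ}
    (hk : r' = k - r) {L L' : ℂ} (hL : Tendsto (fun t : ℝ => F (vert r t)) (𝓝[>] 0) (𝓝 L))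
    (hL' : Tendsto (fun t : ℝ => F (vert r' t)) (𝓝[>] 0) (𝓝 L')) : L' = -conj L := by
  refine tendsto_nhds_unique hL' ?_
  have h1 := ((continuous_conj.tendsto L).comp hL).neg
  refine h1.congr' ?_
  filter_upwards [self_mem_nhdsWithin] with t ht
  have ht : 0 < t := ht
  rw [Function.comp_apply, hk, sub_eq_add_neg, ← vert_vadd, F_vadd hF, ← J_vert r ht,
    F_J hr hF]

/-- `L(f, 1)` is real. -/
theorem L_one_im (hr : ∀ n, ∃ a : ℤ, qCoeff f n = a) :
    (ModularForm.L (k := 2) two_pos f 1).im = 0 := by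
  obtain ⟨F, hF⟩ := exists_goodPrim f
  obtain ⟨L, hL⟩ := exists_cusp_zero hF
  have h1 := tendsto_cusp_zero hF hL
  have h2 := cusp_neg (k := 0) hr hF (by simp) h1 h1
  rw [L_one_eq hF h1]
  have h3 : L.re = 0 := by
    have := congrArg Complex.re h2
    rw [neg_re, conj_re] at this
    linarith
  simp [h3]

/-! ### The relation of Manin -/

section manin

variable {p : ℕ} [hp : Fact p.Prime]

theorem hrep_none_vert {t : ℝ} (ht : 0 < t) :
    hrep p none • vert 0 t = vert 0 (p * t) := by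
  have hp0 : (0 : ℝ) < p := by exact_mod_cast hp.out.pos
  ext
  rw [hrep, ModularForm.coe_heckeDiagMatrix_smul hp.out.ne_zero, coe_vert 0 ht,
    coe_vert 0 (mul_pos hp0 ht)]
  push_cast
  ring

theorem hrep_some_vert (j : ZMod p) {t : ℝ} (ht : 0 < t) :
    hrep p (some j) • vert 0 t = vert ((j.val : ℝ) / p) (t / p) := by
  have hp0 : (0 : ℝ) < p := by exact_mod_cast hp.out.pos
  have hpC : (p : ℂ) ≠ 0 := by exact_mod_cast hp.out.ne_zero
  ext
  rw [hrep, ModularForm.coe_heckeMatrix_smul hp.out.ne_zero, coe_vert 0 ht,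
    coe_vert _ (div_pos ht hp0)]
  push_cast
  field_simp
  ring

theorem tendsto_mul_zero {c : ℝ} (hc : 0 < c) :
    Tendsto (fun t : ℝ => c * t) (𝓝[>] 0) (𝓝[>] 0) := by
  refine tendsto_nhdsWithin_iff.mpr ⟨?_, ?_⟩
  · have h1 : Tendsto (fun t : ℝ => c * t) (𝓝 0) (𝓝 (c * 0)) :=
      (continuous_const.mul continuous_id).tendsto 0
    rw [mul_zero] at h1
    exact h1.mono_left nhdsWithin_le_nhds
  · filter_upwards [self_mem_nhdsWithin] with t ht
    exact mul_pos hc ht

omit [NeZero N] in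
theorem addOp_vert (hpN : ¬ p ∣ N) {t : ℝ} (ht : 0 < t) :
    (heckeSys N p).addOp F (vert 0 t) =
      F (vert 0 (p * t)) + ∑ j : ZMod p, F (vert ((j.val : ℝ) / p) ((p : ℝ)⁻¹ * t)) := by
  rw [CosetSys.addOp, ← Equiv.sum_comp (hidxEquivOfNotDvd hpN).symm, Fintype.sum_option]
  have h1 : ∀ x : Option (ZMod p), (heckeSys N p).rep ((hidxEquivOfNotDvd hpN).symm x) =
      hrep p x := fun x => rfl
  simp only [h1, hrep_none_vert ht, hrep_some_vert _ ht, div_eq_inv_mul (t : ℝ)]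

/-- **The relation of Manin**: `(1 + p - a_p) L(f, 1)` is minus a sum of `p` periods. -/
theorem manin (hf : f.IsNormalizedEigenform) (hpN : ¬ p ∣ N) :
    ∃ g : ZMod p → Gamma0 N, (1 + p - qCoeff f p) * ModularForm.L (k := 2) two_pos f 1 =
      -∑ j : ZMod p, om f (Additive.ofMul (g j)) := by
  obtain ⟨F, hF⟩ := exists_goodPrim f
  obtain ⟨L, hL⟩ := exists_cusp_zero hF
  have h0 := tendsto_cusp_zero hF hL
  have hp0 : (0 : ℝ) < p := by exact_mod_cast hp.out.pos
  have : NeZero p := ⟨hp.out.ne_zero⟩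
  -- the matrices
  have hg : ∀ j : ZMod p, ∃ g : Gamma0 N, Tendsto (fun t : ℝ => F (vert ((j.val : ℝ) / p) t))
      (𝓝[>] 0) (𝓝 (L + periodLin N f (Additive.ofMul g))) := by
    intro j
    by_cases hj : j = 0
    · subst hj
      refine ⟨1, ?_⟩
      rw [ZMod.val_zero, Nat.cast_zero, zero_div, ofMul_one, map_zero, add_zero]
      exact h0
    · have hcop : (N * j.val).Coprime p := by
        refine Nat.Coprime.mul_left ?_ ?_
        · exact ((Nat.Prime.coprime_iff_not_dvd hp.out).mpr hpN).symm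
        · refine ((Nat.Prime.coprime_iff_not_dvd hp.out).mpr fun h => ?_).symm
          have h1 := Nat.eq_zero_of_dvd_of_lt h j.val_lt
          exact hj ((ZMod.val_eq_zero j).mp h1)
      obtain ⟨γ, h01, h11⟩ := exists_gamma hcop
      refine ⟨γ, tendsto_cusp hF hL γ ?_ ?_⟩
      · rw [h11]
        exact_mod_cast hp.out.ne_zero
      · rw [h01, h11]
        push_cast
        field_simp
  choose g hg using hg
  refine ⟨g, ?_⟩
  -- the Hecke relation for the primitive
  set a := qCoeff f p with ha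
  have h1 : IsPrim (a • (f : ℍ → ℂ)) ((heckeSys N p).addOp F) := by
    have h2 := isPrim_addOp (N := N) (p := p) hF.prim
    have h3 : (∑ x : HIdx N p, (f : ℍ → ℂ) ∣[(2 : ℤ)] hrep p x.1) = a • (f : ℍ → ℂ) := by
      rw [← heckeT_eq_sum hpN, ← CuspForm.coe_heckeTLin_apply (hp := hp.out) (hpN := hpN)]
      have h4 := heckeOp_eq_of_isNormalizedEigenform hf ⟨p, hp.out⟩
      rw [heckeOp_of_not_dvd (p := ⟨p, hp.out⟩) hpN] at h4
      rw [h4]
      rfl
    rwa [h3] at h2
  have h2 : IsPrim (a • (f : ℍ → ℂ)) (a • F) := hF.prim.const_smul a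
  have h3 : ∀ t s : ℝ, (heckeSys N p).addOp F (vert 0 t) - a * F (vert 0 t) =
      (heckeSys N p).addOp F (vert 0 s) - a * F (vert 0 s) := by
    intro t s
    have h4 := h1.sub_eq_sub h2 (vert 0 t) (vert 0 s)
    simp only [Pi.smul_apply, smul_eq_mul] at h4
    linear_combination h4
  -- the limit at infinity
  have hinf : Tendsto (fun t : ℝ => (heckeSys N p).addOp F (vert 0 t) - a * F (vert 0 t)) atTop
      (𝓝 0) := by
    have e1 : Tendsto (fun t : ℝ => F (vert 0 (p * t))) atTop (𝓝 0) :=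
      (tendsto_F_atTop hF 0).comp (tendsto_id.const_mul_atTop hp0)
    have e2 : Tendsto (fun t : ℝ => ∑ j : ZMod p, F (vert ((j.val : ℝ) / p) ((p : ℝ)⁻¹ * t)))
        atTop (𝓝 (∑ j : ZMod p, 0)) :=
      tendsto_finsetSum _ fun j _ => (tendsto_F_atTop hF _).comp
        (tendsto_id.const_mul_atTop (inv_pos.mpr hp0))
    have e3 := (e1.add e2).sub ((tendsto_F_atTop hF 0).const_mul a)
    rw [Finset.sum_const_zero, mul_zero, add_zero, sub_zero] at e3
    refine e3.congr' ?_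
    filter_upwards [eventually_gt_atTop 0] with t ht
    rw [addOp_vert hpN ht]
  have hzero : ∀ t : ℝ, (heckeSys N p).addOp F (vert 0 t) - a * F (vert 0 t) = 0 := by
    intro t
    have h4 : (fun s : ℝ => (heckeSys N p).addOp F (vert 0 s) - a * F (vert 0 s)) =
        fun _ => (heckeSys N p).addOp F (vert 0 t) - a * F (vert 0 t) :=
      funext fun s => h3 s t
    rw [h4] at hinf
    exact tendsto_nhds_unique tendsto_const_nhds hinf
  -- the limit at zero
  have hlim : Tendsto (fun t : ℝ => (heckeSys N p).addOp F (vert 0 t) - a * F (vert 0 t))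
      (𝓝[>] 0) (𝓝 (L + ∑ j : ZMod p, (L + periodLin N f (Additive.ofMul (g j))) - a * L)) := by
    have e1 : Tendsto (fun t : ℝ => F (vert 0 (p * t))) (𝓝[>] 0) (𝓝 L) :=
      h0.comp (tendsto_mul_zero hp0)
    have e2 : Tendsto (fun t : ℝ => ∑ j : ZMod p, F (vert ((j.val : ℝ) / p) ((p : ℝ)⁻¹ * t)))
        (𝓝[>] 0) (𝓝 (∑ j : ZMod p, (L + periodLin N f (Additive.ofMul (g j))))) :=
      tendsto_finsetSum _ fun j _ => (hg j).comp (tendsto_mul_zero (inv_pos.mpr hp0))
    have e3 := (e1.add e2).sub (h0.const_mul a)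
    refine e3.congr' ?_
    filter_upwards [self_mem_nhdsWithin] with t ht
    rw [addOp_vert hpN ht]
  simp only [hzero] at hlim
  have h5 := tendsto_nhds_unique tendsto_const_nhds hlim
  rw [Finset.sum_add_distrib, Finset.sum_const, Finset.card_univ, ZMod.card, nsmul_eq_mul] at h5
  rw [L_one_eq hF h0]
  simp only [om_apply, ← Finset.mul_sum]
  linear_combination (-(2 * π * I : ℂ)) * h5

end manin

end Fermat.Agent.Cor.HW.Per
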