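import Fermat.Agent.Corollaries.HW.Complete
import Fermat.Agent.ECFrob.CharpolyRat
import Fermat.Agent.ECFrob.Main
import Mathlib.NumberTheory.LSeries.Dirichlet
import Mathlib.NumberTheory.LSeries.Deriv
import Mathlib.Analysis.SpecialFunctions.Log.Summable

/-!
# The Hasse bound: absolute convergence and Euler product for `re s > 3/2`

If `f` is a normalized eigenform of weight two whose coefficients at the primes satisfy the Hasse
bound (`IsHasse`), then `|a_n| ≤ d(n) √n`, the `L`-series converges absolutely for `re s > 3/2`,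
the Euler product holds there and `L(f, s) ≠ 0`. This applies to the newform of a semistable
elliptic curve.
-/

set_option autoImplicit false

noncomputable section

open UpperHalfPlane hiding I
open CongruenceSubgroup ModularFormClass Complex
open scoped LSeries.notation ComplexConjugate

namespace Fermat.Agent.Cor.HW

/-! ### The bound for elliptic curves -/

/-- **Hasse**: `a_p² ≤ 4 p` at a good prime. -/
theorem apOfModel_sq_le {W : WeierstrassCurve ℤ} {p : ℕ} (hp : p.Prime)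
    (hpΔ : ¬ (p : ℤ) ∣ W.Δ) : W.apOfModel p ^ 2 ≤ 4 * p := by
  have : Fact p.Prime := ⟨hp⟩
  have : (W.reductionMod p).IsElliptic := ECFrob.isElliptic_reductionMod hpΔ
  have h := ECFrob.hasse_bound (W.reductionMod p)
  rwa [ZMod.card] at h

theorem ap_sq_le {W : WeierstrassCurve ℤ} {p : ℕ} (hp : p.Prime) (hpΔ : ¬ (p : ℤ) ∣ W.Δ) :
    ap W p ^ 2 ≤ 4 * p := by
  rw [ap, if_neg hpΔ]
  exact apOfModel_sq_le hp hpΔ

/-- The roots of `X² - a X + p` if `a² ≤ 4 p`. -/
theorem exists_roots {a p : ℝ} (h : a ^ 2 ≤ 4 * p) :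
    ∃ α β : ℂ, ‖α‖ ≤ √p ∧ ‖β‖ ≤ √p ∧ α + β = a ∧ α * β = p := by
  set d : ℝ := √(4 * p - a ^ 2) with hd
  have hd2 : d ^ 2 = 4 * p - a ^ 2 := Real.sq_sqrt (by linarith)
  have hn : ∀ e : ℝ, e ^ 2 = d ^ 2 → ‖((a / 2 : ℝ) : ℂ) + ((e / 2 : ℝ) : ℂ) * I‖ ≤ √p := by
    intro e he
    rw [Complex.norm_add_mul_I]
    refine Real.sqrt_le_sqrt ?_
    rw [div_pow, div_pow, he, hd2]
    linarith
  refine ⟨((a / 2 : ℝ) : ℂ) + ((d / 2 : ℝ) : ℂ) * I, ((a / 2 : ℝ) : ℂ) + (((-d) / 2 : ℝ) : ℂ) * I,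
    hn d rfl, hn (-d) (by ring), ?_, ?_⟩
  · push_cast
    ring
  · have h1 : ((d : ℝ) : ℂ) ^ 2 = 4 * p - (a : ℂ) ^ 2 := by exact_mod_cast congrArg ofReal hd2
    push_cast
    linear_combination (-(d : ℂ) ^ 2 / 4) * I_sq + (1 / 4 : ℂ) * h1

/-! ### The bound for the coefficients -/

/-- A linear recursion with roots of absolute value at most `r`. -/
theorem norm_le_of_rec {u : ℕ → ℂ} {α β : ℂ} {r : ℝ} (hα : ‖α‖ ≤ r) (hβ : ‖β‖ ≤ r)
    (h0 : u 0 = 1) (h1 : u 1 = α + β)
    (hr : ∀ e, u (e + 2) = (α + β) * u (e + 1) - α * β * u e) (e : ℕ) :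
    ‖u e‖ ≤ (e + 1) * r ^ e := by
  have hr0 : 0 ≤ r := (norm_nonneg α).trans hα
  have key : ∀ e, u (e + 1) = α * u e + β ^ (e + 1) := by
    intro e
    induction e with
    | zero => rw [h1, h0]; ring
    | succ e ih =>
      rw [hr e]
      linear_combination β * ih
  induction e with
  | zero => simp [h0]
  | succ e ih =>
    rw [key e]
    calc ‖α * u e + β ^ (e + 1)‖ ≤ ‖α‖ * ‖u e‖ + ‖β‖ ^ (e + 1) := by
          refine (norm_add_le _ _).trans ?_
          rw [norm_mul, norm_pow]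
      _ ≤ r * ((e + 1) * r ^ e) + r ^ (e + 1) := by
          refine add_le_add (mul_le_mul hα ih (norm_nonneg _) hr0) ?_
          exact pow_le_pow_left₀ (norm_nonneg _) hβ _
      _ = (((e + 1 : ℕ) : ℝ) + 1) * r ^ (e + 1) := by
          push_cast
          ring

variable {N : ℕ}

/-- The coefficients at the primes satisfy the Hasse bound. -/
def IsHasse (f : CuspForm (Gamma0 N) 2) : Prop :=
  ∀ p : ℕ, p.Prime → ∃ α β : ℂ, ‖α‖ ≤ √p ∧ ‖β‖ ≤ √p ∧ α + β = qCoeff f p ∧
    α * β = if p ∣ N then 0 else (p : ℂ)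

/-- `|a_{p^e}| ≤ (e + 1) p^{e/2}`. -/
theorem norm_qCoeff_pow_le {f : CuspForm (Gamma0 N) 2} (hf : f.IsNormalizedEigenform)
    (hH : IsHasse f) {p : ℕ} (hp : p.Prime) (e : ℕ) :
    ‖qCoeff f (p ^ e)‖ ≤ (e + 1) * (√p) ^ e := by
  obtain ⟨α, β, hα, hβ, hs, hm⟩ := hH p hp
  refine norm_le_of_rec (u := fun e => qCoeff f (p ^ e)) hα hβ ?_ ?_ (fun e => ?_) e
  · simp [hf.qCoeff_one]
  · simp [hs]
  · rw [hs, hm]
    by_cases hpN : p ∣ N
    · rw [if_pos hpN, hf.qCoeff_prime_pow_of_dvd p e hp hpN, zero_mul, sub_zero]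
    · rw [if_neg hpN, hf.qCoeff_prime_pow_of_not_dvd p e hp hpN]

/-- **`|a_n| ≤ d(n) √n`.** -/
theorem norm_qCoeff_le {f : CuspForm (Gamma0 N) 2} (hf : f.IsNormalizedEigenform)
    (hH : IsHasse f) (n : ℕ) : ‖qCoeff f n‖ ≤ n.divisors.card * √n := by
  induction n using Nat.recOnPosPrimePosCoprime with
  | zero => simp [FermatAgent.HeckeEigen.qCoeff_at_zero]
  | one => simp [hf.qCoeff_one]
  | prime_pow p e hp he =>
    refine (norm_qCoeff_pow_le hf hH hp e).trans (le_of_eq ?_)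
    rw [Nat.divisors_prime_pow hp, Finset.card_map, Finset.card_range, Nat.cast_pow,
      Real.sqrt_eq_rpow, Real.sqrt_eq_rpow, ← Real.rpow_natCast, ← Real.rpow_natCast,
      ← Real.rpow_mul (Nat.cast_nonneg p), ← Real.rpow_mul (Nat.cast_nonneg p), mul_comm (e : ℝ)]
    push_cast
    rfl
  | coprime a b _ _ hab iha ihb =>
    rw [hf.qCoeff_mul_of_coprime a b hab, norm_mul, hab.card_divisors_mul]
    refine (mul_le_mul iha ihb (norm_nonneg _) (by positivity)).trans (le_of_eq ?_)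
    push_cast
    rw [Real.sqrt_mul (Nat.cast_nonneg a)]
    ring

/-- The `L`-series of the divisor function converges for `re s > 1`. -/
theorem summable_divisors {s : ℂ} (hs : 1 < s.re) :
    LSeriesSummable (fun n => (n.divisors.card : ℂ)) s := by
  have h1 := LSeriesSummable_one_iff.mpr hs
  refine (LSeriesSummable_congr s fun {n} _ => ?_).mp (h1.convolution h1)
  rw [LSeries.convolution_def]
  simp [Nat.sum_divisorsAntidiagonal (fun _ _ => (1 : ℂ))]

/-- **Absolute convergence for `re s > 3/2`.** -/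
theorem lseriesSummable_of_hasse {f : CuspForm (Gamma0 N) 2} (hf : f.IsNormalizedEigenform)
    (hH : IsHasse f) {s : ℂ} (hs : 3 / 2 < s.re) : LSeriesSummable (qCoeff f) s := by
  have h1 : 1 < (s - 1 / 2 : ℂ).re := by
    rw [sub_re]
    norm_num
    linarith
  have h2 := (summable_divisors h1).norm
  refine Summable.of_norm_bounded h2 fun n => ?_
  rcases eq_or_ne n 0 with rfl | hn
  · simp
  rw [LSeries.term_of_ne_zero hn, LSeries.term_of_ne_zero hn, norm_div, norm_div,
    norm_natCast_cpow_of_pos (Nat.pos_of_ne_zero hn), norm_natCast_cpow_of_pos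
    (Nat.pos_of_ne_zero hn), RCLike.norm_natCast]
  have hn0 : (0 : ℝ) < n := by exact_mod_cast Nat.pos_of_ne_zero hn
  have e1 : (s - 1 / 2 : ℂ).re = s.re - 1 / 2 := by
    rw [sub_re]
    norm_num
  rw [e1, Real.rpow_sub hn0, ← Real.sqrt_eq_rpow, div_div_eq_mul_div]
  exact div_le_div_of_nonneg_right (norm_qCoeff_le hf hH n) (Real.rpow_nonneg hn0.le _)

/-- The sum of the `L`-series for `re s > 3/2` is the entire function `L(f, s)`. -/
theorem lseries_eq_of_hasse [NeZero N] {f : CuspForm (Gamma0 N) 2}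
    (hf : f.IsNormalizedEigenform) (hH : IsHasse f) {s : ℂ} (hs : 3 / 2 < s.re) :
    LSeries (qCoeff f) s = ModularForm.L two_pos f s := by
  set U : Set ℂ := {s : ℂ | 3 / 2 < s.re} with hU
  have habs : LSeries.abscissaOfAbsConv (qCoeff f) ≤ ((3 / 2 : ℝ) : EReal) := by
    refine LSeries.abscissaOfAbsConv_le_of_forall_lt_LSeriesSummable fun y hy => ?_
    exact lseriesSummable_of_hasse hf hH (by simpa using hy)
  have hsub : U ⊆ {s : ℂ | LSeries.abscissaOfAbsConv (qCoeff f) < s.re} := by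
    intro z hz
    exact lt_of_le_of_lt habs (EReal.coe_lt_coe_iff.mpr hz)
  have h1 : AnalyticOnNhd ℂ (LSeries (qCoeff f)) U := (LSeries_analyticOnNhd _).mono hsub
  have h2 : AnalyticOnNhd ℂ (ModularForm.L two_pos f) U := fun z _ =>
    (CuspForm.differentiable_L two_pos f).analyticAt z
  have hconn : IsPreconnected U := (convex_halfSpace_re_gt (3 / 2)).isPreconnected
  have h3 : (3 : ℂ) ∈ U := by
    rw [hU, Set.mem_ofPred_eq]
    norm_num
  have hev : LSeries (qCoeff f) =ᶠ[nhds 3] ModularForm.L two_pos f := by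
    have hopen : {s : ℂ | 2 < s.re} ∈ nhds (3 : ℂ) :=
      (isOpen_lt continuous_const Complex.continuous_re).mem_nhds (by norm_num)
    filter_upwards [hopen] with z hz
    exact (lseries_two f hz).2
  exact h1.eqOn_of_preconnected_of_eventuallyEq h2 hconn h3 hev hs

/-! ### The Euler product -/

theorem summable_of_hasse {f : CuspForm (Gamma0 N) 2} (hf : f.IsNormalizedEigenform)
    (hH : IsHasse f) {s : ℂ} (hs : 3 / 2 < s.re) :
    Summable fun n : ℕ => qCoeff f n / (n : ℂ) ^ s := by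
  refine (lseriesSummable_of_hasse hf hH hs).congr fun n => ?_
  rcases eq_or_ne n 0 with rfl | hn
  · rw [LSeries.term_zero, FermatAgent.HeckeEigen.qCoeff_at_zero, zero_div]
  · rw [LSeries.term_of_ne_zero hn]

/-- The local series at `p` times the polynomial factor is one. -/
theorem tsum_mul_formPoly_of_summable {f : CuspForm (Gamma0 N) 2}
    (hf : f.IsNormalizedEigenform) {s : ℂ}
    (hsum : Summable fun n : ℕ => qCoeff f n / (n : ℂ) ^ s) (p : Nat.Primes) :
    (∑' e : ℕ, qCoeff f ((p : ℕ) ^ e) / (((p : ℕ) ^ e : ℕ) : ℂ) ^ s) * formPoly f p s = 1 := by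
  set F : ℕ → ℂ := fun n => qCoeff f n / (n : ℂ) ^ s with hF
  have hF1 : F 1 = 1 := by simp [hF, hf.qCoeff_one]
  have hp0 : ((p : ℕ) : ℂ) ≠ 0 := by exact_mod_cast p.2.ne_zero
  have hpow : ∀ e : ℕ, (((p : ℕ) ^ e : ℕ) : ℂ) ^ s = ((p : ℂ) ^ s) ^ e := by
    intro e
    rw [Nat.cast_pow, ← natCast_cpow_natCast_mul, cpow_nat_mul]
  have hsp : Summable fun e : ℕ => F ((p : ℕ) ^ e) :=
    (hsum.comp_injective (Nat.pow_right_injective p.2.two_le))
  have hps : (p : ℂ) ^ s ≠ 0 := by simp [cpow_eq_zero_iff, hp0]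
  rw [formPoly]
  by_cases hpN : (p : ℕ) ∣ N
  · rw [if_pos hpN]
    refine tsum_mul_of_rec (u := fun e : ℕ => F ((p : ℕ) ^ e)) (A := qCoeff f p * (p : ℂ) ^ (-s))
      (B := 0) ?_ ?_ ?_ hsp
    · simpa using hF1
    · simp [hF, cpow_neg, div_eq_mul_inv]
    · intro e
      simp only [hF, hpow]
      rw [hf.qCoeff_prime_pow_of_dvd p e p.2 hpN, cpow_neg]
      field_simp
      ring
  · rw [if_neg hpN]
    refine tsum_mul_of_rec (u := fun e : ℕ => F ((p : ℕ) ^ e)) (A := qCoeff f p * (p : ℂ) ^ (-s))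
      (B := (p : ℂ) ^ (1 - 2 * s)) ?_ ?_ ?_ hsp
    · simpa using hF1
    · simp [hF, cpow_neg, div_eq_mul_inv]
    · intro e
      simp only [hF, hpow]
      rw [hf.qCoeff_prime_pow_of_not_dvd p e p.2 hpN, cpow_neg, cpow_sub _ _ hp0, cpow_one,
        two_mul s, cpow_add _ _ hp0]
      field_simp
      ring

theorem formPoly_ne_zero_of_hasse {f : CuspForm (Gamma0 N) 2} (hf : f.IsNormalizedEigenform)
    (hH : IsHasse f) {s : ℂ} (hs : 3 / 2 < s.re) (p : Nat.Primes) : formPoly f p s ≠ 0 := by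
  intro h
  have h1 := tsum_mul_formPoly_of_summable hf (summable_of_hasse hf hH hs) p
  rw [h, mul_zero] at h1
  exact zero_ne_one h1

/-- **The Euler product for `re s > 3/2`.** -/
theorem hasProd_L_of_hasse [NeZero N] {f : CuspForm (Gamma0 N) 2}
    (hf : f.IsNormalizedEigenform) (hH : IsHasse f) {s : ℂ} (hs : 3 / 2 < s.re) :
    HasProd (fun p : Nat.Primes => (formPoly f p s)⁻¹) (ModularForm.L two_pos f s) := by
  set F : ℕ → ℂ := fun n => qCoeff f n / (n : ℂ) ^ s with hF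
  have hsum : Summable F := summable_of_hasse hf hH hs
  have hF0 : F 0 = 0 := by simp [hF, FermatAgent.HeckeEigen.qCoeff_at_zero]
  have hF1 : F 1 = 1 := by simp [hF, hf.qCoeff_one]
  have hmul : ∀ {m n : ℕ}, m.Coprime n → F (m * n) = F m * F n := by
    intro m n hmn
    simp only [hF]
    rw [hf.qCoeff_mul_of_coprime m n hmn, Nat.cast_mul, natCast_mul_natCast_cpow,
      mul_div_mul_comm]
  have h := EulerProduct.eulerProduct_hasProd hF1 hmul hsum.norm hF0
  have hL : ∑' n, F n = ModularForm.L two_pos f s := by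
    rw [← lseries_eq_of_hasse hf hH hs, LSeries]
    refine tsum_congr fun n => ?_
    rcases eq_or_ne n 0 with rfl | hn
    · rw [LSeries.term_zero, hF0]
    · rw [LSeries.term_of_ne_zero hn]
  rw [hL] at h
  convert h using 1
  funext p
  exact (eq_inv_of_mul_eq_one_left
    (tsum_mul_formPoly_of_summable hf (summable_of_hasse hf hH hs) p)).symm

/-- The Euler product of the inverses converges absolutely for `re s > 3/2`. -/
theorem multipliable_formPoly {f : CuspForm (Gamma0 N) 2} (hH : IsHasse f) {s : ℂ}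
    (hs : 3 / 2 < s.re) : Multipliable fun p : Nat.Primes => formPoly f p s := by
  have h1 : Summable fun p : Nat.Primes => 2 * ((p : ℕ) : ℝ) ^ (-(s.re - 1 / 2)) :=
    (Nat.Primes.summable_rpow.mpr (by linarith)).mul_left 2
  have h2 : Summable fun p : Nat.Primes => ((p : ℕ) : ℝ) ^ (-(2 * s.re - 1)) :=
    Nat.Primes.summable_rpow.mpr (by linarith)
  have h3 : Summable fun p : Nat.Primes => ‖formPoly f p s - 1‖ := by
    refine Summable.of_nonneg_of_le (fun _ => norm_nonneg _) (fun p => ?_) (h1.add h2)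
    obtain ⟨α, β, hα, hβ, hsum, -⟩ := hH p p.2
    have hp0 : (0 : ℝ) < ((p : ℕ) : ℝ) := by exact_mod_cast p.2.pos
    have ha : ‖qCoeff f p‖ ≤ 2 * √(p : ℕ) := by
      rw [← hsum]
      refine (norm_add_le _ _).trans ?_
      linarith
    have e1 : formPoly f p s - 1 = -(qCoeff f p * (p : ℂ) ^ (-s)) +
        (if (p : ℕ) ∣ N then 0 else (p : ℂ) ^ (1 - 2 * s)) := by
      rw [formPoly]
      ring
    rw [e1]
    refine (norm_add_le _ _).trans (add_le_add ?_ ?_)
    · rw [norm_neg, norm_mul, norm_natCast_cpow_of_pos p.2.pos, neg_re]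
      have e2 : ((p : ℕ) : ℝ) ^ (-(s.re - 1 / 2)) = √(p : ℕ) * ((p : ℕ) : ℝ) ^ (-s.re) := by
        rw [Real.sqrt_eq_rpow, ← Real.rpow_add hp0]
        congr 1
        ring
      rw [e2, ← mul_assoc]
      exact mul_le_mul_of_nonneg_right ha (Real.rpow_nonneg hp0.le _)
    · split_ifs
      · rw [norm_zero]
        exact Real.rpow_nonneg hp0.le _
      · rw [norm_natCast_cpow_of_pos p.2.pos]
        refine le_of_eq ?_
        congr 1
        simp [sub_re, mul_re]
  have h4 := multipliable_one_add_of_summable h3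
  refine h4.congr fun p => ?_
  ring

/-- **`L(f, s) ≠ 0` for `re s > 3/2`.** -/
theorem L_ne_zero_of_hasse [NeZero N] {f : CuspForm (Gamma0 N) 2}
    (hf : f.IsNormalizedEigenform) (hH : IsHasse f) {s : ℂ} (hs : 3 / 2 < s.re) :
    ModularForm.L two_pos f s ≠ 0 := by
  obtain ⟨M, hM⟩ := multipliable_formPoly hH hs
  have h := (hasProd_L_of_hasse hf hH hs).mul hM
  have h1 : (fun p : Nat.Primes => (formPoly f p s)⁻¹ * formPoly f p s) = fun _ => 1 :=
    funext fun p => inv_mul_cancel₀ (formPoly_ne_zero_of_hasse hf hH hs p)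
  rw [h1] at h
  have h2 := h.unique hasProd_one
  intro h0
  rw [h0, zero_mul] at h2
  exact zero_ne_one h2

/-! ### The newform of a semistable elliptic curve -/

/-- The newform of an elliptic curve satisfies the Hasse bound at all primes. -/
theorem isHasse_of_newform [NeZero N] {W : WeierstrassCurve ℤ}
    (hN : ∀ q : ℕ, q.Prime → (q : ℤ) ∣ W.Δ → q ∣ N) {f : CuspForm (Gamma0 N) 2}
    (hf : f.IsNewform)
    (ha : ∀ p : ℕ, p.Prime → ¬ p ∣ N → qCoeff f p = (W.apOfModel p : ℂ)) : IsHasse f := by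
  intro p hp
  by_cases hpN : p ∣ N
  · have h1 : ‖qCoeff f p‖ ≤ 1 := by
      have h := Oldforms.newformBadPrimeCoeff N f hf p hp hpN
      by_cases h2 : p ^ 2 ∣ N
      · rw [h.2 h2, norm_zero]
        exact zero_le_one
      · rcases sq_eq_one_iff.mp (h.1 h2) with h3 | h3 <;> simp [h3]
    have h2 : (1 : ℝ) ≤ √p := by
      rw [Real.one_le_sqrt]
      exact_mod_cast hp.one_lt.le
    exact ⟨qCoeff f p, 0, h1.trans h2, by rw [norm_zero]; exact Real.sqrt_nonneg _,
      add_zero _, by rw [mul_zero, if_pos hpN]⟩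
  · have hpΔ : ¬ (p : ℤ) ∣ W.Δ := fun h => hpN (hN p hp h)
    have h1 : ((W.apOfModel p : ℤ) : ℝ) ^ 2 ≤ 4 * (p : ℝ) := by
      exact_mod_cast apOfModel_sq_le hp hpΔ
    obtain ⟨α, β, hα, hβ, h2, h3⟩ := exists_roots h1
    refine ⟨α, β, hα, hβ, ?_, ?_⟩
    · rw [h2, ha p hp hpN]
      push_cast
      rfl
    · rw [h3, if_neg hpN]
      push_cast
      rfl

end Fermat.Agent.Cor.HW
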