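import Fermat.Agent.Corollaries.HW.Strip
import Fermat.Agent.Corollaries.HW.Final

/-!
# The `L`-function of a semistable elliptic curve over `ℚ`: coefficients and zeros

* `criticalStrip_of_semistable`: the Euler product over all primes converges for `re s > 3/2`, the
  `L`-function has no zeros there, simple zeros at `0, -1, -2, …`, and all other zeros are in the
  critical strip `1/2 ≤ re s ≤ 3/2`;
* `exists_dirichlet_coeff`: the `L`-function is a Dirichlet series with integral coefficients
  `a_n`, `|a_n| ≤ d(n) √n`.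
-/

set_option autoImplicit false

noncomputable section

open UpperHalfPlane hiding I
open CongruenceSubgroup ModularFormClass Complex

namespace Fermat.Agent.Cor.HW

variable {W : WeierstrassCurve ℤ}

/-- **The zeros of the `L`-function of a semistable elliptic curve over `ℚ`.** -/
theorem criticalStrip_of_semistable (hΔ : W.Δ ≠ 0) (hW : W.IsSemistableModel) {L : ℂ → ℂ}
    (hL : IsHasseWeil W L) : CriticalStrip W L := by
  obtain ⟨f, ⟨hf, ha⟩, -⟩ := existsUnique_newform_ap hΔ hW
  exact criticalStrip hΔ hf ha hL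

/-- An eigenform with integral coefficients at the primes has integral coefficients. -/
theorem exists_int_qCoeff {N : ℕ} {f : CuspForm (Gamma0 N) 2} (hf : f.IsNormalizedEigenform)
    (h : ∀ p : ℕ, p.Prime → ∃ a : ℤ, qCoeff f p = a) (n : ℕ) : ∃ a : ℤ, qCoeff f n = a := by
  induction n using Nat.recOnPosPrimePosCoprime with
  | zero => exact ⟨0, by simp [FermatAgent.HeckeEigen.qCoeff_at_zero]⟩
  | one => exact ⟨1, by simp [hf.qCoeff_one]⟩
  | prime_pow p e hp he =>
    have key : ∀ e : ℕ, (∃ a : ℤ, qCoeff f (p ^ e) = a) ∧ ∃ a : ℤ, qCoeff f (p ^ (e + 1)) = a := by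
      intro e
      induction e with
      | zero => exact ⟨⟨1, by simp [hf.qCoeff_one]⟩, by simpa using h p hp⟩
      | succ e ih =>
        refine ⟨ih.2, ?_⟩
        obtain ⟨⟨x, hx⟩, y, hy⟩ := ih
        obtain ⟨a, ha⟩ := h p hp
        by_cases hpN : p ∣ N
        · refine ⟨a * y, ?_⟩
          rw [show e + 1 + 1 = e + 2 from rfl, hf.qCoeff_prime_pow_of_dvd p e hp hpN, ha, hy]
          push_cast
          rfl
        · refine ⟨a * y - p * x, ?_⟩
          rw [show e + 1 + 1 = e + 2 from rfl, hf.qCoeff_prime_pow_of_not_dvd p e hp hpN, ha, hy,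
            hx]
          push_cast
          rfl
    exact (key e).1
  | coprime a b _ _ hab iha ihb =>
    obtain ⟨x, hx⟩ := iha
    obtain ⟨y, hy⟩ := ihb
    exact ⟨x * y, by rw [hf.qCoeff_mul_of_coprime a b hab, hx, hy]; push_cast; rfl⟩

/-- **The Dirichlet series of a semistable elliptic curve**: the `L`-function is
`L(s) = ∑ a_n n^(-s)` for `re s > 3/2` (absolutely convergent) with integers `a_n`; they are
multiplicative, `a_p` is the trace of Frobenius at the good primes and `± 1` (split or not) at the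
bad primes, `a_{p^(e+2)} = a_p a_{p^(e+1)} - p a_{p^e}` for `p` good,
`a_{p^(e+2)} = a_p a_{p^(e+1)}` for `p` bad, and `|a_n| ≤ d(n) √n`. -/
theorem exists_dirichlet_coeff (hΔ : W.Δ ≠ 0) (hW : W.IsSemistableModel) {L : ℂ → ℂ}
    (hL : IsHasseWeil W L) :
    ∃ a : ℕ → ℤ, a 1 = 1 ∧ (∀ m n : ℕ, m.Coprime n → a (m * n) = a m * a n) ∧
      (∀ p : ℕ, p.Prime → a p = ap W p) ∧
      (∀ p e : ℕ, p.Prime → a (p ^ (e + 2)) = ap W p * a (p ^ (e + 1)) -
        if (p : ℤ) ∣ W.Δ then 0 else p * a (p ^ e)) ∧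
      (∀ n : ℕ, |(a n : ℝ)| ≤ n.divisors.card * √n) ∧
      ∀ s : ℂ, 3 / 2 < s.re → HasSum (fun n : ℕ => (a n : ℂ) / (n : ℂ) ^ s) (L s) := by
  obtain ⟨f, ⟨hf, ha⟩, -⟩ := existsUnique_newform_ap hΔ hW
  have hL' : L = ModularForm.L two_pos f := hL.unique (isHasseWeil hΔ hf ha)
  have hH := isHasse hΔ hf ha
  have hint := exists_int_qCoeff hf.1 fun p hp => ⟨ap W p, ha p hp⟩
  choose a haq using hint
  have hN := fun (q : ℕ) (hq : q.Prime) => W.prime_dvd_conductorLevel_iff hΔ hq
  have hap : ∀ p : ℕ, p.Prime → a p = ap W p := by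
    intro p hp
    have h := haq p
    rw [ha p hp] at h
    exact_mod_cast h.symm
  refine ⟨a, ?_, ?_, hap, ?_, ?_, ?_⟩
  · have h := haq 1
    rw [hf.1.qCoeff_one] at h
    exact_mod_cast h.symm
  · intro m n hmn
    have h := hf.1.qCoeff_mul_of_coprime m n hmn
    rw [haq, haq, haq] at h
    exact_mod_cast h
  · intro p e hp
    by_cases hpΔ : (p : ℤ) ∣ W.Δ
    · have h := hf.1.qCoeff_prime_pow_of_dvd p e hp ((hN p hp).mpr hpΔ)
      rw [haq, haq, haq, hap p hp] at h
      rw [if_pos hpΔ, sub_zero]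
      exact_mod_cast h
    · have h := hf.1.qCoeff_prime_pow_of_not_dvd p e hp fun h => hpΔ ((hN p hp).mp h)
      rw [haq, haq, haq, haq, hap p hp] at h
      rw [if_neg hpΔ]
      exact_mod_cast h
  · intro n
    have h := norm_qCoeff_le hf.1 hH n
    rw [haq, norm_intCast] at h
    exact h
  · intro s hs
    have h1 := summable_of_hasse hf.1 hH hs
    have h2 : ∑' n : ℕ, qCoeff f n / (n : ℂ) ^ s = L s := by
      rw [hL', ← lseries_eq_of_hasse hf.1 hH hs, LSeries]
      refine tsum_congr fun n => ?_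
      rcases eq_or_ne n 0 with rfl | hn
      · rw [LSeries.term_zero, FermatAgent.HeckeEigen.qCoeff_at_zero, zero_div]
      · rw [LSeries.term_of_ne_zero hn]
    have h3 := h1.hasSum
    rw [h2] at h3
    exact h3.congr_fun fun n => by rw [haq n]

end Fermat.Agent.Cor.HW
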