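import Fermat.Agent.Corollaries.HW.PeriodCusp

/-!
# Algebraicity of the values `L(E, χ, 1)`

Let `E` be a semistable elliptic curve over `ℚ` of conductor `N`. There are real numbers
`Ω₁, Ω₂ > 0` (the periods of `E`: the real and the imaginary parts of the periods of its newform
are `ℤ Ω₁` and `ℤ Ω₂`) such that

* `(1 + p - a_p) L(E, 1) ∈ ℤ Ω₁` for all primes `p ∤ N` (Manin), so `L(E, 1) ∈ ℚ Ω₁`;
* for `m > 1` prime to `N` and every primitive character `χ` modulo `m`,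
  `L(E, χ, 1) = g(χ) / m * Ω₁ * ∑ χ⁻¹(u) n_u` for even `χ`,
  `L(E, χ, 1) = g(χ) / m * (-i Ω₂) * ∑ χ⁻¹(u) n_u` for odd `χ` (Birch), with integers `n_u` which
  depend on the residue class `u` modulo `m` and the parity of `χ` only.
-/

set_option autoImplicit false

noncomputable section

open UpperHalfPlane hiding I
open CongruenceSubgroup ModularCurve.Period ModularFormClass Complex Filter Topology Set ZMod
open scoped MatrixGroups ComplexConjugate Real ModularForm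

namespace Fermat.Agent.Cor.HW.Per

open Fermat.Agent.HeckePar Fermat.Agent.S21per FermatAgent.HeckeEigen
open Fermat.Agent.Cor.HW.Twist

section form

variable {N : ℕ} [NeZero N] {f : CuspForm (Gamma0 N) 2} {m : ℕ} [NeZero m]

/-- **Birch's formula**: `L(f, χ, 1)` is `g(χ) / m` times a combination of periods. -/
theorem birch (hr : ∀ n, ∃ a : ℤ, qCoeff f n = a) (hNm : N.Coprime m) :
    ∃ (w : (ZMod m)ˣ → ℂ) (g : (ZMod m)ˣ → Gamma0 N),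
      (∀ u, w u = ModularForm.L (k := 2) two_pos f 1 + om f (Additive.ofMul (g u))) ∧
      (∀ u, w (-u) = conj (w u)) ∧
      ∀ χ : DirichletCharacter ℂ m, χ.IsPrimitive →
        LT f χ 1 = gaussSum χ stdAddChar / m * ∑ u : (ZMod m)ˣ, χ⁻¹ u * conj (w u) := by
  obtain ⟨F, hF⟩ := exists_goodPrim f
  obtain ⟨L, hL⟩ := exists_cusp_zero hF
  have h0 := tendsto_cusp_zero hF hL
  have hm : (m : ℝ) ≠ 0 := Nat.cast_ne_zero.mpr (NeZero.ne m)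
  have hmC : (m : ℂ) ≠ 0 := Nat.cast_ne_zero.mpr (NeZero.ne m)
  have hg : ∀ u : (ZMod m)ˣ, ∃ g : Gamma0 N,
      Tendsto (fun t : ℝ => F (vert (((u : ZMod m).val : ℝ) / m) t))
      (𝓝[>] 0) (𝓝 (L + periodLin N f (Additive.ofMul g))) := by
    intro u
    have hcop : (N * (u : ZMod m).val).Coprime m :=
      Nat.Coprime.mul_left hNm (ZMod.val_coe_unit_coprime u)
    obtain ⟨γ, h01, h11⟩ := exists_gamma hcop
    refine ⟨γ, tendsto_cusp hF hL γ ?_ ?_⟩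
    · rw [h11]
      exact_mod_cast NeZero.ne m
    · rw [h01, h11]
      push_cast
      field_simp
  choose g hg using hg
  set w : (ZMod m)ˣ → ℂ := fun u =>
    ModularForm.L (k := 2) two_pos f 1 + om f (Additive.ofMul (g u)) with hw
  have hw2 : ∀ u, w u = 2 * π * I * (L + periodLin N f (Additive.ofMul (g u))) := by
    intro u
    rw [hw]
    simp only
    rw [L_one_eq hF h0, om_apply]
    ring
  have hconj : ∀ u, w (-u) = conj (w u) := by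
    intro u
    obtain ⟨k, hk⟩ : ∃ k : ℤ, (((-u : (ZMod m)ˣ) : ZMod m).val : ℝ) / m =
        k - ((u : ZMod m).val : ℝ) / m := by
      rw [Units.val_neg, ZMod.neg_val]
      split_ifs with h
      · refine ⟨0, ?_⟩
        rw [h, ZMod.val_zero]
        simp
      · refine ⟨1, ?_⟩
        rw [Nat.cast_sub (ZMod.val_le _)]
        push_cast
        field_simp
    have h2 := cusp_neg hr hF hk (hg u) (hg (-u))
    rw [hw2, hw2, h2]
    simp only [map_mul, conj_I, conj_ofReal, map_ofNat]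
    ring
  refine ⟨w, g, fun u => rfl, hconj, fun χ hχ => ?_⟩
  rw [LT_eq]
  simp only
  have h1 : ∀ u : ZMod m, u ∉ Set.range (Units.val : (ZMod m)ˣ → ZMod m) →
      (m : ℂ)⁻¹ * 𝓕 (χ : ZMod m → ℂ) u *
        (mellin (fun t : ℝ => addT f u (ofComplex (I * (t : ℂ)))) 1 * (2 / Gammaℂ 1)) = 0 := by
    intro u hu
    have hu' : ¬ IsUnit u := fun ⟨v, hv⟩ => hu ⟨v, hv⟩
    have h1 : χ⁻¹ (-u) = 0 := MulChar.map_nonunit _ (by rwa [IsUnit.neg_iff])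
    rw [hχ.fourierTransform_eq_inv_mul_gaussSum, h1, zero_mul, mul_zero, zero_mul]
  rw [← Fintype.sum_of_injective (Units.val : (ZMod m)ˣ → ZMod m) Units.val_injective
    (fun u : (ZMod m)ˣ => (m : ℂ)⁻¹ * 𝓕 (χ : ZMod m → ℂ) u *
      (mellin (fun t : ℝ => addT f (u : ZMod m) (ofComplex (I * (t : ℂ)))) 1 *
        (2 / Gammaℂ 1))) _ h1 (fun u => rfl)]
  rw [← Equiv.sum_comp (Equiv.neg (ZMod m)ˣ), Finset.mul_sum]
  refine Finset.sum_congr rfl fun u _ => ?_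
  simp only [Equiv.neg_apply]
  rw [mellin_addT_one hF _ (hg (-u)), ← hw2, hconj,
    hχ.fourierTransform_eq_inv_mul_gaussSum, Units.val_neg, neg_neg]
  ring

/-- **Birch's formula for even characters.** -/
theorem sum_even {χ : DirichletCharacter ℂ m} (hχ : χ.Even) {w : (ZMod m)ˣ → ℂ}
    (hw : ∀ u, w (-u) = conj (w u)) :
    ∑ u : (ZMod m)ˣ, χ⁻¹ u * conj (w u) = ∑ u : (ZMod m)ˣ, χ⁻¹ u * ((w u).re : ℂ) := by
  have h1 : χ⁻¹ (-1) = 1 := by rw [inv_chi_neg_one]; exact hχ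
  have h2 : ∑ u : (ZMod m)ˣ, χ⁻¹ u * conj (w u) = ∑ u : (ZMod m)ˣ, χ⁻¹ u * w u := by
    rw [← Equiv.sum_comp (Equiv.neg (ZMod m)ˣ)]
    refine Finset.sum_congr rfl fun u _ => ?_
    simp only [Equiv.neg_apply]
    rw [hw, conj_conj, Units.val_neg, ← neg_one_mul, map_mul, h1, one_mul]
  have h3 : ∑ u : (ZMod m)ˣ, χ⁻¹ u * ((w u).re : ℂ) = (∑ u : (ZMod m)ˣ, χ⁻¹ u * conj (w u) +
      ∑ u : (ZMod m)ˣ, χ⁻¹ u * w u) / 2 := by
    rw [← Finset.sum_add_distrib, Finset.sum_div]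
    refine Finset.sum_congr rfl fun u _ => ?_
    rw [re_eq_add_conj]
    ring
  rw [h3, h2]
  ring

/-- **Birch's formula for odd characters.** -/
theorem sum_odd {χ : DirichletCharacter ℂ m} (hχ : χ.Odd) {w : (ZMod m)ˣ → ℂ}
    (hw : ∀ u, w (-u) = conj (w u)) :
    ∑ u : (ZMod m)ˣ, χ⁻¹ u * conj (w u) = -I * ∑ u : (ZMod m)ˣ, χ⁻¹ u * ((w u).im : ℂ) := by
  have h1 : χ⁻¹ (-1) = -1 := by rw [inv_chi_neg_one]; exact hχ
  have h2 : ∑ u : (ZMod m)ˣ, χ⁻¹ u * w u = -∑ u : (ZMod m)ˣ, χ⁻¹ u * conj (w u) := by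
    rw [← Equiv.sum_comp (Equiv.neg (ZMod m)ˣ), ← Finset.sum_neg_distrib]
    refine Finset.sum_congr rfl fun u _ => ?_
    simp only [Equiv.neg_apply]
    rw [hw, Units.val_neg, ← neg_one_mul, map_mul, h1]
    ring
  have h3 : ∑ u : (ZMod m)ˣ, χ⁻¹ u * ((w u).im : ℂ) = (∑ u : (ZMod m)ˣ, χ⁻¹ u * w u -
      ∑ u : (ZMod m)ˣ, χ⁻¹ u * conj (w u)) / (2 * I) := by
    rw [← Finset.sum_sub_distrib, Finset.sum_div]
    refine Finset.sum_congr rfl fun u _ => ?_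
    rw [im_eq_sub_conj]
    ring
  rw [h3, h2]
  have hI : (I : ℂ) ≠ 0 := I_ne_zero
  field_simp
  ring

theorem sum_inv_eq_zero {χ : DirichletCharacter ℂ m} (hχ : χ ≠ 1) :
    ∑ u : (ZMod m)ˣ, χ⁻¹ u = 0 := by
  have h1 : χ⁻¹ ≠ 1 := fun h => hχ (inv_eq_one.mp h)
  have h2 := MulChar.sum_eq_zero_of_ne_one h1
  rw [← h2]
  exact Fintype.sum_of_injective (Units.val : (ZMod m)ˣ → ZMod m) Units.val_injective _ _
    (fun u hu => MulChar.map_nonunit _ fun ⟨v, hv⟩ => hu ⟨v, hv⟩) (fun u => rfl)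

end form

/-! ### Periods -/

section periods

variable {N : ℕ} [NeZero N]

/-- `Ω₁, Ω₂ > 0` generate the groups of the real and of the imaginary parts of the periods
`2 π i ∫ f` over the paths from `z` to `γ z`, `γ ∈ Γ₀(N)`. -/
structure IsPeriods (f : CuspForm (Gamma0 N) 2) (Ω₁ Ω₂ : ℝ) : Prop where
  pos₁ : 0 < Ω₁
  pos₂ : 0 < Ω₂
  re : ∀ x : ℝ, (∃ γ, (om f γ).re = x) ↔ ∃ n : ℤ, x = n * Ω₁
  im : ∀ x : ℝ, (∃ γ, (om f γ).im = x) ↔ ∃ n : ℤ, x = n * Ω₂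

variable {f : CuspForm (Gamma0 N) 2} {Ω₁ Ω₂ : ℝ}

/-- **The periods of an eigenform with integral eigenvalues.** -/
theorem exists_isPeriods (hf : f.IsNormalizedEigenform)
    (ha : ∀ ℓ : Nat.Primes, ∃ a : ℤ, qCoeff f ℓ = a) : ∃ Ω₁ Ω₂ : ℝ, IsPeriods f Ω₁ Ω₂ := by
  obtain ⟨Ω₁, Ω₂, h₁, h₂, φ₁, φ₂, hφ₁, hφ₂, e₁, e₂⟩ := exists_periods hf ha
  refine ⟨Ω₁, Ω₂, h₁, h₂, fun x => ⟨?_, ?_⟩, fun x => ⟨?_, ?_⟩⟩
  · rintro ⟨γ, rfl⟩
    exact ⟨φ₁ γ, by rw [e₁, mul_comm]⟩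
  · rintro ⟨n, rfl⟩
    obtain ⟨γ, hγ⟩ := hφ₁ n
    exact ⟨γ, by rw [e₁, hγ, mul_comm]⟩
  · rintro ⟨γ, rfl⟩
    exact ⟨φ₂ γ, by rw [e₂, mul_comm]⟩
  · rintro ⟨n, rfl⟩
    obtain ⟨γ, hγ⟩ := hφ₂ n
    exact ⟨γ, by rw [e₂, hγ, mul_comm]⟩

theorem eq_of_int_multiples {a b : ℝ} (ha : 0 < a) (hb : 0 < b)
    (h : ∀ x : ℝ, (∃ n : ℤ, x = n * a) ↔ ∃ n : ℤ, x = n * b) : a = b := by
  obtain ⟨n, hn⟩ := (h a).mp ⟨1, by simp⟩
  obtain ⟨k, hk⟩ := (h b).mpr ⟨1, by simp⟩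
  have hn0 : (0 : ℝ) < n := by
    by_contra h0
    push Not at h0
    nlinarith
  have hk0 : (0 : ℝ) < k := by
    by_contra h0
    push Not at h0
    nlinarith
  have hn1 : (1 : ℝ) ≤ n := by
    have : 0 < n := by exact_mod_cast hn0
    exact_mod_cast this
  have hk1 : (1 : ℝ) ≤ k := by
    have : 0 < k := by exact_mod_cast hk0
    exact_mod_cast this
  nlinarith

theorem IsPeriods.unique {Ω₁' Ω₂' : ℝ} (h : IsPeriods f Ω₁ Ω₂) (h' : IsPeriods f Ω₁' Ω₂') :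
    Ω₁ = Ω₁' ∧ Ω₂ = Ω₂' :=
  ⟨eq_of_int_multiples h.pos₁ h'.pos₁ fun x => (h.re x).symm.trans (h'.re x),
    eq_of_int_multiples h.pos₂ h'.pos₂ fun x => (h.im x).symm.trans (h'.im x)⟩

/-- **Manin**: `(1 + p - a_p) L(f, 1) ∈ ℤ Ω₁`. -/
theorem IsPeriods.manin (h : IsPeriods f Ω₁ Ω₂) (hf : f.IsNormalizedEigenform)
    (ha : ∀ ℓ : Nat.Primes, ∃ a : ℤ, qCoeff f ℓ = a) {p : ℕ} (hp : p.Prime) (hpN : ¬ p ∣ N) :
    ∃ n : ℤ, (1 + p - qCoeff f p) * ModularForm.L (k := 2) two_pos f 1 = n * Ω₁ := by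
  have : Fact p.Prime := ⟨hp⟩
  obtain ⟨g, hg⟩ := Per.manin hf hpN
  obtain ⟨a, ha'⟩ := ha ⟨p, hp⟩
  have hL := L_one_im (f := f) (exists_int_qCoeff hf ha)
  choose n hn using fun j : ZMod p => (h.re _).mp ⟨Additive.ofMul (g j), rfl⟩
  refine ⟨-∑ j, n j, ?_⟩
  apply Complex.ext
  · rw [hg, neg_re, re_sum]
    simp only [hn]
    push_cast
    rw [neg_mul, neg_re, ← Finset.sum_mul]
    congr 1
    norm_cast
  · have h1 : (1 + p - qCoeff f p : ℂ) = ((1 + p - a : ℝ) : ℂ) := by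
      simp only at ha'
      rw [ha']
      push_cast
      rfl
    have h2 : ∀ k : ℤ, ((k : ℂ) * (Ω₁ : ℂ)).im = 0 := by
      intro k
      have h3 : (k : ℂ) * (Ω₁ : ℂ) = ((k * Ω₁ : ℝ) : ℂ) := by
        push_cast
        rfl
      rw [h3, ofReal_im]
    rw [h1, im_ofReal_mul, hL, mul_zero, h2]

/-- **The values at `s = 1` of the twists of `f`** (Birch, Manin, Shimura). -/
theorem IsPeriods.twist (h : IsPeriods f Ω₁ Ω₂) (hf : f.IsNormalizedEigenform)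
    (ha : ∀ ℓ : Nat.Primes, ∃ a : ℤ, qCoeff f ℓ = a) (m : ℕ) [NeZero m] (hNm : N.Coprime m) :
    ∃ n₁ n₂ : (ZMod m)ˣ → ℤ, (∀ u, n₁ (-u) = n₁ u) ∧ (∀ u, n₂ (-u) = -n₂ u) ∧
      ∀ χ : DirichletCharacter ℂ m, χ.IsPrimitive → χ ≠ 1 →
        (χ.Even → LT f χ 1 = gaussSum χ stdAddChar / m * Ω₁ *
          ∑ u : (ZMod m)ˣ, χ⁻¹ u * n₁ u) ∧
        (χ.Odd → LT f χ 1 = gaussSum χ stdAddChar / m * (-I * Ω₂) *
          ∑ u : (ZMod m)ˣ, χ⁻¹ u * n₂ u) := by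
  have hr := exists_int_qCoeff hf ha
  obtain ⟨w, g, hw, hconj, hb⟩ := birch (m := m) hr hNm
  choose n₁ hn₁ using fun u : (ZMod m)ˣ => (h.re _).mp ⟨Additive.ofMul (g u), rfl⟩
  choose n₂ hn₂ using fun u : (ZMod m)ˣ => (h.im _).mp ⟨Additive.ofMul (g u), rfl⟩
  set Lr : ℝ := (ModularForm.L (k := 2) two_pos f 1).re with hLr
  have hre : ∀ u, (w u).re = Lr + n₁ u * Ω₁ := fun u => by rw [hw, add_re, hn₁]
  have him : ∀ u, (w u).im = n₂ u * Ω₂ := fun u => by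
    rw [hw, add_im, hn₂, L_one_im hr, zero_add]
  refine ⟨n₁, n₂, fun u => ?_, fun u => ?_, fun χ hχ hχ1 => ⟨fun he => ?_, fun ho => ?_⟩⟩
  · have h1 := congrArg Complex.re (hconj u)
    rw [conj_re, hre, hre] at h1
    have h2 := mul_right_cancel₀ h.pos₁.ne' (add_left_cancel h1)
    exact_mod_cast h2
  · have h1 := congrArg Complex.im (hconj u)
    rw [conj_im, him, him, ← neg_mul] at h1
    have h2 := mul_right_cancel₀ h.pos₂.ne' h1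
    exact_mod_cast h2
  · rw [hb χ hχ, sum_even he hconj]
    have h1 : ∑ u : (ZMod m)ˣ, χ⁻¹ u * ((w u).re : ℂ) =
        Lr * ∑ u : (ZMod m)ˣ, χ⁻¹ u + Ω₁ * ∑ u : (ZMod m)ˣ, χ⁻¹ u * n₁ u := by
      rw [Finset.mul_sum, Finset.mul_sum, ← Finset.sum_add_distrib]
      refine Finset.sum_congr rfl fun u _ => ?_
      rw [hre]
      push_cast
      ring
    rw [h1, sum_inv_eq_zero hχ1]
    ring
  · rw [hb χ hχ, sum_odd ho hconj]
    have h1 : ∑ u : (ZMod m)ˣ, χ⁻¹ u * ((w u).im : ℂ) =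
        Ω₂ * ∑ u : (ZMod m)ˣ, χ⁻¹ u * n₂ u := by
      rw [Finset.mul_sum]
      refine Finset.sum_congr rfl fun u _ => ?_
      rw [him]
      push_cast
      ring
    rw [h1]
    ring

end periods

/-! ### Elliptic curves -/

section curve

variable {W : WeierstrassCurve ℤ} {Ω₁ Ω₂ : ℝ}

/-- `Ω₁, Ω₂` are the real and the imaginary period of (the newform of) `W`. -/
def IsPeriodsOf (W : WeierstrassCurve ℤ) (Ω₁ Ω₂ : ℝ) : Prop :=
  ∃ f : CuspForm (Gamma0 W.conductorLevel) 2, f.IsNewform ∧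
    (∀ p : ℕ, p.Prime → qCoeff f p = (ap W p : ℂ)) ∧ IsPeriods f Ω₁ Ω₂

/-- **Every semistable elliptic curve over `ℚ` has a pair of periods.** -/
theorem exists_isPeriodsOf (hΔ : W.Δ ≠ 0) (hW : W.IsSemistableModel) :
    ∃ Ω₁ Ω₂ : ℝ, IsPeriodsOf W Ω₁ Ω₂ := by
  obtain ⟨f, ⟨hf, ha⟩, -⟩ := existsUnique_newform_ap hΔ hW
  obtain ⟨Ω₁, Ω₂, h⟩ := exists_isPeriods hf.1 fun ℓ => ⟨ap W ℓ, ha ℓ ℓ.2⟩
  exact ⟨Ω₁, Ω₂, f, hf, ha, h⟩

theorem IsPeriodsOf.unique (hΔ : W.Δ ≠ 0) (hW : W.IsSemistableModel) {Ω₁' Ω₂' : ℝ}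
    (h : IsPeriodsOf W Ω₁ Ω₂) (h' : IsPeriodsOf W Ω₁' Ω₂') : Ω₁ = Ω₁' ∧ Ω₂ = Ω₂' := by
  obtain ⟨f, hf, ha, hP⟩ := h
  obtain ⟨g, hg, hb, hP'⟩ := h'
  obtain ⟨f₀, -, h₀⟩ := existsUnique_newform_ap hΔ hW
  have e : f = g := (h₀ f ⟨hf, ha⟩).trans (h₀ g ⟨hg, hb⟩).symm
  subst e
  exact hP.unique hP'

/-- **Manin**: `(1 + p - a_p) L(W, 1) ∈ ℤ Ω₁` for every good prime `p`. -/
theorem IsPeriodsOf.manin (hΔ : W.Δ ≠ 0) (hP : IsPeriodsOf W Ω₁ Ω₂) {L : ℂ → ℂ}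
    (hL : IsHasseWeil W L) {p : ℕ} (hp : p.Prime) (hpΔ : ¬ (p : ℤ) ∣ W.Δ) :
    ∃ n : ℤ, (1 + p - ap W p) * L 1 = n * Ω₁ := by
  obtain ⟨f, hf, ha, hP⟩ := hP
  rw [hL.unique (isHasseWeil hΔ hf ha), ← ha p hp]
  exact hP.manin hf.1 (fun ℓ => ⟨ap W ℓ, ha ℓ ℓ.2⟩) hp
    fun h => hpΔ ((W.prime_dvd_conductorLevel_iff hΔ hp).mp h)

/-- **`L(W, 1)` is a rational multiple of the real period.** -/
theorem IsPeriodsOf.exists_rat (hΔ : W.Δ ≠ 0) (hP : IsPeriodsOf W Ω₁ Ω₂) {L : ℂ → ℂ}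
    (hL : IsHasseWeil W L) : ∃ q : ℚ, L 1 = q * Ω₁ := by
  obtain ⟨p, hp1, hp⟩ := Nat.exists_infinite_primes (W.Δ.natAbs + 1)
  have hpΔ : ¬ (p : ℤ) ∣ W.Δ := by
    intro h
    have h1 := Nat.le_of_dvd (Int.natAbs_pos.mpr hΔ) (Int.natCast_dvd.mp h)
    omega
  obtain ⟨n, hn⟩ := hP.manin hΔ hL hp hpΔ
  have hne : (1 + p - ap W p : ℂ) ≠ 0 := by
    obtain ⟨f, hf, ha, -⟩ := hP
    obtain ⟨α, β, hα, hβ, hsum, -⟩ := isHasse hΔ hf ha p hp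
    intro h0
    have h1 : (α + β : ℂ) = 1 + p := by
      rw [hsum, ha p hp]
      linear_combination -h0
    have h2 : ‖(1 + p : ℂ)‖ ≤ 2 * √p := by
      rw [← h1]
      refine (norm_add_le _ _).trans ?_
      linarith
    have h3 : ‖(1 + p : ℂ)‖ = 1 + p := by
      have h4 : (1 + p : ℂ) = ((1 + p : ℝ) : ℂ) := by push_cast; rfl
      rw [h4, norm_real, Real.norm_of_nonneg (by positivity)]
    rw [h3] at h2
    have h5 : √(p : ℝ) ^ 2 = p := Real.sq_sqrt (Nat.cast_nonneg p)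
    have h6 : (2 : ℝ) ≤ p := by exact_mod_cast hp.two_le
    have h7 : √(p : ℝ) = 1 := by nlinarith [sq_nonneg (√(p : ℝ) - 1)]
    rw [h7] at h5
    linarith
  refine ⟨n / (1 + p - ap W p), ?_⟩
  push_cast
  field_simp
  linear_combination hn

/-- **Algebraicity of the values `L(W, χ, 1)`.** For `m` prime to the conductor there are integers
`n₁(u), n₂(u)`, `u ∈ (ℤ/m)ˣ`, such that `L(W, χ, 1) = g(χ)/m * Ω₁ * ∑ χ⁻¹(u) n₁(u)` for every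
even primitive `χ ≠ 1` modulo `m` and `L(W, χ, 1) = g(χ)/m * (-i Ω₂) * ∑ χ⁻¹(u) n₂(u)` for every
odd one. -/
theorem IsPeriodsOf.twist (hΔ : W.Δ ≠ 0) (hP : IsPeriodsOf W Ω₁ Ω₂) (m : ℕ) [NeZero m]
    (hm : W.conductorLevel.Coprime m) :
    ∃ n₁ n₂ : (ZMod m)ˣ → ℤ, (∀ u, n₁ (-u) = n₁ u) ∧ (∀ u, n₂ (-u) = -n₂ u) ∧
      ∀ χ : DirichletCharacter ℂ m, χ.IsPrimitive → χ ≠ 1 → ∀ L : ℂ → ℂ, IsTwist W χ L →
        (χ.Even → L 1 = gaussSum χ stdAddChar / m * Ω₁ * ∑ u : (ZMod m)ˣ, χ⁻¹ u * n₁ u) ∧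
        (χ.Odd → L 1 = gaussSum χ stdAddChar / m * (-I * Ω₂) *
          ∑ u : (ZMod m)ˣ, χ⁻¹ u * n₂ u) := by
  obtain ⟨f, hf, ha, hP⟩ := hP
  obtain ⟨n₁, n₂, h₁, h₂, h⟩ := hP.twist hf.1 (fun ℓ => ⟨ap W ℓ, ha ℓ ℓ.2⟩) m hm
  refine ⟨n₁, n₂, h₁, h₂, fun χ hχ hχ1 L hL => ?_⟩
  rw [hL.unique (isTwist_LT hΔ hf ha χ)]
  exact h χ hχ hχ1

/-- Quadratic characters: `m L(W, χ, 1)²` is the square of an integral multiple of the period. -/
theorem IsPeriodsOf.quadratic (hΔ : W.Δ ≠ 0) (hP : IsPeriodsOf W Ω₁ Ω₂) {m : ℕ} [NeZero m]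
    (hm : W.conductorLevel.Coprime m) {χ : DirichletCharacter ℂ m} (hχ : χ.IsPrimitive)
    (hq : MulChar.IsQuadratic χ) (hχ1 : χ ≠ 1) {L : ℂ → ℂ} (hL : IsTwist W χ L) :
    (χ.Even → ∃ n : ℤ, m * L 1 ^ 2 = (n * Ω₁) ^ 2) ∧
      (χ.Odd → ∃ n : ℤ, m * L 1 ^ 2 = (n * Ω₂) ^ 2) := by
  obtain ⟨n₁, n₂, -, -, h⟩ := hP.twist hΔ m hm
  obtain ⟨he, ho⟩ := h χ hχ hχ1 L hL
  have hm0 : (m : ℂ) ≠ 0 := Nat.cast_ne_zero.mpr (NeZero.ne m)
  have hg := gauss_mul_gauss hχ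
  have hinv : χ⁻¹ = χ := hq.inv
  rw [hinv] at hg
  have hval : ∀ u : (ZMod m)ˣ, ∃ k : ℤ, χ⁻¹ (u : ZMod m) = k := by
    intro u
    rw [hinv]
    rcases hq u with h0 | h0 | h0
    · exact ⟨0, by rw [h0]; simp⟩
    · exact ⟨1, by rw [h0]; simp⟩
    · exact ⟨-1, by rw [h0]; simp⟩
  choose k hk using hval
  refine ⟨fun hev => ⟨∑ u, k u * n₁ u, ?_⟩, fun hodd => ⟨∑ u, k u * n₂ u, ?_⟩⟩
  · have h1 : χ (-1) = 1 := hev
    rw [h1, one_mul] at hg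
    rw [he hev]
    simp only [hk]
    push_cast
    generalize ∑ u : (ZMod m)ˣ, (k u : ℂ) * (n₁ u : ℂ) = S
    field_simp
    linear_combination (Ω₁ ^ 2 * S ^ 2 : ℂ) * hg
  · have h1 : χ (-1) = -1 := hodd
    rw [h1] at hg
    rw [ho hodd]
    simp only [hk]
    push_cast
    generalize ∑ u : (ZMod m)ˣ, (k u : ℂ) * (n₂ u : ℂ) = S
    have hI : I ^ 2 = -1 := I_sq
    field_simp
    rw [hI]
    linear_combination (-(Ω₂ ^ 2 * S ^ 2 : ℂ)) * hg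

/-! ### Conjugate characters -/

theorem conductor_ringHomComp {m : ℕ} [NeZero m] (χ : DirichletCharacter ℂ m) (σ : ℂ →+* ℂ) :
    DirichletCharacter.conductor (MulChar.ringHomComp χ σ) = χ.conductor := by
  have h1 : ∀ d : ℕ, DirichletCharacter.FactorsThrough (MulChar.ringHomComp χ σ) d ↔
      χ.FactorsThrough d := by
    intro d
    by_cases hd : d ∣ m
    · rw [DirichletCharacter.factorsThrough_iff_ker_unitsMap hd,
        DirichletCharacter.factorsThrough_iff_ker_unitsMap hd]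
      have h2 : (MulChar.toUnitHom (MulChar.ringHomComp χ σ)).ker =
          (MulChar.toUnitHom χ).ker := by
        ext u
        rw [MonoidHom.mem_ker, MonoidHom.mem_ker, ← Units.val_inj, ← Units.val_inj,
          MulChar.coe_toUnitHom, MulChar.coe_toUnitHom, MulChar.ringHomComp_apply,
          Units.val_one]
        constructor
        · intro h
          exact σ.injective (by rw [h, map_one])
        · intro h
          rw [h, map_one]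
      rw [h2]
    · exact ⟨fun h => absurd h.dvd hd, fun h => absurd h.dvd hd⟩
  rw [DirichletCharacter.conductor, DirichletCharacter.conductor]
  congr 1
  ext d
  exact h1 d

/-- **Conjugate characters**: `L(W, χ, 1) = 0` iff `L(W, σ ∘ χ, 1) = 0`. -/
theorem twist_eq_zero_iff (hΔ : W.Δ ≠ 0) (hW : W.IsSemistableModel) {m : ℕ} [NeZero m]
    (hm : W.conductorLevel.Coprime m) {χ : DirichletCharacter ℂ m} (hχ : χ.IsPrimitive)
    (σ : ℂ →+* ℂ) {L L' : ℂ → ℂ} (hL : IsTwist W χ L)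
    (hL' : IsTwist W (MulChar.ringHomComp χ σ) L') : L 1 = 0 ↔ L' 1 = 0 := by
  obtain ⟨Ω₁, Ω₂, hP⟩ := exists_isPeriodsOf hΔ hW
  obtain ⟨n₁, n₂, -, -, h⟩ := hP.twist hΔ m hm
  set ψ : DirichletCharacter ℂ m := MulChar.ringHomComp χ σ with hψ
  by_cases hχ1 : χ = 1
  · have h1 : ψ = χ := by
      rw [hψ, hχ1]
      refine MulChar.ext fun u => ?_
      rw [MulChar.ringHomComp_apply, MulChar.one_apply_coe, map_one]
    rw [h1] at hL'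
    rw [hL.unique hL']
  have hψ1 : ψ ≠ 1 := by
    intro h1
    refine hχ1 (MulChar.ext fun u => ?_)
    have h2 := congrArg (fun φ : DirichletCharacter ℂ m => φ (u : ZMod m)) h1
    simp only [hψ, MulChar.ringHomComp_apply, MulChar.one_apply_coe] at h2
    rw [MulChar.one_apply_coe]
    exact σ.injective (by rw [h2, map_one])
  have hψp : ψ.IsPrimitive := by
    rw [DirichletCharacter.isPrimitive_def, hψ, conductor_ringHomComp]
    exact hχ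
  obtain ⟨he, ho⟩ := h χ hχ hχ1 L hL
  obtain ⟨he', ho'⟩ := h ψ hψp hψ1 L' hL'
  have hm0 : (m : ℂ) ≠ 0 := Nat.cast_ne_zero.mpr (NeZero.ne m)
  have hΩ₁ : (Ω₁ : ℂ) ≠ 0 := by
    obtain ⟨f, -, -, h⟩ := hP
    exact_mod_cast h.pos₁.ne'
  have hΩ₂ : (Ω₂ : ℂ) ≠ 0 := by
    obtain ⟨f, -, -, h⟩ := hP
    exact_mod_cast h.pos₂.ne'
  have hinv : ∀ u : (ZMod m)ˣ, ψ⁻¹ (u : ZMod m) = σ (χ⁻¹ (u : ZMod m)) := by
    intro u
    rw [MulChar.inv_apply_eq_inv', MulChar.inv_apply_eq_inv', hψ, MulChar.ringHomComp_apply,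
      map_inv₀]
  have hsum : ∀ n : (ZMod m)ˣ → ℤ, ∑ u : (ZMod m)ˣ, ψ⁻¹ u * (n u : ℂ) =
      σ (∑ u : (ZMod m)ˣ, χ⁻¹ u * (n u : ℂ)) := by
    intro n
    rw [map_sum]
    refine Finset.sum_congr rfl fun u _ => ?_
    rw [hinv, map_mul, map_intCast]
  have hg := gauss_ne_zero hχ
  have hg' := gauss_ne_zero hψp
  rcases χ.even_or_odd with hev | hodd
  · have hev' : ψ.Even := by
      change ψ (-1) = 1
      rw [hψ, MulChar.ringHomComp_apply, show χ (-1) = 1 from hev, map_one]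
    rw [he hev, he' hev', hsum]
    generalize ∑ u : (ZMod m)ˣ, χ⁻¹ u * (n₁ u : ℂ) = S
    simp [hg, hg', hm0, hΩ₁]
  · have hodd' : ψ.Odd := by
      change ψ (-1) = -1
      rw [hψ, MulChar.ringHomComp_apply, show χ (-1) = -1 from hodd, map_neg, map_one]
    rw [ho hodd, ho' hodd', hsum]
    generalize ∑ u : (ZMod m)ˣ, χ⁻¹ u * (n₂ u : ℂ) = S
    simp [hg, hg', hm0, hΩ₂]

end curve

end Fermat.Agent.Cor.HW.Per
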