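import Fermat.Agent.Corollaries.HW.InfZeros

/-!
# The integral representation of `Λ(f, s)` with the functional equation built in

For a cusp form `f` of weight two on `Γ₀(N)` with `f ∣[2] W_N = c f`,
`Λ(f, s) = ∫_1^∞ f(i u / √N) (u^(s-1) - c u^(1-s)) du` for all `s`.
-/

set_option autoImplicit false

noncomputable section

open UpperHalfPlane hiding I
open CongruenceSubgroup ModularFormClass Complex MeasureTheory Filter Topology Set
open scoped MatrixGroups ModularForm Nat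

namespace Fermat.Agent.Cor.HW

variable {N : ℕ} [NeZero N]

theorem sqrt_pos_of_neZero : 0 < √(N : ℝ) :=
  Real.sqrt_pos.mpr (by exact_mod_cast Nat.pos_of_ne_zero (NeZero.ne N))

/-- `φ(u) = f(i u / √N)`. -/
def phi (f : CuspForm (Gamma0 N) 2) (u : ℝ) : ℂ := axis f ((√(N : ℝ))⁻¹ * u)

/-- `φ(1/u) = -c u² φ(u)`. -/
theorem phi_inv {A : GL (Fin 2) ℝ}
    (hA : (A : Matrix (Fin 2) (Fin 2) ℝ) = !![0, -1; (N : ℝ), 0]) {f : CuspForm (Gamma0 N) 2}
    {c : ℂ} (hf : (⇑f : ℍ → ℂ) ∣[(2 : ℤ)] A = c • ⇑f) {u : ℝ} (hu : 0 < u) :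
    phi f u⁻¹ = -c * (u : ℂ) ^ 2 * phi f u := by
  have hN := sqrt_pos_of_neZero (N := N)
  have hN2 : √(N : ℝ) * √(N : ℝ) = N := Real.mul_self_sqrt (Nat.cast_nonneg N)
  have ht : 0 < (√(N : ℝ))⁻¹ * u := by positivity
  have h := apply_inv_I hA hf ht
  have e1 : ((N : ℝ) * ((√(N : ℝ))⁻¹ * u))⁻¹ = (√(N : ℝ))⁻¹ * u⁻¹ := by
    nth_rewrite 1 [← hN2]
    field_simp
  rw [e1] at h
  rw [phi, phi, axis, axis, h]
  have h2 : (I : ℂ) ^ (2 : ℤ) = -1 := by
    rw [show (2 : ℤ) = ((2 : ℕ) : ℤ) from rfl, zpow_natCast, I_sq]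
  have h3 : (N : ℂ) * ((((√(N : ℝ))⁻¹ * u : ℝ) : ℂ) ^ (2 : ℤ)) = (u : ℂ) ^ 2 := by
    rw [show (2 : ℤ) = ((2 : ℕ) : ℤ) from rfl, zpow_natCast]
    have h4 : (N : ℝ) * ((√(N : ℝ))⁻¹ * u) ^ 2 = u ^ 2 := by
      nth_rewrite 1 [← hN2]
      field_simp
    exact_mod_cast h4
  rw [h2]
  linear_combination (-c * f (ofComplex (I * (((√(N : ℝ))⁻¹ * u : ℝ) : ℂ)))) * h3

theorem mellin_phi (f : CuspForm (Gamma0 N) 2) (s : ℂ) : mellin (phi f) s = LamN f s := by
  have hN := sqrt_pos_of_neZero (N := N)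
  have hN0 : (N : ℂ) ≠ 0 := Nat.cast_ne_zero.mpr (NeZero.ne N)
  have h := mellin_comp_mul_left (axis f) s (a := (√(N : ℝ))⁻¹) (by positivity)
  have e1 : (((√(N : ℝ))⁻¹ : ℝ) : ℂ) ^ (-s) = (N : ℂ) ^ (s / 2) := by
    have h1 : (((√(N : ℝ))⁻¹ : ℝ) : ℂ) ≠ 0 := by exact_mod_cast (inv_pos.mpr hN).ne'
    rw [cpow_def_of_ne_zero h1, cpow_def_of_ne_zero hN0, ← ofReal_log (by positivity),
      Real.log_inv, Real.log_sqrt (Nat.cast_nonneg N), ← natCast_log]
    congr 1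
    push_cast
    ring
  rw [e1] at h
  rw [LamN, CuspForm.Λ_eq_mellin (Γ := ((Gamma0 N : Subgroup SL(2, ℤ)) : Subgroup (GL (Fin 2) ℝ)))
    (k := 2) two_pos f]
  exact h

theorem mellinConvergent_axis (f : CuspForm (Gamma0 N) 2) (s : ℂ) :
    MellinConvergent (axis f) s :=
  ((CuspForm.isStrongFEPair
    (Γ := ((Gamma0 N : Subgroup SL(2, ℤ)) : Subgroup (GL (Fin 2) ℝ))) (k := 2) two_pos
    f).hasMellin s).1

theorem mellinConvergent_phi (f : CuspForm (Gamma0 N) 2) (s : ℂ) :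
    MellinConvergent (phi f) s := by
  have hN := sqrt_pos_of_neZero (N := N)
  exact (MellinConvergent.comp_mul_left (f := axis f) (a := (√(N : ℝ))⁻¹) (by positivity)).mpr
    (mellinConvergent_axis f s)

theorem integrableOn_phi (f : CuspForm (Gamma0 N) 2) (s : ℂ) :
    IntegrableOn (fun u : ℝ => (u : ℂ) ^ s * phi f u) (Ioi 1) := by
  have h := (mellinConvergent_phi f (s + 1)).mono_set (Ioi_subset_Ioi (zero_le_one' ℝ))
  simpa using h

/-- **`Λ(f, s) = ∫_1^∞ f(i u / √N) (u^(s-1) - c u^(1-s)) du`** for all `s`. -/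
theorem LamN_eq_integral {A : GL (Fin 2) ℝ}
    (hA : (A : Matrix (Fin 2) (Fin 2) ℝ) = !![0, -1; (N : ℝ), 0]) {f : CuspForm (Gamma0 N) 2}
    {c : ℂ} (hf : (⇑f : ℍ → ℂ) ∣[(2 : ℤ)] A = c • ⇑f) (s : ℂ) :
    LamN f s = ∫ u in Ioi (1 : ℝ), ((u : ℂ) ^ (s - 1) - c * (u : ℂ) ^ (1 - s)) * phi f u := by
  have hconv := mellinConvergent_phi f s
  have h1 : LamN f s = (∫ u in Ioc (0 : ℝ) 1, (u : ℂ) ^ (s - 1) • phi f u) +
      ∫ u in Ioi (1 : ℝ), (u : ℂ) ^ (s - 1) • phi f u := by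
    rw [← mellin_phi, mellin, ← Ioc_union_Ioi_eq_Ioi zero_le_one,
      setIntegral_union (Ioc_disjoint_Ioi le_rfl) measurableSet_Ioi
        (hconv.mono_set Ioc_subset_Ioi_self)
        (hconv.mono_set (Ioi_subset_Ioi zero_le_one))]
  -- the part from `0` to `1`
  set G : ℝ → ℂ := (Ioi (1 : ℝ)).indicator fun v => phi f v⁻¹ with hG
  have h2 : (∫ u in Ioc (0 : ℝ) 1, (u : ℂ) ^ (s - 1) • phi f u) =
      mellin (fun u => G u⁻¹) s := by
    rw [integral_Ioc_eq_integral_Ioo, mellin]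
    have e1 : ∀ u ∈ Ioi (0 : ℝ), (u : ℂ) ^ (s - 1) • G u⁻¹ =
        (Ioo (0 : ℝ) 1).indicator (fun u : ℝ => (u : ℂ) ^ (s - 1) • phi f u) u := by
      intro u hu
      have hu' : 0 < u := hu
      by_cases h : u < 1
      · rw [indicator_of_mem (show u ∈ Ioo (0 : ℝ) 1 from ⟨hu', h⟩), hG,
          indicator_of_mem (show u⁻¹ ∈ Ioi (1 : ℝ) from (one_lt_inv₀ hu').mpr h), inv_inv]
      · rw [indicator_of_notMem (fun h' => h h'.2), hG, indicator_of_notMem, smul_zero]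
        intro h'
        exact h ((one_lt_inv₀ hu').mp h')
    rw [setIntegral_congr_fun measurableSet_Ioi e1, setIntegral_indicator measurableSet_Ioo,
      inter_eq_right.mpr Ioo_subset_Ioi_self]
  have h3 : mellin (fun u => G u⁻¹) s =
      ∫ u in Ioi (1 : ℝ), -c * (u : ℂ) ^ (1 - s) * phi f u := by
    rw [mellin_comp_inv, mellin]
    have e1 : ∀ u ∈ Ioi (0 : ℝ), (u : ℂ) ^ (-s - 1) • G u =
        (Ioi (1 : ℝ)).indicator (fun u : ℝ => -c * (u : ℂ) ^ (1 - s) * phi f u) u := by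
      intro u hu
      have hu' : 0 < u := hu
      by_cases h : 1 < u
      · rw [indicator_of_mem (show u ∈ Ioi (1 : ℝ) from h), hG,
          indicator_of_mem (show u ∈ Ioi (1 : ℝ) from h), phi_inv hA hf hu', smul_eq_mul]
        have hu0 : (u : ℂ) ≠ 0 := by exact_mod_cast hu'.ne'
        have e2 : (u : ℂ) ^ (1 - s) = (u : ℂ) ^ (-s - 1) * (u : ℂ) ^ 2 := by
          rw [← cpow_ofNat, ← cpow_add _ _ hu0]
          congr 1
          ring
        rw [e2]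
        ring
      · rw [indicator_of_notMem (show u ∉ Ioi (1 : ℝ) from h), hG,
          indicator_of_notMem (show u ∉ Ioi (1 : ℝ) from h), smul_zero]
    rw [setIntegral_congr_fun measurableSet_Ioi e1, setIntegral_indicator measurableSet_Ioi,
      inter_eq_right.mpr (Ioi_subset_Ioi zero_le_one)]
  have i1 : IntegrableOn (fun u : ℝ => (u : ℂ) ^ (s - 1) • phi f u) (Ioi 1) :=
    integrableOn_phi f (s - 1)
  have i2 : IntegrableOn (fun u : ℝ => -c * (u : ℂ) ^ (1 - s) * phi f u) (Ioi 1) := by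
    simp only [mul_assoc]
    exact (integrableOn_phi f (1 - s)).const_mul (-c)
  rw [h1, h2, h3, ← integral_add i2 i1]
  refine setIntegral_congr_fun measurableSet_Ioi fun u _ => ?_
  rw [smul_eq_mul]
  ring

/-! ### The Fourier expansion on the axis -/

/-- The parameter `x = 2π / √N`. -/
def xpar (N : ℕ) : ℝ := 2 * Real.pi / √(N : ℝ)

theorem xpar_pos : 0 < xpar N := div_pos (by positivity) sqrt_pos_of_neZero

/-- `f(i u / √N) = ∑ a_n e^(- n x u)`. -/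
theorem hasSum_phi (f : CuspForm (Gamma0 N) 2) {u : ℝ} (hu : 0 < u) :
    HasSum (fun n : ℕ => qCoeff f n * (Real.exp (-(n * (xpar N * u))) : ℂ)) (phi f u) := by
  have hN := sqrt_pos_of_neZero (N := N)
  have ht : 0 < (√(N : ℝ))⁻¹ * u := by positivity
  have : Fact (IsCusp OnePoint.infty (Gamma0 N : Subgroup (GL (Fin 2) ℝ))) :=
    ⟨Subgroup.isCusp_of_mem_strictPeriods one_pos (one_mem_strictPeriods_Gamma0 N)⟩
  have h := ModularForm.hasSum_qExpansion f one_pos (one_mem_strictPeriods_Gamma0 N)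
    (ofComplex (I * (((√(N : ℝ))⁻¹ * u : ℝ) : ℂ)))
  convert h using 1
  · funext n
    rw [qCoeff, Function.Periodic.qParam, coe_ofComplex_I ht, ← exp_nat_mul]
    congr 1
    push_cast
    congr 1
    rw [xpar]
    push_cast
    linear_combination (-(2 * (Real.pi : ℂ) * n * (√(N : ℝ) : ℂ)⁻¹ * u)) * I_sq
  · rfl

end Fermat.Agent.Cor.HW
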