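import Mathlib
import Fermat.Prelude.Def_FLTPrelim_Modularity

/-!
# The functional equation of a cusp form which is an eigenvector of the Fricke involution

`W = (0 -1; N 0)`, `f ∣[k] W = c f`: then `N^{s/2} Λ(f, s)` is entire and its value at `k - s` is
`i^k N^{1 - k/2} c` times its value at `s`. In weight two the constant is `-c`.
-/

set_option autoImplicit false

noncomputable section

open UpperHalfPlane hiding I
open CongruenceSubgroup Complex ModularFormClass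
open scoped MatrixGroups ModularForm

namespace Fermat.Agent.Cor.HW

variable {N : ℕ} [NeZero N]

omit [NeZero N] in
theorem det_of_val {W : GL (Fin 2) ℝ}
    (hW : (W : Matrix (Fin 2) (Fin 2) ℝ) = !![0, -1; (N : ℝ), 0]) : (W.det : ℝ) = N := by
  rw [Matrix.GeneralLinearGroup.val_det_apply, hW, Matrix.det_fin_two_of]
  ring

theorem det_pos_of_val {W : GL (Fin 2) ℝ}
    (hW : (W : Matrix (Fin 2) (Fin 2) ℝ) = !![0, -1; (N : ℝ), 0]) : 0 < (W.det : ℝ) := by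
  rw [det_of_val hW]
  exact_mod_cast Nat.pos_of_ne_zero (NeZero.ne N)

theorem coe_smul_of_val {W : GL (Fin 2) ℝ}
    (hW : (W : Matrix (Fin 2) (Fin 2) ℝ) = !![0, -1; (N : ℝ), 0]) (τ : ℍ) :
    ((W • τ : ℍ) : ℂ) = -1 / ((N : ℂ) * τ) := by
  rw [UpperHalfPlane.coe_smul_of_det_pos (det_pos_of_val hW)]
  simp [UpperHalfPlane.num, UpperHalfPlane.denom, hW]

theorem slash_of_val {W : GL (Fin 2) ℝ}
    (hW : (W : Matrix (Fin 2) (Fin 2) ℝ) = !![0, -1; (N : ℝ), 0]) (k : ℤ) (f : ℍ → ℂ) (τ : ℍ) :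
    (f ∣[k] W) τ = (N : ℂ) ^ (k - 1) * ((N : ℂ) * τ) ^ (-k) * f (W • τ) := by
  rw [ModularForm.slash_apply]
  have h1 : UpperHalfPlane.denom W τ = (N : ℂ) * τ := by
    simp [UpperHalfPlane.denom, hW]
  have h2 : UpperHalfPlane.σ W = ContinuousAlgEquiv.refl ℝ ℂ := by
    rw [UpperHalfPlane.σ, if_pos (det_pos_of_val hW)]
  have h3 : |(W.det : ℝ)| = N := by
    rw [abs_of_pos (det_pos_of_val hW), det_of_val hW]
  rw [h1, h2, h3]
  simp only [ContinuousAlgEquiv.coe_refl', id_eq, Complex.ofReal_natCast]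
  ring

theorem coe_ofComplex_I {t : ℝ} (ht : 0 < t) : ((ofComplex (I * (t : ℂ)) : ℍ) : ℂ) = I * t := by
  have h1 : 0 < (I * (t : ℂ)).im := by simpa using ht
  rw [ofComplex_apply_of_im_pos h1]

theorem smul_ofComplex_I {W : GL (Fin 2) ℝ}
    (hW : (W : Matrix (Fin 2) (Fin 2) ℝ) = !![0, -1; (N : ℝ), 0]) {t : ℝ} (ht : 0 < t) :
    W • ofComplex (I * (t : ℂ)) = ofComplex (I * (((N : ℝ) * t)⁻¹ : ℝ)) := by
  have hN0 : (0 : ℝ) < N := by exact_mod_cast Nat.pos_of_ne_zero (NeZero.ne N)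
  have hN : (N : ℂ) ≠ 0 := Nat.cast_ne_zero.mpr (NeZero.ne N)
  have hu : 0 < ((N : ℝ) * t)⁻¹ := inv_pos.mpr (mul_pos hN0 ht)
  have ht' : (t : ℂ) ≠ 0 := by exact_mod_cast ht.ne'
  ext
  rw [coe_smul_of_val hW, coe_ofComplex_I ht, coe_ofComplex_I hu]
  push_cast
  field_simp
  rw [I_sq]

/-- `f(i/(Nt)) = i^k N c t^k f(it)` if `f ∣[k] W = c f`. -/
theorem apply_inv_I {W : GL (Fin 2) ℝ}
    (hW : (W : Matrix (Fin 2) (Fin 2) ℝ) = !![0, -1; (N : ℝ), 0]) {k : ℤ} {f : ℍ → ℂ} {c : ℂ}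
    (hf : f ∣[k] W = c • f) {t : ℝ} (ht : 0 < t) :
    f (ofComplex (I * (((N : ℝ) * t)⁻¹ : ℝ))) =
      I ^ k * N * c * ((t : ℂ) ^ k * f (ofComplex (I * (t : ℂ)))) := by
  have hN : (N : ℂ) ≠ 0 := Nat.cast_ne_zero.mpr (NeZero.ne N)
  have ht' : (t : ℂ) ≠ 0 := by exact_mod_cast ht.ne'
  have h1 := congrFun hf (ofComplex (I * (t : ℂ)))
  rw [slash_of_val hW, smul_ofComplex_I hW ht, coe_ofComplex_I ht, Pi.smul_apply,
    smul_eq_mul] at h1
  have h2 : ((N : ℂ) * (I * t)) ^ k ≠ 0 := zpow_ne_zero _ (mul_ne_zero hN (mul_ne_zero I_ne_zero ht'))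
  rw [zpow_neg, zpow_sub_one₀ hN] at h1
  have h3 : f (ofComplex (I * (((N : ℝ) * t)⁻¹ : ℝ))) =
      ((N : ℂ) ^ k)⁻¹ * N * ((N : ℂ) * (I * t)) ^ k *
        (c * f (ofComplex (I * (t : ℂ)))) := by
    rw [← h1]
    have h4 : (N : ℂ) ^ k ≠ 0 := zpow_ne_zero _ hN
    generalize ((N : ℂ) * (I * t)) ^ k = A at h2 ⊢
    generalize f (ofComplex (I * (((N : ℝ) * t)⁻¹ : ℝ))) = X
    generalize (N : ℂ) ^ k = B at h4 ⊢
    field_simp
  rw [h3, mul_zpow, mul_zpow]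
  have h4 : (N : ℂ) ^ k ≠ 0 := zpow_ne_zero _ hN
  field_simp

/-- The Mellin transform of a function with `f ∣[k] W = c f` on the imaginary axis. -/
theorem mellin_eigen {W : GL (Fin 2) ℝ}
    (hW : (W : Matrix (Fin 2) (Fin 2) ℝ) = !![0, -1; (N : ℝ), 0]) {k : ℤ} {f : ℍ → ℂ} {c : ℂ}
    (hf : f ∣[k] W = c • f) (s : ℂ) :
    (N : ℂ) ^ (k - s) * mellin (fun t : ℝ => f (ofComplex (I * (t : ℂ)))) (k - s) =
      I ^ k * N * c * mellin (fun t : ℝ => f (ofComplex (I * (t : ℂ)))) s := by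
  have hN0 : (0 : ℝ) < N := by exact_mod_cast Nat.pos_of_ne_zero (NeZero.ne N)
  set G : ℝ → ℂ := fun t => f (ofComplex (I * (t : ℂ))) with hG
  have e1 : mellin (fun t : ℝ => (fun u => G u⁻¹) ((N : ℝ) * t)) (s - k) =
      mellin (fun t : ℝ => (I ^ k * N * c) • ((t : ℂ) ^ (k : ℂ) • G t)) (s - k) := by
    refine MeasureTheory.setIntegral_congr_fun measurableSet_Ioi fun t ht => ?_
    simp only
    rw [hG]
    simp only
    rw [apply_inv_I hW hf ht, smul_eq_mul, smul_eq_mul, smul_eq_mul, Complex.cpow_intCast]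
    rfl
  have e3 := mellin_comp_mul_left (fun u => G u⁻¹) (s - k) hN0
  rw [mellin_comp_inv] at e3
  rw [mellin_const_smul, mellin_cpow_smul, e3, smul_eq_mul, smul_eq_mul] at e1
  have e4 : -(s - (k : ℂ)) = k - s := by ring
  have e5 : s - (k : ℂ) + k = s := by ring
  rw [e4, e5] at e1
  rw [← e1]
  norm_cast

/-- The completed `L`-function of a cusp form of weight two on `Γ₀(N)`. -/
def LamN (f : CuspForm (Gamma0 N) 2) (s : ℂ) : ℂ :=
  (N : ℂ) ^ (s / 2) * ModularForm.Λ (Γ := ((Gamma0 N : Subgroup SL(2, ℤ)) : Subgroup (GL (Fin 2) ℝ)))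
    (k := 2) two_pos f s

/-- The completed `L`-function is entire. -/
theorem differentiable_LamN (f : CuspForm (Gamma0 N) 2) : Differentiable ℂ (LamN f) := by
  have hN : (N : ℂ) ≠ 0 := Nat.cast_ne_zero.mpr (NeZero.ne N)
  have h1 : Differentiable ℂ (ModularForm.Λ (k := 2) two_pos f) :=
    CuspForm.differentiable_Λ two_pos f
  have h2 : Differentiable ℂ fun s : ℂ => (N : ℂ) ^ (s / 2) := by
    intro s
    exact ((differentiableAt_id.div_const 2).const_cpow (Or.inl hN))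
  exact h2.mul h1

/-- **The functional equation** `Λ(2 - s) = -c Λ(s)`. -/
theorem LamN_two_sub {W : GL (Fin 2) ℝ}
    (hW : (W : Matrix (Fin 2) (Fin 2) ℝ) = !![0, -1; (N : ℝ), 0]) {f : CuspForm (Gamma0 N) 2}
    {c : ℂ} (hf : (⇑f : ℍ → ℂ) ∣[(2 : ℤ)] W = c • ⇑f) (s : ℂ) :
    LamN f (2 - s) = -c * LamN f s := by
  have hN : (N : ℂ) ≠ 0 := Nat.cast_ne_zero.mpr (NeZero.ne N)
  have h1 := mellin_eigen hW hf s
  rw [← CuspForm.Λ_eq_mellin (Γ := ((Gamma0 N : Subgroup SL(2, ℤ)) : Subgroup (GL (Fin 2) ℝ)))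
    (k := 2) two_pos f] at h1
  have h2 : ((2 : ℤ) : ℂ) = 2 := by norm_num
  have h3 : (I : ℂ) ^ (2 : ℤ) = -1 := by
    rw [show (2 : ℤ) = ((2 : ℕ) : ℤ) from rfl, zpow_natCast, I_sq]
  rw [h2, h3] at h1
  have e1 : (N : ℂ) ^ ((2 - s) / 2) ≠ 0 := by
    rw [Ne, Complex.cpow_eq_zero_iff]
    exact fun h => hN h.1
  have e2 : (N : ℂ) ^ (2 - s) = (N : ℂ) ^ ((2 - s) / 2) * (N : ℂ) ^ ((2 - s) / 2) := by
    rw [← Complex.cpow_add _ _ hN]
    congr 1
    ring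
  have e3 : (N : ℂ) = (N : ℂ) ^ ((2 - s) / 2) * (N : ℂ) ^ (s / 2) := by
    rw [← Complex.cpow_add _ _ hN]
    conv_lhs => rw [← Complex.cpow_one (N : ℂ)]
    congr 1
    ring
  rw [LamN, LamN]
  refine mul_left_cancel₀ e1 ?_
  rw [← mul_assoc, ← e2, h1]
  generalize (ModularForm.Λ (Γ := ((Gamma0 N : Subgroup SL(2, ℤ)) : Subgroup (GL (Fin 2) ℝ)))
    (k := 2) two_pos f s) = L
  linear_combination (-c * L) * e3

/-- The completed `L`-function is `N^{s/2} (2π)^{-s} Γ(s) L(f, s)` with Mathlib's `L(f, s)`. -/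
theorem LamN_eq_L (f : CuspForm (Gamma0 N) 2) {s : ℂ} (hs : 0 < s.re) :
    LamN f s = (N : ℂ) ^ (s / 2) * ((2 * (Real.pi : ℂ)) ^ (-s) * Gamma s *
      ModularForm.L (k := 2) two_pos f s) := by
  have hG : Gamma s ≠ 0 := Gamma_ne_zero_of_re_pos hs
  have hp : (2 * (Real.pi : ℂ)) ^ (-s) ≠ 0 := by
    rw [Ne, Complex.cpow_eq_zero_iff]
    exact fun h => (mul_ne_zero two_ne_zero (ofReal_ne_zero.mpr Real.pi_ne_zero)) h.1
  rw [LamN, ModularForm.L, Gammaℂ_def]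
  congr 1
  field_simp

theorem hasSum_L_two (f : CuspForm (Gamma0 N) 2) {s : ℂ} (hs : 2 < s.re) :
    HasSum (fun n : ℕ => qCoeff ⇑f n / (n : ℂ) ^ s) (ModularForm.L (k := 2) two_pos f s) := by
  have h := CuspForm.hasSum_L (Γ := ((Gamma0 N : Subgroup SL(2, ℤ)) : Subgroup (GL (Fin 2) ℝ)))
    (k := 2) f (hk := two_pos) (s := s) (by norm_num; linarith)
  rw [strictWidthInfty_Gamma0] at h
  simpa [qCoeff] using h

theorem lseries_two (f : CuspForm (Gamma0 N) 2) {s : ℂ} (hs : 2 < s.re) :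
    LSeriesSummable (qCoeff ⇑f) s ∧
      LSeries (qCoeff ⇑f) s = ModularForm.L (k := 2) two_pos f s := by
  have h := hasSum_L_two f hs
  have e : LSeries.term (qCoeff ⇑f) s = fun n : ℕ => qCoeff ⇑f n / (n : ℂ) ^ s := by
    ext n
    rcases eq_or_ne n 0 with rfl | hn
    · rw [LSeries.term_zero]
      have hs0 : s ≠ 0 := by
        rintro rfl
        rw [Complex.zero_re] at hs
        linarith
      rw [Nat.cast_zero, Complex.zero_cpow hs0, div_zero]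
    · rw [LSeries.term_of_ne_zero hn]
  constructor
  · rw [LSeriesSummable, e]
    exact h.summable
  · rw [LSeries, e]
    exact h.tsum_eq

/-- For `Re s > 2` the completed `L`-function is `N^{s/2} (2π)^{-s} Γ(s) Σ aₙ n^{-s}`. -/
theorem LamN_eq (f : CuspForm (Gamma0 N) 2) {s : ℂ} (hs : 2 < s.re) :
    LamN f s = (N : ℂ) ^ (s / 2) * ((2 * (Real.pi : ℂ)) ^ (-s) * Gamma s *
      LSeries (qCoeff ⇑f) s) := by
  rw [LamN_eq_L f (by linarith), (lseries_two f hs).2]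

/-- Two Fricke eigenvalues: if `f ≠ 0` then `c² = 1`. -/
theorem sq_eq_one_of_eigen {W : GL (Fin 2) ℝ}
    (hW : (W : Matrix (Fin 2) (Fin 2) ℝ) = !![0, -1; (N : ℝ), 0]) {f : ℍ → ℂ} (hf0 : f ≠ 0)
    {c : ℂ} (hf : f ∣[(2 : ℤ)] W = c • f) : c ^ 2 = 1 := by
  have hN : (N : ℂ) ≠ 0 := Nat.cast_ne_zero.mpr (NeZero.ne N)
  have h1 : ∀ τ : ℍ, W • W • τ = τ := by
    intro τ
    have hτ : (τ : ℂ) ≠ 0 := τ.ne_zero
    ext
    rw [coe_smul_of_val hW, coe_smul_of_val hW]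
    field_simp
  have h2 : ∀ τ : ℍ, f τ = c ^ 2 * f τ := by
    intro τ
    have hτ : (τ : ℂ) ≠ 0 := τ.ne_zero
    have a1 := congrFun hf τ
    have a2 := congrFun hf (W • τ)
    rw [slash_of_val hW, Pi.smul_apply, smul_eq_mul] at a1 a2
    rw [h1 τ, coe_smul_of_val hW] at a2
    have a3 : f (W • τ) = (N : ℂ) * (τ : ℂ) ^ 2 * (c * f τ) := by
      rw [← a1]
      simp only [show (2 : ℤ) - 1 = 1 from rfl, zpow_one, zpow_neg]
      rw [show ((N : ℂ) * (τ : ℂ)) ^ (2 : ℤ) = ((N : ℂ) * (τ : ℂ)) ^ 2 from by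
        rw [show (2 : ℤ) = ((2 : ℕ) : ℤ) from rfl, zpow_natCast]]
      field_simp
    rw [a3] at a2
    simp only [show (2 : ℤ) - 1 = 1 from rfl, zpow_one, zpow_neg] at a2
    rw [show ((N : ℂ) * (-1 / ((N : ℂ) * (τ : ℂ)))) ^ (2 : ℤ) =
        ((N : ℂ) * (-1 / ((N : ℂ) * (τ : ℂ)))) ^ 2 from by
      rw [show (2 : ℤ) = ((2 : ℕ) : ℤ) from rfl, zpow_natCast]] at a2
    field_simp at a2
    linear_combination a2
  obtain ⟨τ, hτ⟩ := Function.ne_iff.mp hf0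
  have h3 := h2 τ
  have hτ' : f τ ≠ 0 := hτ
  have h4 : (c ^ 2 - 1) * f τ = 0 := by linear_combination -h3
  rcases mul_eq_zero.mp h4 with h5 | h5
  · linear_combination h5
  · exact absurd h5 hτ'

end Fermat.Agent.Cor.HW

end
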