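import Fermat.Agent.Oldforms.Newform

/-!
# Newforms of squarefree level are eigenforms of the Fricke involution (K8 (c1), helper55)

For a newform `f` of squarefree level `N` the Atkin-Lehner involution at `q ∣ N` is `w_q f = - a_q(f) f`
(the traces to level `N / q` of `f` and of `w_q f` vanish), and for `Q ∣ N` every integral matrix
`(Q a, b; N c, Q d)` of determinant `Q` is a product of such matrices for the primes dividing `Q`.
-/

set_option autoImplicit false

noncomputable section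

open CongruenceSubgroup ModularFormClass FermatAgent.HeckeEigen Matrix.SpecialLinearGroup
open Fermat.Agent.HeckePar
open scoped MatrixGroups ModularForm

namespace Fermat.Agent.Cor.HW

open Fermat.Agent.Oldforms

variable {N : ℕ} [NeZero N] {f : CuspForm (Gamma0 N) 2}

/-- The trace to level `N / q` of a form with the eigenvalues (at the primes `p ≠ q`) of a newform of level
`N` is zero. -/
theorem tr_eq_zero {M q : ℕ} (D : ALData N M q) (hf : f.IsNewform) (F : CuspForm (Gamma0 N) 2)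
    (hF : ∀ p : Nat.Primes, (p : ℕ) ≠ q → heckeOp N 2 p F = qCoeff ⇑f p • F) : D.tr F = 0 := by
  have : NeZero M := D.neZero_M
  by_contra hF0
  obtain ⟨g, hg, hg2⟩ := exists_eigenform_of_joint (N := M) {p : Nat.Primes | (p : ℕ) ≠ q}
    (fun p => qCoeff ⇑f p) (D.tr F) hF0 (fun p hp => by
      rw [← D.tr_heckeOp p hp, hF p hp, map_smul])
  have hMN : M ∣ N := D.dvdMN
  have hne : M ≠ N := by
    intro h
    have hN0 : 0 < M := Nat.pos_of_ne_zero (NeZero.ne M)
    have h1 : M = q * M := by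
      conv_lhs => rw [h]
      exact D.hN
    have h2 := D.hq.two_le
    nlinarith
  refine hf.2 M hMN hne ⟨g, hg, fun ℓ hℓ hℓN => hg2 ⟨ℓ, hℓ⟩ ?_⟩
  rintro rfl
  exact hℓN D.dvdqN

/-- **`w_q f = - a_q(f) f`** for a newform `f` of level `N`, `q ‖ N`. -/
theorem w_eq_of_isNewform {M q : ℕ} (D : ALData N M q) (hf : f.IsNewform) :
    D.w 2 f = (-qCoeff ⇑f q) • f := by
  have h := tr_eq_zero D hf (D.w 2 f) (fun p hp => by
    rw [← D.w_heckeOp 2 p hp, heckeOp_eq_of_isNormalizedEigenform hf.1 p, map_smul])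
  have h2 : D.trN (D.w 2 f) = 0 := by rw [← ALData.restr_tr, h, map_zero]
  rw [ALData.trN_apply, ALData.w_w, heckeOp_eq_of_isNormalizedEigenform hf.1 D.qp] at h2
  rw [neg_smul]
  exact eq_neg_of_add_eq_zero_left h2

/-- **Matrices of type `Q`** act on a newform of squarefree level by `∏_{q ∣ Q} (- a_q)`. -/
theorem slash_type (hsq : Squarefree N) (hf : f.IsNewform) (Q : ℕ) :
    Q ∣ N → ∀ (α : GL (Fin 2) ℝ) (A : Matrix (Fin 2) (Fin 2) ℤ),
      (α : Matrix (Fin 2) (Fin 2) ℝ) = A.map (Int.cast) → A.det = Q → (Q : ℤ) ∣ A 0 0 →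
      (N : ℤ) ∣ A 1 0 → (Q : ℤ) ∣ A 1 1 →
      (⇑f : UpperHalfPlane → ℂ) ∣[(2 : ℤ)] α = (∏ q ∈ Q.primeFactors, (-qCoeff ⇑f q)) • ⇑f := by
  induction Q using Nat.strongRecOn with
  | ind Q ih =>
  intro hQN α A hα hdet h00 h10 h11
  by_cases hQ1 : Q = 1
  · subst hQ1
    rw [Nat.primeFactors_one, Finset.prod_empty, one_smul]
    have hdet' : A.det = 1 := by rw [hdet]; rfl
    obtain ⟨g, hg⟩ : ∃ g : SL(2, ℤ), (g : Matrix (Fin 2) (Fin 2) ℤ) = A := ⟨⟨A, hdet'⟩, rfl⟩
    have h : α = mapGL ℝ g := by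
      apply Units.ext
      rw [hα, val_mapGL, hg]
    rw [h]
    rw [← hg] at h10
    exact SlashInvariantFormClass.slash_action_eq f _
      (Subgroup.mem_map_of_mem _ (ALData.mem_Gamma0_iff_dvd.mpr h10))
  · obtain ⟨q, hq, hqQ⟩ := Nat.exists_prime_and_dvd hQ1
    obtain ⟨Q', hQ'⟩ := hqQ
    obtain ⟨M, hM⟩ : q ∣ N := (Dvd.intro _ hQ'.symm).trans hQN
    have hQsq : Squarefree Q := hsq.squarefree_of_dvd hQN
    have hqQ' : ¬ q ∣ Q' := by
      rintro ⟨t, rfl⟩
      exact hq.one_lt.ne' (Nat.isUnit_iff.mp (hQsq q ⟨t, by rw [hQ']; ring⟩))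
    have hqM : ¬ q ∣ M := by
      rintro ⟨t, rfl⟩
      exact hq.one_lt.ne' (Nat.isUnit_iff.mp (hsq q ⟨t, by rw [hM]; ring⟩))
    have hQ'M : (Q' : ℤ) ∣ M := by
      have h1 : q * Q' ∣ q * M := by rw [← hQ', ← hM]; exact hQN
      exact_mod_cast Nat.dvd_of_mul_dvd_mul_left hq.pos h1
    have hQ'N : Q' ∣ N := (Dvd.intro_left q hQ'.symm).trans hQN
    have hQ'0 : Q' ≠ 0 := by
      rintro rfl
      rw [mul_zero] at hQ'
      exact hQsq.ne_zero hQ'
    have hlt : Q' < Q := by
      rw [hQ']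
      have := hq.two_le
      have := Nat.pos_of_ne_zero hQ'0
      nlinarith
    obtain ⟨D⟩ := exists_ALData hq hM hqM
    have hN := D.hNZ
    have hh := D.h
    have hQZ : (Q : ℤ) = q * Q' := by rw [hQ']; push_cast; rfl
    obtain ⟨a, ha⟩ := h00
    obtain ⟨c, hc⟩ := h10
    obtain ⟨d, hd⟩ := h11
    obtain ⟨m, hm⟩ := hQ'M
    set b := A 0 1 with hb
    have hA : A = !![(q : ℤ) * Q' * a, b; (N : ℤ) * c, q * Q' * d] := by
      ext i j
      fin_cases i <;> fin_cases j <;> simp [ha, hb, hc, hd, hQZ]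
    have hdet2 : (q : ℤ) * Q' * a * (q * Q' * d) - b * (N * c) = q * Q' := by
      rw [hA, Matrix.det_fin_two_of, hQZ] at hdet
      exact hdet
    -- the other factor
    set B : Matrix (Fin 2) (Fin 2) ℤ := !![(q : ℤ) * Q' * a - b * M, -(Q' * a * D.y) + b * D.x;
      (N : ℤ) * (c - Q' * d), -(M * c * D.y) + q * Q' * d * D.x] with hBdef
    have hAB : A * 1 = B * D.intW := by
      rw [mul_one, hA, hBdef, ALData.intW]
      ext i j
      fin_cases i <;> fin_cases j <;> simp [Matrix.mul_apply, Fin.sum_univ_two] <;> try rw [hN]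
      · linear_combination (-(q : ℤ) * Q' * a) * hh
      · linear_combination (-b) * hh
      · linear_combination (-(q : ℤ) * M * c) * hh
      · linear_combination (-(q : ℤ) * Q' * d) * hh
    have hdetB : B.det = Q' := by
      have h1 : A.det = B.det * D.intW.det := by
        rw [← Matrix.det_mul, ← hAB, mul_one]
      have h2 : D.intW.det = q := by
        rw [ALData.intW, Matrix.det_fin_two_of]
        rw [hN]
        linear_combination (q : ℤ) * hh
      have hq0 : (q : ℤ) ≠ 0 := by exact_mod_cast hq.ne_zero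
      apply mul_right_cancel₀ hq0
      rw [hdet, hQZ, h2] at h1
      rw [← h1]
      ring
    have hdetR : (B.map (Int.cast) : Matrix (Fin 2) (Fin 2) ℝ).det ≠ 0 := by
      have h3 : (B.map (Int.cast) : Matrix (Fin 2) (Fin 2) ℝ).det = ((B.det : ℤ) : ℝ) := by
        rw [Matrix.det_fin_two, Matrix.det_fin_two]
        simp
      rw [h3, hdetB]
      exact_mod_cast hQ'0
    set β : GL (Fin 2) ℝ := Matrix.GeneralLinearGroup.mkOfDetNeZero _ hdetR with hβ
    have hβv : (β : Matrix (Fin 2) (Fin 2) ℝ) = B.map (Int.cast) := rfl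
    have hαβ : α = β * D.W := by
      have := ALData.GL_eq_of_int (B := 1) (b := 1) hα (by
        ext i j
        fin_cases i <;> fin_cases j <;> simp) hβv D.val_W hAB
      rwa [mul_one] at this
    have hih := ih Q' hlt hQ'N β B hβv hdetB
      (by
        rw [hBdef, hm]
        exact ⟨q * a - b * m, by simp; ring⟩)
      (by
        rw [hBdef]
        exact ⟨c - Q' * d, by simp⟩)
      (by
        rw [hBdef, hm]
        exact ⟨-(m * c * D.y) + q * d * D.x, by simp; ring⟩)
    have hw : (⇑f : UpperHalfPlane → ℂ) ∣[(2 : ℤ)] D.W = (-qCoeff ⇑f q) • ⇑f := by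
      rw [← ALData.coe_w, w_eq_of_isNewform D hf]
      rfl
    have hpf : Q.primeFactors = insert q Q'.primeFactors := by
      rw [hQ', Nat.primeFactors_mul hq.ne_zero hQ'0, hq.primeFactors]
      rfl
    have hnm : q ∉ Q'.primeFactors := fun h => hqQ' (Nat.dvd_of_mem_primeFactors h)
    rw [hαβ, SlashAction.slash_mul, hih, ModularForm.smul_slash, UpperHalfPlane.σ,
      if_pos D.det_W_pos, hw, hpf, Finset.prod_insert hnm, smul_smul, mul_comm]
    rfl

/-- **A newform of squarefree level is an eigenform of the Fricke involution**: `f ∣ (0, -1; N, 0) =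
(∏_{q ∣ N} (- a_q(f))) f`. -/
theorem slash_fricke (hsq : Squarefree N) (hf : f.IsNewform) {α : GL (Fin 2) ℝ}
    (hα : (α : Matrix (Fin 2) (Fin 2) ℝ) = !![0, -1; (N : ℝ), 0]) :
    (⇑f : UpperHalfPlane → ℂ) ∣[(2 : ℤ)] α = (∏ q ∈ N.primeFactors, (-qCoeff ⇑f q)) • ⇑f := by
  refine slash_type hsq hf N dvd_rfl α !![0, -1; (N : ℤ), 0] ?_ ?_ ?_ ?_ ?_
  · rw [hα]
    ext i j
    fin_cases i <;> fin_cases j <;> simp
  · rw [Matrix.det_fin_two_of]
    ring
  · simp
  · simp
  · simp

/-- The sign is `1` or `-1`. -/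
theorem fricke_sign (hsq : Squarefree N) (hf : f.IsNewform) :
    (∏ q ∈ N.primeFactors, (-qCoeff ⇑f q)) = 1 ∨ (∏ q ∈ N.primeFactors, (-qCoeff ⇑f q)) = -1 := by
  rw [← sq_eq_one_iff, ← Finset.prod_pow]
  refine Finset.prod_eq_one fun q hq => ?_
  rw [Nat.mem_primeFactors] at hq
  rw [neg_sq]
  refine (newformBadPrimeCoeff N f hf q hq.1 hq.2.1).1 fun h => ?_
  rw [pow_two] at h
  exact hq.1.one_lt.ne' (Nat.isUnit_iff.mp (hsq q h))

end Fermat.Agent.Cor.HW

end
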