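import Mathlib.Analysis.Analytic.Order
import Mathlib.Analysis.Complex.CauchyIntegral

/-!
# The sign of a functional equation and the parity of the order of vanishing at the centre
-/

set_option autoImplicit false

noncomputable section

open Filter Topology

namespace Fermat.Agent.Cor.HW

/-- If `Λ` is entire, not zero and `Λ (2 - s) = ε Λ s`, then `ε = (-1) ^ r`, `r` the order of
vanishing of `Λ` at the centre `s = 1`. -/
theorem sign_eq_neg_one_pow {Λ : ℂ → ℂ} (hd : Differentiable ℂ Λ) (hne : Λ ≠ 0) {ε : ℂ}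
    (h : ∀ s, Λ (2 - s) = ε * Λ s) : ε = (-1) ^ analyticOrderNatAt Λ 1 := by
  have hAn : AnalyticAt ℂ Λ 1 := hd.analyticAt 1
  have htop : analyticOrderAt Λ 1 ≠ ⊤ := by
    intro ht
    exact hne ((AnalyticOnNhd.analyticOrderAt_eq_top_iff_eq_zero (f := Λ) 1
      (fun z => hd.analyticAt z)).mp ht)
  obtain ⟨g, hg, hg1, hΛ⟩ := (hAn.analyticOrderAt_ne_top).mp htop
  set n := analyticOrderNatAt Λ 1 with hn
  -- `(-1)^n g (2 - s) = ε g s` for `s ≠ 1` near `1`
  have hrefl : Tendsto (fun s : ℂ => 2 - s) (𝓝 1) (𝓝 1) := by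
    have h2 : Tendsto (fun s : ℂ => 2 - s) (𝓝 1) (𝓝 (2 - 1)) :=
      (continuous_const.sub continuous_id).tendsto 1
    have h3 : (2 : ℂ) - 1 = 1 := by norm_num
    rwa [h3] at h2
  have hΛ' : ∀ᶠ s in 𝓝 (1 : ℂ), Λ (2 - s) = ((2 - s) - 1) ^ n • g (2 - s) :=
    hrefl.eventually hΛ
  have key : ∀ᶠ s in 𝓝[≠] (1 : ℂ), (-1) ^ n * g (2 - s) = ε * g s := by
    have h1 := hΛ.filter_mono (nhdsWithin_le_nhds (s := {1}ᶜ))
    have h2 := hΛ'.filter_mono (nhdsWithin_le_nhds (s := {1}ᶜ))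
    filter_upwards [h1, h2, self_mem_nhdsWithin] with s hs1 hs2 hs3
    have hs : s - 1 ≠ 0 := sub_ne_zero.mpr hs3
    have e := h s
    rw [hs1, hs2, smul_eq_mul, smul_eq_mul] at e
    have e2 : (2 - s - 1 : ℂ) ^ n = (-1) ^ n * (s - 1) ^ n := by
      rw [← mul_pow]
      congr 1
      ring
    rw [e2] at e
    apply mul_left_cancel₀ (pow_ne_zero n hs)
    linear_combination e
  have l1 : Tendsto (fun s : ℂ => (-1) ^ n * g (2 - s)) (𝓝[≠] 1) (𝓝 ((-1) ^ n * g 1)) :=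
    ((hg.continuousAt.tendsto.comp hrefl).mono_left nhdsWithin_le_nhds).const_mul _
  have l2 : Tendsto (fun s : ℂ => ε * g s) (𝓝[≠] 1) (𝓝 (ε * g 1)) :=
    ((hg.continuousAt.tendsto).mono_left nhdsWithin_le_nhds).const_mul _
  have e := tendsto_nhds_unique (l1.congr' key) l2
  exact (mul_right_cancel₀ hg1 e).symm

end Fermat.Agent.Cor.HW
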