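import Fermat.Agent.Corollaries.HW.Entire
import Fermat.Agent.Corollaries.HW.FE
import Fermat.Agent.Corollaries.HW.Fricke
import Fermat.Agent.Corollaries.HW.Parity
import Fermat.Prelude.Def_WeierstrassCurve_ConductorLevel

/-!
# The Hasse-Weil `L`-function from a newform with the same coefficients

Everything here assumes a newform `f` of level the conductor with `a_p(f) = a_p(W)` for **all**
primes `p`.
-/

set_option autoImplicit false

noncomputable section

open CongruenceSubgroup ModularFormClass UpperHalfPlane Complex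
open scoped MatrixGroups ModularForm

namespace Fermat.Agent.Cor.HW

variable {W : WeierstrassCurve ℤ}

/-- The Hasse-Weil `L`-function is unique. -/
theorem IsHasseWeil.unique {L₁ L₂ : ℂ → ℂ} (h₁ : IsHasseWeil W L₁) (h₂ : IsHasseWeil W L₂) :
    L₁ = L₂ := by
  refine AnalyticOnNhd.eq_of_eventuallyEq (z₀ := 3) (fun z _ => h₁.1.analyticAt z)
    (fun z _ => h₂.1.analyticAt z) ?_
  have h : {s : ℂ | 2 < s.re} ∈ nhds (3 : ℂ) :=
    (isOpen_lt continuous_const Complex.continuous_re).mem_nhds (by norm_num)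
  filter_upwards [h] with s hs
  exact (h₁.2 s hs).unique (h₂.2 s hs)

theorem rootNumber_cast (hΔ : W.Δ ≠ 0) {f : CuspForm (Gamma0 W.conductorLevel) 2}
    (ha : ∀ p : ℕ, p.Prime → qCoeff f p = (ap W p : ℂ)) :
    (rootNumber W : ℂ) = -∏ q ∈ W.conductorLevel.primeFactors, (-qCoeff f q) := by
  have h : W.conductorLevel.primeFactors = W.Δ.natAbs.primeFactors := by
    ext q
    rw [Nat.mem_primeFactors, Nat.mem_primeFactors]
    constructor
    · rintro ⟨hq, h1, -⟩
      exact ⟨hq, Int.natCast_dvd.mp ((W.prime_dvd_conductorLevel_iff hΔ hq).mp h1),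
        Int.natAbs_ne_zero.mpr hΔ⟩
    · rintro ⟨hq, h1, -⟩
      exact ⟨hq, (W.prime_dvd_conductorLevel_iff hΔ hq).mpr (Int.natCast_dvd.mpr h1),
        W.conductorLevel_pos.ne'⟩
  rw [rootNumber, h]
  push_cast
  congr 1
  refine Finset.prod_congr rfl fun q hq => ?_
  rw [ha q (Nat.prime_of_mem_primeFactors hq)]

section

variable (hΔ : W.Δ ≠ 0) {f : CuspForm (Gamma0 W.conductorLevel) 2} (hf : f.IsNewform)
  (ha : ∀ p : ℕ, p.Prime → qCoeff f p = (ap W p : ℂ))

include hΔ ha in
theorem formPoly_eq (p : Nat.Primes) (s : ℂ) : formPoly f p s = eulerPoly W p s := by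
  have h := W.prime_dvd_conductorLevel_iff hΔ p.2
  rw [formPoly, eulerPoly, ha p p.2]
  by_cases hp : ((p : ℕ) : ℤ) ∣ W.Δ
  · rw [if_pos hp, if_pos (h.mpr hp)]
  · rw [if_neg hp, if_neg (fun h' => hp (h.mp h'))]

include hΔ hf ha in
/-- The `L`-function of the newform is the Hasse-Weil `L`-function. -/
theorem isHasseWeil : IsHasseWeil W (ModularForm.L two_pos f) := by
  refine ⟨CuspForm.differentiable_L two_pos f, fun s hs => ?_⟩
  have h := hasProd_L hf.1 hs
  simpa only [formPoly_eq hΔ ha] using h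

include hΔ hf ha in
/-- **The functional equation** with the root number. -/
theorem functional_equation (s : ℂ) : LamN f (2 - s) = rootNumber W * LamN f s := by
  have hN0 : (W.conductorLevel : ℝ) ≠ 0 := by exact_mod_cast W.conductorLevel_pos.ne'
  have hdet : (!![0, -1; (W.conductorLevel : ℝ), 0] : Matrix (Fin 2) (Fin 2) ℝ).det ≠ 0 := by
    rw [Matrix.det_fin_two_of]
    simpa using hN0
  set A : GL (Fin 2) ℝ := Matrix.GeneralLinearGroup.mkOfDetNeZero _ hdet with hA
  have hval : (A : Matrix (Fin 2) (Fin 2) ℝ) = !![0, -1; (W.conductorLevel : ℝ), 0] := rfl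
  rw [LamN_two_sub hval (slash_fricke W.squarefree_conductorLevel hf hval) s,
    rootNumber_cast hΔ ha]

include hΔ ha in
theorem rootNumber_eq_one_or (hf : f.IsNewform) : rootNumber W = 1 ∨ rootNumber W = -1 := by
  have h := rootNumber_cast hΔ ha
  rcases fricke_sign W.squarefree_conductorLevel hf with h1 | h1
  · right
    rw [h1] at h
    exact_mod_cast h
  · left
    rw [h1, neg_neg] at h
    exact_mod_cast h

end

section

variable {N : ℕ} [NeZero N]

/-- The `L`-function of a normalized eigenform is not identically zero. -/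
theorem L_ne_zero {f : CuspForm (Gamma0 N) 2} (hf : f.IsNormalizedEigenform) :
    ModularForm.L two_pos f ≠ 0 := by
  intro h0
  have hab : LSeries.abscissaOfAbsConv (qCoeff f) < ⊤ := by
    refine lt_of_le_of_lt (lseries_two f (s := 3) (by norm_num)).1.abscissaOfAbsConv_le ?_
    exact EReal.coe_lt_top _
  have h1 := LSeries.tendsto_atTop hab
  have h2 : (fun x : ℝ => LSeries (qCoeff f) x) =ᶠ[Filter.atTop] fun _ => 0 := by
    filter_upwards [Filter.eventually_gt_atTop 2] with x hx
    rw [(lseries_two f (s := x) (by simpa using hx)).2, h0, Pi.zero_apply]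
  have h3 := tendsto_nhds_unique (h1.congr' h2) tendsto_const_nhds
  rw [hf.qCoeff_one] at h3
  exact one_ne_zero h3

/-- `Λ` and `L` have the same order of vanishing at the centre. -/
theorem analyticOrderAt_LamN (f : CuspForm (Gamma0 N) 2) :
    analyticOrderAt (LamN f) 1 = analyticOrderAt (ModularForm.L two_pos f) 1 := by
  have hN : (N : ℂ) ≠ 0 := Nat.cast_ne_zero.mpr (NeZero.ne N)
  have hpi : (2 * (Real.pi : ℂ)) ≠ 0 := mul_ne_zero two_ne_zero (ofReal_ne_zero.mpr Real.pi_ne_zero)
  set u : ℂ → ℂ := fun s => (N : ℂ) ^ (s / 2) * ((2 * (Real.pi : ℂ)) ^ (-s) * Gamma s) with hu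
  have hopen : IsOpen {s : ℂ | 0 < s.re} := isOpen_lt continuous_const Complex.continuous_re
  have hmem : {s : ℂ | 0 < s.re} ∈ nhds (1 : ℂ) := hopen.mem_nhds (by simp)
  have hud : DifferentiableOn ℂ u {s : ℂ | 0 < s.re} := by
    intro s hs
    refine DifferentiableAt.differentiableWithinAt ?_
    refine ((differentiableAt_id.div_const 2).const_cpow (Or.inl hN)).mul
      ((differentiableAt_id.neg.const_cpow (Or.inl hpi)).mul (differentiableAt_Gamma s ?_))
    intro m hm
    have h1 : 0 < s.re := hs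
    rw [hm, neg_re, natCast_re] at h1
    have h2 : (0 : ℝ) ≤ m := Nat.cast_nonneg m
    linarith
  have hua : AnalyticAt ℂ u 1 := hud.analyticAt hmem
  have hu1 : u 1 ≠ 0 := by
    rw [hu]
    refine mul_ne_zero ?_ (mul_ne_zero ?_ (Gamma_ne_zero_of_re_pos (by simp)))
    · rw [Ne, cpow_eq_zero_iff]
      exact fun h => hN h.1
    · rw [Ne, cpow_eq_zero_iff]
      exact fun h => hpi h.1
  have hL : AnalyticAt ℂ (ModularForm.L two_pos f) 1 :=
    (CuspForm.differentiable_L two_pos f).analyticAt 1
  have hcongr : LamN f =ᶠ[nhds 1] u * ModularForm.L two_pos f := by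
    filter_upwards [hmem] with s hs
    rw [LamN_eq_L f hs, Pi.mul_apply, hu]
    ring
  rw [analyticOrderAt_congr hcongr, analyticOrderAt_mul hua hL, hua.analyticOrderAt_eq_zero.mpr hu1,
    zero_add]

end

/-- **Parity**: the order of vanishing of the Hasse-Weil `L`-function at `s = 1` is even iff the
root number is `1`. -/
theorem rootNumber_eq_neg_one_pow (hΔ : W.Δ ≠ 0) {f : CuspForm (Gamma0 W.conductorLevel) 2}
    (hf : f.IsNewform) (ha : ∀ p : ℕ, p.Prime → qCoeff f p = (ap W p : ℂ)) :
    rootNumber W = (-1) ^ analyticOrderNatAt (ModularForm.L two_pos f) 1 := by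
  have hL := L_ne_zero hf.1
  have hord := analyticOrderAt_LamN f
  have hne : LamN f ≠ 0 := by
    intro h0
    have h1 : analyticOrderAt (LamN f) 1 = ⊤ := by
      rw [h0]
      exact analyticOrderAt_eq_top.mpr (Filter.Eventually.of_forall fun _ => rfl)
    rw [hord] at h1
    exact hL ((AnalyticOnNhd.analyticOrderAt_eq_top_iff_eq_zero 1
      (fun z => (CuspForm.differentiable_L two_pos f).analyticAt z)).mp h1)
  have h := sign_eq_neg_one_pow (differentiable_LamN f) hne (functional_equation hΔ hf ha)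
  have hnat : analyticOrderNatAt (LamN f) 1 = analyticOrderNatAt (ModularForm.L two_pos f) 1 := by
    rw [analyticOrderNatAt, analyticOrderNatAt, hord]
  rw [hnat] at h
  exact_mod_cast h

end Fermat.Agent.Cor.HW
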