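import Fermat.Agent.Corollaries.HW.InfZeros
import Mathlib.Analysis.Complex.AbsMax

/-!
# The number of zeros of `L(E, s)` up to height `T`

For a semistable elliptic curve over `ℚ` the number of non-trivial zeros of `L(E, s)` with
`|im s| ≤ T`, counted with multiplicity, is at most `C T log T`.

Proof: Jensen's inequality in the form of the maximum principle (`two_pow_order_mul_le`) for the
completed `L`-function on the disc `|s - 2| ≤ 3 (T + 2)`, where it is at most
`exp(A (3T + 11) log (3T + 12))`.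
-/

set_option autoImplicit false

noncomputable section

open UpperHalfPlane hiding I
open CongruenceSubgroup ModularFormClass Complex MeasureTheory Filter Topology Set
open scoped MatrixGroups ModularForm Nat

namespace Fermat.Agent.Cor.HW

/-! ### Jensen's inequality -/

/-- An entire function divided by its zeros at a finite set of points. -/
theorem exists_factor {F : ℂ → ℂ} (hF : Differentiable ℂ F) (h0 : ∃ z, F z ≠ 0) (S : Finset ℂ) :
    ∃ G : ℂ → ℂ, Differentiable ℂ G ∧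
      ∀ z, F z = (∏ a ∈ S, (z - a) ^ analyticOrderNatAt F a) * G z := by
  classical
  induction S using Finset.induction_on with
  | empty => exact ⟨F, hF, fun z => by rw [Finset.prod_empty, one_mul]⟩
  | insert a S ha ih =>
    obtain ⟨G, hG, hFG⟩ := ih
    have hG0 : ∃ z, G z ≠ 0 := by
      obtain ⟨z, hz⟩ := h0
      refine ⟨z, fun h => hz ?_⟩
      rw [hFG z, h, mul_zero]
    obtain ⟨n, H, hH, hHa, hGH⟩ := exists_divide hG hG0 a
    set P : ℂ → ℂ := fun z => ∏ b ∈ S, (z - b) ^ analyticOrderNatAt F b with hP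
    have hPd : Differentiable ℂ P := by
      rw [hP]
      exact Differentiable.fun_finsetProd fun b _ => (differentiable_id.sub_const b).pow _
    have hPa : P a ≠ 0 := by
      rw [hP]
      refine Finset.prod_ne_zero_iff.mpr fun b hb => pow_ne_zero _ (sub_ne_zero.mpr ?_)
      rintro rfl
      exact ha hb
    have hn : analyticOrderNatAt F a = n := by
      have h1 : analyticOrderAt F a = n :=
        (hF.analyticAt a).analyticOrderAt_eq_natCast.mpr
          ⟨fun z => P z * H z, (hPd.mul hH).analyticAt a, mul_ne_zero hPa hHa,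
            Eventually.of_forall fun z => by
              rw [hFG z, hGH z, smul_eq_mul]
              ring⟩
      rw [analyticOrderNatAt, h1, ENat.toNat_natCast]
    refine ⟨H, hH, fun z => ?_⟩
    rw [Finset.prod_insert ha, hn, hFG z, hGH z]
    ring

/-- **Jensen's inequality** for the zeros in a disc, counted with multiplicity. -/
theorem two_pow_order_mul_le {F : ℂ → ℂ} (hF : Differentiable ℂ F) {c : ℂ} (h0 : F c ≠ 0)
    {R M : ℝ} (hR : 0 < R) (hM : ∀ s : ℂ, ‖s - c‖ = 3 * R → ‖F s‖ ≤ M) (S : Finset ℂ)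
    (hS : ∀ a ∈ S, ‖a - c‖ ≤ R) :
    2 ^ (∑ a ∈ S, analyticOrderNatAt F a) * ‖F c‖ ≤ M := by
  obtain ⟨G, hG, hFG⟩ := exists_factor hF ⟨c, h0⟩ S
  set n := ∑ a ∈ S, analyticOrderNatAt F a with hn
  have hfr : ∀ z ∈ frontier (Metric.ball c (3 * R)), ‖G z‖ ≤ M / (2 * R) ^ n := by
    intro z hz
    rw [frontier_ball _ (by positivity), mem_sphere_iff_norm] at hz
    have h3 := hM z hz
    rw [hFG z, norm_mul, norm_prod] at h3
    rw [le_div_iff₀ (by positivity)]
    have h4 : (2 * R) ^ n ≤ ∏ a ∈ S, ‖(z - a) ^ analyticOrderNatAt F a‖ := by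
      rw [hn, ← Finset.prod_pow_eq_pow_sum]
      refine Finset.prod_le_prod (fun a _ => by positivity) fun a ha => ?_
      rw [norm_pow]
      refine pow_le_pow_left₀ (by positivity) ?_ _
      have h5 : ‖z - c‖ ≤ ‖z - a‖ + ‖a - c‖ := by
        calc ‖z - c‖ = ‖(z - a) + (a - c)‖ := by ring_nf
          _ ≤ _ := norm_add_le _ _
      have h6 := hS a ha
      linarith
    calc ‖G z‖ * (2 * R) ^ n ≤ ‖G z‖ * ∏ a ∈ S, ‖(z - a) ^ analyticOrderNatAt F a‖ :=
          mul_le_mul_of_nonneg_left h4 (norm_nonneg _)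
      _ = (∏ a ∈ S, ‖(z - a) ^ analyticOrderNatAt F a‖) * ‖G z‖ := mul_comm _ _
      _ ≤ M := h3
  have h1 := norm_le_of_forall_mem_frontier_norm_le Metric.isBounded_ball
    hG.diffContOnCl hfr (subset_closure (Metric.mem_ball_self (by positivity)) :
      c ∈ closure (Metric.ball c (3 * R)))
  rw [le_div_iff₀ (by positivity)] at h1
  have h2 : ‖F c‖ ≤ R ^ n * ‖G c‖ := by
    rw [hFG c, norm_mul, norm_prod]
    refine mul_le_mul_of_nonneg_right ?_ (norm_nonneg _)
    rw [hn, ← Finset.prod_pow_eq_pow_sum]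
    refine Finset.prod_le_prod (fun a _ => norm_nonneg _) fun a ha => ?_
    rw [norm_pow]
    refine pow_le_pow_left₀ (norm_nonneg _) ?_ _
    rw [norm_sub_rev]
    exact hS a ha
  calc 2 ^ n * ‖F c‖ ≤ 2 ^ n * (R ^ n * ‖G c‖) := mul_le_mul_of_nonneg_left h2 (by positivity)
    _ = ‖G c‖ * (2 * R) ^ n := by
        rw [mul_pow]
        ring
    _ ≤ M := h1

/-! ### The growth of the completed `L`-function -/

theorem Gamma_le_exp_log {x : ℝ} (hx : 2 ≤ x) :
    Real.Gamma x ≤ Real.exp ((1 + x) * Real.log (1 + x)) := by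
  set n : ℕ := ⌈x⌉₊ with hn
  have h1 : x ≤ n := Nat.le_ceil x
  have h2 : (n : ℝ) < x + 1 := Nat.ceil_lt_add_one (by linarith)
  have h3 : Real.Gamma x ≤ Real.Gamma (n + 1) :=
    Real.Gamma_strictMonoOn_Ici.monotoneOn (mem_Ici.mpr hx) (mem_Ici.mpr (by linarith))
      (by linarith)
  rw [Real.Gamma_nat_eq_factorial] at h3
  have h4 : ((n ! : ℕ) : ℝ) ≤ (n : ℝ) ^ n := by exact_mod_cast Nat.factorial_le_pow n
  have hx1 : (0 : ℝ) < 1 + x := by linarith
  have h5 : (n : ℝ) ^ n ≤ (1 + x) ^ n := pow_le_pow_left₀ (Nat.cast_nonneg n) (by linarith) n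
  have h6 : (1 + x) ^ n = Real.exp (n * Real.log (1 + x)) := by
    rw [Real.exp_nat_mul, Real.exp_log hx1]
  refine h3.trans (h4.trans (h5.trans ?_))
  rw [h6]
  exact Real.exp_le_exp.mpr
    (mul_le_mul_of_nonneg_right (by linarith) (Real.log_nonneg (by linarith)))

variable {N : ℕ} [NeZero N]

/-- The bound on the right. -/
theorem norm_LamN_le_right (f : CuspForm (Gamma0 N) 2) : ∃ C : ℝ, 0 ≤ C ∧
    ∀ (s : ℂ) (ρ : ℝ), 3 ≤ s.re → ‖s‖ ≤ ρ →
      ‖LamN f s‖ ≤ C * Real.exp ((Real.log N + 1) * ((1 + ρ) * Real.log (2 + ρ))) := by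
  have hN : 1 ≤ N := Nat.pos_of_ne_zero (NeZero.ne N)
  have hlog : 0 ≤ Real.log N := Real.log_nonneg (by exact_mod_cast hN)
  have hsum := (lseries_two f (s := 3) (by norm_num)).1
  refine ⟨∑' n, ‖LSeries.term (qCoeff ⇑f) 3 n‖, tsum_nonneg fun _ => norm_nonneg _,
    fun s ρ hs hρ => ?_⟩
  set C := ∑' n, ‖LSeries.term (qCoeff ⇑f) 3 n‖ with hC
  have hs0 : 0 < s.re := by linarith
  have hL : ‖LSeries (qCoeff ⇑f) s‖ ≤ C := by
    have h1 := (lseries_two f (s := s) (by linarith)).1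
    refine (norm_tsum_le_tsum_norm h1.norm).trans ?_
    refine h1.norm.tsum_le_tsum (fun n => ?_) hsum.norm
    exact LSeries.norm_term_le_of_re_le_re _ (by simpa using hs) n
  have hC0 : 0 ≤ C := (norm_nonneg _).trans hL
  have hre : s.re ≤ ρ := (re_le_norm s).trans hρ
  have hρ3 : 3 ≤ ρ := hs.trans hre
  have hlog1 : 1 ≤ Real.log (2 + ρ) := by
    rw [Real.le_log_iff_exp_le (by linarith)]
    linarith [Real.exp_one_lt_three]
  have hpi : ‖(2 * (Real.pi : ℂ)) ^ (-s)‖ ≤ 1 := by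
    have h2 : (2 * (Real.pi : ℂ)) = ((2 * Real.pi : ℝ) : ℂ) := by push_cast; rfl
    rw [h2, norm_cpow_eq_rpow_re_of_pos (by positivity), neg_re]
    refine Real.rpow_le_one_of_one_le_of_nonpos ?_ (by linarith)
    linarith [Real.two_le_pi]
  have hG : ‖Gamma s‖ ≤ Real.exp ((1 + ρ) * Real.log (2 + ρ)) := by
    refine (norm_Gamma_le hs0).trans ((Gamma_le_exp_log (by linarith)).trans
      (Real.exp_le_exp.mpr ?_))
    refine mul_le_mul (by linarith) (Real.log_le_log (by linarith) (by linarith))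
      (Real.log_nonneg (by linarith)) (by linarith)
  have hNs : ‖(N : ℂ) ^ (s / 2)‖ ≤ Real.exp (Real.log N * ((1 + ρ) * Real.log (2 + ρ))) := by
    rw [norm_natCast_cpow_half]
    refine Real.exp_le_exp.mpr (mul_le_mul_of_nonneg_left ?_ hlog)
    nlinarith
  rw [LamN_eq f (by linarith), norm_mul, norm_mul, norm_mul, add_mul, one_mul, Real.exp_add]
  calc ‖(N : ℂ) ^ (s / 2)‖ * (‖(2 * (Real.pi : ℂ)) ^ (-s)‖ * ‖Gamma s‖ * ‖LSeries (qCoeff ⇑f) s‖)
      ≤ Real.exp (Real.log N * ((1 + ρ) * Real.log (2 + ρ))) *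
          (1 * Real.exp ((1 + ρ) * Real.log (2 + ρ)) * C) := by
        gcongr
    _ = C * (Real.exp (Real.log N * ((1 + ρ) * Real.log (2 + ρ))) *
          Real.exp ((1 + ρ) * Real.log (2 + ρ))) := by ring

/-- **`Λ(f, s)` is of order one**: `|Λ(f, s)| ≤ C exp(A (3 + ρ) log (4 + ρ))` for `|s| ≤ ρ`. -/
theorem norm_LamN_le_disc {f : CuspForm (Gamma0 N) 2} {c : ℂ}
    (hFE : ∀ s, LamN f (2 - s) = c * LamN f s) : ∃ C A : ℝ, 0 ≤ C ∧ 0 ≤ A ∧
      ∀ (s : ℂ) (ρ : ℝ), ‖s‖ ≤ ρ →
        ‖LamN f s‖ ≤ C * Real.exp (A * ((3 + ρ) * Real.log (4 + ρ))) := by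
  obtain ⟨C, hC, h⟩ := norm_LamN_le_right f
  have hN : 1 ≤ N := Nat.pos_of_ne_zero (NeZero.ne N)
  have hlog : 0 ≤ Real.log N := Real.log_nonneg (by exact_mod_cast hN)
  set D : ℝ := Real.exp (Real.log N * (3 / 2)) * (absMellin f (-1) + absMellin f 3) with hD
  have hD0 : 0 ≤ D := mul_nonneg (Real.exp_nonneg _)
    (add_nonneg (absMellin_nonneg f _) (absMellin_nonneg f _))
  have hcC : 0 ≤ ‖c‖ * C := mul_nonneg (norm_nonneg _) hC
  refine ⟨C + D + ‖c‖ * C, Real.log N + 1, by linarith, by linarith, fun s ρ hρ => ?_⟩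
  have hρ0 : 0 ≤ ρ := (norm_nonneg s).trans hρ
  have hl4 : 0 ≤ Real.log (4 + ρ) := Real.log_nonneg (by linarith)
  have hE : 1 ≤ Real.exp ((Real.log N + 1) * ((3 + ρ) * Real.log (4 + ρ))) :=
    Real.one_le_exp (by positivity)
  rcases le_or_gt 3 s.re with h3 | h3
  · refine (h s ρ h3 hρ).trans (mul_le_mul (by linarith) (Real.exp_le_exp.mpr ?_)
      (Real.exp_nonneg _) (by linarith))
    refine mul_le_mul_of_nonneg_left ?_ (by linarith)
    exact mul_le_mul (by linarith) (Real.log_le_log (by linarith) (by linarith))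
      (Real.log_nonneg (by linarith)) (by linarith)
  · rcases le_or_gt (-1) s.re with h1 | h1
    · have h2 : ‖LamN f s‖ ≤ D := by
        rw [LamN, norm_mul]
        refine mul_le_mul ?_ ((norm_Lam_le f s).trans (absMellin_le f h1 h3.le)) (norm_nonneg _)
          (Real.exp_nonneg _)
        rw [norm_natCast_cpow_half]
        exact Real.exp_le_exp.mpr (mul_le_mul_of_nonneg_left (by linarith) hlog)
      calc ‖LamN f s‖ ≤ D * 1 := by rw [mul_one]; exact h2
        _ ≤ _ := mul_le_mul (by linarith) hE zero_le_one (by linarith)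
    · have h2 : 3 ≤ (2 - s).re := by
        rw [sub_re, re_ofNat]
        linarith
      have h4 : LamN f s = c * LamN f (2 - s) := by
        have h5 := hFE (2 - s)
        rwa [sub_sub_cancel] at h5
      have h6 : ‖2 - s‖ ≤ 2 + ρ := by
        refine (norm_sub_le _ _).trans ?_
        rw [norm_ofNat]
        linarith
      have h7 := h _ _ h2 h6
      rw [show 1 + (2 + ρ) = 3 + ρ by ring, show 2 + (2 + ρ) = 4 + ρ by ring] at h7
      rw [h4, norm_mul]
      calc ‖c‖ * ‖LamN f (2 - s)‖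
          ≤ ‖c‖ * (C * Real.exp ((Real.log N + 1) * ((3 + ρ) * Real.log (4 + ρ)))) :=
            mul_le_mul_of_nonneg_left h7 (norm_nonneg _)
        _ = (‖c‖ * C) * Real.exp ((Real.log N + 1) * ((3 + ρ) * Real.log (4 + ρ))) := by ring
        _ ≤ _ := mul_le_mul_of_nonneg_right (by linarith) (Real.exp_nonneg _)

/-! ### Counting zeros -/

/-- The orders of vanishing of `L` and `Λ` agree in the right half-plane. -/
theorem analyticOrderNatAt_L (f : CuspForm (Gamma0 N) 2) {s : ℂ} (hs : 0 < s.re) :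
    analyticOrderNatAt (ModularForm.L two_pos f) s = analyticOrderNatAt (LamN f) s := by
  have h1 : AnalyticAt ℂ (fun s : ℂ => (Gamma s)⁻¹) s := differentiable_one_div_Gamma.analyticAt s
  have h2 : AnalyticAt ℂ (expFactor N) s := differentiable_expFactor.analyticAt s
  have h3 : AnalyticAt ℂ (LamN f) s := (differentiable_LamN f).analyticAt s
  have h4 : ModularForm.L two_pos f = (expFactor N * fun s : ℂ => (Complex.Gamma s)⁻¹) * LamN f := by
    funext z
    exact L_eq_LamN f z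
  rw [analyticOrderNatAt, analyticOrderNatAt, h4, analyticOrderAt_mul (h2.mul h1) h3,
    analyticOrderAt_mul h2 h1, h2.analyticOrderAt_eq_zero.mpr (expFactor_ne_zero _),
    h1.analyticOrderAt_eq_zero.mpr (inv_ne_zero (Gamma_ne_zero_of_re_pos hs)), zero_add, zero_add]

/-- **The number of zeros up to height `T`.** -/
theorem sum_order_le {f : CuspForm (Gamma0 N) 2} {c : ℂ}
    (hFE : ∀ s, LamN f (2 - s) = c * LamN f s) (h2 : LamN f 2 ≠ 0) :
    ∃ C : ℝ, 0 ≤ C ∧ ∀ T : ℝ, 2 ≤ T → ∀ S : Finset ℂ, (∀ a ∈ S, ‖a - 2‖ ≤ T + 2) →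
      ((∑ a ∈ S, analyticOrderNatAt (LamN f) a : ℕ) : ℝ) ≤ C * (T * Real.log T) := by
  obtain ⟨C, A, hC, hA, h⟩ := norm_LamN_le_disc hFE
  set K : ℝ := |Real.log (C / ‖LamN f 2‖)| with hK
  have hl2 : 0 < Real.log 2 := Real.log_pos (by norm_num)
  refine ⟨(K + 45 * A) / Real.log 2, by positivity, fun T hT S hS => ?_⟩
  set n := ∑ a ∈ S, analyticOrderNatAt (LamN f) a with hn
  have hb : 0 < ‖LamN f 2‖ := norm_pos_iff.mpr h2
  have h1 := two_pow_order_mul_le (differentiable_LamN f) h2 (R := T + 2)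
    (M := C * Real.exp (A * ((3 * T + 11) * Real.log (3 * T + 12)))) (by linarith)
    (fun s hs => by
      have h3 : ‖s‖ ≤ 3 * T + 8 := by
        have h4 : ‖s‖ ≤ ‖s - 2‖ + ‖(2 : ℂ)‖ := by
          calc ‖s‖ = ‖(s - 2) + 2‖ := by ring_nf
            _ ≤ _ := norm_add_le _ _
        rw [hs, norm_ofNat] at h4
        linarith
      have h5 := h s _ h3
      rwa [show 3 + (3 * T + 8) = 3 * T + 11 by ring,
        show 4 + (3 * T + 8) = 3 * T + 12 by ring] at h5) S hS
  rw [← hn] at h1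
  have hC0 : 0 < C := by
    rcases hC.eq_or_lt with h3 | h3
    · rw [← h3, zero_mul] at h1
      have : 0 < 2 ^ n * ‖LamN f 2‖ := by positivity
      linarith
    · exact h3
  have h3 : (2 : ℝ) ^ n ≤ C / ‖LamN f 2‖ *
      Real.exp (A * ((3 * T + 11) * Real.log (3 * T + 12))) := by
    rw [div_mul_eq_mul_div, le_div_iff₀ hb]
    exact h1
  have h4 := Real.log_le_log (by positivity) h3
  rw [Real.log_pow, Real.log_mul (by positivity) (Real.exp_ne_zero _), Real.log_exp] at h4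
  have hT0 : 0 < T := by linarith
  have hlT : 0 < Real.log T := Real.log_pos (by linarith)
  have h5 : Real.log (3 * T + 12) ≤ 5 * Real.log T := by
    have e : 5 * Real.log T = Real.log (T ^ 5) := by
      rw [Real.log_pow]
      norm_num
    rw [e]
    refine Real.log_le_log (by linarith) ?_
    have h6 : (16 : ℝ) ≤ T ^ 4 := by
      calc (16 : ℝ) = 2 ^ 4 := by norm_num
        _ ≤ T ^ 4 := pow_le_pow_left₀ (by norm_num) hT 4
    calc 3 * T + 12 ≤ 16 * T := by linarith
      _ ≤ T ^ 4 * T := mul_le_mul_of_nonneg_right h6 hT0.le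
      _ = T ^ 5 := by ring
  have h6 : (3 * T + 11) * Real.log (3 * T + 12) ≤ 9 * T * (5 * Real.log T) :=
    mul_le_mul (by linarith) h5 (Real.log_nonneg (by linarith)) (by linarith)
  have h7 : 1 ≤ T * Real.log T := by
    have h8 : Real.log 2 ≤ Real.log T := Real.log_le_log (by norm_num) hT
    have h9 := Real.log_two_gt_d9
    nlinarith
  have h8 : Real.log (C / ‖LamN f 2‖) ≤ K * (T * Real.log T) := by
    refine (le_abs_self _).trans ?_
    rw [← hK]
    exact le_mul_of_one_le_right (abs_nonneg _) h7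
  have h9 : A * ((3 * T + 11) * Real.log (3 * T + 12)) ≤ 45 * A * (T * Real.log T) := by
    calc A * ((3 * T + 11) * Real.log (3 * T + 12)) ≤ A * (9 * T * (5 * Real.log T)) :=
          mul_le_mul_of_nonneg_left h6 hA
      _ = 45 * A * (T * Real.log T) := by ring
  rw [div_mul_eq_mul_div, le_div_iff₀ hl2]
  calc (n : ℝ) * Real.log 2 ≤ _ := h4
    _ ≤ K * (T * Real.log T) + 45 * A * (T * Real.log T) := add_le_add h8 h9
    _ = (K + 45 * A) * (T * Real.log T) := by ring

theorem one_le_order {F : ℂ → ℂ} (hF : Differentiable ℂ F) (h0 : ∃ z, F z ≠ 0) {a : ℂ}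
    (ha : F a = 0) : 1 ≤ analyticOrderNatAt F a := by
  obtain ⟨n, G, hG, hGa, hFG⟩ := exists_divide hF h0 a
  have h1 : analyticOrderAt F a = n :=
    (hF.analyticAt a).analyticOrderAt_eq_natCast.mpr
      ⟨G, hG.analyticAt a, hGa, Eventually.of_forall fun z => by rw [hFG z, smul_eq_mul]⟩
  rw [analyticOrderNatAt, h1, ENat.toNat_natCast, Nat.one_le_iff_ne_zero]
  rintro rfl
  apply hGa
  have := hFG a
  rwa [ha, pow_zero, one_mul, eq_comm] at this

/-- **The number of zeros of `L(f, s)` up to height `T`**, with multiplicity, is `O(T log T)`. -/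
theorem count_zeros_L {f : CuspForm (Gamma0 N) 2} (hf : f.IsNormalizedEigenform)
    (hH : IsHasse f) {c : ℂ} (hFE : ∀ s, LamN f (2 - s) = c * LamN f s) :
    ∃ C : ℝ, ∀ T : ℝ, 2 ≤ T →
      {s : ℂ | ModularForm.L two_pos f s = 0 ∧ 0 < s.re ∧ |s.im| ≤ T}.Finite ∧
      ((∑ᶠ s ∈ {s : ℂ | ModularForm.L two_pos f s = 0 ∧ 0 < s.re ∧ |s.im| ≤ T},
        analyticOrderNatAt (ModularForm.L two_pos f) s : ℕ) : ℝ) ≤ C * (T * Real.log T) := by
  have h2 : LamN f 2 ≠ 0 := LamN_ne_zero_of_gt hf hH (by rw [re_ofNat]; norm_num)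
  obtain ⟨C, hC, h⟩ := sum_order_le hFE h2
  refine ⟨C, fun T hT => ?_⟩
  set Z := {s : ℂ | ModularForm.L two_pos f s = 0 ∧ 0 < s.re ∧ |s.im| ≤ T} with hZ
  have hne : ∀ z : ℂ, 0 < z.re → ∀ n : ℕ, z ≠ -n := by
    intro z hz n hn
    rw [hn, neg_re, natCast_re] at hz
    have : (0 : ℝ) ≤ n := Nat.cast_nonneg n
    linarith
  have hzero : ∀ a ∈ Z, LamN f a = 0 := fun a ha => (L_eq_zero_iff f (hne a ha.2.1)).mp ha.1
  have hdist : ∀ a ∈ Z, ‖a - 2‖ ≤ T + 2 := by
    intro a ha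
    have h3 := re_mem_of_LamN_eq_zero hf hH hFE (hzero a ha)
    have h4 := norm_le_abs_re_add_abs_im (a - 2)
    have h5 : |(a - 2).re| ≤ 2 := by
      rw [sub_re, re_ofNat, abs_le]
      constructor <;> linarith [h3.1, h3.2]
    have h6 : (a - 2).im = a.im := by
      rw [sub_im, im_ofNat, sub_zero]
    rw [h6] at h4
    linarith [ha.2.2]
  have hbound : ∀ S : Finset ℂ, (↑S : Set ℂ) ⊆ Z →
      ((∑ a ∈ S, analyticOrderNatAt (LamN f) a : ℕ) : ℝ) ≤ C * (T * Real.log T) :=
    fun S hS => h T hT S fun a ha => hdist a (hS ha)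
  have hfin : Z.Finite := by
    by_contra hinf
    have hinf : Z.Infinite := hinf
    obtain ⟨S, hS, hcard⟩ := hinf.exists_subset_card_eq (⌊C * (T * Real.log T)⌋₊ + 1)
    have h3 := hbound S hS
    have h4 : S.card ≤ ∑ a ∈ S, analyticOrderNatAt (LamN f) a := by
      rw [Finset.card_eq_sum_ones]
      exact Finset.sum_le_sum fun a ha =>
        one_le_order (differentiable_LamN f) ⟨2, h2⟩ (hzero a (hS ha))
    have h5 : ((⌊C * (T * Real.log T)⌋₊ + 1 : ℕ) : ℝ) ≤ C * (T * Real.log T) := by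
      rw [← hcard]
      exact le_trans (by exact_mod_cast h4) h3
    have h6 := Nat.lt_floor_add_one (C * (T * Real.log T))
    push_cast at h5
    linarith
  refine ⟨hfin, ?_⟩
  rw [finsum_mem_eq_finite_toFinset_sum _ hfin, Finset.sum_congr rfl fun a ha =>
    analyticOrderNatAt_L f ((hfin.mem_toFinset).mp ha).2.1]
  exact hbound _ (by rw [hfin.coe_toFinset])

/-- **The number of non-trivial zeros of the `L`-function of a semistable elliptic curve over `ℚ`
with `|im s| ≤ T`**, counted with multiplicity, is at most `C T log T`. -/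
theorem count_zeros_of_semistable {W : WeierstrassCurve ℤ} (hΔ : W.Δ ≠ 0)
    (hW : W.IsSemistableModel) {L : ℂ → ℂ} (hL : IsHasseWeil W L) :
    ∃ C : ℝ, ∀ T : ℝ, 2 ≤ T → {s : ℂ | L s = 0 ∧ 0 < s.re ∧ |s.im| ≤ T}.Finite ∧
      ((∑ᶠ s ∈ {s : ℂ | L s = 0 ∧ 0 < s.re ∧ |s.im| ≤ T}, analyticOrderNatAt L s : ℕ) : ℝ) ≤
        C * (T * Real.log T) := by
  obtain ⟨f, ⟨hf, ha⟩, -⟩ := existsUnique_newform_ap hΔ hW
  have hL' : L = ModularForm.L two_pos f := hL.unique (isHasseWeil hΔ hf ha)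
  rw [hL']
  exact count_zeros_L hf.1 (isHasse hΔ hf ha) (functional_equation hΔ hf ha)

end Fermat.Agent.Cor.HW

end
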