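import Fermat.Prelude.Def_WeierstrassCurve_ModularityProps
import Fermat.Prelude.Def_CuspForm_Newforms

/-!
# The Hasse-Weil `L`-function of a semistable elliptic curve over `ℚ`: definitions

`W` is a semistable (hence minimal) integral Weierstrass equation. At a good prime
`a_p = p + 1 - #E(𝔽_p)`; at a bad prime `a_p = p - #E_ns(𝔽_p)`, which is `1` for split and `-1` for
non-split multiplicative reduction (`apOfModel` counts the point at infinity, so it is
`p + 1 - #E_ns(𝔽_p)` with the full group `E_ns`, i.e. `a_p + 1`).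
-/

set_option autoImplicit false

noncomputable section

open CongruenceSubgroup ModularFormClass UpperHalfPlane

namespace Fermat.Agent.Cor.HW

/-- The coefficient `a_p` of the Hasse-Weil `L`-function. -/
def ap (W : WeierstrassCurve ℤ) (p : ℕ) : ℤ :=
  if (p : ℤ) ∣ W.Δ then W.apOfModel p - 1 else W.apOfModel p

/-- The polynomial factor `1 - a_p p^(-s) (+ p^(1-2s))` of the Hasse-Weil `L`-function at `p`; the
Euler factor is its inverse. -/
def eulerPoly (W : WeierstrassCurve ℤ) (p : ℕ) (s : ℂ) : ℂ :=
  1 - ap W p * (p : ℂ) ^ (-s) + if (p : ℤ) ∣ W.Δ then 0 else (p : ℂ) ^ (1 - 2 * s)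

/-- The polynomial factor at `p` of the `L`-function of an eigenform of weight two. -/
def formPoly {N : ℕ} (f : CuspForm (Gamma0 N) 2) (p : ℕ) (s : ℂ) : ℂ :=
  1 - qCoeff f p * (p : ℂ) ^ (-s) + if p ∣ N then 0 else (p : ℂ) ^ (1 - 2 * s)

/-- `L` is the Hasse-Weil `L`-function of `W`, continued to an entire function: for `re s > 2` it
is the product of the Euler factors over **all** primes. -/
def IsHasseWeil (W : WeierstrassCurve ℤ) (L : ℂ → ℂ) : Prop :=
  Differentiable ℂ L ∧ ∀ s : ℂ, 2 < s.re →
    HasProd (fun p : Nat.Primes => (eulerPoly W p s)⁻¹) (L s)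

/-- The root number `- ∏_{q bad} (- a_q)`; it is `1` if the number of primes of split
multiplicative reduction is odd, and `-1` if it is even (the real place counts as split). -/
def rootNumber (W : WeierstrassCurve ℤ) : ℤ := -∏ q ∈ W.Δ.natAbs.primeFactors, -ap W q

end Fermat.Agent.Cor.HW
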