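import Fermat.Agent.Corollaries.HW.Euler
import Fermat.Prelude.Def_WeierstrassCurve_Mlc1RowStatement

/-!
# The `L`-function of a modular elliptic curve is entire
-/

set_option autoImplicit false

noncomputable section

open CongruenceSubgroup ModularFormClass UpperHalfPlane Complex

namespace Fermat.Agent.Cor.HW

variable {N : ℕ}

/-- The primes dividing `N`. -/
def badPrimes (N : ℕ) : Finset Nat.Primes :=
  (N.primeFactors.subtype Nat.Prime : Finset (Subtype Nat.Prime))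

theorem mem_badPrimes [NeZero N] {p : Nat.Primes} : p ∈ badPrimes N ↔ (p : ℕ) ∣ N := by
  have h : p ∈ badPrimes N ↔ (p : ℕ) ∈ N.primeFactors :=
    @Finset.mem_subtype _ Nat.Prime _ N.primeFactors p
  rw [h, Nat.mem_primeFactors]
  exact ⟨fun h => h.2.1, fun h => ⟨p.2, h, NeZero.ne N⟩⟩

/-- A form of exact conductor level computes the Euler factors at the good primes. -/
theorem formPoly_eq_of_good {W : WeierstrassCurve ℤ}
    (hN : ∀ q : ℕ, q.Prime → (q ∣ N ↔ (q : ℤ) ∣ W.Δ)) {f : CuspForm (Gamma0 N) 2}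
    (ha : ∀ p : ℕ, p.Prime → ¬ p ∣ N → qCoeff f p = (W.apOfModel p : ℂ)) (p : Nat.Primes)
    (hp : ¬ ((p : ℕ) : ℤ) ∣ W.Δ) (s : ℂ) :
    formPoly f p s = 1 - (W.apOfModel p : ℂ) * (p : ℂ) ^ (-s) + (p : ℂ) ^ (1 - 2 * s) := by
  have hpN : ¬ (p : ℕ) ∣ N := fun h => hp ((hN p p.2).mp h)
  rw [formPoly, if_neg hpN, ha p p.2 hpN]

/-- **The product of the Euler factors at the good primes has an analytic continuation to an
entire function**, with explicit factors `1 - a_q(f) q^(-s)` at the bad primes. -/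
theorem hasProd_good [NeZero N] {W : WeierstrassCurve ℤ}
    (hN : ∀ q : ℕ, q.Prime → (q ∣ N ↔ (q : ℤ) ∣ W.Δ)) {f : CuspForm (Gamma0 N) 2}
    (hf : f.IsNormalizedEigenform)
    (ha : ∀ p : ℕ, p.Prime → ¬ p ∣ N → qCoeff f p = (W.apOfModel p : ℂ)) {s : ℂ}
    (hs : 2 < s.re) :
    HasProd (fun p : Nat.Primes => if ((p : ℕ) : ℤ) ∣ W.Δ then 1 else
        (1 - (W.apOfModel p : ℂ) * (p : ℂ) ^ (-s) + (p : ℂ) ^ (1 - 2 * s))⁻¹)
      (ModularForm.L two_pos f s *
        ∏ q ∈ badPrimes N, (1 - qCoeff f q * ((q : ℕ) : ℂ) ^ (-s))) := by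
  have hfin : HasProd (fun p : Nat.Primes => if (p : ℕ) ∣ N then
      1 - qCoeff f p * ((p : ℕ) : ℂ) ^ (-s) else 1)
      (∏ q ∈ badPrimes N, (1 - qCoeff f q * ((q : ℕ) : ℂ) ^ (-s))) := by
    have h := hasProd_prod_of_ne_finset_one (L := SummationFilter.unconditional _)
      (f := fun p : Nat.Primes => if (p : ℕ) ∣ N then
      1 - qCoeff f p * ((p : ℕ) : ℂ) ^ (-s) else 1) (s := badPrimes N)
      (fun p hp => if_neg fun h => hp (mem_badPrimes.mpr h))
    convert h using 1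
    refine Finset.prod_congr rfl fun p hp => ?_
    rw [if_pos (mem_badPrimes.mp hp)]
  convert (hasProd_L hf hs).mul hfin using 1
  funext p
  by_cases hp : ((p : ℕ) : ℤ) ∣ W.Δ
  · have hpN : (p : ℕ) ∣ N := (hN p p.2).mpr hp
    have h0 := formPoly_ne_zero hf hs p
    rw [if_pos hp, if_pos hpN]
    rw [formPoly, if_pos hpN, add_zero] at h0 ⊢
    rw [inv_mul_cancel₀ h0]
  · have hpN : ¬ (p : ℕ) ∣ N := fun h => hp ((hN p p.2).mp h)
    rw [if_neg hp, if_neg hpN, mul_one, formPoly_eq_of_good hN ha p hp]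

/-- **The incomplete `L`-function** (Euler factors at the primes of good reduction) **of a modular
elliptic curve is entire.** -/
theorem exists_entire_of_exact {W : WeierstrassCurve ℤ}
    (h : Mlc1IsModularModelOfExactConductorLevel W) :
    ∃ L : ℂ → ℂ, Differentiable ℂ L ∧ ∀ s : ℂ, 2 < s.re →
      HasProd (fun p : Nat.Primes => if ((p : ℕ) : ℤ) ∣ W.Δ then 1 else
        (1 - (W.apOfModel p : ℂ) * (p : ℂ) ^ (-s) + (p : ℂ) ^ (1 - 2 * s))⁻¹) (L s) := by
  obtain ⟨N, hN0, -, hN, f, hf, ha⟩ := h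
  have : NeZero N := ⟨hN0.ne'⟩
  refine ⟨fun s => ModularForm.L two_pos f s *
    ∏ q ∈ badPrimes N, (1 - qCoeff f q * ((q : ℕ) : ℂ) ^ (-s)), ?_, ?_⟩
  · have h1 : Differentiable ℂ (ModularForm.L two_pos f) := CuspForm.differentiable_L two_pos f
    have h2 : ∀ q : Nat.Primes, Differentiable ℂ fun s : ℂ =>
        (1 - qCoeff f q * ((q : ℕ) : ℂ) ^ (-s)) := by
      intro q
      have hq0 : ((q : ℕ) : ℂ) ≠ 0 := by exact_mod_cast q.2.ne_zero
      exact (differentiable_const _).sub ((differentiable_const _).mul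
        (differentiable_id.neg.const_cpow (Or.inl hq0)))
    exact h1.mul (Differentiable.fun_finsetProd fun q _ => h2 q)
  · intro s hs
    exact hasProd_good hN hf (fun p hp hpN =>
      ha p hp (fun hd => hpN ((hN p hp).mpr hd)) hpN) hs

end Fermat.Agent.Cor.HW
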