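import Mathlib.NumberTheory.ModularForms.LFunction
import Mathlib.NumberTheory.EulerProduct.Basic
import Fermat.Agent.HeckeEigen.Forms
import Fermat.Agent.Corollaries.HW.Defs

/-!
# The Euler product of the `L`-function of a normalized eigenform of weight two
-/

set_option autoImplicit false

noncomputable section

open CongruenceSubgroup ModularFormClass UpperHalfPlane Complex

namespace Fermat.Agent.Cor.HW

variable {N : ℕ}

/-- The `L`-series of a cusp form of weight two converges (absolutely) for `re s > 2`, with the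
entire function `L(f, s)` as its sum. -/
theorem hasSum_L [NeZero N] (f : CuspForm (Gamma0 N) 2) {s : ℂ} (hs : 2 < s.re) :
    HasSum (fun n : ℕ => qCoeff f n / (n : ℂ) ^ s) (ModularForm.L two_pos f s) := by
  have h := CuspForm.hasSum_L (Γ := (Gamma0 N : Subgroup (GL (Fin 2) ℝ))) (k := 2) two_pos f
    (s := s) (by norm_num; exact hs)
  rw [strictWidthInfty_Gamma0] at h
  simpa [qCoeff] using h

/-- The generating function of a sequence with `u (e + 2) = A u (e + 1) - B u e`, `u 0 = 1`,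
`u 1 = A`. -/
theorem tsum_mul_of_rec {u : ℕ → ℂ} {A B : ℂ} (h0 : u 0 = 1) (h1 : u 1 = A)
    (hr : ∀ e, u (e + 2) = A * u (e + 1) - B * u e) (hs : Summable u) :
    (∑' e, u e) * (1 - A + B) = 1 := by
  have hs1 : Summable fun e => u (e + 1) := (summable_nat_add_iff 1).mpr hs
  have e1 : ∑' e, u e = 1 + ∑' e, u (e + 1) := by rw [hs.tsum_eq_zero_add, h0]
  have e2 : ∑' e, u (e + 1) = A + ∑' e, u (e + 2) := by
    rw [hs1.tsum_eq_zero_add]
    simp [h1]
  have e3 : ∑' e, u (e + 2) = A * ∑' e, u (e + 1) - B * ∑' e, u e := by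
    rw [← tsum_mul_left, ← tsum_mul_left, ← (hs1.mul_left A).tsum_sub (hs.mul_left B)]
    exact tsum_congr hr
  linear_combination (1 - A) * e1 + e2 + e3

/-- The local series at `p` times the polynomial factor is one. -/
theorem tsum_mul_formPoly [NeZero N] {f : CuspForm (Gamma0 N) 2} (hf : f.IsNormalizedEigenform)
    {s : ℂ} (hs : 2 < s.re) (p : Nat.Primes) :
    (∑' e : ℕ, qCoeff f ((p : ℕ) ^ e) / (((p : ℕ) ^ e : ℕ) : ℂ) ^ s) * formPoly f p s = 1 := by
  set F : ℕ → ℂ := fun n => qCoeff f n / (n : ℂ) ^ s with hF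
  have hsum : Summable F := (hasSum_L f hs).summable
  have hF1 : F 1 = 1 := by simp [hF, hf.qCoeff_one]
  have hp0 : ((p : ℕ) : ℂ) ≠ 0 := by exact_mod_cast p.2.ne_zero
  have hpow : ∀ e : ℕ, (((p : ℕ) ^ e : ℕ) : ℂ) ^ s = ((p : ℂ) ^ s) ^ e := by
    intro e
    rw [Nat.cast_pow, ← natCast_cpow_natCast_mul, cpow_nat_mul]
  have hsp : Summable fun e : ℕ => F ((p : ℕ) ^ e) :=
    (hsum.comp_injective (Nat.pow_right_injective p.2.two_le))
  have hps : (p : ℂ) ^ s ≠ 0 := by simp [cpow_eq_zero_iff, hp0]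
  rw [formPoly]
  by_cases hpN : (p : ℕ) ∣ N
  · rw [if_pos hpN]
    refine tsum_mul_of_rec (u := fun e : ℕ => F ((p : ℕ) ^ e)) (A := qCoeff f p * (p : ℂ) ^ (-s))
      (B := 0) ?_ ?_ ?_ hsp
    · simpa using hF1
    · simp [hF, cpow_neg, div_eq_mul_inv]
    · intro e
      simp only [hF, hpow]
      rw [hf.qCoeff_prime_pow_of_dvd p e p.2 hpN, cpow_neg]
      field_simp
      ring
  · rw [if_neg hpN]
    refine tsum_mul_of_rec (u := fun e : ℕ => F ((p : ℕ) ^ e)) (A := qCoeff f p * (p : ℂ) ^ (-s))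
      (B := (p : ℂ) ^ (1 - 2 * s)) ?_ ?_ ?_ hsp
    · simpa using hF1
    · simp [hF, cpow_neg, div_eq_mul_inv]
    · intro e
      simp only [hF, hpow]
      rw [hf.qCoeff_prime_pow_of_not_dvd p e p.2 hpN, cpow_neg, cpow_sub _ _ hp0, cpow_one,
        two_mul s, cpow_add _ _ hp0]
      field_simp
      ring

theorem formPoly_ne_zero [NeZero N] {f : CuspForm (Gamma0 N) 2} (hf : f.IsNormalizedEigenform)
    {s : ℂ} (hs : 2 < s.re) (p : Nat.Primes) : formPoly f p s ≠ 0 := by
  intro h
  have h1 := tsum_mul_formPoly hf hs p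
  rw [h, mul_zero] at h1
  exact zero_ne_one h1

/-- **Euler product** of the `L`-function of a normalized eigenform of weight two. -/
theorem hasProd_L [NeZero N] {f : CuspForm (Gamma0 N) 2} (hf : f.IsNormalizedEigenform) {s : ℂ}
    (hs : 2 < s.re) :
    HasProd (fun p : Nat.Primes => (formPoly f p s)⁻¹) (ModularForm.L two_pos f s) := by
  set F : ℕ → ℂ := fun n => qCoeff f n / (n : ℂ) ^ s with hF
  have hsum : Summable F := (hasSum_L f hs).summable
  have hF0 : F 0 = 0 := by simp [hF, FermatAgent.HeckeEigen.qCoeff_at_zero]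
  have hF1 : F 1 = 1 := by simp [hF, hf.qCoeff_one]
  have hmul : ∀ {m n : ℕ}, m.Coprime n → F (m * n) = F m * F n := by
    intro m n hmn
    simp only [hF]
    rw [hf.qCoeff_mul_of_coprime m n hmn, Nat.cast_mul, natCast_mul_natCast_cpow,
      mul_div_mul_comm]
  have h := EulerProduct.eulerProduct_hasProd hF1 hmul hsum.norm hF0
  rw [(hasSum_L f hs).tsum_eq] at h
  convert h using 1
  funext p
  exact (eq_inv_of_mul_eq_one_left (tsum_mul_formPoly hf hs p)).symm

end Fermat.Agent.Cor.HW
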