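import Fermat.Agent.Corollaries.HW.TateEquiv
import Fermat.Agent.HeckeEigen.Forms

/-!
# Finiteness theorems for semistable elliptic curves with good reduction outside `S`

* `linearIndependent_eigenforms` : the normalized eigenforms of weight two and level `N` are
  linearly independent, so their number is at most `dim S₂(Γ₀(N))` (`card_eigenforms_le`);
* `ncard_LSet_le` : there are at most `dim S₂(Γ₀(N))` functions which are the Hasse-Weil
  `L`-function of a semistable elliptic curve of conductor `N`;
* `finite_L` : for every finite set `S` of primes there are only finitely many Hasse-Weil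
  `L`-functions of semistable elliptic curves with good reduction outside `S`;
* `exists_finite_tateIso` : for every finite set `S` of primes there are finitely many semistable
  elliptic curves such that every semistable elliptic curve with good reduction outside `S` has, for
  `p = 11` and all primes `p ≥ 17`, the same `p`-adic Tate module (as a Galois module) as one of them.

By Faltings' isogeny theorem, which is not proved here, the last two statements say that there are
only finitely many isogeny classes (Shafarevich).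
-/

set_option autoImplicit false

noncomputable section

open WeierstrassCurve CongruenceSubgroup ModularFormClass FermatAgent.HeckeEigen

namespace Fermat.Agent.Cor.HW

/-! ### Eigenforms of a fixed level -/

section Forms

variable {N : ℕ} [NeZero N]

/-- A normalized eigenform is determined by its coefficients at the primes. -/
theorem eq_of_qCoeff_prime {f g : CuspForm (Gamma0 N) 2} (hf : f.IsNormalizedEigenform)
    (hg : g.IsNormalizedEigenform) (h : ∀ p : ℕ, p.Prime → qCoeff f p = qCoeff g p) : f = g := by
  by_contra hne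
  refine qCoeff_one_ne_zero_of_eigen (v := f - g) (χ := fun p => qCoeff f p) (fun p => ?_)
    (sub_ne_zero.mpr hne) ?_
  · rw [map_sub, heckeOp_eq_of_isNormalizedEigenform hf, heckeOp_eq_of_isNormalizedEigenform hg,
      ← h p p.2, smul_sub]
  · rw [qCoeff_sub, hf.qCoeff_one, hg.qCoeff_one, sub_self]

variable (N) in
/-- words in the Hecke operators -/
def opHom : FreeMonoid Nat.Primes →* Module.End ℂ (CuspForm (Gamma0 N) 2) :=
  FreeMonoid.lift (heckeOp N 2)

/-- the eigenvalues of the words in the Hecke operators -/
def chiHom (f : CuspForm (Gamma0 N) 2) : FreeMonoid Nat.Primes →* ℂ :=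
  FreeMonoid.lift fun p => qCoeff f p

theorem opHom_apply {f : CuspForm (Gamma0 N) 2} (hf : f.IsNormalizedEigenform)
    (w : FreeMonoid Nat.Primes) : opHom N w f = chiHom f w • f := by
  induction w using FreeMonoid.recOn with
  | one => rw [map_one, map_one, one_smul, Module.End.one_apply]
  | of_mul p w ih =>
    rw [map_mul, map_mul, Module.End.mul_apply, ih, map_smul, opHom, chiHom,
      FreeMonoid.lift_eval_of, FreeMonoid.lift_eval_of, heckeOp_eq_of_isNormalizedEigenform hf,
      smul_smul, mul_comm]

theorem chiHom_injective : Function.Injective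
    (fun f : {f : CuspForm (Gamma0 N) 2 // f.IsNormalizedEigenform} => chiHom f.1) := by
  intro f g h
  refine Subtype.ext (eq_of_qCoeff_prime f.2 g.2 fun p hp => ?_)
  have h1 := DFunLike.congr_fun h (FreeMonoid.of ⟨p, hp⟩)
  simp only [chiHom] at h1
  exact h1

variable (N) in
/-- **The normalized eigenforms of level `N` are linearly independent.** -/
theorem linearIndependent_eigenforms : LinearIndependent ℂ
    (fun f : {f : CuspForm (Gamma0 N) 2 // f.IsNormalizedEigenform} => f.1) := by
  have hD := (linearIndependent_monoidHom (FreeMonoid Nat.Primes) ℂ).comp _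
    (chiHom_injective (N := N))
  rw [linearIndependent_iff'] at hD ⊢
  intro s g hg i hi
  refine hD s g ?_ i hi
  funext w
  have h1 : qCoeffLin N 2 1 (opHom N w (∑ f ∈ s, g f • f.1)) = 0 := by
    rw [hg, map_zero, map_zero]
  rw [map_sum, map_sum] at h1
  rw [Finset.sum_apply, Pi.zero_apply, ← h1]
  refine Finset.sum_congr rfl fun f _ => ?_
  rw [map_smul, opHom_apply f.2, map_smul, map_smul, qCoeffLin_apply, f.2.qCoeff_one,
    smul_eq_mul, smul_eq_mul, mul_one]
  rfl

variable (N) in
theorem finite_eigenforms : Finite {f : CuspForm (Gamma0 N) 2 // f.IsNormalizedEigenform} :=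
  (linearIndependent_eigenforms N).finite

variable (N) in
/-- **The number of normalized eigenforms of level `N`** is at most the dimension. -/
theorem card_eigenforms_le : Nat.card {f : CuspForm (Gamma0 N) 2 // f.IsNormalizedEigenform} ≤
    Module.finrank ℂ (CuspForm (Gamma0 N) 2) := by
  have := finite_eigenforms N
  have := Fintype.ofFinite {f : CuspForm (Gamma0 N) 2 // f.IsNormalizedEigenform}
  rw [Nat.card_eq_fintype_card]
  exact (linearIndependent_eigenforms N).fintype_card_le_finrank

end Forms

/-! ### The `L`-functions of a fixed conductor -/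

/-- The Hasse-Weil `L`-functions of the semistable elliptic curves of conductor `N`. -/
def LSet (N : ℕ) : Set (ℂ → ℂ) :=
  {L | ∃ W : WeierstrassCurve ℤ, W.Δ ≠ 0 ∧ W.IsSemistableModel ∧ W.conductorLevel = N ∧
    IsHasseWeil W L}

theorem LSet_subset (N : ℕ) [NeZero N] : LSet N ⊆ Set.range
    (fun f : {f : CuspForm (Gamma0 N) 2 // f.IsNormalizedEigenform} =>
      ModularForm.L (k := 2) two_pos f.1) := by
  rintro L ⟨W, hΔ, hW, rfl, hL⟩
  obtain ⟨f, ⟨hf, ha⟩, -⟩ := existsUnique_newform_ap hΔ hW
  exact ⟨⟨f, hf.1⟩, (hL.unique (isHasseWeil hΔ hf ha)).symm⟩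

/-- **Semistable elliptic curves of conductor `N`** have only finitely many `L`-functions. -/
theorem finite_LSet (N : ℕ) [NeZero N] : (LSet N).Finite := by
  have := finite_eigenforms N
  exact (Set.finite_range _).subset (LSet_subset N)

/-- **The number of Hasse-Weil `L`-functions of semistable elliptic curves of conductor `N`** is at
most `dim S₂(Γ₀(N))`. -/
theorem ncard_LSet_le (N : ℕ) [NeZero N] :
    (LSet N).ncard ≤ Module.finrank ℂ (CuspForm (Gamma0 N) 2) := by
  have := finite_eigenforms N
  refine (Set.ncard_le_ncard (LSet_subset N) (Set.finite_range _)).trans ?_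
  rw [← Set.image_univ]
  refine (Set.ncard_image_le Set.finite_univ).trans ?_
  rw [Set.ncard_univ]
  exact card_eigenforms_le N

/-! ### Good reduction outside `S` -/

/-- Semistable, with good reduction outside `S`. -/
structure GoodOutside (S : Finset ℕ) (W : WeierstrassCurve ℤ) : Prop where
  ne_zero : W.Δ ≠ 0
  semistable : W.IsSemistableModel
  mem : ∀ q : ℕ, q.Prime → (q : ℤ) ∣ W.Δ → q ∈ S

theorem GoodOutside.conductorLevel_dvd {S : Finset ℕ} {W : WeierstrassCurve ℤ}
    (h : GoodOutside S W) : W.conductorLevel ∣ ∏ q ∈ S with q.Prime, q := by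
  have h0 : ∏ q ∈ S with q.Prime, q ≠ 0 :=
    Finset.prod_ne_zero_iff.mpr fun q hq => (Finset.mem_filter.mp hq).2.ne_zero
  rw [WeierstrassCurve.conductorLevel, Nat.radical_dvd_iff h0]
  intro q hq
  obtain ⟨hqp, hqd, -⟩ := Nat.mem_primeFactors.mp hq
  refine Nat.mem_primeFactors.mpr ⟨hqp, Finset.dvd_prod_of_mem _ (Finset.mem_filter.mpr
    ⟨h.mem q hqp (Int.natCast_dvd.mpr hqd), hqp⟩), h0⟩

/-- **Finiteness of the `L`-functions of the semistable elliptic curves with good reduction outside
`S`.** -/
theorem finite_L (S : Finset ℕ) :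
    {L : ℂ → ℂ | ∃ W : WeierstrassCurve ℤ, GoodOutside S W ∧ IsHasseWeil W L}.Finite := by
  have h0 : ∏ q ∈ S with q.Prime, q ≠ 0 :=
    Finset.prod_ne_zero_iff.mpr fun q hq => (Finset.mem_filter.mp hq).2.ne_zero
  have hfin : (⋃ N ∈ (∏ q ∈ S with q.Prime, q).divisors, LSet N).Finite := by
    refine Set.Finite.biUnion (Finset.finite_toSet _) fun N hN => ?_
    have : NeZero N := ⟨(Nat.pos_of_mem_divisors hN).ne'⟩
    exact finite_LSet N
  refine hfin.subset ?_
  rintro L ⟨W, hW, hL⟩
  have h1 : L ∈ LSet W.conductorLevel := ⟨W, hW.ne_zero, hW.semistable, rfl, hL⟩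
  exact Set.mem_iUnion₂.mpr
    ⟨W.conductorLevel, Nat.mem_divisors.mpr ⟨hW.conductorLevel_dvd, h0⟩, h1⟩

/-- **Finiteness up to the `L`-function and the Tate modules**: there is a finite set `F` of
semistable elliptic curves with good reduction outside `S` such that for every semistable elliptic
curve `W` with good reduction outside `S` some `W'` in `F` has the same numbers `a_ℓ`, for all primes
`ℓ`, and the same Tate modules `T_p` (as Galois modules) for `p = 11` and for all primes
`p ≥ 17`. -/
theorem exists_finite_tateIso (S : Finset ℕ) : ∃ F : Set (WeierstrassCurve ℤ), F.Finite ∧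
    (∀ W ∈ F, GoodOutside S W) ∧ ∀ W : WeierstrassCurve ℤ, GoodOutside S W → ∃ W' ∈ F,
      W.conductorLevel = W'.conductorLevel ∧ (∀ ℓ : ℕ, ℓ.Prime → ap W ℓ = ap W' ℓ) ∧
        ∀ (p : ℕ) [Fact p.Prime], (p = 11 ∨ 17 ≤ p) → TateIso W W' p := by
  classical
  set A : Set (ℂ → ℂ) := {L : ℂ → ℂ | ∃ W : WeierstrassCurve ℤ, GoodOutside S W ∧ IsHasseWeil W L}
    with hA
  have hAf : A.Finite := finite_L S
  choose! c hc using fun (L : ℂ → ℂ) (hL : L ∈ A) => hL
  refine ⟨c '' A, hAf.image c, ?_, fun W hW => ?_⟩
  · rintro W ⟨L, hL, rfl⟩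
    exact (hc L hL).1
  · obtain ⟨L, hL, -⟩ := existsUnique_isHasseWeil hW.ne_zero hW.semistable
    have hLA : L ∈ A := ⟨W, hW, hL⟩
    obtain ⟨hW', hL'⟩ := hc L hLA
    obtain ⟨h1, h2⟩ := IsHasseWeil.ap_eq hW.ne_zero hW.semistable hW'.ne_zero hW'.semistable hL hL'
    refine ⟨c L, ⟨L, hLA, rfl⟩, h1, h2, fun p hp h => ?_⟩
    exact (tateIso_iff_hasseWeil hW.ne_zero hW.semistable hW'.ne_zero hW'.semistable (by omega)
      (Cor.modRepIsIrreducible hp.out h hW.ne_zero hW.semistable)).mpr ⟨L, hL, hL'⟩

end Fermat.Agent.Cor.HW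

end
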