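import Fermat.Agent.Corollaries.HW.Rotate

/-!
# `Γ(1 + i t)` and the growth of `L(f, s)` in the strip `1 ≤ re s ≤ 4`
-/

set_option autoImplicit false

noncomputable section

open UpperHalfPlane hiding I
open CongruenceSubgroup ModularFormClass Complex MeasureTheory Filter Topology Set
open scoped MatrixGroups ModularForm Nat ComplexConjugate

namespace Fermat.Agent.Cor.HW

theorem norm_sin_le_exp (z : ℂ) : ‖sin z‖ ≤ Real.exp |z.im| := by
  have h1 : sin z = (exp (-z * I) - exp (z * I)) * I / 2 := rfl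
  have e1 : ‖exp (-z * I)‖ ≤ Real.exp |z.im| := by
    rw [norm_exp]
    refine Real.exp_le_exp.mpr ?_
    simpa using le_abs_self z.im
  have e2 : ‖exp (z * I)‖ ≤ Real.exp |z.im| := by
    rw [norm_exp]
    refine Real.exp_le_exp.mpr ?_
    simpa using neg_le_abs z.im
  rw [h1, norm_div, norm_mul, norm_I, mul_one, norm_ofNat]
  have e3 := norm_sub_le (exp (-z * I)) (exp (z * I))
  linarith

/-- `|Γ(1 + i t)|² ≥ 2π t e^(-π t)` for `t > 0`. -/
theorem le_normSq_Gamma {t : ℝ} (ht : 0 < t) :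
    2 * Real.pi * t * Real.exp (-(Real.pi * t)) ≤ ‖Gamma (1 + t * I)‖ ^ 2 := by
  have ht0 : (t : ℂ) ≠ 0 := by exact_mod_cast ht.ne'
  have htI : (t : ℂ) * I ≠ 0 := mul_ne_zero ht0 I_ne_zero
  have h1 : Gamma (1 + t * I) = (t * I) * Gamma (t * I) := by
    rw [add_comm, Gamma_add_one _ htI]
  have h2 : Gamma (1 - t * I) = conj (Gamma (1 + t * I)) := by
    rw [← Gamma_conj]
    congr 1
    simp [sub_eq_add_neg]
  have h3 := Gamma_mul_Gamma_one_sub ((t : ℂ) * I)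
  have h4 : Gamma (1 + t * I) * conj (Gamma (1 + t * I)) =
      (t * I) * (Real.pi / sin (Real.pi * (t * I))) := by
    rw [← h3, h2]
    nth_rewrite 1 [h1]
    ring
  have h5 : sin ((Real.pi : ℂ) * (t * I)) = (Real.sinh (Real.pi * t) : ℂ) * I := by
    rw [← mul_assoc, sin_mul_I]
    push_cast
    rfl
  have hsinh : 0 < Real.sinh (Real.pi * t) := Real.sinh_pos_iff.mpr (by positivity)
  have hs0 : ((Real.sinh (Real.pi * t) : ℝ) : ℂ) ≠ 0 := by exact_mod_cast hsinh.ne'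
  have h6 : ((‖Gamma (1 + t * I)‖ ^ 2 : ℝ) : ℂ) =
      ((Real.pi * t / Real.sinh (Real.pi * t) : ℝ) : ℂ) := by
    have h7 : ((‖Gamma (1 + t * I)‖ ^ 2 : ℝ) : ℂ) =
        Gamma (1 + t * I) * conj (Gamma (1 + t * I)) := by
      rw [mul_conj, normSq_eq_norm_sq]
    rw [h7, h4, h5]
    push_cast
    field_simp
  have h8 : ‖Gamma (1 + t * I)‖ ^ 2 = Real.pi * t / Real.sinh (Real.pi * t) := by
    exact_mod_cast h6
  rw [h8, le_div_iff₀ hsinh, Real.sinh_eq]
  have h9 : Real.exp (-(Real.pi * t)) * Real.exp (Real.pi * t) = 1 := by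
    rw [← Real.exp_add, neg_add_cancel, Real.exp_zero]
  have h10 := Real.exp_pos (-(Real.pi * t))
  have h11 := Real.exp_pos (Real.pi * t)
  have h12 : 0 < Real.pi * t := by positivity
  have h13 : 2 * Real.pi * t * Real.exp (-(Real.pi * t)) *
      ((Real.exp (Real.pi * t) - Real.exp (-(Real.pi * t))) / 2) =
      Real.pi * t * (Real.exp (-(Real.pi * t)) * Real.exp (Real.pi * t)) -
        Real.pi * t * (Real.exp (-(Real.pi * t)) * Real.exp (-(Real.pi * t))) := by ring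
  rw [h13, h9]
  have : 0 ≤ Real.pi * t * (Real.exp (-(Real.pi * t)) * Real.exp (-(Real.pi * t))) := by positivity
  linarith

/-- `|Γ(1 + i t)| ≥ √T e^(-π t / 2)` for `t ≥ T > 0`. -/
theorem le_norm_Gamma {T t : ℝ} (hT : 0 < T) (ht : T ≤ t) :
    √T * Real.exp (-(Real.pi / 2 * t)) ≤ ‖Gamma (1 + t * I)‖ := by
  have ht0 : 0 < t := hT.trans_le ht
  refine (sq_le_sq₀ (by positivity) (norm_nonneg _)).mp ?_
  refine le_trans ?_ (le_normSq_Gamma ht0)
  have h1 : Real.exp (-(Real.pi / 2 * t)) ^ 2 = Real.exp (-(Real.pi * t)) := by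
    rw [← Real.exp_nat_mul]
    congr 1
    push_cast
    ring
  rw [mul_pow, h1, Real.sq_sqrt hT.le]
  refine mul_le_mul_of_nonneg_right ?_ (Real.exp_nonneg _)
  have := Real.pi_gt_three
  nlinarith

/-- `|1/Γ(s)| ≤ C e^(π |im s|)` for `1 ≤ re s ≤ 4`. -/
theorem exists_norm_inv_Gamma_le : ∃ C : ℝ, 0 ≤ C ∧ ∀ s : ℂ, 1 ≤ s.re → s.re ≤ 4 →
    ‖(Gamma s)⁻¹‖ ≤ C * Real.exp (Real.pi * |s.im|) := by
  have hK : IsCompact (Icc (1 : ℝ) 4 ×ℂ Icc (-1 : ℝ) 1) := isCompact_Icc.reProdIm isCompact_Icc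
  obtain ⟨C₁, hC₁⟩ := hK.exists_bound_of_continuousOn
    differentiable_one_div_Gamma.continuous.continuousOn
  have hG : ContinuousOn Real.Gamma (Icc (1 : ℝ) 4) := by
    intro x hx
    exact (Real.differentiableAt_Gamma fun m hm => by
      have h0 := hx.1
      have h1 : (0 : ℝ) ≤ m := Nat.cast_nonneg m
      rw [hm] at h0
      linarith).continuousAt.continuousWithinAt
  obtain ⟨C₂, hC₂⟩ := isCompact_Icc.exists_bound_of_continuousOn hG
  have hC₁0 : 0 ≤ C₁ := (norm_nonneg _).trans (hC₁ 1 ⟨by simp, by simp⟩)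
  have hC₂0 : 0 ≤ C₂ := (norm_nonneg _).trans (hC₂ 1 ⟨le_rfl, by norm_num⟩)
  refine ⟨C₁ + C₂, by linarith, fun s h1 h2 => ?_⟩
  have hE : 1 ≤ Real.exp (Real.pi * |s.im|) :=
    Real.one_le_exp (mul_nonneg Real.pi_pos.le (abs_nonneg _))
  rcases le_or_gt |s.im| 1 with h | h
  · have h3 := hC₁ s ⟨⟨h1, h2⟩, abs_le.mp h⟩
    calc ‖(Gamma s)⁻¹‖ ≤ C₁ * 1 := by rw [mul_one]; exact h3
      _ ≤ (C₁ + C₂) * Real.exp (Real.pi * |s.im|) :=
          mul_le_mul (by linarith) hE zero_le_one (by linarith)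
  · -- reflection
    have him : ∀ k : ℕ, 1 ≤ ‖1 - s + (k : ℂ)‖ := by
      intro k
      have h3 := abs_im_le_norm (1 - s + (k : ℂ))
      have h4 : (1 - s + (k : ℂ)).im = -s.im := by simp
      rw [h4, abs_neg] at h3
      exact h.le.trans h3
    have h3 := inv_Gamma_eq 4 (1 - s)
    have h4 : ‖Gamma (1 - s)‖ ≤ C₂ := by
      have h5 : Gamma (1 - s) = Gamma (1 - s + (4 : ℕ)) *
          (∏ j ∈ Finset.range 4, (1 - s + (j : ℂ)))⁻¹ := by
        rw [← inv_inv (Gamma (1 - s)), h3, mul_inv, inv_inv, mul_comm]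
      have h6 : 1 ≤ ‖∏ j ∈ Finset.range 4, (1 - s + (j : ℂ))‖ := by
        rw [norm_prod]
        calc (1 : ℝ) = ∏ j ∈ Finset.range 4, (1 : ℝ) := by simp
          _ ≤ ∏ j ∈ Finset.range 4, ‖1 - s + (j : ℂ)‖ :=
            Finset.prod_le_prod (fun _ _ => zero_le_one) (fun j _ => him j)
      have hre : (1 - s + ((4 : ℕ) : ℂ)).re = 5 - s.re := by
        simp
        ring
      have h7 : ‖Gamma (1 - s + (4 : ℕ))‖ ≤ C₂ := by
        refine (norm_Gamma_le (by rw [hre]; linarith)).trans ?_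
        rw [hre]
        exact (le_abs_self _).trans (hC₂ (5 - s.re) ⟨by linarith, by linarith⟩)
      rw [h5, norm_mul, norm_inv]
      calc _ ≤ C₂ * 1 := mul_le_mul h7 (inv_le_one_of_one_le₀ h6) (by positivity) hC₂0
        _ = C₂ := mul_one _
    have h5 := Gamma_mul_Gamma_one_sub s
    have hne : Gamma (1 - s) ≠ 0 := by
      refine Gamma_ne_zero fun m hm => ?_
      have h6 : s.im = 0 := by
        have := congrArg Complex.im hm
        simpa using this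
      rw [h6, abs_zero] at h
      linarith
    have hpi : (Real.pi : ℂ) ≠ 0 := ofReal_ne_zero.mpr Real.pi_ne_zero
    have h6 : (Gamma s)⁻¹ = Gamma (1 - s) * sin (Real.pi * s) / Real.pi := by
      rcases eq_or_ne (sin ((Real.pi : ℂ) * s)) 0 with h0 | h0
      · rw [h0, div_zero] at h5
        have h7 : Gamma s = 0 := (mul_eq_zero.mp h5).resolve_right hne
        rw [h7, h0]
        simp
      · have h8 : Gamma s ≠ 0 := by
          intro h9
          rw [h9, zero_mul] at h5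
          exact (div_ne_zero hpi h0) h5.symm
        have h9 : Gamma s * Gamma (1 - s) * sin (Real.pi * s) = Real.pi := by
          rw [h5]
          field_simp
        rw [eq_div_iff hpi, inv_mul_eq_iff_eq_mul₀ h8]
        linear_combination -h9
    have h7 : ‖sin ((Real.pi : ℂ) * s)‖ ≤ Real.exp (Real.pi * |s.im|) := by
      refine (norm_sin_le_exp _).trans (Real.exp_le_exp.mpr (le_of_eq ?_))
      rw [im_ofReal_mul, abs_mul, abs_of_pos Real.pi_pos]
    have hpi1 : ‖(Real.pi : ℂ)‖⁻¹ ≤ 1 := by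
      rw [norm_real, Real.norm_eq_abs, abs_of_pos Real.pi_pos]
      exact inv_le_one_of_one_le₀ (by linarith [Real.pi_gt_three])
    rw [h6, norm_div, norm_mul, div_eq_mul_inv]
    calc ‖Gamma (1 - s)‖ * ‖sin ((Real.pi : ℂ) * s)‖ * ‖(Real.pi : ℂ)‖⁻¹
        ≤ C₂ * Real.exp (Real.pi * |s.im|) * 1 := by gcongr
      _ ≤ (C₁ + C₂) * Real.exp (Real.pi * |s.im|) := by
          rw [mul_one]
          exact mul_le_mul_of_nonneg_right (by linarith) (Real.exp_nonneg _)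

variable {N : ℕ} [NeZero N]

theorem norm_expFactor_le {s : ℂ} (h1 : 1 ≤ s.re) (h2 : s.re ≤ 4) :
    ‖expFactor N s‖ ≤ (2 * Real.pi) ^ 4 := by
  have hN : 0 < N := Nat.pos_of_ne_zero (NeZero.ne N)
  have h3 : (2 * (Real.pi : ℂ)) = ((2 * Real.pi : ℝ) : ℂ) := by push_cast; rfl
  have e1 : ‖(N : ℂ) ^ (-(s / 2))‖ ≤ 1 := by
    rw [norm_natCast_cpow_of_pos hN]
    refine Real.rpow_le_one_of_one_le_of_nonpos (by exact_mod_cast hN) ?_
    have : (-(s / 2)).re = -(s.re / 2) := by simp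
    rw [this]
    linarith
  have e2 : ‖(2 * (Real.pi : ℂ)) ^ s‖ ≤ (2 * Real.pi) ^ 4 := by
    rw [h3, norm_cpow_eq_rpow_re_of_pos (by positivity)]
    refine (Real.rpow_le_rpow_of_exponent_le ?_ h2).trans (le_of_eq ?_)
    · linarith [Real.pi_gt_three]
    · norm_cast
  rw [expFactor, norm_mul]
  calc _ ≤ 1 * (2 * Real.pi) ^ 4 := mul_le_mul e1 e2 (norm_nonneg _) zero_le_one
    _ = _ := one_mul _

section

variable {A : GL (Fin 2) ℝ} (hA : (A : Matrix (Fin 2) (Fin 2) ℝ) = !![0, -1; (N : ℝ), 0])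
  {f : CuspForm (Gamma0 N) 2} {c : ℂ} (hc : ‖c‖ ≤ 1) (hsl : (⇑f : ℍ → ℂ) ∣[(2 : ℤ)] A = c • ⇑f)
  (hf : f.IsNormalizedEigenform) (hH : IsHasse f)

include hA hc hsl hf hH in
/-- `|L(f, s)| ≤ C e^(π |im s|)` for `1 ≤ re s ≤ 4`. -/
theorem exists_norm_L_le : ∃ C : ℝ, 0 ≤ C ∧ ∀ s : ℂ, 1 ≤ s.re → s.re ≤ 4 →
    ‖ModularForm.L two_pos f s‖ ≤ C * Real.exp (Real.pi * |s.im|) := by
  obtain ⟨C, hC0, hC⟩ := exists_norm_inv_Gamma_le
  have hx := xpar_pos (N := N)
  refine ⟨(2 * Real.pi) ^ 4 * C * (2 * ((20 ! : ℕ) * (Real.pi ^ 2 / 6) / xpar N ^ 20)),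
    by positivity, fun s h1 h2 => ?_⟩
  rw [L_eq_LamN, norm_mul, norm_mul]
  have e1 := norm_expFactor_le (N := N) h1 h2
  have e2 := hC s h1 h2
  have e3 := norm_LamN_le_strip hA hc hsl hf hH (s := s) (by linarith) (by linarith)
  calc ‖expFactor N s‖ * ‖(Gamma s)⁻¹‖ * ‖LamN f s‖
      ≤ (2 * Real.pi) ^ 4 * (C * Real.exp (Real.pi * |s.im|)) *
          (2 * ((20 ! : ℕ) * (Real.pi ^ 2 / 6) / xpar N ^ 20)) := by gcongr
    _ = _ := by ring

end

/-- On the critical line: `|Λ(1 + i t)| = |Γ(1 + i t)| |L(1 + i t)| / x`. -/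
theorem norm_LamN_line (f : CuspForm (Gamma0 N) 2) (t : ℝ) :
    ‖LamN f (1 + t * I)‖ = (xpar N)⁻¹ * ‖Gamma (1 + t * I)‖ *
      ‖ModularForm.L two_pos f (1 + t * I)‖ := by
  have hN : 0 < N := Nat.pos_of_ne_zero (NeZero.ne N)
  have hre : (1 + (t : ℂ) * I).re = 1 := by simp
  have h3 : (2 * (Real.pi : ℂ)) = ((2 * Real.pi : ℝ) : ℂ) := by push_cast; rfl
  have e1 : ‖(N : ℂ) ^ ((1 + (t : ℂ) * I) / 2)‖ = √(N : ℝ) := by
    rw [norm_natCast_cpow_of_pos hN, Real.sqrt_eq_rpow]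
    congr 1
    simp
  have e2 : ‖(2 * (Real.pi : ℂ)) ^ (-(1 + (t : ℂ) * I))‖ = (2 * Real.pi)⁻¹ := by
    rw [h3, norm_cpow_eq_rpow_re_of_pos (by positivity), neg_re, hre, Real.rpow_neg_one]
  rw [LamN_eq_L f (s := 1 + t * I) (by rw [hre]; norm_num), norm_mul, norm_mul, norm_mul, e1, e2,
    xpar, inv_div]
  ring

end Fermat.Agent.Cor.HW
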