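import Fermat.Agent.Corollaries.HW.HardyLower

/-!
# Hardy's theorem for the `L`-functions of semistable elliptic curves

The `L`-function of a semistable elliptic curve over `ℚ` has infinitely many zeros on the critical
line `re s = 1`.

Proof: `Λ(1 + i t)` is real (root number `1`) or purely imaginary (root number `-1`). If it had only
finitely many zeros it would have constant sign for `t ≥ T₀`; then, for `α = π/2 - δ`,
`∫_{t ≥ T₀} |Λ(1 + i t)| e^(α t) dt ≤ |∫ Λ(1 + i t) e^(α t) dt| + O(1)`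
`= 2π |f(i e^(iα) / √N)| + O(1) = O(1/δ)`. But `|Γ(1 + i t)| ≥ √T e^(-π t/2)` for `t ≥ T` and
`∫ e^(-δ² t²) |L(1 + i t)| dt ≥ √π / (4 δ)` show that it is at least `c √T / δ - D_T` for every `T`.
-/

set_option autoImplicit false

noncomputable section

open UpperHalfPlane hiding I
open CongruenceSubgroup ModularFormClass Complex MeasureTheory Filter Topology Set
open scoped MatrixGroups ModularForm Nat ComplexConjugate

namespace Fermat.Agent.Cor.HW

/-- The elementary contradiction. -/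
theorem hardy_contra {T₀ c₀ C₁ C₃ : ℝ} (hc₀ : 0 < c₀)
    (h : ∀ T : ℝ, T₀ ≤ T → 0 < T → ∃ D : ℝ, ∀ δ : ℝ, 0 < δ → δ ≤ 1 / 10 →
      c₀ * √T / δ - D ≤ C₃ / δ + C₁) : False := by
  set M : ℝ := (|C₃| + 1) / c₀ with hM
  have hM0 : 0 < M := by positivity
  set T : ℝ := max T₀ (M ^ 2) with hT
  have hT0 : 0 < T := lt_of_lt_of_le (by positivity) (le_max_right _ _)
  obtain ⟨D, hD⟩ := h T (le_max_left _ _) hT0
  have hs : M ≤ √T := Real.le_sqrt_of_sq_le (le_max_right _ _)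
  have h1 : |C₃| + 1 ≤ c₀ * √T := by
    have := mul_le_mul_of_nonneg_left hs hc₀.le
    rwa [hM, mul_div_cancel₀ _ hc₀.ne'] at this
  set E : ℝ := |C₁ + D| + 10 with hE
  have hE0 : 0 < E := by positivity
  have hδ0 : 0 < 1 / E := by positivity
  have hδ1 : 1 / E ≤ 1 / 10 := by
    apply one_div_le_one_div_of_le (by norm_num)
    rw [hE]
    linarith [abs_nonneg (C₁ + D)]
  have h2 := hD (1 / E) hδ0 hδ1
  rw [div_div_eq_mul_div, div_div_eq_mul_div, div_one, div_one] at h2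
  have h3 : (c₀ * √T - C₃) * E ≤ C₁ + D := by linarith
  have h4 : 1 ≤ c₀ * √T - C₃ := by linarith [le_abs_self C₃]
  have h5 : 1 * E ≤ (c₀ * √T - C₃) * E := mul_le_mul_of_nonneg_right h4 hE0.le
  have h6 := le_abs_self (C₁ + D)
  linarith

/-- A continuous real function without zeros on `[T₀, ∞)` has constant sign there. -/
theorem exists_sign {H : ℝ → ℝ} (hH : Continuous H) {T₀ : ℝ} (h0 : ∀ t, T₀ ≤ t → H t ≠ 0) :
    ∃ e : ℝ, |e| = 1 ∧ ∀ t, T₀ ≤ t → |H t| = e * H t := by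
  rcases lt_or_gt_of_ne (h0 T₀ le_rfl) with h | h
  · refine ⟨-1, by simp, fun t ht => ?_⟩
    have h1 : H t < 0 := by
      by_contra hcon
      rw [not_lt] at hcon
      obtain ⟨x, hx, hx0⟩ := intermediate_value_Icc ht hH.continuousOn ⟨h.le, hcon⟩
      exact h0 x hx.1 hx0
    rw [abs_of_neg h1, neg_one_mul]
  · refine ⟨1, by simp, fun t ht => ?_⟩
    have h1 : 0 < H t := by
      by_contra hcon
      rw [not_lt] at hcon
      obtain ⟨x, hx, hx0⟩ := intermediate_value_Icc' ht hH.continuousOn ⟨hcon, h.le⟩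
      exact h0 x hx.1 hx0
    rw [abs_of_pos h1, one_mul]

theorem conj_ofReal_cpow {u : ℝ} (hu : 0 < u) (s : ℂ) : conj ((u : ℂ) ^ s) = (u : ℂ) ^ (conj s) := by
  have h0 : (u : ℂ) ≠ 0 := by exact_mod_cast hu.ne'
  rw [cpow_def_of_ne_zero h0, cpow_def_of_ne_zero h0, ← ofReal_log hu.le, ← exp_conj, map_mul,
    conj_ofReal]

variable {N : ℕ} [NeZero N]

theorem conj_phi {f : CuspForm (Gamma0 N) 2} (hreal : ∀ n, conj (qCoeff f n) = qCoeff f n) {u : ℝ}
    (hu : 0 < u) : conj (phi f u) = phi f u := by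
  have h := hasSum_phi f hu
  have h1 := h.map (starRingEnd ℂ) continuous_conj
  refine h1.unique (h.congr_fun fun n => ?_)
  simp only [Function.comp_apply, map_mul, conj_ofReal, hreal n]

section

variable {A : GL (Fin 2) ℝ} (hA : (A : Matrix (Fin 2) (Fin 2) ℝ) = !![0, -1; (N : ℝ), 0])
  {f : CuspForm (Gamma0 N) 2} {w : ℝ} (hw : w = 1 ∨ w = -1)
  (hsl : (⇑f : ℍ → ℂ) ∣[(2 : ℤ)] A = (-(w : ℂ)) • ⇑f)

include hA hw hsl in
/-- `conj Λ(1 + i t) = w Λ(1 + i t)`. -/
theorem conj_LamN_line (hreal : ∀ n, conj (qCoeff f n) = qCoeff f n) (t : ℝ) :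
    conj (LamN f (1 + t * I)) = w * LamN f (1 + t * I) := by
  rw [LamN_eq_integral hA hsl, ← integral_conj, ← integral_const_mul]
  refine setIntegral_congr_fun measurableSet_Ioi fun u hu => ?_
  have hu' : (0 : ℝ) < u := lt_trans zero_lt_one hu
  have e1 : (1 : ℂ) + t * I - 1 = t * I := by ring
  have e2 : (1 : ℂ) - (1 + t * I) = -(t * I) := by ring
  have e3 : conj ((t : ℂ) * I) = -(t * I) := by rw [map_mul, conj_ofReal, conj_I]; ring
  have hw2 : (w : ℂ) * w = 1 := by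
    rcases hw with rfl | rfl <;> push_cast <;> ring
  rw [e1, e2, map_mul, map_sub, map_mul, map_neg, conj_ofReal, conj_ofReal_cpow hu',
    conj_ofReal_cpow hu', map_neg, e3, neg_neg, conj_phi hreal hu']
  linear_combination (-(u : ℂ) ^ (-((t : ℂ) * I)) * phi f u) * hw2

include hA hw hsl in
/-- `Λ(1 + i t)` is real or purely imaginary. -/
theorem exists_real (hreal : ∀ n, conj (qCoeff f n) = qCoeff f n) :
    ∃ (e : ℂ) (H : ℝ → ℝ), ‖e‖ = 1 ∧ Continuous H ∧ ∀ t : ℝ, LamN f (1 + t * I) = e * H t := by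
  have hcont : Continuous fun t : ℝ => LamN f (1 + t * I) :=
    (differentiable_LamN f).continuous.comp (by fun_prop)
  have hconj := conj_LamN_line hA hw hsl hreal
  rcases hw with rfl | rfl
  · refine ⟨1, fun t => (LamN f (1 + t * I)).re, norm_one, continuous_re.comp hcont, fun t => ?_⟩
    have h := hconj t
    rw [ofReal_one, one_mul] at h
    rw [one_mul]
    exact (conj_eq_iff_re.mp h).symm
  · refine ⟨I, fun t => (LamN f (1 + t * I)).im, norm_I, continuous_im.comp hcont, fun t => ?_⟩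
    have h := congrArg Complex.re (hconj t)
    rw [conj_re, ofReal_neg, ofReal_one, neg_one_mul, neg_re] at h
    have h1 : (LamN f (1 + t * I)).re = 0 := by linarith
    apply Complex.ext
    · rw [h1]
      simp
    · simp

theorem norm_slash_const (hw : w = 1 ∨ w = -1) : ‖(-(w : ℂ))‖ ≤ 1 := by
  rcases hw with rfl | rfl <;> simp

/-- `|f(i e^(iα) / √N)| ≤ C / cos α`. -/
theorem exists_norm_phiC_le (f : CuspForm (Gamma0 N) 2) : ∃ C : ℝ, 0 ≤ C ∧ ∀ α : ℝ,
    |α| < Real.pi / 2 → ‖phiC f (exp (α * I))‖ ≤ C / Real.cos α := by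
  obtain ⟨C, hC⟩ := CuspFormClass.exists_bound f
  have hN := sqrt_pos_of_neZero (N := N)
  have hC0 : 0 ≤ C := by
    have h := (norm_nonneg _).trans (hC UpperHalfPlane.I)
    have h1 : (0 : ℝ) < UpperHalfPlane.I.im ^ (((2 : ℤ) : ℝ) / 2) :=
      Real.rpow_pos_of_pos UpperHalfPlane.I.im_pos _
    rcases le_or_gt 0 C with h2 | h2
    · exact h2
    · exact absurd h (not_le.mpr (div_neg_of_neg_of_pos h2 h1))
  refine ⟨C * √(N : ℝ), by positivity, fun α hα => ?_⟩
  have hcos : 0 < Real.cos α :=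
    Real.cos_pos_of_mem_Ioo ⟨by linarith [neg_abs_le α], (le_abs_self α).trans_lt hα⟩
  have hre : (exp ((α : ℂ) * I)).re = Real.cos α := exp_ofReal_mul_I_re α
  have hpos : 0 < (exp ((α : ℂ) * I)).re := by rw [hre]; exact hcos
  have h := hC (ofComplex (I * ((√(N : ℝ) : ℂ)⁻¹ * exp (α * I))))
  have him : (ofComplex (I * ((√(N : ℝ) : ℂ)⁻¹ * exp (α * I)))).im =
      (√(N : ℝ))⁻¹ * Real.cos α := by
    rw [← UpperHalfPlane.coe_im, coe_ofComplex_arg hpos, im_arg, hre]
  rw [him] at h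
  have h2 : (((2 : ℤ) : ℝ) / 2) = 1 := by norm_num
  rw [h2, Real.rpow_one] at h
  refine h.trans (le_of_eq ?_)
  field_simp

include hA hw hsl in
/-- The upper bound, if `Λ(1 + i t)` has no zeros for `t ≥ T₀`. -/
theorem upper_bound (hreal : ∀ n, conj (qCoeff f n) = qCoeff f n) (hf : f.IsNormalizedEigenform)
    (hH : IsHasse f) {T₀ : ℝ} (hT₀ : 0 ≤ T₀) (h0 : ∀ t : ℝ, T₀ ≤ t → LamN f (1 + t * I) ≠ 0) :
    ∃ C₁ C₃ : ℝ, ∀ δ : ℝ, 0 < δ → δ ≤ 1 / 10 →
      (∫ t in Ioi T₀, ‖LamN f (1 + t * I)‖ * Real.exp ((Real.pi / 2 - δ) * t)) ≤ C₃ / δ + C₁ := by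
  have hc := norm_slash_const hw
  obtain ⟨e, H, he, hHc, hLH⟩ := exists_real hA hw hsl hreal
  obtain ⟨ε, hε, hεH⟩ := exists_sign hHc (T₀ := T₀) fun t ht h1 => by
    apply h0 t ht
    rw [hLH t, h1, ofReal_zero, mul_zero]
  obtain ⟨C, hC0, hC⟩ := exists_norm_phiC_le f
  have hi0 : Integrable fun t : ℝ => ‖LamN f (1 + t * I)‖ := by
    have h1 := integrable_LamN_mul_exp hA hc hsl hf hH (α := 0) (by
      rw [abs_zero]; exact Real.pi_div_two_pos)
    simpa using h1.norm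
  refine ⟨Real.exp (2 * T₀) * ∫ t : ℝ, ‖LamN f (1 + t * I)‖, 2 * Real.pi * C * (Real.pi / 2),
    fun δ hδ hδ1 => ?_⟩
  set α : ℝ := Real.pi / 2 - δ with hα
  have hpi := Real.pi_gt_three
  have hα0 : 0 < α := by rw [hα]; linarith
  have hαa : |α| < Real.pi / 2 := by rw [abs_of_pos hα0, hα]; linarith
  have hα2 : α ≤ 2 := by rw [hα]; linarith [Real.pi_lt_four]
  have hint := integrable_LamN_mul_exp hA hc hsl hf hH hαa
  have hval := integral_LamN_mul_exp hA hc hsl hf hH hαa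
  -- constant sign
  have hsign : ∀ t ∈ Ioi T₀, ((‖LamN f (1 + t * I)‖ * Real.exp (α * t) : ℝ) : ℂ) =
      (ε : ℂ) * e⁻¹ * (LamN f (1 + t * I) * exp (α * t)) := by
    intro t ht
    have he0 : e ≠ 0 := by
      rintro rfl
      simp at he
    have h1 : ‖LamN f (1 + t * I)‖ = ε * H t := by
      rw [hLH t, norm_mul, he, one_mul, norm_real, Real.norm_eq_abs, hεH t (le_of_lt ht)]
    rw [h1, hLH t]
    push_cast
    field_simp
  have h1 : ((∫ t in Ioi T₀, ‖LamN f (1 + t * I)‖ * Real.exp (α * t) : ℝ) : ℂ) =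
      (ε : ℂ) * e⁻¹ * ∫ t in Ioi T₀, LamN f (1 + t * I) * exp (α * t) := by
    rw [← integral_complex_ofReal, setIntegral_congr_fun measurableSet_Ioi hsign,
      integral_const_mul]
  have h2 : (∫ t in Ioi T₀, ‖LamN f (1 + t * I)‖ * Real.exp (α * t)) =
      ‖∫ t in Ioi T₀, LamN f (1 + t * I) * exp (α * t)‖ := by
    have h3 : 0 ≤ ∫ t in Ioi T₀, ‖LamN f (1 + t * I)‖ * Real.exp (α * t) :=
      integral_nonneg fun t => by positivity
    have h4 := congrArg norm h1
    rw [norm_real, Real.norm_eq_abs, abs_of_nonneg h3, norm_mul, norm_mul, norm_inv, he, norm_real,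
      Real.norm_eq_abs, hε, inv_one, one_mul, one_mul] at h4
    exact h4
  rw [h2]
  have h5 : (∫ t in Iic T₀, LamN f (1 + t * I) * exp (α * t)) +
      (∫ t in Ioi T₀, LamN f (1 + t * I) * exp (α * t)) =
      ∫ t : ℝ, LamN f (1 + t * I) * exp (α * t) := by
    rw [← setIntegral_union (Iic_disjoint_Ioi le_rfl) measurableSet_Ioi hint.integrableOn
      hint.integrableOn, Iic_union_Ioi, setIntegral_univ]
  have h6 : ‖∫ t in Iic T₀, LamN f (1 + t * I) * exp (α * t)‖ ≤
      Real.exp (2 * T₀) * ∫ t : ℝ, ‖LamN f (1 + t * I)‖ := by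
    rw [← integral_const_mul]
    have h7 : ‖∫ t in Iic T₀, LamN f (1 + t * I) * exp (α * t)‖ ≤
        ∫ t in Iic T₀, Real.exp (2 * T₀) * ‖LamN f (1 + t * I)‖ := by
      refine norm_integral_le_of_norm_le (hi0.const_mul _).integrableOn ?_
      refine (ae_restrict_iff' measurableSet_Iic).mpr (Eventually.of_forall fun t ht => ?_)
      have ht' : t ≤ T₀ := ht
      have e1 : ‖exp ((α : ℂ) * t)‖ = Real.exp (α * t) := by
        rw [norm_exp]
        simp
      rw [norm_mul, e1, mul_comm]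
      refine mul_le_mul_of_nonneg_right (Real.exp_le_exp.mpr ?_) (norm_nonneg _)
      calc α * t ≤ α * T₀ := mul_le_mul_of_nonneg_left ht' hα0.le
        _ ≤ 2 * T₀ := mul_le_mul_of_nonneg_right hα2 hT₀
    refine h7.trans (setIntegral_le_integral (hi0.const_mul _) ?_)
    exact Eventually.of_forall fun t => by positivity
  have h8 : ‖∫ t : ℝ, LamN f (1 + t * I) * exp (α * t)‖ ≤ 2 * Real.pi * C * (Real.pi / 2) / δ := by
    rw [hval, norm_mul, norm_mul, norm_exp_ofReal_mul_I, mul_one]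
    have e1 : ‖(2 * (Real.pi : ℂ))‖ = 2 * Real.pi := by
      rw [norm_mul, norm_real, Real.norm_eq_abs, abs_of_pos Real.pi_pos, norm_ofNat]
    have e2 : Real.cos α = Real.sin δ := by rw [hα, Real.cos_pi_div_two_sub]
    have e3 : 2 / Real.pi * δ ≤ Real.sin δ := Real.mul_le_sin hδ.le (by linarith)
    have e4 : 0 < 2 / Real.pi * δ := by positivity
    rw [e1]
    calc 2 * Real.pi * ‖phiC f (exp (α * I))‖ ≤ 2 * Real.pi * (C / Real.cos α) :=
          mul_le_mul_of_nonneg_left (hC α hαa) (by positivity)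
      _ ≤ 2 * Real.pi * (C / (2 / Real.pi * δ)) := by
          rw [e2]
          gcongr
      _ = 2 * Real.pi * C * (Real.pi / 2) / δ := by
          field_simp
  have h9 : ‖∫ t in Ioi T₀, LamN f (1 + t * I) * exp (α * t)‖ ≤
      ‖∫ t : ℝ, LamN f (1 + t * I) * exp (α * t)‖ +
        ‖∫ t in Iic T₀, LamN f (1 + t * I) * exp (α * t)‖ := by
    have : (∫ t in Ioi T₀, LamN f (1 + t * I) * exp (α * t)) =
        (∫ t : ℝ, LamN f (1 + t * I) * exp (α * t)) -
          ∫ t in Iic T₀, LamN f (1 + t * I) * exp (α * t) := by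
      rw [← h5]
      ring
    rw [this]
    exact norm_sub_le _ _
  linarith

include hA hw hsl in
theorem norm_LamN_neg (t : ℝ) : ‖LamN f (1 + ((-t : ℝ) : ℂ) * I)‖ = ‖LamN f (1 + t * I)‖ := by
  have h := LamN_two_sub hA hsl (1 + t * I)
  have e1 : (2 : ℂ) - (1 + t * I) = 1 + ((-t : ℝ) : ℂ) * I := by push_cast; ring
  rw [e1] at h
  rw [h, norm_mul, neg_neg, norm_real, Real.norm_eq_abs]
  rcases hw with rfl | rfl <;> simp

theorem norm_Gamma_neg (t : ℝ) :
    ‖Gamma (1 + ((-t : ℝ) : ℂ) * I)‖ = ‖Gamma (1 + t * I)‖ := by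
  have h : (1 : ℂ) + ((-t : ℝ) : ℂ) * I = conj (1 + t * I) := by
    simp
  rw [h, Gamma_conj, norm_conj]

include hA hw hsl in
/-- `|L(1 + i t)|` is even. -/
theorem norm_L_neg (t : ℝ) : ‖ModularForm.L two_pos f (1 + ((-t : ℝ) : ℂ) * I)‖ =
    ‖ModularForm.L two_pos f (1 + t * I)‖ := by
  have h := norm_LamN_neg hA hw hsl t
  rw [norm_LamN_line, norm_LamN_line, norm_Gamma_neg] at h
  have hG : Gamma (1 + t * I) ≠ 0 := Gamma_ne_zero_of_re_pos (by simp)
  have hx := xpar_pos (N := N)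
  exact mul_left_cancel₀ (mul_ne_zero (inv_ne_zero hx.ne') (norm_ne_zero_iff.mpr hG)) h

theorem norm_gz_ofReal (δ t : ℝ) : ‖gz f δ t‖ =
    Real.exp (-(δ ^ 2 * t ^ 2)) * ‖ModularForm.L two_pos f (1 + t * I)‖ := by
  rw [gz, norm_mul, norm_gauss, ofReal_im, ofReal_re, mul_comm I]
  norm_num

include hA hw hsl in
/-- The lower bound on `[T, ∞)`. -/
theorem lower_bound (hf : f.IsNormalizedEigenform) (hH : IsHasse f) {T : ℝ} (hT : 0 < T) :
    ∃ D : ℝ, ∀ δ : ℝ, 0 < δ → δ ≤ 1 / 10 →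
      √Real.pi / (8 * δ) - D ≤ ∫ t in Ioi T, ‖gz f δ t‖ := by
  have hc := norm_slash_const hw
  have hLc : Continuous fun t : ℝ => ‖ModularForm.L two_pos f (1 + t * I)‖ := by
    have h1 : Differentiable ℂ (ModularForm.L two_pos f) := CuspForm.differentiable_L two_pos f
    exact (h1.continuous.comp (by fun_prop)).norm
  refine ⟨∫ t in Ioc 0 T, ‖ModularForm.L two_pos f (1 + t * I)‖, fun δ hδ hδ1 => ?_⟩
  have hi := (integrable_gz hA hc hsl hf hH hδ).norm
  have h1 := le_integral_norm_gz hA hc hsl hf hH hδ hδ1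
  have heven : (fun t : ℝ => ‖gz f δ t‖) = fun t : ℝ => (fun u : ℝ => ‖gz f δ u‖) |t| := by
    funext t
    rcases le_total 0 t with ht | ht
    · simp only
      rw [abs_of_nonneg ht]
    · simp only
      rw [abs_of_nonpos ht, norm_gz_ofReal, norm_gz_ofReal, norm_L_neg hA hw hsl]
      congr 3
      ring
  have hab := integral_comp_abs (f := fun u : ℝ => ‖gz f δ u‖)
  have h10 : (∫ t : ℝ, ‖gz f δ t‖) = 2 * ∫ t in Ioi (0 : ℝ), ‖gz f δ t‖ :=
    (congrArg (fun g : ℝ → ℝ => ∫ t, g t) heven).trans hab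
  rw [h10] at h1
  have h2 : (∫ t in Ioc 0 T, ‖gz f δ t‖) + (∫ t in Ioi T, ‖gz f δ t‖) =
      ∫ t in Ioi (0 : ℝ), ‖gz f δ t‖ := by
    rw [← setIntegral_union (Ioc_disjoint_Ioi le_rfl) measurableSet_Ioi hi.integrableOn
      hi.integrableOn, Ioc_union_Ioi_eq_Ioi hT.le]
  have h3 : (∫ t in Ioc 0 T, ‖gz f δ t‖) ≤
      ∫ t in Ioc 0 T, ‖ModularForm.L two_pos f (1 + t * I)‖ := by
    refine setIntegral_mono_on hi.integrableOn
      (hLc.integrableOn_Icc.mono_set Ioc_subset_Icc_self) measurableSet_Ioc fun t _ => ?_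
    rw [norm_gz_ofReal]
    refine mul_le_of_le_one_left (norm_nonneg _) (Real.exp_le_one_iff.mpr ?_)
    have : 0 ≤ δ ^ 2 * t ^ 2 := by positivity
    linarith
  have h4 : √Real.pi / (8 * δ) = √Real.pi / (4 * δ) / 2 := by
    rw [div_div]
    congr 1
    ring
  rw [h4]
  linarith

include hA hw hsl in
/-- **Hardy's theorem** for an eigenform of weight two with real coefficients satisfying the Hasse
bound and `f ∣ W_N = ∓ f`: infinitely many zeros on the critical line. -/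
theorem hardy (hreal : ∀ n, conj (qCoeff f n) = qCoeff f n) (hf : f.IsNormalizedEigenform)
    (hH : IsHasse f) : {t : ℝ | ModularForm.L two_pos f (1 + t * I) = 0}.Infinite := by
  intro hfin
  have hc := norm_slash_const hw
  obtain ⟨b, hb⟩ := hfin.bddAbove
  set T₀ : ℝ := max b 0 + 1 with hT₀
  have hT₀0 : 0 ≤ T₀ := by
    have := le_max_right b 0
    linarith
  have h0 : ∀ t : ℝ, T₀ ≤ t → LamN f (1 + t * I) ≠ 0 := by
    intro t ht h1
    have hne : ∀ n : ℕ, (1 : ℂ) + t * I ≠ -n := by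
      intro n hn
      have h2 := congrArg Complex.re hn
      have h3 : (0 : ℝ) ≤ n := Nat.cast_nonneg n
      simp at h2
      linarith
    have h2 : t ≤ b := hb ((L_eq_zero_iff f hne).mpr h1)
    have h3 := le_max_left b 0
    linarith
  obtain ⟨C₁, C₃, hup⟩ := upper_bound hA hw hsl hreal hf hH hT₀0 h0
  have hx := xpar_pos (N := N)
  set c₀ : ℝ := (xpar N)⁻¹ * Real.exp (-(1 / 4)) * (√Real.pi / 8) with hc₀
  have hc₀0 : 0 < c₀ := by
    have := Real.sqrt_pos.mpr Real.pi_pos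
    positivity
  refine hardy_contra (T₀ := T₀) (C₁ := C₁) (C₃ := C₃) hc₀0 fun T hT hT0 => ?_
  obtain ⟨D, hD⟩ := lower_bound hA hw hsl hf hH hT0
  refine ⟨(xpar N)⁻¹ * √T * Real.exp (-(1 / 4)) * D, fun δ hδ hδ1 => ?_⟩
  refine le_trans ?_ (hup δ hδ hδ1)
  set α : ℝ := Real.pi / 2 - δ with hα
  have hpi := Real.pi_gt_three
  have hα0 : 0 < α := by rw [hα]; linarith
  have hαa : |α| < Real.pi / 2 := by rw [abs_of_pos hα0, hα]; linarith
  have hint : Integrable fun t : ℝ => ‖LamN f (1 + t * I)‖ * Real.exp (α * t) := by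
    have h1 := (integrable_LamN_mul_exp hA hc hsl hf hH hαa).norm
    refine h1.congr (Eventually.of_forall fun t => ?_)
    simp only
    rw [norm_mul, norm_exp]
    simp
  have h1 := hD δ hδ hδ1
  have h2 : (xpar N)⁻¹ * √T * Real.exp (-(1 / 4)) * (∫ t in Ioi T, ‖gz f δ t‖) ≤
      ∫ t in Ioi T, ‖LamN f (1 + t * I)‖ * Real.exp (α * t) := by
    rw [← integral_const_mul]
    refine setIntegral_mono_on ((integrable_gz hA hc hsl hf hH hδ).norm.const_mul _).integrableOn
      hint.integrableOn measurableSet_Ioi fun t ht => ?_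
    have ht' : T < t := ht
    have e1 := le_norm_Gamma hT0 ht'.le
    have e2 : Real.exp (-(1 / 4)) * Real.exp (-(δ ^ 2 * t ^ 2)) ≤
        Real.exp (-(Real.pi / 2 * t)) * Real.exp (α * t) := by
      rw [← Real.exp_add, ← Real.exp_add]
      refine Real.exp_le_exp.mpr ?_
      rw [hα]
      nlinarith [sq_nonneg (δ * t - 1 / 2)]
    rw [norm_LamN_line, norm_gz_ofReal]
    calc (xpar N)⁻¹ * √T * Real.exp (-(1 / 4)) * (Real.exp (-(δ ^ 2 * t ^ 2)) *
          ‖ModularForm.L two_pos f (1 + t * I)‖)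
        = (xpar N)⁻¹ * √T * (Real.exp (-(1 / 4)) * Real.exp (-(δ ^ 2 * t ^ 2))) *
          ‖ModularForm.L two_pos f (1 + t * I)‖ := by ring
      _ ≤ (xpar N)⁻¹ * √T * (Real.exp (-(Real.pi / 2 * t)) * Real.exp (α * t)) *
          ‖ModularForm.L two_pos f (1 + t * I)‖ := by gcongr
      _ = (xpar N)⁻¹ * (√T * Real.exp (-(Real.pi / 2 * t))) *
          ‖ModularForm.L two_pos f (1 + t * I)‖ * Real.exp (α * t) := by ring
      _ ≤ (xpar N)⁻¹ * ‖Gamma (1 + t * I)‖ * ‖ModularForm.L two_pos f (1 + t * I)‖ *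
          Real.exp (α * t) := by gcongr
  have h3 : (∫ t in Ioi T, ‖LamN f (1 + t * I)‖ * Real.exp (α * t)) ≤
      ∫ t in Ioi T₀, ‖LamN f (1 + t * I)‖ * Real.exp (α * t) :=
    setIntegral_mono_set hint.integrableOn (Eventually.of_forall fun t => by positivity)
      (Ioi_subset_Ioi hT).eventuallyLE
  refine le_trans ?_ (h2.trans h3)
  have h4 := mul_le_mul_of_nonneg_left h1
    (by positivity : 0 ≤ (xpar N)⁻¹ * √T * Real.exp (-(1 / 4)))
  refine le_trans (le_of_eq ?_) h4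
  rw [hc₀, mul_sub]
  congr 1
  field_simp

end

/-- **Hardy's theorem for semistable elliptic curves**: the `L`-function of a semistable elliptic
curve over `ℚ` has infinitely many zeros on the critical line `re s = 1`. -/
theorem infinite_zeros_critical_line {W : WeierstrassCurve ℤ} (hΔ : W.Δ ≠ 0)
    (hW : W.IsSemistableModel) {L : ℂ → ℂ} (hL : IsHasseWeil W L) :
    {s : ℂ | s.re = 1 ∧ L s = 0}.Infinite := by
  obtain ⟨f, ⟨hf, ha⟩, -⟩ := existsUnique_newform_ap hΔ hW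
  have hL' : L = ModularForm.L two_pos f := hL.unique (isHasseWeil hΔ hf ha)
  have hw := rootNumber_eq_one_or hΔ ha hf
  have hwR : ((rootNumber W : ℤ) : ℝ) = 1 ∨ ((rootNumber W : ℤ) : ℝ) = -1 := by
    rcases hw with h | h <;> rw [h] <;> norm_num
  have hreal : ∀ n, conj (qCoeff f n) = qCoeff f n := by
    intro n
    obtain ⟨a, h⟩ := exists_int_qCoeff hf.1 (fun p hp => ⟨ap W p, ha p hp⟩) n
    rw [h, ← ofReal_intCast, conj_ofReal]
  have h := hardy (frickeMat_val W) hwR (slash_frickeMat hΔ hf ha) hreal hf.1 (isHasse hΔ hf ha)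
  rw [← hL'] at h
  refine (h.image (f := fun t : ℝ => (1 : ℂ) + t * I) (fun t _ t' _ htt => ?_)).mono ?_
  · have := congrArg Complex.im htt
    simpa using this
  · rintro s ⟨t, ht, rfl⟩
    exact ⟨by simp, ht⟩

end Fermat.Agent.Cor.HW
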