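import Fermat.Agent.Corollaries.HW.GammaLine
import Mathlib.Analysis.SpecialFunctions.Gaussian.FourierTransform

/-!
# The lower bound for the mean of `|L(f, 1 + i t)|`

`∫ e^(-δ² t²) |L(1 + i t)| dt ≥ √π / (4 δ)` for `0 < δ ≤ 1/10`, by shifting the line of integration
to `re s = 4`, where `|L(s) - 1| ≤ ζ(2) - 1`.
-/

set_option autoImplicit false

noncomputable section

open UpperHalfPlane hiding I
open CongruenceSubgroup ModularFormClass Complex MeasureTheory Filter Topology Set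
open scoped MatrixGroups ModularForm Nat ComplexConjugate

namespace Fermat.Agent.Cor.HW

variable {N : ℕ} [NeZero N]

/-- `|L(f, 4 + i t) - 1| ≤ ζ(2) - 1`. -/
theorem norm_L_four_sub_one_le {f : CuspForm (Gamma0 N) 2} (hf : f.IsNormalizedEigenform)
    (hH : IsHasse f) {s : ℂ} (hs : s.re = 4) :
    ‖ModularForm.L two_pos f s - 1‖ ≤ 0.654 := by
  have h := hasSum_L_two f (s := s) (by rw [hs]; norm_num)
  have h2 := h.summable.sum_add_tsum_nat_add 2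
  have hs0 : s ≠ 0 := by
    rintro rfl
    norm_num at hs
  have e0 : ((0 : ℕ) : ℂ) ^ s = 0 := by rw [Nat.cast_zero]; exact zero_cpow hs0
  rw [h.tsum_eq, Finset.sum_range_succ, Finset.sum_range_one, hf.qCoeff_one, e0, div_zero,
    zero_add, Nat.cast_one, one_cpow, div_one] at h2
  have hz := (hasSum_nat_add_iff' 2).mpr hasSum_zeta_two
  have hle : ∀ n : ℕ, ‖qCoeff f (n + 2) / (((n + 2 : ℕ) : ℂ) ^ s)‖ ≤
      (1 : ℝ) / ((n + 2 : ℕ) : ℝ) ^ 2 := by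
    intro n
    have hn0 : (0 : ℝ) < ((n + 2 : ℕ) : ℝ) := by positivity
    have hn2 : (2 : ℝ) ≤ ((n + 2 : ℕ) : ℝ) := by exact_mod_cast Nat.le_add_left 2 n
    have e1 : ‖((n + 2 : ℕ) : ℂ) ^ s‖ = ((n + 2 : ℕ) : ℝ) ^ 4 := by
      rw [norm_natCast_cpow_of_pos (by omega), hs]
      norm_cast
    rw [norm_div, e1, div_le_div_iff₀ (by positivity) (by positivity), one_mul]
    calc ‖qCoeff f (n + 2)‖ * ((n + 2 : ℕ) : ℝ) ^ 2
        ≤ (2 * ((n + 2 : ℕ) : ℝ)) * ((n + 2 : ℕ) : ℝ) ^ 2 :=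
          mul_le_mul_of_nonneg_right (norm_qCoeff_le_two_mul hf hH _) (by positivity)
      _ = 2 * ((n + 2 : ℕ) : ℝ) ^ 3 := by ring
      _ ≤ ((n + 2 : ℕ) : ℝ) * ((n + 2 : ℕ) : ℝ) ^ 3 :=
          mul_le_mul_of_nonneg_right hn2 (by positivity)
      _ = ((n + 2 : ℕ) : ℝ) ^ 4 := by ring
  have htail := tsum_of_norm_bounded hz hle
  have hv : Real.pi ^ 2 / 6 - ∑ i ∈ Finset.range 2, (1 : ℝ) / (i : ℝ) ^ 2 =
      Real.pi ^ 2 / 6 - 1 := by
    rw [Finset.sum_range_succ, Finset.sum_range_one]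
    norm_num
  rw [hv] at htail
  have hpi : Real.pi ^ 2 ≤ 9.9225 := by
    have h3 := Real.pi_lt_d2
    have h4 := Real.pi_pos
    norm_num at h3 ⊢
    nlinarith
  have h6 : ModularForm.L two_pos f s - 1 =
      ∑' n : ℕ, qCoeff f (n + 2) / (((n + 2 : ℕ) : ℂ) ^ s) := by
    rw [← h2]
    ring
  rw [h6]
  refine htail.trans ?_
  norm_num
  linarith

/-- The weighted function. -/
def gz (f : CuspForm (Gamma0 N) 2) (δ : ℝ) (z : ℂ) : ℂ :=
  exp (-((δ ^ 2 : ℝ) : ℂ) * z ^ 2) * ModularForm.L two_pos f (1 + I * z)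

theorem differentiable_gz (f : CuspForm (Gamma0 N) 2) (δ : ℝ) : Differentiable ℂ (gz f δ) := by
  have h1 : Differentiable ℂ (ModularForm.L two_pos f) := CuspForm.differentiable_L two_pos f
  have h2 : Differentiable ℂ fun z : ℂ => 1 + I * z := by fun_prop
  have h3 : Differentiable ℂ fun z : ℂ => exp (-((δ ^ 2 : ℝ) : ℂ) * z ^ 2) := by fun_prop
  exact h3.mul (h1.comp h2)

theorem norm_gauss (δ : ℝ) (z : ℂ) :
    ‖exp (-((δ ^ 2 : ℝ) : ℂ) * z ^ 2)‖ = Real.exp (δ ^ 2 * z.im ^ 2 + -(δ ^ 2 * z.re ^ 2)) := by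
  rw [norm_exp]
  congr 1
  rw [← ofReal_neg, re_ofReal_mul, sq z, mul_re]
  ring

section

variable {A : GL (Fin 2) ℝ} (hA : (A : Matrix (Fin 2) (Fin 2) ℝ) = !![0, -1; (N : ℝ), 0])
  {f : CuspForm (Gamma0 N) 2} {c : ℂ} (hc : ‖c‖ ≤ 1) (hsl : (⇑f : ℍ → ℂ) ∣[(2 : ℤ)] A = c • ⇑f)
  (hf : f.IsNormalizedEigenform) (hH : IsHasse f)

include hA hc hsl hf hH in
theorem exists_norm_gz_le {δ : ℝ} (hδ : 0 < δ) : ∃ C : ℝ, ∀ z : ℂ, z.im ∈ uIcc 0 (-3) →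
    ‖gz f δ z‖ ≤ C * (1 + z.re ^ 2)⁻¹ := by
  obtain ⟨C, hC0, hC⟩ := exists_norm_L_le hA hc hsl hf hH
  refine ⟨C * Real.exp (δ ^ 2 * 9) * Real.exp (9 / δ ^ 2), fun z hz => ?_⟩
  rw [uIcc_of_ge (by norm_num)] at hz
  have hre : (1 + I * z).re = 1 - z.im := by simp [sub_eq_add_neg]
  have him : (1 + I * z).im = z.re := by simp
  have h1 := hC (1 + I * z) (by rw [hre]; linarith [hz.2]) (by rw [hre]; linarith [hz.1])
  rw [him] at h1
  have h2 : z.im ^ 2 ≤ 9 := by nlinarith [hz.1, hz.2]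
  have h3 : Real.exp (δ ^ 2 * z.im ^ 2) ≤ Real.exp (δ ^ 2 * 9) :=
    Real.exp_le_exp.mpr (mul_le_mul_of_nonneg_left h2 (sq_nonneg δ))
  have h4 : -(δ ^ 2 * z.re ^ 2) + Real.pi * |z.re| ≤ 9 / δ ^ 2 + -(2 * |z.re|) := by
    have h5 : 0 ≤ (δ * |z.re| - 3 / δ) ^ 2 := sq_nonneg _
    have h6 : (δ * |z.re| - 3 / δ) ^ 2 = δ ^ 2 * z.re ^ 2 - 6 * |z.re| + 9 / δ ^ 2 := by
      rw [← sq_abs z.re]
      field_simp
      ring
    rw [h6] at h5
    have h7 := Real.pi_lt_four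
    have h8 := abs_nonneg z.re
    nlinarith
  have h5 : Real.exp (-(δ ^ 2 * z.re ^ 2)) * Real.exp (Real.pi * |z.re|) ≤
      Real.exp (9 / δ ^ 2) * (1 + z.re ^ 2)⁻¹ := by
    rw [← Real.exp_add]
    refine (Real.exp_le_exp.mpr h4).trans ?_
    rw [Real.exp_add]
    exact mul_le_mul_of_nonneg_left (exp_neg_two_abs_le z.re) (Real.exp_nonneg _)
  rw [gz, norm_mul, norm_gauss, Real.exp_add]
  calc Real.exp (δ ^ 2 * z.im ^ 2) * Real.exp (-(δ ^ 2 * z.re ^ 2)) *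
        ‖ModularForm.L two_pos f (1 + I * z)‖
      ≤ Real.exp (δ ^ 2 * 9) * Real.exp (-(δ ^ 2 * z.re ^ 2)) *
        (C * Real.exp (Real.pi * |z.re|)) := by gcongr
    _ = C * Real.exp (δ ^ 2 * 9) * (Real.exp (-(δ ^ 2 * z.re ^ 2)) *
        Real.exp (Real.pi * |z.re|)) := by ring
    _ ≤ C * Real.exp (δ ^ 2 * 9) * (Real.exp (9 / δ ^ 2) * (1 + z.re ^ 2)⁻¹) :=
        mul_le_mul_of_nonneg_left h5 (by positivity)
    _ = _ := by ring

include hA hc hsl hf hH in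
theorem integrable_gz {δ : ℝ} (hδ : 0 < δ) : Integrable fun t : ℝ => gz f δ t := by
  obtain ⟨C, hC⟩ := exists_norm_gz_le hA hc hsl hf hH hδ
  have h := integrable_line (g := gz f δ) (a := 0) (b := -3) (C := C)
    (fun z _ => differentiable_gz f δ z) hC left_mem_uIcc
  simpa using h

include hA hc hsl hf hH in
/-- **The lower bound**: `∫ e^(-δ² t²) |L(1 + i t)| dt ≥ √π / (4 δ)`. -/
theorem le_integral_norm_gz {δ : ℝ} (hδ : 0 < δ) (hδ1 : δ ≤ 1 / 10) :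
    √Real.pi / (4 * δ) ≤ ∫ t : ℝ, ‖gz f δ t‖ := by
  obtain ⟨C, hC⟩ := exists_norm_gz_le hA hc hsl hf hH hδ
  have hshift := integral_line_shift (g := gz f δ) (a := 0) (b := -3) (C := C)
    (fun z _ => differentiable_gz f δ z) hC
  have hint := integrable_line (g := gz f δ) (a := 0) (b := -3) (C := C)
    (fun z _ => differentiable_gz f δ z) hC right_mem_uIcc
  simp only [ofReal_zero, zero_mul, add_zero] at hshift
  have hb : 0 < ((δ ^ 2 : ℝ) : ℂ).re := by rw [ofReal_re]; positivity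
  have hG := GaussianFourier.integral_cexp_neg_mul_sq_add_real_mul_I hb (-3)
  have hGi : Integrable fun t : ℝ => exp (-((δ ^ 2 : ℝ) : ℂ) * ((t : ℂ) + ((-3 : ℝ) : ℂ) * I) ^ 2) :=
    GaussianFourier.integrable_cexp_neg_mul_sq_add_real_mul_I hb (-3)
  have hnorm : ∀ t : ℝ, ‖exp (-((δ ^ 2 : ℝ) : ℂ) * ((t : ℂ) + ((-3 : ℝ) : ℂ) * I) ^ 2)‖ =
      Real.exp (9 * δ ^ 2) * Real.exp (-δ ^ 2 * t ^ 2) := by
    intro t
    rw [norm_gauss, ← Real.exp_add]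
    congr 1
    simp
    ring
  have hgauss : ∫ t : ℝ, Real.exp (-δ ^ 2 * t ^ 2) = √Real.pi / δ := by
    have h1 := integral_gaussian (δ ^ 2)
    rw [h1, Real.sqrt_div Real.pi_pos.le, Real.sqrt_sq hδ.le]
  have hE : Real.exp (9 * δ ^ 2) ≤ 1.1 := by
    have h1 : 9 * δ ^ 2 ≤ 0.09 := by nlinarith
    have h2 := Real.add_one_le_exp (-(9 * δ ^ 2))
    have h3 : Real.exp (9 * δ ^ 2) * Real.exp (-(9 * δ ^ 2)) = 1 := by
      rw [← Real.exp_add, add_neg_cancel, Real.exp_zero]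
    have h4 := Real.exp_pos (9 * δ ^ 2)
    nlinarith
  -- the difference
  have hdiff : ‖(∫ t : ℝ, gz f δ ((t : ℂ) + ((-3 : ℝ) : ℂ) * I)) -
      ∫ t : ℝ, exp (-((δ ^ 2 : ℝ) : ℂ) * ((t : ℂ) + ((-3 : ℝ) : ℂ) * I) ^ 2)‖ ≤
      0.654 * 1.1 * (√Real.pi / δ) := by
    rw [← integral_sub hint hGi]
    have hbound : Integrable fun t : ℝ => 0.654 * 1.1 * Real.exp (-δ ^ 2 * t ^ 2) :=
      (integrable_exp_neg_mul_sq (by positivity : 0 < δ ^ 2)).const_mul _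
    refine (norm_integral_le_of_norm_le hbound (Eventually.of_forall fun t => ?_)).trans
      (le_of_eq ?_)
    · have hre : (1 + I * ((t : ℂ) + ((-3 : ℝ) : ℂ) * I)).re = 4 := by
        simp
        norm_num
      have h1 := norm_L_four_sub_one_le hf hH hre
      rw [gz, ← mul_sub_one, norm_mul, hnorm]
      calc Real.exp (9 * δ ^ 2) * Real.exp (-δ ^ 2 * t ^ 2) *
            ‖ModularForm.L two_pos f (1 + I * ((t : ℂ) + ((-3 : ℝ) : ℂ) * I)) - 1‖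
          ≤ 1.1 * Real.exp (-δ ^ 2 * t ^ 2) * 0.654 := by gcongr
        _ = 0.654 * 1.1 * Real.exp (-δ ^ 2 * t ^ 2) := by ring
    · rw [integral_const_mul, hgauss]
  have hval : ‖∫ t : ℝ, exp (-((δ ^ 2 : ℝ) : ℂ) * ((t : ℂ) + ((-3 : ℝ) : ℂ) * I) ^ 2)‖ =
      √Real.pi / δ := by
    rw [hG]
    have h1 : (Real.pi : ℂ) / ((δ ^ 2 : ℝ) : ℂ) = ((Real.pi / δ ^ 2 : ℝ) : ℂ) := by push_cast; rfl
    have h2 : 0 < Real.pi / δ ^ 2 := by positivity
    rw [h1, norm_cpow_eq_rpow_re_of_pos h2]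
    have h3 : ((1 : ℂ) / 2).re = 1 / 2 := by norm_num
    rw [h3, ← Real.sqrt_eq_rpow, Real.sqrt_div Real.pi_pos.le, Real.sqrt_sq hδ.le]
  have hlow : √Real.pi / δ - 0.654 * 1.1 * (√Real.pi / δ) ≤ ‖∫ t : ℝ, gz f δ t‖ := by
    rw [hshift, ← hval]
    rw [← hval] at hdiff
    have := norm_sub_norm_le
      (∫ t : ℝ, exp (-((δ ^ 2 : ℝ) : ℂ) * ((t : ℂ) + ((-3 : ℝ) : ℂ) * I) ^ 2))
      (∫ t : ℝ, gz f δ ((t : ℂ) + ((-3 : ℝ) : ℂ) * I))
    rw [norm_sub_rev] at this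
    linarith
  have hpos : 0 < √Real.pi / δ := div_pos (Real.sqrt_pos.mpr Real.pi_pos) hδ
  have h4 : √Real.pi / (4 * δ) = (√Real.pi / δ) / 4 := by
    rw [div_div, mul_comm δ 4]
  rw [h4]
  have h5 := norm_integral_le_integral_norm (μ := volume) (fun t : ℝ => gz f δ t)
  linarith

end

end Fermat.Agent.Cor.HW
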