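import Fermat.Agent.Corollaries.HW.NonVanTame

/-!
# Every semistable elliptic curve has infinitely many non-vanishing twists

For every semistable elliptic curve `E` over `ℚ` there are infinitely many primes `p` such that
`L(E, χ, 1) ≠ 0` for some Dirichlet character `χ ≠ 1` modulo `p`. Otherwise the modular symbol at
`a / p` does not depend on `a` for large `p`, the homomorphism of `Γ₀(N)` given by the periods
depends only on the lower right entry modulo `N`, and so it is zero.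
-/

set_option autoImplicit false

noncomputable section

open UpperHalfPlane hiding I
open CongruenceSubgroup ModularCurve.Period ModularFormClass Filter Topology Set ZMod
open scoped MatrixGroups ComplexConjugate Real ModularForm

namespace Fermat.Agent.Cor.HW.Per

open Fermat.Agent.HeckePar Fermat.Agent.S21per FermatAgent.HeckeEigen
open Fermat.Agent.Cor.HW.Twist

universe u v

/-! ### Constant modular symbols -/

section fourier

variable {p : ℕ} [hp : Fact p.Prime]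

/-- A function on `(ℤ/p)ˣ` without non-trivial Fourier coefficients is constant. -/
theorem const_of_fourier {g : (ZMod p)ˣ → ℂ}
    (h : ∀ χ : DirichletCharacter ℂ p, χ ≠ 1 → ∑ u : (ZMod p)ˣ, χ u * g u = 0)
    (a b : (ZMod p)ˣ) : g a = g b := by
  have : NeZero p := ⟨hp.out.ne_zero⟩
  have key : ∀ a : (ZMod p)ˣ, (p.totient : ℂ) * g a = ∑ u : (ZMod p)ˣ, g u := by
    intro a
    have h1 : ∑ χ : DirichletCharacter ℂ p, χ (a : ZMod p)⁻¹ *
        ∑ u : (ZMod p)ˣ, χ u * g u = (p.totient : ℂ) * g a := by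
      simp only [Finset.mul_sum]
      rw [Finset.sum_comm]
      have h2 : ∀ u : (ZMod p)ˣ, ∑ χ : DirichletCharacter ℂ p, χ (a : ZMod p)⁻¹ *
          (χ u * g u) = if a = u then (p.totient : ℂ) * g u else 0 := by
        intro u
        have h3 := DirichletCharacter.sum_char_inv_mul_char_eq ℂ a.isUnit (u : ZMod p)
        simp only [← mul_assoc]
        rw [← Finset.sum_mul, h3]
        by_cases h4 : a = u
        · rw [if_pos h4, if_pos (by rw [h4])]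
        · rw [if_neg h4, if_neg (fun h5 => h4 (Units.ext h5)), zero_mul]
      simp only [h2]
      rw [Finset.sum_ite_eq, if_pos (Finset.mem_univ a)]
    rw [← h1, Finset.sum_eq_single (1 : DirichletCharacter ℂ p)]
    · have h5 : (1 : DirichletCharacter ℂ p) (a : ZMod p)⁻¹ = 1 := by
        rw [← Units.val_inv_eq_inv_val, MulChar.one_apply_coe]
      rw [h5, one_mul]
      exact Finset.sum_congr rfl fun u _ => by rw [MulChar.one_apply_coe, one_mul]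
    · intro χ _ hχ
      rw [h χ hχ, mul_zero]
    · intro h
      exact absurd (Finset.mem_univ _) h
  have h1 : (p.totient : ℂ) ≠ 0 :=
    Nat.cast_ne_zero.mpr (Nat.totient_pos.mpr hp.out.pos).ne'
  exact mul_left_cancel₀ h1 ((key a).trans (key b).symm)

theorem isPrimitive_of_ne_one {χ : DirichletCharacter ℂ p} (hχ : χ ≠ 1) : χ.IsPrimitive := by
  have : NeZero p := ⟨hp.out.ne_zero⟩
  rw [DirichletCharacter.isPrimitive_def]
  exact ((Nat.dvd_prime hp.out).mp χ.conductor_dvd_level).resolve_left fun h =>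
    hχ (DirichletCharacter.eq_one_iff_conductor_eq_one.mpr h)

end fourier

section symbols

variable {N : ℕ} [NeZero N] {f : CuspForm (Gamma0 N) 2} {p : ℕ} [hp : Fact p.Prime]

/-- If `L(f, χ, 1) = 0` for all `χ ≠ 1` modulo `p` then the modular symbol at `a / p` does not
depend on `a`. -/
theorem msym_const (hr : ∀ n, ∃ a : ℤ, qCoeff f n = a)
    (h : ∀ χ : DirichletCharacter ℂ p, χ ≠ 1 → LT f χ 1 = 0) (a b : (ZMod p)ˣ) :
    msym f ((a : ZMod p).val / p) = msym f ((b : ZMod p).val / p) := by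
  have : NeZero p := ⟨hp.out.ne_zero⟩
  have h1 := const_of_fourier (g := fun u : (ZMod p)ˣ => conj (msym f ((u : ZMod p).val / p)))
    (fun χ hχ => by
      have hχ' : χ⁻¹ ≠ 1 := fun h => hχ (inv_eq_one.mp h)
      have hprim := isPrimitive_of_ne_one hχ'
      have h2 := h χ⁻¹ hχ'
      rw [LT_one_eq hr hprim, inv_inv, mul_eq_zero] at h2
      exact h2.resolve_left (div_ne_zero (gauss_ne_zero hprim)
        (Nat.cast_ne_zero.mpr hp.out.ne_zero))) a b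
  exact (starRingEnd ℂ).injective h1

omit hp in
/-- The modular symbol at `b / d` is `L(f, 1)` plus the period of `(a b; c d)`. -/
theorem msym_eq_om (γ : Gamma0 N) (hd : (γ : SL(2, ℤ)) 1 1 ≠ 0) :
    msym f (((γ : SL(2, ℤ)) 0 1 : ℚ) / (γ : SL(2, ℤ)) 1 1) =
      ModularForm.L (k := 2) two_pos f 1 + om f (Additive.ofMul γ) := by
  obtain ⟨F, hF⟩ := exists_goodPrim f
  obtain ⟨L, hL⟩ := exists_cusp_zero hF
  have h0 := tendsto_cusp_zero hF hL
  have hd' : ((γ : SL(2, ℤ)) 1 1 : ℝ) ≠ 0 := by exact_mod_cast hd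
  have h2 := tendsto_cusp hF hL γ hd
    (r := (((((γ : SL(2, ℤ)) 0 1 : ℚ) / (γ : SL(2, ℤ)) 1 1 : ℚ)) : ℝ)) (by
      push_cast
      field_simp)
  rw [msym_eq hF rfl h2, L_one_eq hF h0, om_apply]
  ring

/-- Then the period of `(a b; c p)` does not depend on `a, b, c`. -/
theorem om_eq_of_apply_eq
    (hconst : ∀ a b : (ZMod p)ˣ, msym f ((a : ZMod p).val / p) = msym f ((b : ZMod p).val / p))
    {γ γ' : Gamma0 N} (h : (γ : SL(2, ℤ)) 1 1 = p) (h' : (γ' : SL(2, ℤ)) 1 1 = p) :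
    om f (Additive.ofMul γ) = om f (Additive.ofMul γ') := by
  have : NeZero p := ⟨hp.out.ne_zero⟩
  have hp0 : (p : ℤ) ≠ 0 := by exact_mod_cast hp.out.ne_zero
  have key : ∀ δ : Gamma0 N, (δ : SL(2, ℤ)) 1 1 = p → ∃ u : (ZMod p)ˣ,
      msym f ((u : ZMod p).val / p) =
        ModularForm.L (k := 2) two_pos f 1 + om f (Additive.ofMul δ) := by
    intro δ hδ
    set b : ℤ := (δ : SL(2, ℤ)) 0 1 with hb
    have hdet := Matrix.SpecialLinearGroup.det_coe (δ : SL(2, ℤ))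
    rw [Matrix.det_fin_two, hδ, ← hb] at hdet
    have hunit : IsUnit (b : ZMod p) := by
      have h1 := congrArg (fun z : ℤ => (z : ZMod p)) hdet
      push_cast at h1
      rw [ZMod.natCast_self, mul_zero, zero_sub] at h1
      exact IsUnit.of_mul_eq_one (-(((δ : SL(2, ℤ)) 1 0 : ℤ) : ZMod p)) (by
        rw [mul_neg]
        exact h1)
    obtain ⟨u, hu⟩ := hunit
    refine ⟨u, ?_⟩
    rw [← msym_eq_om δ (by rw [hδ]; exact hp0), hδ, ← hb, hu]
    have h2 : ((b : ℚ) / ((p : ℤ) : ℚ)) = (((b : ZMod p).val : ℚ) / p) + ((b / p : ℤ) : ℚ) := by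
      have h3 : ((b : ZMod p).val : ℤ) = b % p := ZMod.val_intCast b
      have h4 : b % p + p * (b / p) = b := Int.emod_add_mul_ediv b p
      have h5 : (((b : ZMod p).val : ℤ) : ℚ) + p * ((b / p : ℤ) : ℚ) = b := by
        rw [h3]
        exact_mod_cast h4
      have h6 : (p : ℚ) ≠ 0 := Nat.cast_ne_zero.mpr hp.out.ne_zero
      push_cast at h5 ⊢
      field_simp
      linarith
    rw [h2, msym_add_int]
  obtain ⟨u, hu⟩ := key γ h
  obtain ⟨u', hu'⟩ := key γ' h'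
  have h1 := hconst u u'
  rw [hu, hu'] at h1
  exact add_left_cancel h1

/-- Multiplication by `T^k` on the right does not change the period. -/
theorem exists_mul_T (γ : Gamma0 N) (k : ℤ) : ∃ γ' : Gamma0 N,
    om f (Additive.ofMul γ') = om f (Additive.ofMul γ) ∧
    (γ' : SL(2, ℤ)) 0 0 = (γ : SL(2, ℤ)) 0 0 ∧
    (γ' : SL(2, ℤ)) 0 1 = (γ : SL(2, ℤ)) 0 0 * k + (γ : SL(2, ℤ)) 0 1 ∧
    (γ' : SL(2, ℤ)) 1 0 = (γ : SL(2, ℤ)) 1 0 ∧
    (γ' : SL(2, ℤ)) 1 1 = (γ : SL(2, ℤ)) 1 0 * k + (γ : SL(2, ℤ)) 1 1 := by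
  have hT : ModularGroup.T ^ k ∈ Gamma0 N := Subgroup.zpow_mem _ (T_mem_Gamma0 N) k
  have h2 : periodLin N f (Additive.ofMul ⟨ModularGroup.T ^ k, hT⟩) = 0 := by
    refine isParabolicHom_periodLin f _ ?_
    change ((ModularGroup.T ^ k : SL(2, ℤ)) : Matrix (Fin 2) (Fin 2) ℤ).trace ^ 2 = 4
    rw [ModularGroup.coe_T_zpow, Matrix.trace_fin_two]
    simp
  have hent : ((γ : SL(2, ℤ)) * ModularGroup.T ^ k : SL(2, ℤ)).1 =
      (γ : SL(2, ℤ)).1 * !![1, k; 0, 1] := by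
    rw [← ModularGroup.coe_T_zpow]
    rfl
  refine ⟨γ * ⟨ModularGroup.T ^ k, hT⟩, ?_, ?_, ?_, ?_, ?_⟩
  · rw [ofMul_mul, map_add, om_apply (Additive.ofMul ⟨ModularGroup.T ^ k, hT⟩), h2, mul_zero,
      add_zero]
  · change ((γ : SL(2, ℤ)) * ModularGroup.T ^ k : SL(2, ℤ)).1 0 0 = _
    rw [hent, Matrix.mul_apply, Fin.sum_univ_two]
    simp
  · change ((γ : SL(2, ℤ)) * ModularGroup.T ^ k : SL(2, ℤ)).1 0 1 = _
    rw [hent, Matrix.mul_apply, Fin.sum_univ_two]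
    simp
  · change ((γ : SL(2, ℤ)) * ModularGroup.T ^ k : SL(2, ℤ)).1 1 0 = _
    rw [hent, Matrix.mul_apply, Fin.sum_univ_two]
    simp
  · change ((γ : SL(2, ℤ)) * ModularGroup.T ^ k : SL(2, ℤ)).1 1 1 = _
    rw [hent, Matrix.mul_apply, Fin.sum_univ_two]
    simp

end symbols

/-! ### Period homomorphisms which depend on the lower right entry only -/

section vanish

variable {N : ℕ} [NeZero N] {f : CuspForm (Gamma0 N) 2} {Q : Set ℕ} {B : ℕ}

/-- `Q` contains arbitrarily large primes in every prime residue class. -/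
def IsRich (Q : Set ℕ) : Prop :=
  ∀ (q : ℕ) [NeZero q] (a : ZMod q), IsUnit a → ∀ n : ℕ, ∃ p > n, p.Prime ∧ p ∈ Q ∧
    (p : ZMod q) = a

/-- The period of `(a b; c p)` depends on `p` only, for all large `p ∈ Q`. -/
def OnlyP (f : CuspForm (Gamma0 N) 2) (Q : Set ℕ) (B : ℕ) : Prop :=
  ∀ p ∈ Q, p.Prime → B < p → ∀ γ γ' : Gamma0 N, (γ : SL(2, ℤ)) 1 1 = p →
    (γ' : SL(2, ℤ)) 1 1 = p → om f (Additive.ofMul γ) = om f (Additive.ofMul γ')

omit [NeZero N] in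
theorem det_eq (γ : Gamma0 N) : (γ : SL(2, ℤ)) 0 0 * (γ : SL(2, ℤ)) 1 1 -
    (γ : SL(2, ℤ)) 0 1 * (γ : SL(2, ℤ)) 1 0 = 1 := by
  have hdet := Matrix.SpecialLinearGroup.det_coe (γ : SL(2, ℤ))
  rwa [Matrix.det_fin_two] at hdet

omit [NeZero N] in
theorem dvd_lower (γ : Gamma0 N) : (((γ : SL(2, ℤ)) 1 0 : ℤ) : ZMod N) = 0 :=
  Gamma0_mem.mp γ.2

theorem exists_prime (hQ : IsRich Q) {γ : Gamma0 N} (hc : (γ : SL(2, ℤ)) 1 0 ≠ 0) :
    ∃ p > B, p.Prime ∧ p ∈ Q ∧ (p : ZMod N) = (((γ : SL(2, ℤ)) 1 1 : ℤ) : ZMod N) ∧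
      ∃ γ' : Gamma0 N, om f (Additive.ofMul γ') = om f (Additive.ofMul γ) ∧
        (γ' : SL(2, ℤ)) 1 1 = p := by
  have : NeZero ((γ : SL(2, ℤ)) 1 0).natAbs := ⟨Int.natAbs_ne_zero.mpr hc⟩
  have hunit : IsUnit (((γ : SL(2, ℤ)) 1 1 : ℤ) : ZMod ((γ : SL(2, ℤ)) 1 0).natAbs) := by
    have h1 := congrArg (fun z : ℤ => (z : ZMod ((γ : SL(2, ℤ)) 1 0).natAbs)) (det_eq γ)
    have h2 : (((γ : SL(2, ℤ)) 1 0 : ℤ) : ZMod ((γ : SL(2, ℤ)) 1 0).natAbs) = 0 :=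
      (ZMod.intCast_zmod_eq_zero_iff_dvd _ _).mpr (Int.natAbs_dvd.mpr dvd_rfl)
    push_cast at h1
    rw [h2, mul_zero, sub_zero] at h1
    exact IsUnit.of_mul_eq_one _ ((mul_comm _ _).trans h1)
  obtain ⟨p, hpB, hp, hpQ, hpa⟩ := hQ _ _ hunit B
  have hdvd : (γ : SL(2, ℤ)) 1 0 ∣ (p : ℤ) - (γ : SL(2, ℤ)) 1 1 := by
    rw [← Int.natAbs_dvd, ← ZMod.intCast_zmod_eq_zero_iff_dvd]
    push_cast
    rw [hpa, sub_self]
  obtain ⟨k, hk⟩ := hdvd
  obtain ⟨γ', h1, -, -, -, h2⟩ := exists_mul_T (f := f) γ k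
  have h3 : (γ' : SL(2, ℤ)) 1 1 = p := by
    rw [h2]
    linear_combination -hk
  refine ⟨p, hpB, hp, hpQ, ?_, γ', h1, h3⟩
  have h4 := congrArg (fun z : ℤ => (z : ZMod N)) hk
  push_cast at h4
  rw [dvd_lower, zero_mul, sub_eq_zero] at h4
  exact h4

theorem om_eq_of_mod (hQ : IsRich Q) (hP : OnlyP f Q B) {γ γ' : Gamma0 N}
    (hc : (γ : SL(2, ℤ)) 1 0 ≠ 0) (hc' : (γ' : SL(2, ℤ)) 1 0 ≠ 0)
    (h : (((γ : SL(2, ℤ)) 1 1 : ℤ) : ZMod N) = (((γ' : SL(2, ℤ)) 1 1 : ℤ) : ZMod N)) :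
    om f (Additive.ofMul γ) = om f (Additive.ofMul γ') := by
  obtain ⟨p, hpB, hp, hpQ, hpN, γ₁, h1, h1'⟩ := exists_prime (f := f) (B := B) hQ hc
  obtain ⟨r, hrB, hr, hrQ, hrN, γ₂, h2, h2'⟩ := exists_prime (f := f) (B := B) hQ hc'
  rw [← h1, ← h2]
  by_cases hpr : p = r
  · subst hpr
    exact hP p hpQ hp hpB γ₁ γ₂ h1' h2'
  · have h3 : (N : ℤ) ∣ (r : ℤ) - p := by
      rw [← ZMod.intCast_zmod_eq_zero_iff_dvd]
      push_cast
      rw [hrN, hpN, h, sub_self]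
    obtain ⟨c, hc⟩ := h3
    have hcop : IsCoprime (p : ℤ) (N * c) := by
      rw [(Nat.prime_iff_prime_int.mp hp).coprime_iff_not_dvd]
      intro h4
      rw [← hc] at h4
      have h5 : (p : ℤ) ∣ r := by
        have := dvd_add h4 (dvd_refl (p : ℤ))
        rwa [sub_add_cancel] at this
      exact hpr ((Nat.prime_dvd_prime_iff_eq hp hr).mp (Int.natCast_dvd_natCast.mp h5))
    obtain ⟨a, b, hab⟩ := hcop
    let δ₀ : SL(2, ℤ) := ⟨!![a, -b; N * c, (p : ℤ)], by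
      rw [Matrix.det_fin_two_of]
      linear_combination hab⟩
    have hδ₀ : δ₀ ∈ Gamma0 N := by
      rw [Gamma0_mem]
      change (((N : ℤ) * c : ℤ) : ZMod N) = 0
      simp
    obtain ⟨δ', h5, -, -, -, h6⟩ := exists_mul_T (f := f) ⟨δ₀, hδ₀⟩ 1
    have h7 : (δ' : SL(2, ℤ)) 1 1 = r := by
      rw [h6]
      change (N * c : ℤ) * 1 + (p : ℤ) = r
      linear_combination -hc
    rw [hP p hpQ hp hpB γ₁ ⟨δ₀, hδ₀⟩ h1' rfl, ← h5]
    exact hP r hrQ hr hrB δ' γ₂ h7 h2'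

theorem exists_om_pow {γ : Gamma0 N} (hc : (γ : SL(2, ℤ)) 1 0 ≠ 0) (n : ℕ) :
    ∃ δ : Gamma0 N, (δ : SL(2, ℤ)) 1 0 ≠ 0 ∧ (((δ : SL(2, ℤ)) 1 1 : ℤ) : ZMod N) =
      (((γ : SL(2, ℤ)) 1 1 : ℤ) : ZMod N) ^ (n + 1) ∧
      om f (Additive.ofMul δ) = (n + 1) * om f (Additive.ofMul γ) := by
  induction n with
  | zero => exact ⟨γ, hc, by rw [zero_add, pow_one], by simp⟩
  | succ n ih =>
    obtain ⟨δ, h1, h2, h3⟩ := ih
    obtain ⟨k, hk⟩ : ∃ k : ℤ, ((δ : SL(2, ℤ)) 1 0 * (γ : SL(2, ℤ)) 0 0 +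
        (δ : SL(2, ℤ)) 1 1 * (γ : SL(2, ℤ)) 1 0) +
        k * ((δ : SL(2, ℤ)) 1 0 * (γ : SL(2, ℤ)) 1 0) ≠ 0 := by
      by_cases h : (δ : SL(2, ℤ)) 1 0 * (γ : SL(2, ℤ)) 0 0 +
          (δ : SL(2, ℤ)) 1 1 * (γ : SL(2, ℤ)) 1 0 = 0
      · exact ⟨1, by rw [h, one_mul, zero_add]; exact mul_ne_zero h1 hc⟩
      · exact ⟨0, by rw [zero_mul, add_zero]; exact h⟩
    obtain ⟨δ', h4, -, -, h5, h6⟩ := exists_mul_T (f := f) δ k
    have e10 : ((δ' * γ : Gamma0 N) : SL(2, ℤ)) 1 0 = (δ' : SL(2, ℤ)) 1 0 * (γ : SL(2, ℤ)) 0 0 +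
        (δ' : SL(2, ℤ)) 1 1 * (γ : SL(2, ℤ)) 1 0 := by
      change ((δ' : SL(2, ℤ)) * (γ : SL(2, ℤ)) : SL(2, ℤ)).1 1 0 = _
      rw [Matrix.SpecialLinearGroup.coe_mul, Matrix.mul_apply, Fin.sum_univ_two]
    have e11 : ((δ' * γ : Gamma0 N) : SL(2, ℤ)) 1 1 = (δ' : SL(2, ℤ)) 1 0 * (γ : SL(2, ℤ)) 0 1 +
        (δ' : SL(2, ℤ)) 1 1 * (γ : SL(2, ℤ)) 1 1 := by
      change ((δ' : SL(2, ℤ)) * (γ : SL(2, ℤ)) : SL(2, ℤ)).1 1 1 = _
      rw [Matrix.SpecialLinearGroup.coe_mul, Matrix.mul_apply, Fin.sum_univ_two]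
    refine ⟨δ' * γ, ?_, ?_, ?_⟩
    · rw [e10, h5, h6]
      intro h
      exact hk (by linear_combination h)
    · rw [e11, h6]
      push_cast
      rw [dvd_lower δ', dvd_lower δ, h2]
      ring
    · rw [ofMul_mul, map_add, h4, h3]
      push_cast
      ring

/-- **Then all periods vanish.** -/
theorem om_eq_zero (hQ : IsRich Q) (hP : OnlyP f Q B) (γ : Gamma0 N) :
    om f (Additive.ofMul γ) = 0 := by
  by_cases hc : (γ : SL(2, ℤ)) 1 0 = 0
  · have h1 := det_eq γ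
    rw [hc, mul_zero, sub_zero] at h1
    have h2 : periodLin N f (Additive.ofMul γ) = 0 := by
      refine isParabolicHom_periodLin f _ ?_
      rw [Matrix.trace_fin_two]
      rcases Int.mul_eq_one_iff_eq_one_or_neg_one.mp h1 with ⟨h3, h4⟩ | ⟨h3, h4⟩
      · change ((γ : SL(2, ℤ)) 0 0 + (γ : SL(2, ℤ)) 1 1) ^ 2 = 4
        rw [h3, h4]
        norm_num
      · change ((γ : SL(2, ℤ)) 0 0 + (γ : SL(2, ℤ)) 1 1) ^ 2 = 4
        rw [h3, h4]
        norm_num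
    rw [om_apply, h2, mul_zero]
  · obtain ⟨δ, h1, h2, h3⟩ := exists_om_pow (f := f) hc N.totient
    have hunit : IsUnit (((γ : SL(2, ℤ)) 1 1 : ℤ) : ZMod N) := by
      have h4 := congrArg (fun z : ℤ => (z : ZMod N)) (det_eq γ)
      push_cast at h4
      rw [dvd_lower, mul_zero, sub_zero] at h4
      exact IsUnit.of_mul_eq_one _ ((mul_comm _ _).trans h4)
    obtain ⟨u, hu⟩ := hunit
    have h4 : (((δ : SL(2, ℤ)) 1 1 : ℤ) : ZMod N) = (((γ : SL(2, ℤ)) 1 1 : ℤ) : ZMod N) := by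
      rw [h2, ← hu, pow_succ, ← Units.val_pow_eq_pow_val, ZMod.pow_totient, Units.val_one,
        one_mul]
    have h5 := om_eq_of_mod hQ hP h1 hc h4
    rw [h3] at h5
    have h6 : (N.totient : ℂ) * om f (Additive.ofMul γ) = 0 := by linear_combination h5
    exact (mul_eq_zero.mp h6).resolve_left
      (Nat.cast_ne_zero.mpr (Nat.totient_pos.mpr (Nat.pos_of_ne_zero (NeZero.ne N))).ne')

end vanish

/-! ### The theorem -/

section main

variable {W : WeierstrassCurve ℤ}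

theorem isRich_primes : IsRich {p | p.Prime} := fun q _ a ha n => by
  obtain ⟨p, h1, h2, h3⟩ := Nat.forall_exists_prime_gt_and_eq_mod ha n
  exact ⟨p, h1, h2, h2, h3⟩

/-- **Infinitely many non-vanishing twists.** Let `Q` be a set of primes which meets every prime
residue class in an infinite set. For every semistable elliptic curve `W` over `ℚ` there are
arbitrarily large `p ∈ Q` and a character `χ ≠ 1` modulo `p` with `L(W, χ, 1) ≠ 0`. -/
theorem exists_twist_ne_zero_of_isRich (hΔ : W.Δ ≠ 0) (hW : W.IsSemistableModel) {Q : Set ℕ}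
    (hQ : IsRich Q) (B : ℕ) : ∃ (p : ℕ) (_ : Fact p.Prime), B < p ∧ p ∈ Q ∧
      ∃ χ : DirichletCharacter ℂ p, χ ≠ 1 ∧ ∀ L : ℂ → ℂ, IsTwist W χ L → L 1 ≠ 0 := by
  by_contra hcon
  push Not at hcon
  obtain ⟨f, ⟨hf, ha⟩, -⟩ := existsUnique_newform_ap hΔ hW
  have haZ : ∀ ℓ : Nat.Primes, ∃ a : ℤ, qCoeff f ℓ = a := fun ℓ => ⟨ap W ℓ, ha ℓ ℓ.2⟩
  have hr := exists_int_qCoeff hf.1 haZ
  obtain ⟨Ω₁, Ω₂, hPf⟩ := exists_isPeriods hf.1 haZ
  have hP : OnlyP f Q B := by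
    intro p hpQ hp hpB γ γ' h h'
    have hpf : Fact p.Prime := ⟨hp⟩
    refine om_eq_of_apply_eq (msym_const hr fun χ hχ => ?_) h h'
    obtain ⟨L, hL, hL0⟩ := hcon p hpf hpB hpQ χ hχ
    rwa [hL.unique (isTwist_LT hΔ hf ha χ)] at hL0
  obtain ⟨γ, hγ⟩ := (hPf.re Ω₁).mpr ⟨1, by rw [Int.cast_one, one_mul]⟩
  have h1 := om_eq_zero (f := f) hQ hP (Additive.toMul γ)
  rw [ofMul_toMul] at h1
  rw [h1, Complex.zero_re] at hγ
  exact hPf.pos₁.ne hγ

/-- **Every semistable elliptic curve over `ℚ` has infinitely many non-vanishing twists**: there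
are arbitrarily large primes `p` and characters `χ ≠ 1` modulo `p` with `L(W, χ, 1) ≠ 0`. -/
theorem exists_twist_ne_zero (hΔ : W.Δ ≠ 0) (hW : W.IsSemistableModel) (B : ℕ) :
    ∃ (p : ℕ) (_ : Fact p.Prime), B < p ∧
      ∃ χ : DirichletCharacter ℂ p, χ ≠ 1 ∧ ∃ L : ℂ → ℂ, IsTwist W χ L ∧ L 1 ≠ 0 := by
  obtain ⟨p, hp, h1, -, χ, h2, h3⟩ := exists_twist_ne_zero_of_isRich hΔ hW isRich_primes B
  obtain ⟨f, ⟨hf, ha⟩, -⟩ := existsUnique_newform_ap hΔ hW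
  exact ⟨p, hp, h1, χ, h2, _, isTwist_LT hΔ hf ha χ, h3 _ (isTwist_LT hΔ hf ha χ)⟩

end main

end Fermat.Agent.Cor.HW.Per
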