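import Fermat.Agent.Corollaries.HW.InfTwist
import Fermat.Agent.Corollaries.AlmostAll.Semistable
import Fermat.Agent.Corollaries.ZetaK.PNTAP

/-!
# Non-vanishing twists at ordinary primes

For every semistable elliptic curve `E` over `ℚ` there are infinitely many primes `p` of good
ordinary reduction and characters `ω ≠ 1` modulo `p` such that `L(E, ω, 1) ≠ 0` and
`L(E, ω χ, 1) ≠ 0` for all but finitely many characters `χ` of `p`-power order and conductor.
-/

set_option autoImplicit false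

noncomputable section

open Filter Topology DirichletCharacter

namespace Fermat.Agent.Cor.HW.Per

open Fermat.Agent.Cor.AlmostAll Fermat.Agent.Cor.HW.Twist

/-- A set of primes of natural density one meets every prime residue class in an infinite set. -/
theorem isRich_of_density {Q : Set ℕ} (h : HasNaturalDensity Q 1) : IsRich Q := by
  intro q _ a ha n
  by_contra hcon
  push Not at hcon
  have h0 : HasNaturalDensity Qᶜ 0 := by
    have := h.compl
    rwa [sub_self] at this
  have h1 : HasNaturalDensity (Qᶜ ∪ {p | p ≤ n}) 0 := by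
    refine h0.congr_of_finset (Finset.range (n + 1)) fun p _ hp => ?_
    rw [Finset.mem_range, not_lt] at hp
    exact ⟨Or.inl, fun h => h.resolve_right fun h' => by
      have h'' : p ≤ n := h'
      omega⟩
  have h2 : HasNaturalDensity {p | p.Prime ∧ (p : ZMod q) = a} 0 := by
    refine h1.zero_mono ?_
    rintro p ⟨hp, hpa⟩
    by_cases hle : p ≤ n
    · exact Or.inr hle
    · exact Or.inl fun hpQ => hcon p (not_le.mp hle) hp hpQ hpa
  have h3 : Tendsto (fun x : ℕ => (((Finset.Icc 1 x).filter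
      fun p : ℕ => p.Prime ∧ (p : ZMod q) = a).card : ℝ) / Nat.primeCounting x) atTop (𝓝 0) := by
    refine Tendsto.congr (fun x => ?_) h2
    congr 3
    ext p
    simp only [Finset.mem_filter, Finset.mem_Icc, Finset.mem_range, Set.mem_ofPred_eq]
    exact ⟨fun h => ⟨⟨h.2.1.one_le, by omega⟩, h.2.2⟩, fun h => ⟨by omega, h.2.1, h.2⟩⟩
  have h4 := Tendsto.mul h3 prime_number_theorem
  have h5 := prime_number_theorem_ap_nat ha
  have h6 : (0 : ℝ) * 1 = (q.totient : ℝ)⁻¹ := by
    refine tendsto_nhds_unique h4 (h5.congr' ?_)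
    filter_upwards [eventually_ge_atTop 2] with x hx
    have hpi : (Nat.primeCounting x : ℝ) ≠ 0 := by
      have h7 : 0 < Nat.primeCounting x := by
        have h8 : Nat.primeCounting 2 ≤ Nat.primeCounting x := Nat.monotone_primeCounting hx
        have h9 : Nat.primeCounting 2 = 1 := by decide
        omega
      exact Nat.cast_ne_zero.mpr h7.ne'
    field_simp
  rw [zero_mul] at h6
  exact (inv_ne_zero (Nat.cast_ne_zero.mpr
    (Nat.totient_pos.mpr (Nat.pos_of_ne_zero (NeZero.ne q))).ne')) h6.symm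

variable {W : WeierstrassCurve ℤ}

theorem isTwist_changeLevel {m m' : ℕ} [NeZero m] [NeZero m'] (h : m = m') (hd : m ∣ m')
    (χ : DirichletCharacter ℂ m) (L : ℂ → ℂ) :
    IsTwist W (changeLevel hd χ) L ↔ IsTwist W χ L := by
  subst h
  rw [changeLevel_self]

theorem isPrimitive_changeLevel {m m' : ℕ} (h : m = m') (hd : m ∣ m')
    (χ : DirichletCharacter ℂ m) : (changeLevel hd χ).IsPrimitive ↔ χ.IsPrimitive := by
  subst h
  rw [changeLevel_self]

/-- **Non-vanishing branches at ordinary primes.** For every semistable elliptic curve `W` over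
`ℚ` there are arbitrarily large primes `p` of good ordinary reduction and characters `ω ≠ 1`
modulo `p` such that `L(W, ω, 1) ≠ 0` and `L(W, ω χ, 1) ≠ 0` for all but finitely many characters
`χ` of `p`-power order and conductor. -/
theorem exists_ordinary_branch (hΔ : W.Δ ≠ 0) (hW : W.IsSemistableModel) (B : ℕ) :
    ∃ (p : ℕ) (_ : Fact p.Prime), B < p ∧ ¬ (p : ℤ) ∣ W.Δ ∧ ¬ (p : ℤ) ∣ ap W p ∧
      ∃ ω : DirichletCharacter ℂ p, ω ≠ 1 ∧ (∀ L : ℂ → ℂ, IsTwist W ω L → L 1 ≠ 0) ∧
        ∃ n₀ : ℕ, ∀ n ≥ n₀, ∀ χ : DirichletCharacter ℂ (p ^ (n + 1 + 1)), χ.IsPrimitive →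
          (∃ k, orderOf χ = p ^ k) → ∀ L : ℂ → ℂ,
            IsTwist W (changeLevel (dvd_pow_self p (Nat.succ_ne_zero (n + 1))) ω * χ) L →
              L 1 ≠ 0 := by
  obtain ⟨p, hp, hB, ⟨hgood, hord⟩, ω, hω, hne⟩ := exists_twist_ne_zero_of_isRich hΔ hW
    (isRich_of_density (density_ordinary hΔ hW)) (max B 2)
  have hpΔ : ¬ (p : ℤ) ∣ W.Δ := hgood
  have hap : ¬ (p : ℤ) ∣ ap W p := by
    rw [ap, if_neg hpΔ]
    exact hord
  have hp2 : p ≠ 2 := (lt_of_le_of_lt (le_max_right B 2) hB).ne'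
  have e : p = p ^ (0 + 1) := by rw [zero_add, pow_one]
  have hd : p ∣ p ^ (0 + 1) := dvd_pow_self p (Nat.succ_ne_zero 0)
  obtain ⟨f, ⟨hf, ha⟩, -⟩ := existsUnique_newform_ap hΔ hW
  obtain ⟨n₀, hn₀⟩ := nonvanishing_mul hΔ hW p hp2 hpΔ hap
    ((isPrimitive_changeLevel e hd ω).mpr (isPrimitive_of_ne_one hω))
    ((isTwist_changeLevel e hd ω _).mpr (isTwist_LT hΔ hf ha ω)) (hne _ (isTwist_LT hΔ hf ha ω))
  refine ⟨p, hp, lt_of_le_of_lt (le_max_left B 2) hB, hpΔ, hap, ω, hω, hne, n₀,
    fun n hn χ hχ hk L hL => ?_⟩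
  refine hn₀ (n + 1) (Nat.succ_pos n) χ (hn.trans (Nat.le_succ n)) hχ hk L ?_
  rw [← changeLevel_trans]
  exact hL

end Fermat.Agent.Cor.HW.Per
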