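import Fermat.Agent.Corollaries.HW.InfTwistOrd

/-!
# Infinitely many non-vanishing twists of each parity

For every semistable elliptic curve `E` over `ℚ` there are infinitely many primes `p` (of good
ordinary reduction) with an even character `χ ≠ 1` modulo `p` such that `L(E, χ, 1) ≠ 0`, and
infinitely many with an odd one. (The real, the imaginary part of the period homomorphism is not
zero.)
-/

set_option autoImplicit false

noncomputable section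

open UpperHalfPlane hiding I
open CongruenceSubgroup ModularCurve.Period ModularFormClass Filter Topology Set ZMod
open scoped MatrixGroups ComplexConjugate Real ModularForm

namespace Fermat.Agent.Cor.HW.Per

open Fermat.Agent.HeckePar Fermat.Agent.S21per FermatAgent.HeckeEigen
open Fermat.Agent.Cor.HW.Twist

universe u

/-! ### Parabolic homomorphisms of `Γ₀(N)` -/

section hom

variable {N : ℕ} [NeZero N] {φ : Additive (Gamma0 N) →+ ℝ} {Q : Set ℕ} {B : ℕ}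

omit [NeZero N] in
theorem parab_mul_T (hφ : IsParabolicHom (Gamma0 N) φ) (γ : Gamma0 N) (k : ℤ) : ∃ γ' : Gamma0 N,
    φ (Additive.ofMul γ') = φ (Additive.ofMul γ) ∧
    (γ' : SL(2, ℤ)) 1 0 = (γ : SL(2, ℤ)) 1 0 ∧
    (γ' : SL(2, ℤ)) 1 1 = (γ : SL(2, ℤ)) 1 0 * k + (γ : SL(2, ℤ)) 1 1 := by
  have hT : ModularGroup.T ^ k ∈ Gamma0 N := Subgroup.zpow_mem _ (T_mem_Gamma0 N) k
  have h2 : φ (Additive.ofMul ⟨ModularGroup.T ^ k, hT⟩) = 0 := by
    refine hφ _ ?_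
    change ((ModularGroup.T ^ k : SL(2, ℤ)) : Matrix (Fin 2) (Fin 2) ℤ).trace ^ 2 = 4
    rw [ModularGroup.coe_T_zpow, Matrix.trace_fin_two]
    simp
  have hent : ((γ : SL(2, ℤ)) * ModularGroup.T ^ k : SL(2, ℤ)).1 =
      (γ : SL(2, ℤ)).1 * !![1, k; 0, 1] := by
    rw [← ModularGroup.coe_T_zpow]
    rfl
  refine ⟨γ * ⟨ModularGroup.T ^ k, hT⟩, ?_, ?_, ?_⟩
  · rw [ofMul_mul, map_add, h2, add_zero]
  · change ((γ : SL(2, ℤ)) * ModularGroup.T ^ k : SL(2, ℤ)).1 1 0 = _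
    rw [hent, Matrix.mul_apply, Fin.sum_univ_two]
    simp
  · change ((γ : SL(2, ℤ)) * ModularGroup.T ^ k : SL(2, ℤ)).1 1 1 = _
    rw [hent, Matrix.mul_apply, Fin.sum_univ_two]
    simp

omit [NeZero N] in
theorem parab_exists_prime (hφ : IsParabolicHom (Gamma0 N) φ) (hQ : IsRich Q) {γ : Gamma0 N}
    (hc : (γ : SL(2, ℤ)) 1 0 ≠ 0) :
    ∃ p > B, p.Prime ∧ p ∈ Q ∧ (p : ZMod N) = (((γ : SL(2, ℤ)) 1 1 : ℤ) : ZMod N) ∧
      ∃ γ' : Gamma0 N, φ (Additive.ofMul γ') = φ (Additive.ofMul γ) ∧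
        (γ' : SL(2, ℤ)) 1 1 = p := by
  have : NeZero ((γ : SL(2, ℤ)) 1 0).natAbs := ⟨Int.natAbs_ne_zero.mpr hc⟩
  have hunit : IsUnit (((γ : SL(2, ℤ)) 1 1 : ℤ) : ZMod ((γ : SL(2, ℤ)) 1 0).natAbs) := by
    have h1 := congrArg (fun z : ℤ => (z : ZMod ((γ : SL(2, ℤ)) 1 0).natAbs)) (det_eq γ)
    have h2 : (((γ : SL(2, ℤ)) 1 0 : ℤ) : ZMod ((γ : SL(2, ℤ)) 1 0).natAbs) = 0 :=
      (ZMod.intCast_zmod_eq_zero_iff_dvd _ _).mpr (Int.natAbs_dvd.mpr dvd_rfl)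
    push_cast at h1
    rw [h2, mul_zero, sub_zero] at h1
    exact IsUnit.of_mul_eq_one _ ((mul_comm _ _).trans h1)
  obtain ⟨p, hpB, hp, hpQ, hpa⟩ := hQ _ _ hunit B
  have hdvd : (γ : SL(2, ℤ)) 1 0 ∣ (p : ℤ) - (γ : SL(2, ℤ)) 1 1 := by
    rw [← Int.natAbs_dvd, ← ZMod.intCast_zmod_eq_zero_iff_dvd]
    push_cast
    rw [hpa, sub_self]
  obtain ⟨k, hk⟩ := hdvd
  obtain ⟨γ', h1, -, h2⟩ := parab_mul_T hφ γ k
  have h3 : (γ' : SL(2, ℤ)) 1 1 = p := by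
    rw [h2]
    linear_combination -hk
  refine ⟨p, hpB, hp, hpQ, ?_, γ', h1, h3⟩
  have h4 := congrArg (fun z : ℤ => (z : ZMod N)) hk
  push_cast at h4
  rw [dvd_lower, zero_mul, sub_eq_zero] at h4
  exact h4

omit [NeZero N] in
theorem parab_eq_of_mod (hφ : IsParabolicHom (Gamma0 N) φ) (hQ : IsRich Q)
    (hP : ∀ p ∈ Q, p.Prime → B < p → ∀ γ γ' : Gamma0 N, (γ : SL(2, ℤ)) 1 1 = p →
      (γ' : SL(2, ℤ)) 1 1 = p → φ (Additive.ofMul γ) = φ (Additive.ofMul γ')) {γ γ' : Gamma0 N}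
    (hc : (γ : SL(2, ℤ)) 1 0 ≠ 0) (hc' : (γ' : SL(2, ℤ)) 1 0 ≠ 0)
    (h : (((γ : SL(2, ℤ)) 1 1 : ℤ) : ZMod N) = (((γ' : SL(2, ℤ)) 1 1 : ℤ) : ZMod N)) :
    φ (Additive.ofMul γ) = φ (Additive.ofMul γ') := by
  obtain ⟨p, hpB, hp, hpQ, hpN, γ₁, h1, h1'⟩ := parab_exists_prime (B := B) hφ hQ hc
  obtain ⟨r, hrB, hr, hrQ, hrN, γ₂, h2, h2'⟩ := parab_exists_prime (B := B) hφ hQ hc'
  rw [← h1, ← h2]
  by_cases hpr : p = r
  · subst hpr
    exact hP p hpQ hp hpB γ₁ γ₂ h1' h2'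
  · have h3 : (N : ℤ) ∣ (r : ℤ) - p := by
      rw [← ZMod.intCast_zmod_eq_zero_iff_dvd]
      push_cast
      rw [hrN, hpN, h, sub_self]
    obtain ⟨c, hc⟩ := h3
    have hcop : IsCoprime (p : ℤ) (N * c) := by
      rw [(Nat.prime_iff_prime_int.mp hp).coprime_iff_not_dvd]
      intro h4
      rw [← hc] at h4
      have h5 : (p : ℤ) ∣ r := by
        have := dvd_add h4 (dvd_refl (p : ℤ))
        rwa [sub_add_cancel] at this
      exact hpr ((Nat.prime_dvd_prime_iff_eq hp hr).mp (Int.natCast_dvd_natCast.mp h5))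
    obtain ⟨a, b, hab⟩ := hcop
    let δ₀ : SL(2, ℤ) := ⟨!![a, -b; N * c, (p : ℤ)], by
      rw [Matrix.det_fin_two_of]
      linear_combination hab⟩
    have hδ₀ : δ₀ ∈ Gamma0 N := by
      rw [Gamma0_mem]
      change (((N : ℤ) * c : ℤ) : ZMod N) = 0
      simp
    obtain ⟨δ', h5, -, h6⟩ := parab_mul_T hφ ⟨δ₀, hδ₀⟩ 1
    have h7 : (δ' : SL(2, ℤ)) 1 1 = r := by
      rw [h6]
      change (N * c : ℤ) * 1 + (p : ℤ) = r
      linear_combination -hc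
    rw [hP p hpQ hp hpB γ₁ ⟨δ₀, hδ₀⟩ h1' rfl, ← h5]
    exact hP r hrQ hr hrB δ' γ₂ h7 h2'

omit [NeZero N] in
theorem parab_exists_pow (hφ : IsParabolicHom (Gamma0 N) φ) {γ : Gamma0 N} (hc : (γ : SL(2, ℤ)) 1 0 ≠ 0)
    (n : ℕ) : ∃ δ : Gamma0 N, (δ : SL(2, ℤ)) 1 0 ≠ 0 ∧ (((δ : SL(2, ℤ)) 1 1 : ℤ) : ZMod N) =
      (((γ : SL(2, ℤ)) 1 1 : ℤ) : ZMod N) ^ (n + 1) ∧
      φ (Additive.ofMul δ) = (n + 1) * φ (Additive.ofMul γ) := by
  induction n with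
  | zero => exact ⟨γ, hc, by rw [zero_add, pow_one], by simp⟩
  | succ n ih =>
    obtain ⟨δ, h1, h2, h3⟩ := ih
    obtain ⟨k, hk⟩ : ∃ k : ℤ, ((δ : SL(2, ℤ)) 1 0 * (γ : SL(2, ℤ)) 0 0 +
        (δ : SL(2, ℤ)) 1 1 * (γ : SL(2, ℤ)) 1 0) +
        k * ((δ : SL(2, ℤ)) 1 0 * (γ : SL(2, ℤ)) 1 0) ≠ 0 := by
      by_cases h : (δ : SL(2, ℤ)) 1 0 * (γ : SL(2, ℤ)) 0 0 +
          (δ : SL(2, ℤ)) 1 1 * (γ : SL(2, ℤ)) 1 0 = 0
      · exact ⟨1, by rw [h, one_mul, zero_add]; exact mul_ne_zero h1 hc⟩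
      · exact ⟨0, by rw [zero_mul, add_zero]; exact h⟩
    obtain ⟨δ', h4, h5, h6⟩ := parab_mul_T hφ δ k
    have e10 : ((δ' * γ : Gamma0 N) : SL(2, ℤ)) 1 0 = (δ' : SL(2, ℤ)) 1 0 * (γ : SL(2, ℤ)) 0 0 +
        (δ' : SL(2, ℤ)) 1 1 * (γ : SL(2, ℤ)) 1 0 := by
      change ((δ' : SL(2, ℤ)) * (γ : SL(2, ℤ)) : SL(2, ℤ)).1 1 0 = _
      rw [Matrix.SpecialLinearGroup.coe_mul, Matrix.mul_apply, Fin.sum_univ_two]
    have e11 : ((δ' * γ : Gamma0 N) : SL(2, ℤ)) 1 1 = (δ' : SL(2, ℤ)) 1 0 * (γ : SL(2, ℤ)) 0 1 +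
        (δ' : SL(2, ℤ)) 1 1 * (γ : SL(2, ℤ)) 1 1 := by
      change ((δ' : SL(2, ℤ)) * (γ : SL(2, ℤ)) : SL(2, ℤ)).1 1 1 = _
      rw [Matrix.SpecialLinearGroup.coe_mul, Matrix.mul_apply, Fin.sum_univ_two]
    refine ⟨δ' * γ, ?_, ?_, ?_⟩
    · rw [e10, h5, h6]
      intro h
      exact hk (by linear_combination h)
    · rw [e11, h6]
      push_cast
      rw [dvd_lower δ', dvd_lower δ, h2]
      ring
    · rw [ofMul_mul, map_add, h4, h3]
      push_cast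
      ring

/-- A parabolic homomorphism of `Γ₀(N)` whose value at `(a b; c p)` depends on `p` only, for all
large `p` in a rich set of primes, is zero. -/
theorem parab_eq_zero (hφ : IsParabolicHom (Gamma0 N) φ) (hQ : IsRich Q)
    (hP : ∀ p ∈ Q, p.Prime → B < p → ∀ γ γ' : Gamma0 N, (γ : SL(2, ℤ)) 1 1 = p →
      (γ' : SL(2, ℤ)) 1 1 = p → φ (Additive.ofMul γ) = φ (Additive.ofMul γ'))
    (γ : Gamma0 N) : φ (Additive.ofMul γ) = 0 := by
  by_cases hc : (γ : SL(2, ℤ)) 1 0 = 0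
  · have h1 := det_eq γ
    rw [hc, mul_zero, sub_zero] at h1
    refine hφ _ ?_
    rw [Matrix.trace_fin_two]
    rcases Int.mul_eq_one_iff_eq_one_or_neg_one.mp h1 with ⟨h3, h4⟩ | ⟨h3, h4⟩
    · change ((γ : SL(2, ℤ)) 0 0 + (γ : SL(2, ℤ)) 1 1) ^ 2 = 4
      rw [h3, h4]
      norm_num
    · change ((γ : SL(2, ℤ)) 0 0 + (γ : SL(2, ℤ)) 1 1) ^ 2 = 4
      rw [h3, h4]
      norm_num
  · obtain ⟨δ, h1, h2, h3⟩ := parab_exists_pow hφ hc N.totient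
    have hunit : IsUnit (((γ : SL(2, ℤ)) 1 1 : ℤ) : ZMod N) := by
      have h4 := congrArg (fun z : ℤ => (z : ZMod N)) (det_eq γ)
      push_cast at h4
      rw [dvd_lower, mul_zero, sub_zero] at h4
      exact IsUnit.of_mul_eq_one _ ((mul_comm _ _).trans h4)
    obtain ⟨u, hu⟩ := hunit
    have h4 : (((δ : SL(2, ℤ)) 1 1 : ℤ) : ZMod N) = (((γ : SL(2, ℤ)) 1 1 : ℤ) : ZMod N) := by
      rw [h2, ← hu, pow_succ, ← Units.val_pow_eq_pow_val, ZMod.pow_totient, Units.val_one,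
        one_mul]
    have h5 := parab_eq_of_mod hφ hQ hP h1 hc h4
    rw [h3] at h5
    have h6 : (N.totient : ℝ) * φ (Additive.ofMul γ) = 0 := by linear_combination h5
    exact (mul_eq_zero.mp h6).resolve_left
      (Nat.cast_ne_zero.mpr (Nat.totient_pos.mpr (Nat.pos_of_ne_zero (NeZero.ne N))).ne')

end hom

/-! ### Even and odd characters -/

section parity

variable {N : ℕ} [NeZero N] {f : CuspForm (Gamma0 N) 2} {p : ℕ} [hp : Fact p.Prime]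

/-- The period of `(a b; c p)` is the modular symbol at some `u / p` minus `L(f, 1)`. -/
theorem exists_unit_msym (δ : Gamma0 N) (hδ : (δ : SL(2, ℤ)) 1 1 = p) : ∃ u : (ZMod p)ˣ,
    msym f ((u : ZMod p).val / p) =
      ModularForm.L (k := 2) two_pos f 1 + om f (Additive.ofMul δ) := by
  have : NeZero p := ⟨hp.out.ne_zero⟩
  have hp0 : (p : ℤ) ≠ 0 := by exact_mod_cast hp.out.ne_zero
  set b : ℤ := (δ : SL(2, ℤ)) 0 1 with hb
  have hdet := det_eq δ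
  rw [hδ, ← hb] at hdet
  have hunit : IsUnit (b : ZMod p) := by
    have h1 := congrArg (fun z : ℤ => (z : ZMod p)) hdet
    push_cast at h1
    rw [ZMod.natCast_self, mul_zero, zero_sub] at h1
    exact IsUnit.of_mul_eq_one (-(((δ : SL(2, ℤ)) 1 0 : ℤ) : ZMod p)) (by
      rw [mul_neg]
      exact h1)
  obtain ⟨u, hu⟩ := hunit
  refine ⟨u, ?_⟩
  rw [← msym_eq_om δ (by rw [hδ]; exact hp0), hδ, ← hb, hu]
  have h2 : ((b : ℚ) / ((p : ℤ) : ℚ)) = (((b : ZMod p).val : ℚ) / p) + ((b / p : ℤ) : ℚ) := by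
    have h3 : ((b : ZMod p).val : ℤ) = b % p := ZMod.val_intCast b
    have h4 : b % p + p * (b / p) = b := Int.emod_add_mul_ediv b p
    have h5 : (((b : ZMod p).val : ℤ) : ℚ) + p * ((b / p : ℤ) : ℚ) = b := by
      rw [h3]
      exact_mod_cast h4
    have h6 : (p : ℚ) ≠ 0 := Nat.cast_ne_zero.mpr hp.out.ne_zero
    push_cast at h5 ⊢
    field_simp
    linarith
  rw [h2, msym_add_int]

theorem pr_om_eq (pr : ℂ →+ ℝ) (hconst : ∀ a b : (ZMod p)ˣ,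
      pr (msym f ((a : ZMod p).val / p)) = pr (msym f ((b : ZMod p).val / p)))
    {γ γ' : Gamma0 N} (h : (γ : SL(2, ℤ)) 1 1 = p) (h' : (γ' : SL(2, ℤ)) 1 1 = p) :
    pr (om f (Additive.ofMul γ)) = pr (om f (Additive.ofMul γ')) := by
  obtain ⟨u, hu⟩ := exists_unit_msym (f := f) γ h
  obtain ⟨u', hu'⟩ := exists_unit_msym (f := f) γ' h'
  have h1 := hconst u u'
  rw [hu, hu', map_add, map_add] at h1
  exact add_left_cancel h1

/-- A character sum of a function of the other parity vanishes. -/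
theorem sum_eq_zero_of_parity {χ : DirichletCharacter ℂ p} {g : (ZMod p)ˣ → ℂ} {ε : ℂ}
    (h1 : χ (-1) = ε) (hg : ∀ u, g (-u) = -ε * g u) (hε : ε * ε = 1) :
    ∑ u : (ZMod p)ˣ, χ u * g u = 0 := by
  have h2 : ∑ u : (ZMod p)ˣ, χ u * g u = -∑ u : (ZMod p)ˣ, χ u * g u := by
    conv_lhs => rw [← Equiv.sum_comp (Equiv.neg (ZMod p)ˣ)]
    rw [← Finset.sum_neg_distrib]
    refine Finset.sum_congr rfl fun u _ => ?_
    simp only [Equiv.neg_apply]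
    rw [hg, Units.val_neg, ← neg_one_mul, map_mul, h1]
    linear_combination (-(χ u * g u)) * hε
  linear_combination (1 / 2 : ℂ) * h2

/-- If `L(f, χ, 1) = 0` for all even `χ ≠ 1` modulo `p` then the real part of the modular symbol
at `a / p` does not depend on `a`. -/
theorem re_msym_const (hr : ∀ n, ∃ a : ℤ, qCoeff f n = a)
    (h : ∀ χ : DirichletCharacter ℂ p, χ ≠ 1 → χ.Even → LT f χ 1 = 0) (a b : (ZMod p)ˣ) :
    (msym f ((a : ZMod p).val / p)).re = (msym f ((b : ZMod p).val / p)).re := by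
  have : NeZero p := ⟨hp.out.ne_zero⟩
  set w : (ZMod p)ˣ → ℂ := fun u => msym f ((u : ZMod p).val / p) with hw
  have hwneg : ∀ u, w (-u) = conj (w u) := fun u => msym_unit_neg hr u
  have h1 := const_of_fourier (g := fun u : (ZMod p)ˣ => ((w u).re : ℂ)) (fun χ hχ => by
    have hχ' : χ⁻¹ ≠ 1 := fun h => hχ (inv_eq_one.mp h)
    rcases χ.even_or_odd with hev | hodd
    · have hprim := isPrimitive_of_ne_one hχ'
      have hev' : χ⁻¹.Even := by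
        change χ⁻¹ (-1) = 1
        rw [MulChar.inv_apply_eq_inv', show χ (-1) = 1 from hev, inv_one]
      have h2 := h χ⁻¹ hχ' hev'
      rw [LT_one_eq hr hprim, mul_eq_zero] at h2
      have h3 := h2.resolve_left (div_ne_zero (gauss_ne_zero hprim)
        (Nat.cast_ne_zero.mpr hp.out.ne_zero))
      have h4 := sum_even hev' hwneg
      rw [inv_inv] at h3 h4
      rw [← h4]
      exact h3
    · refine sum_eq_zero_of_parity (ε := -1) hodd (fun u => ?_) (by norm_num)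
      simp only [hwneg, Complex.conj_re]
      ring) a b
  exact_mod_cast h1

/-- If `L(f, χ, 1) = 0` for all odd `χ` modulo `p` then the imaginary part of the modular symbol
at `a / p` does not depend on `a`. -/
theorem im_msym_const (hr : ∀ n, ∃ a : ℤ, qCoeff f n = a)
    (h : ∀ χ : DirichletCharacter ℂ p, χ ≠ 1 → χ.Odd → LT f χ 1 = 0) (a b : (ZMod p)ˣ) :
    (msym f ((a : ZMod p).val / p)).im = (msym f ((b : ZMod p).val / p)).im := by
  have : NeZero p := ⟨hp.out.ne_zero⟩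
  set w : (ZMod p)ˣ → ℂ := fun u => msym f ((u : ZMod p).val / p) with hw
  have hwneg : ∀ u, w (-u) = conj (w u) := fun u => msym_unit_neg hr u
  have h1 := const_of_fourier (g := fun u : (ZMod p)ˣ => ((w u).im : ℂ)) (fun χ hχ => by
    have hχ' : χ⁻¹ ≠ 1 := fun h => hχ (inv_eq_one.mp h)
    rcases χ.even_or_odd with hev | hodd
    · refine sum_eq_zero_of_parity (ε := 1) hev (fun u => ?_) (by norm_num)
      simp only [hwneg, Complex.conj_im]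
      push_cast
      ring
    · have hprim := isPrimitive_of_ne_one hχ'
      have hodd' : χ⁻¹.Odd := by
        change χ⁻¹ (-1) = -1
        rw [MulChar.inv_apply_eq_inv', show χ (-1) = -1 from hodd, inv_neg, inv_one]
      have h2 := h χ⁻¹ hχ' hodd'
      rw [LT_one_eq hr hprim, mul_eq_zero] at h2
      have h3 := h2.resolve_left (div_ne_zero (gauss_ne_zero hprim)
        (Nat.cast_ne_zero.mpr hp.out.ne_zero))
      have h4 := sum_odd hodd' hwneg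
      rw [inv_inv] at h3 h4
      rw [h3] at h4
      exact (mul_eq_zero.mp h4.symm).resolve_left (neg_ne_zero.mpr Complex.I_ne_zero)) a b
  exact_mod_cast h1

end parity

/-! ### The theorems -/

section main

variable {W : WeierstrassCurve ℤ}

/-- **Infinitely many even non-vanishing twists.** -/
theorem exists_even_twist (hΔ : W.Δ ≠ 0) (hW : W.IsSemistableModel) {Q : Set ℕ}
    (hQ : IsRich Q) (B : ℕ) : ∃ (p : ℕ) (_ : Fact p.Prime), B < p ∧ p ∈ Q ∧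
      ∃ χ : DirichletCharacter ℂ p, χ ≠ 1 ∧ χ.Even ∧ ∀ L : ℂ → ℂ, IsTwist W χ L → L 1 ≠ 0 := by
  by_contra hcon
  push Not at hcon
  obtain ⟨f, ⟨hf, ha⟩, -⟩ := existsUnique_newform_ap hΔ hW
  have haZ : ∀ ℓ : Nat.Primes, ∃ a : ℤ, qCoeff f ℓ = a := fun ℓ => ⟨ap W ℓ, ha ℓ ℓ.2⟩
  have hr := exists_int_qCoeff hf.1 haZ
  obtain ⟨Ω₁, Ω₂, hPf⟩ := exists_isPeriods hf.1 haZ
  have hpar : IsParabolicHom (Gamma0 W.conductorLevel) (Complex.reAddGroupHom.comp (om f)) := by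
    intro γ hγ
    have h1 := isParabolicHom_periodLin f γ hγ
    rw [AddMonoidHom.comp_apply, om_apply, h1, mul_zero, map_zero]
  obtain ⟨γ, hγ⟩ := (hPf.re Ω₁).mpr ⟨1, by rw [Int.cast_one, one_mul]⟩
  have h1 := parab_eq_zero (B := B) hpar hQ (fun p hpQ hp hpB γ γ' h h' => by
    have hpf : Fact p.Prime := ⟨hp⟩
    refine pr_om_eq Complex.reAddGroupHom (fun a b => re_msym_const hr (fun χ hχ hev => ?_) a b)
      h h'
    obtain ⟨L, hL, hL0⟩ := hcon p hpf hpB hpQ χ hχ hev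
    rwa [hL.unique (isTwist_LT hΔ hf ha χ)] at hL0) (Additive.toMul γ)
  have h2 : (om f γ).re = 0 := h1
  rw [h2] at hγ
  exact hPf.pos₁.ne hγ

/-- **Infinitely many odd non-vanishing twists.** -/
theorem exists_odd_twist (hΔ : W.Δ ≠ 0) (hW : W.IsSemistableModel) {Q : Set ℕ}
    (hQ : IsRich Q) (B : ℕ) : ∃ (p : ℕ) (_ : Fact p.Prime), B < p ∧ p ∈ Q ∧
      ∃ χ : DirichletCharacter ℂ p, χ.Odd ∧ ∀ L : ℂ → ℂ, IsTwist W χ L → L 1 ≠ 0 := by
  by_contra hcon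
  push Not at hcon
  obtain ⟨f, ⟨hf, ha⟩, -⟩ := existsUnique_newform_ap hΔ hW
  have haZ : ∀ ℓ : Nat.Primes, ∃ a : ℤ, qCoeff f ℓ = a := fun ℓ => ⟨ap W ℓ, ha ℓ ℓ.2⟩
  have hr := exists_int_qCoeff hf.1 haZ
  obtain ⟨Ω₁, Ω₂, hPf⟩ := exists_isPeriods hf.1 haZ
  have hpar : IsParabolicHom (Gamma0 W.conductorLevel) (Complex.imAddGroupHom.comp (om f)) := by
    intro γ hγ
    have h1 := isParabolicHom_periodLin f γ hγ
    rw [AddMonoidHom.comp_apply, om_apply, h1, mul_zero, map_zero]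
  obtain ⟨γ, hγ⟩ := (hPf.im Ω₂).mpr ⟨1, by rw [Int.cast_one, one_mul]⟩
  have h1 := parab_eq_zero (B := B) hpar hQ (fun p hpQ hp hpB γ γ' h h' => by
    have hpf : Fact p.Prime := ⟨hp⟩
    refine pr_om_eq Complex.imAddGroupHom (fun a b => im_msym_const hr (fun χ _ hodd => ?_) a b)
      h h'
    obtain ⟨L, hL, hL0⟩ := hcon p hpf hpB hpQ χ hodd
    rwa [hL.unique (isTwist_LT hΔ hf ha χ)] at hL0) (Additive.toMul γ)
  have h2 : (om f γ).im = 0 := h1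
  rw [h2] at hγ
  exact hPf.pos₂.ne hγ

/-- **Every semistable elliptic curve over `ℚ` has infinitely many non-vanishing twists of each
parity**: there are arbitrarily large primes `p` of good ordinary reduction with an even, and with
an odd, character `χ ≠ 1` modulo `p` such that `L(W, χ, 1) ≠ 0`. -/
theorem exists_twist_parity (hΔ : W.Δ ≠ 0) (hW : W.IsSemistableModel) (B : ℕ) :
    (∃ (p : ℕ) (_ : Fact p.Prime), B < p ∧ ¬ (p : ℤ) ∣ W.Δ ∧ ¬ (p : ℤ) ∣ ap W p ∧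
      ∃ χ : DirichletCharacter ℂ p, χ ≠ 1 ∧ χ.Even ∧ ∀ L : ℂ → ℂ, IsTwist W χ L → L 1 ≠ 0) ∧
    (∃ (p : ℕ) (_ : Fact p.Prime), B < p ∧ ¬ (p : ℤ) ∣ W.Δ ∧ ¬ (p : ℤ) ∣ ap W p ∧
      ∃ χ : DirichletCharacter ℂ p, χ.Odd ∧ ∀ L : ℂ → ℂ, IsTwist W χ L → L 1 ≠ 0) := by
  have hQ := isRich_of_density (AlmostAll.density_ordinary hΔ hW)
  have key : ∀ p : ℕ, p ∈ {ℓ : ℕ | W.IsGoodPrimeFor ℓ ∧ ¬ (ℓ : ℤ) ∣ W.apOfModel ℓ} →
      ¬ (p : ℤ) ∣ W.Δ ∧ ¬ (p : ℤ) ∣ ap W p := by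
    rintro p ⟨h1, h2⟩
    have h3 : ¬ (p : ℤ) ∣ W.Δ := h1
    exact ⟨h3, by rw [ap, if_neg h3]; exact h2⟩
  refine ⟨?_, ?_⟩
  · obtain ⟨p, hp, h1, h2, χ, h3⟩ := exists_even_twist hΔ hW hQ B
    exact ⟨p, hp, h1, (key p h2).1, (key p h2).2, χ, h3⟩
  · obtain ⟨p, hp, h1, h2, χ, h3⟩ := exists_odd_twist hΔ hW hQ B
    exact ⟨p, hp, h1, (key p h2).1, (key p h2).2, χ, h3⟩

end main

end Fermat.Agent.Cor.HW.Per
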