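import Fermat.Agent.Corollaries.HW.StripFinal
import Fermat.Agent.Corollaries.ZetaK.EntireOrder
import Mathlib.Analysis.SpecialFunctions.Gamma.BohrMollerup

/-!
# The `L`-function of a modular form of weight two has infinitely many zeros in the critical strip

`f` is a cusp form of weight two on `Γ₀(N)` with `Λ(f, 2 - s) = c Λ(f, s)` and `a_1(f) ≠ 0`. Then
`Λ(f, s)` is entire of order less than two (`hasGrowth_LamN`) and grows faster than every
exponential on the positive real axis, so it has infinitely many zeros.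
-/

set_option autoImplicit false

noncomputable section

open UpperHalfPlane hiding I
open CongruenceSubgroup ModularFormClass Complex MeasureTheory Filter Topology Set
open scoped MatrixGroups ModularForm Nat

namespace Fermat.Agent.Cor.HW

/-! ### The Gamma function -/

theorem norm_Gamma_le {s : ℂ} (hs : 0 < s.re) : ‖Gamma s‖ ≤ Real.Gamma s.re := by
  rw [Gamma_eq_integral hs, Real.Gamma_eq_integral hs, GammaIntegral]
  refine (norm_integral_le_integral_norm _).trans (le_of_eq ?_)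
  refine setIntegral_congr_fun measurableSet_Ioi fun x hx => ?_
  have hx' : 0 < x := hx
  rw [norm_mul, norm_real, Real.norm_eq_abs, Real.abs_exp, norm_cpow_eq_rpow_re_of_pos hx', sub_re,
    one_re]

theorem log_le_two_sqrt {x : ℝ} (hx : 0 < x) : Real.log x ≤ 2 * √x := by
  have h1 := Real.log_le_sub_one_of_pos (Real.sqrt_pos.mpr hx)
  have h2 : Real.log x = 2 * Real.log √x := by
    rw [Real.log_sqrt hx.le]
    ring
  linarith

theorem Gamma_le_exp {x : ℝ} (hx : 2 ≤ x) : Real.Gamma x ≤ Real.exp (2 * grw x) := by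
  set n : ℕ := ⌈x⌉₊ with hn
  have h1 : x ≤ n := Nat.le_ceil x
  have h2 : (n : ℝ) < x + 1 := Nat.ceil_lt_add_one (by linarith)
  have h3 : Real.Gamma x ≤ Real.Gamma (n + 1) :=
    Real.Gamma_strictMonoOn_Ici.monotoneOn (mem_Ici.mpr hx) (mem_Ici.mpr (by linarith))
      (by linarith)
  rw [Real.Gamma_nat_eq_factorial] at h3
  have h4 : ((n ! : ℕ) : ℝ) ≤ (n : ℝ) ^ n := by exact_mod_cast Nat.factorial_le_pow n
  have hx1 : (0 : ℝ) < 1 + x := by linarith
  have h5 : (n : ℝ) ^ n ≤ (1 + x) ^ n := pow_le_pow_left₀ (Nat.cast_nonneg n) (by linarith) n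
  have h6 : (1 + x) ^ n = Real.exp (n * Real.log (1 + x)) := by
    rw [Real.exp_nat_mul, Real.exp_log hx1]
  refine h3.trans (h4.trans (h5.trans ?_))
  rw [h6]
  refine Real.exp_le_exp.mpr ?_
  have h7 := log_le_two_sqrt hx1
  have h8 : 0 ≤ Real.log (1 + x) := Real.log_nonneg (by linarith)
  calc (n : ℝ) * Real.log (1 + x) ≤ (1 + x) * (2 * √(1 + x)) :=
        mul_le_mul (by linarith) h7 h8 hx1.le
    _ = 2 * grw x := by
        rw [grw]
        ring

theorem grw_two_add {r : ℝ} (hr : 0 ≤ r) : grw (2 + r) ≤ 6 * grw r := by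
  have h1 : √(1 + (2 + r)) ≤ 2 * √(1 + r) := by
    have h2 : √(4 * (1 + r)) = 2 * √(1 + r) := by
      rw [Real.sqrt_mul (by norm_num), show (4 : ℝ) = 2 ^ 2 by norm_num,
        Real.sqrt_sq (by norm_num)]
    rw [← h2]
    exact Real.sqrt_le_sqrt (by linarith)
  unfold grw
  calc (1 + (2 + r)) * √(1 + (2 + r)) ≤ (3 * (1 + r)) * (2 * √(1 + r)) :=
        mul_le_mul (by linarith) h1 (Real.sqrt_nonneg _) (by linarith)
    _ = 6 * ((1 + r) * √(1 + r)) := by ring

/-! ### The growth of `Λ(f, s)` -/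

variable {N : ℕ} [NeZero N]

/-- The form on the imaginary axis. -/
def axis (f : CuspForm (Gamma0 N) 2) (t : ℝ) : ℂ := f (ofComplex (I * t))

/-- The Mellin transform of the absolute value. -/
def absMellin (f : CuspForm (Gamma0 N) 2) (σ : ℝ) : ℝ :=
  ∫ t in Ioi (0 : ℝ), t ^ (σ - 1) * ‖axis f t‖

theorem integrable_axis (f : CuspForm (Gamma0 N) 2) (σ : ℝ) :
    IntegrableOn (fun t : ℝ => t ^ (σ - 1) * ‖axis f t‖) (Ioi 0) := by
  have h := ((CuspForm.isStrongFEPair
    (Γ := ((Gamma0 N : Subgroup SL(2, ℤ)) : Subgroup (GL (Fin 2) ℝ))) (k := 2) two_pos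
    f).hasMellin (σ : ℂ)).1
  have h1 : IntegrableOn (fun t : ℝ => ‖(t : ℂ) ^ ((σ : ℂ) - 1) • axis f t‖) (Ioi 0) := h.norm
  refine h1.congr_fun (fun t ht => ?_) measurableSet_Ioi
  have ht' : 0 < t := ht
  simp only
  rw [norm_smul, norm_cpow_eq_rpow_re_of_pos ht', sub_re, one_re, ofReal_re]

theorem norm_Lam_le (f : CuspForm (Gamma0 N) 2) (s : ℂ) :
    ‖ModularForm.Λ (Γ := ((Gamma0 N : Subgroup SL(2, ℤ)) : Subgroup (GL (Fin 2) ℝ)))
      (k := 2) two_pos f s‖ ≤ absMellin f s.re := by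
  rw [CuspForm.Λ_eq_mellin (Γ := ((Gamma0 N : Subgroup SL(2, ℤ)) : Subgroup (GL (Fin 2) ℝ)))
    (k := 2) two_pos f, mellin]
  refine (norm_integral_le_integral_norm _).trans (le_of_eq ?_)
  refine setIntegral_congr_fun measurableSet_Ioi fun t ht => ?_
  have ht' : 0 < t := ht
  rw [norm_smul, norm_cpow_eq_rpow_re_of_pos ht', sub_re, one_re]
  rfl

theorem absMellin_le (f : CuspForm (Gamma0 N) 2) {a b σ : ℝ} (h1 : a ≤ σ) (h2 : σ ≤ b) :
    absMellin f σ ≤ absMellin f a + absMellin f b := by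
  rw [absMellin, absMellin, absMellin, ← integral_add (integrable_axis f a) (integrable_axis f b)]
  refine setIntegral_mono_on (integrable_axis f σ)
    ((integrable_axis f a).add (integrable_axis f b)) measurableSet_Ioi fun t ht => ?_
  have ht' : 0 < t := ht
  rw [← add_mul]
  refine mul_le_mul_of_nonneg_right ?_ (norm_nonneg _)
  have p1 : 0 ≤ t ^ (a - 1) := Real.rpow_nonneg ht'.le _
  have p2 : 0 ≤ t ^ (b - 1) := Real.rpow_nonneg ht'.le _
  rcases le_total t 1 with h | h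
  · have := Real.rpow_le_rpow_of_exponent_ge ht' h (show a - 1 ≤ σ - 1 by linarith)
    linarith
  · have := Real.rpow_le_rpow_of_exponent_le h (show σ - 1 ≤ b - 1 by linarith)
    linarith

omit [NeZero N] in
theorem absMellin_nonneg (f : CuspForm (Gamma0 N) 2) (σ : ℝ) : 0 ≤ absMellin f σ := by
  refine setIntegral_nonneg measurableSet_Ioi fun t ht => ?_
  have ht' : 0 < t := ht
  exact mul_nonneg (Real.rpow_nonneg ht'.le _) (norm_nonneg _)

theorem norm_natCast_cpow_half (s : ℂ) :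
    ‖(N : ℂ) ^ (s / 2)‖ = Real.exp (Real.log N * (s.re / 2)) := by
  have hN : 0 < N := Nat.pos_of_ne_zero (NeZero.ne N)
  have hN' : (0 : ℝ) < N := by exact_mod_cast hN
  rw [norm_natCast_cpow_of_pos hN, Real.rpow_def_of_pos hN']
  congr 2
  simp

/-- The bound on the right. -/
theorem norm_LamN_le_of_three_le (f : CuspForm (Gamma0 N) 2) : ∃ C A : ℝ, 0 ≤ C ∧ 0 ≤ A ∧
    ∀ s : ℂ, 3 ≤ s.re → ‖LamN f s‖ ≤ C * Real.exp (A * grw ‖s‖) := by
  have hN : 1 ≤ N := Nat.pos_of_ne_zero (NeZero.ne N)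
  have hlog : 0 ≤ Real.log N := Real.log_nonneg (by exact_mod_cast hN)
  have hsum := (lseries_two f (s := 3) (by norm_num)).1
  refine ⟨∑' n, ‖LSeries.term (qCoeff ⇑f) 3 n‖, Real.log N + 2, tsum_nonneg fun _ => norm_nonneg _,
    by linarith, fun s hs => ?_⟩
  set C := ∑' n, ‖LSeries.term (qCoeff ⇑f) 3 n‖ with hC
  have hs0 : 0 < s.re := by linarith
  have hL : ‖LSeries (qCoeff ⇑f) s‖ ≤ C := by
    have h1 := (lseries_two f (s := s) (by linarith)).1
    refine (norm_tsum_le_tsum_norm h1.norm).trans ?_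
    refine h1.norm.tsum_le_tsum (fun n => ?_) hsum.norm
    exact LSeries.norm_term_le_of_re_le_re _ (by simpa using hs) n
  have hC0 : 0 ≤ C := (norm_nonneg _).trans hL
  have hre : s.re ≤ ‖s‖ := re_le_norm s
  have hpi : ‖(2 * (Real.pi : ℂ)) ^ (-s)‖ ≤ 1 := by
    have h2 : (2 * (Real.pi : ℂ)) = ((2 * Real.pi : ℝ) : ℂ) := by push_cast; rfl
    rw [h2, norm_cpow_eq_rpow_re_of_pos (by positivity), neg_re]
    refine Real.rpow_le_one_of_one_le_of_nonpos ?_ (by linarith)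
    linarith [Real.two_le_pi]
  have hG : ‖Gamma s‖ ≤ Real.exp (2 * grw ‖s‖) := by
    refine (norm_Gamma_le hs0).trans ((Gamma_le_exp (by linarith)).trans (Real.exp_le_exp.mpr ?_))
    exact mul_le_mul_of_nonneg_left (grw_mono hs0.le hre) (by norm_num)
  have hNs : ‖(N : ℂ) ^ (s / 2)‖ ≤ Real.exp (Real.log N * grw ‖s‖) := by
    rw [norm_natCast_cpow_half]
    refine Real.exp_le_exp.mpr (mul_le_mul_of_nonneg_left ?_ hlog)
    have := le_grw (norm_nonneg s)
    linarith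
  rw [LamN_eq f (by linarith), norm_mul, norm_mul, norm_mul, add_mul, Real.exp_add]
  calc ‖(N : ℂ) ^ (s / 2)‖ * (‖(2 * (Real.pi : ℂ)) ^ (-s)‖ * ‖Gamma s‖ * ‖LSeries (qCoeff ⇑f) s‖)
      ≤ Real.exp (Real.log N * grw ‖s‖) * (1 * Real.exp (2 * grw ‖s‖) * C) := by
        gcongr
    _ = C * (Real.exp (Real.log N * grw ‖s‖) * Real.exp (2 * grw ‖s‖)) := by ring

/-- **`Λ(f, s)` is entire of order less than two.** -/
theorem hasGrowth_LamN {f : CuspForm (Gamma0 N) 2} {c : ℂ}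
    (hFE : ∀ s, LamN f (2 - s) = c * LamN f s) : HasGrowth (LamN f) := by
  obtain ⟨C, A, hC, hA, h⟩ := norm_LamN_le_of_three_le f
  have hN : 1 ≤ N := Nat.pos_of_ne_zero (NeZero.ne N)
  have hlog : 0 ≤ Real.log N := Real.log_nonneg (by exact_mod_cast hN)
  set D : ℝ := Real.exp (Real.log N * (3 / 2)) * (absMellin f (-1) + absMellin f 3) with hD
  have hD0 : 0 ≤ D := mul_nonneg (Real.exp_nonneg _)
    (add_nonneg (absMellin_nonneg f _) (absMellin_nonneg f _))
  refine hasGrowth_of_le (C := C + D + ‖c‖ * C) (A := 6 * A) fun s => ?_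
  have hg := one_le_grw (norm_nonneg s)
  have hE : 1 ≤ Real.exp (6 * A * grw ‖s‖) := Real.one_le_exp (by positivity)
  have hcC : 0 ≤ ‖c‖ * C := mul_nonneg (norm_nonneg _) hC
  rcases le_or_gt 3 s.re with h3 | h3
  · calc ‖LamN f s‖ ≤ C * Real.exp (A * grw ‖s‖) := h s h3
      _ ≤ (C + D + ‖c‖ * C) * Real.exp (6 * A * grw ‖s‖) := by
          refine mul_le_mul (by linarith) (Real.exp_le_exp.mpr ?_) (Real.exp_nonneg _)
            (by linarith)
          nlinarith
  · rcases le_or_gt (-1) s.re with h1 | h1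
    · have h2 : ‖LamN f s‖ ≤ D := by
        rw [LamN, norm_mul]
        refine mul_le_mul ?_ ((norm_Lam_le f s).trans (absMellin_le f h1 h3.le)) (norm_nonneg _)
          (Real.exp_nonneg _)
        rw [norm_natCast_cpow_half]
        exact Real.exp_le_exp.mpr (mul_le_mul_of_nonneg_left (by linarith) hlog)
      calc ‖LamN f s‖ ≤ D * 1 := by rw [mul_one]; exact h2
        _ ≤ (C + D + ‖c‖ * C) * Real.exp (6 * A * grw ‖s‖) :=
            mul_le_mul (by linarith) hE zero_le_one (by linarith)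
    · have h2 : 3 ≤ (2 - s).re := by
        rw [sub_re, re_ofNat]
        linarith
      have h4 : LamN f s = c * LamN f (2 - s) := by
        have h5 := hFE (2 - s)
        rwa [sub_sub_cancel] at h5
      have h6 : ‖2 - s‖ ≤ 2 + ‖s‖ := by
        refine (norm_sub_le _ _).trans (le_of_eq ?_)
        norm_num
      have h7 : grw ‖2 - s‖ ≤ 6 * grw ‖s‖ :=
        (grw_mono (norm_nonneg _) h6).trans (grw_two_add (norm_nonneg s))
      rw [h4, norm_mul]
      calc ‖c‖ * ‖LamN f (2 - s)‖ ≤ ‖c‖ * (C * Real.exp (A * grw ‖2 - s‖)) :=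
            mul_le_mul_of_nonneg_left (h _ h2) (norm_nonneg _)
        _ = (‖c‖ * C) * Real.exp (A * grw ‖2 - s‖) := by ring
        _ ≤ (C + D + ‖c‖ * C) * Real.exp (6 * A * grw ‖s‖) := by
            refine mul_le_mul (by linarith) (Real.exp_le_exp.mpr ?_) (Real.exp_nonneg _)
              (by linarith)
            calc A * grw ‖2 - s‖ ≤ A * (6 * grw ‖s‖) := mul_le_mul_of_nonneg_left h7 hA
              _ = 6 * A * grw ‖s‖ := by ring

/-- `Λ(f, s)` grows faster than every exponential on the positive real axis. -/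
theorem exists_lt_norm_LamN {f : CuspForm (Gamma0 N) 2} (hf1 : qCoeff f 1 ≠ 0) (B : ℝ) :
    ∃ x : ℝ, 0 ≤ x ∧ Real.exp (B * (1 + x)) < ‖LamN f x‖ := by
  have hN : 1 ≤ N := Nat.pos_of_ne_zero (NeZero.ne N)
  have hlog : 0 ≤ Real.log N := Real.log_nonneg (by exact_mod_cast hN)
  have hab : LSeries.abscissaOfAbsConv (qCoeff f) < ⊤ := by
    refine lt_of_le_of_lt (lseries_two f (s := 3) (by norm_num)).1.abscissaOfAbsConv_le ?_
    exact EReal.coe_lt_top _
  have h1 := (LSeries.tendsto_atTop hab).norm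
  have h2 : 0 < ‖qCoeff f 1‖ := norm_pos_iff.mpr hf1
  set b : ℝ := ‖qCoeff f 1‖ / 2 with hb
  have hb0 : 0 < b := by positivity
  have h3 : ∀ᶠ x : ℝ in atTop, b < ‖LSeries (qCoeff f) x‖ :=
    h1.eventually (lt_mem_nhds (by linarith : b < ‖qCoeff f 1‖))
  have h4 : ∀ᶠ n : ℕ in atTop, b < ‖LSeries (qCoeff f) ((n + 1 : ℕ) : ℝ)‖ :=
    ((tendsto_natCast_atTop_atTop (R := ℝ)).comp (tendsto_add_atTop_nat 1)).eventually h3
  set q : ℝ := Real.exp B * (2 * Real.pi) with hq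
  have hq0 : 0 < q := by positivity
  have h5 : Tendsto (fun n : ℕ => (Real.exp B * q / b) * (q ^ n / (n ! : ℕ))) atTop (𝓝 0) := by
    have := (FloorSemiring.tendsto_pow_div_factorial_atTop q).const_mul (Real.exp B * q / b)
    rwa [mul_zero] at this
  have h6 := h5.eventually (gt_mem_nhds (zero_lt_one' ℝ))
  obtain ⟨n, hn, hn6, hn2⟩ := (h4.and (h6.and (eventually_ge_atTop 2))).exists
  refine ⟨((n + 1 : ℕ) : ℝ), Nat.cast_nonneg _, ?_⟩
  have hn2' : (2 : ℝ) ≤ n := by exact_mod_cast hn2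
  have hcast : (((n + 1 : ℕ) : ℝ) : ℂ) = (n : ℂ) + 1 := by push_cast; rfl
  have hre : ((((n + 1 : ℕ) : ℝ) : ℂ)).re = (n : ℝ) + 1 := by
    rw [ofReal_re]
    push_cast
    rfl
  rw [LamN_eq f (by rw [hre]; linarith), norm_mul, norm_mul, norm_mul, norm_natCast_cpow_half, hre]
  have hG : ‖Gamma (((n + 1 : ℕ) : ℝ) : ℂ)‖ = (n ! : ℕ) := by
    rw [hcast, Gamma_nat_eq_factorial, norm_natCast]
  have hpi : ‖(2 * (Real.pi : ℂ)) ^ (-(((n + 1 : ℕ) : ℝ) : ℂ))‖ = ((2 * Real.pi) ^ (n + 1))⁻¹ := by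
    have h7 : (2 * (Real.pi : ℂ)) = ((2 * Real.pi : ℝ) : ℂ) := by push_cast; rfl
    rw [h7, norm_cpow_eq_rpow_re_of_pos (by positivity), neg_re, ofReal_re,
      Real.rpow_neg (by positivity), Real.rpow_natCast]
  have hexp : 1 ≤ Real.exp (Real.log N * (((n : ℝ) + 1) / 2)) := Real.one_le_exp (by positivity)
  have hfac : (0 : ℝ) < (n ! : ℕ) := by exact_mod_cast Nat.factorial_pos n
  rw [hG, hpi]
  have h8 : Real.exp (B * (1 + ((n + 1 : ℕ) : ℝ))) * (2 * Real.pi) ^ (n + 1) =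
      Real.exp B * q * q ^ n := by
    have h7 : Real.exp (B * (1 + ((n + 1 : ℕ) : ℝ))) = Real.exp B * (Real.exp B * Real.exp B ^ n) := by
      rw [← Real.exp_nat_mul, ← Real.exp_add, ← Real.exp_add]
      congr 1
      push_cast
      ring
    rw [h7, hq]
    ring
  have h9 : Real.exp B * q * q ^ n < b * (n ! : ℕ) := by
    have h10 : (Real.exp B * q / b) * (q ^ n / (n ! : ℕ)) =
        (Real.exp B * q * q ^ n) / (b * (n ! : ℕ)) := by
      field_simp
    rw [h10, div_lt_one (by positivity)] at hn6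
    exact hn6
  have hpow : 0 < (2 * Real.pi) ^ (n + 1) := by positivity
  have h11 : Real.exp (B * (1 + ((n + 1 : ℕ) : ℝ))) < ((2 * Real.pi) ^ (n + 1))⁻¹ * (n ! : ℕ) * b := by
    rw [← h8] at h9
    rw [mul_assoc, inv_mul_eq_div, lt_div_iff₀ hpow]
    linarith
  refine h11.trans_le ?_
  calc ((2 * Real.pi) ^ (n + 1))⁻¹ * (n ! : ℕ) * b
      ≤ ((2 * Real.pi) ^ (n + 1))⁻¹ * (n ! : ℕ) * ‖LSeries (qCoeff f) ((n + 1 : ℕ) : ℝ)‖ :=
        mul_le_mul_of_nonneg_left hn.le (by positivity)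
    _ ≤ Real.exp (Real.log N * (((n : ℝ) + 1) / 2)) *
        (((2 * Real.pi) ^ (n + 1))⁻¹ * (n ! : ℕ) * ‖LSeries (qCoeff f) ((n + 1 : ℕ) : ℝ)‖) :=
        le_mul_of_one_le_left (by positivity) hexp

/-- **`Λ(f, s)` has infinitely many zeros.** -/
theorem infinite_zeros_LamN {f : CuspForm (Gamma0 N) 2} (hf1 : qCoeff f 1 ≠ 0) {c : ℂ}
    (hFE : ∀ s, LamN f (2 - s) = c * LamN f s) : {s : ℂ | LamN f s = 0}.Infinite :=
  infinite_zeros_of_growth (differentiable_LamN f) (hasGrowth_LamN hFE) (exists_lt_norm_LamN hf1)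

/-- **The `L`-function of an eigenform of weight two satisfying the Hasse bound has infinitely many
zeros in the critical strip.** -/
theorem infinite_zeros_L {f : CuspForm (Gamma0 N) 2} (hf : f.IsNormalizedEigenform)
    (hH : IsHasse f) {c : ℂ} (hFE : ∀ s, LamN f (2 - s) = c * LamN f s) :
    {s : ℂ | 1 / 2 ≤ s.re ∧ s.re ≤ 3 / 2 ∧ ModularForm.L two_pos f s = 0}.Infinite := by
  refine (infinite_zeros_LamN (by rw [hf.qCoeff_one]; exact one_ne_zero) hFE).mono fun s hs => ?_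
  have h1 := re_mem_of_LamN_eq_zero hf hH hFE hs
  refine ⟨h1.1, h1.2, ?_⟩
  rw [L_eq_LamN, show LamN f s = 0 from hs, mul_zero]

/-- The zeros of an entire function in a vertical strip, if there are infinitely many, have
unbounded imaginary parts. -/
theorem exists_abs_im_gt {F : ℂ → ℂ} (hF : Differentiable ℂ F) (h0 : F ≠ 0) {a b : ℝ}
    (hinf : {s : ℂ | a ≤ s.re ∧ s.re ≤ b ∧ F s = 0}.Infinite) (T : ℝ) :
    ∃ s : ℂ, a ≤ s.re ∧ s.re ≤ b ∧ F s = 0 ∧ T < |s.im| := by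
  by_contra hcon
  push Not at hcon
  have hK : IsCompact (Icc a b ×ℂ Icc (-T) T) := isCompact_Icc.reProdIm isCompact_Icc
  have hsub : {s : ℂ | a ≤ s.re ∧ s.re ≤ b ∧ F s = 0} ⊆ Icc a b ×ℂ Icc (-T) T := by
    intro s hs
    exact ⟨⟨hs.1, hs.2.1⟩, abs_le.mp (hcon s hs.1 hs.2.1 hs.2.2)⟩
  obtain ⟨z, -, hz⟩ := hinf.exists_accPt_of_subset_isCompact hK hsub
  have h1 : ∃ᶠ w in 𝓝[≠] z, F w = 0 := (accPt_iff_frequently_nhdsNE.mp hz).mono fun w hw => hw.2.2
  have h2 : AnalyticOnNhd ℂ F univ := fun w _ => hF.analyticAt w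
  have h3 := h2.eqOn_zero_of_preconnected_of_frequently_eq_zero isPreconnected_univ (mem_univ z) h1
  exact h0 (funext fun w => h3 (mem_univ w))

/-! ### Semistable elliptic curves -/

section

variable {W : WeierstrassCurve ℤ} (hΔ : W.Δ ≠ 0) (hW : W.IsSemistableModel) {L : ℂ → ℂ}
  (hL : IsHasseWeil W L)

include hΔ hW hL in
/-- **The `L`-function of a semistable elliptic curve over `ℚ` has infinitely many zeros in the
critical strip** `1/2 ≤ re s ≤ 3/2`. -/
theorem infinite_zeros_of_semistable :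
    {s : ℂ | 1 / 2 ≤ s.re ∧ s.re ≤ 3 / 2 ∧ L s = 0}.Infinite := by
  obtain ⟨f, ⟨hf, ha⟩, -⟩ := existsUnique_newform_ap hΔ hW
  have hL' : L = ModularForm.L two_pos f := hL.unique (isHasseWeil hΔ hf ha)
  rw [hL']
  exact infinite_zeros_L hf.1 (isHasse hΔ hf ha) (functional_equation hΔ hf ha)

include hΔ hW hL in
/-- The zeros in the critical strip have arbitrarily large imaginary parts. -/
theorem exists_zero_im_gt (T : ℝ) :
    ∃ s : ℂ, 1 / 2 ≤ s.re ∧ s.re ≤ 3 / 2 ∧ L s = 0 ∧ T < s.im := by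
  have hC := criticalStrip_of_semistable hΔ hW hL
  have h0 : L ≠ 0 := fun h => hC.ne_zero 2 (by norm_num) (congrFun h 2)
  obtain ⟨s, h1, h2, h3, h4⟩ :=
    exists_abs_im_gt hL.1 h0 (infinite_zeros_of_semistable hΔ hW hL) T
  rcases lt_abs.mp h4 with h5 | h5
  · exact ⟨s, h1, h2, h3, h5⟩
  · refine ⟨2 - s, ?_, ?_, (hC.symm s (by linarith) (by linarith)).mpr h3, ?_⟩
    · rw [sub_re, re_ofNat]
      linarith
    · rw [sub_re, re_ofNat]
      linarith
    · rw [sub_im, im_ofNat]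
      linarith

end

end Fermat.Agent.Cor.HW
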