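import Fermat.Agent.Corollaries.HW.PadicFunctional
import Mathlib.NumberTheory.Padics.AddChar
import Mathlib.NumberTheory.LegendreSymbol.AddCharacter
import Mathlib.RingTheory.ZMod.UnitsCyclic

/-!
# The branches of the `p`-adic `L`-function are power series with bounded coefficients

For a bounded distribution `μ` on `ℤ_p` and a character `ω` modulo `p` there is a power series
`F = ∑ a_k T^k` over `ℚ_p` with bounded coefficients with `F(χ(1 + p) - 1) = ∫ ω χ dμ` for all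
characters `χ` of `ℤ_pˣ` of `p`-power order.
-/

set_option autoImplicit false

noncomputable section

open DirichletCharacter Filter Topology

namespace Fermat.Agent.Cor.HW.Per

universe u v

variable {p : ℕ} [hp : Fact p.Prime]

/-- The element `a^(p^(n+1)) (1 + p)^y` modulo `p^(n+2)`, for `a` a unit modulo `p`. -/
def tei (n : ℕ) (a : (ZMod p)ˣ) (y : ZMod (p ^ (n + 1))) : ZMod (p ^ (n + 2)) :=
  ((a : ZMod p).val : ZMod (p ^ (n + 2))) ^ p ^ (n + 1) * (1 + p) ^ y.val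

theorem one_add_pow_eq_one (hp2 : p ≠ 2) (n : ℕ) :
    (1 + p : ZMod (p ^ (n + 2))) ^ p ^ (n + 1) = 1 := by
  rw [← ZMod.orderOf_one_add_prime hp.out hp2 (n + 1)]
  exact pow_orderOf_eq_one _

theorem isUnit_val (n : ℕ) (a : (ZMod p)ˣ) :
    IsUnit ((a : ZMod p).val : ZMod (p ^ (n + 2))) := by
  rw [ZMod.isUnit_iff_coprime]
  exact Nat.Coprime.pow_right _ (ZMod.val_coe_unit_coprime a)

theorem isUnit_tei (hp2 : p ≠ 2) (n : ℕ) (a : (ZMod p)ˣ) (y : ZMod (p ^ (n + 1))) :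
    IsUnit (tei n a y) := by
  refine (isUnit_val n a).pow _ |>.mul ?_
  exact (IsUnit.of_pow_eq_one (one_add_pow_eq_one hp2 n) (pow_ne_zero _ hp.out.ne_zero)).pow _

theorem cast_tei (n : ℕ) (a : (ZMod p)ˣ) (y : ZMod (p ^ (n + 1))) :
    ZMod.castHom (dvd_pow_self p (Nat.succ_ne_zero (n + 1))) (ZMod p) (tei n a y) = a := by
  rw [tei, map_mul, map_pow, map_pow, map_natCast, map_add, map_one, map_natCast,
    ZMod.natCast_self, add_zero, one_pow, mul_one, ZMod.natCast_zmod_val, ZMod.pow_card_pow]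

theorem tei_injective (hp2 : p ≠ 2) (n : ℕ) {a b : (ZMod p)ˣ} {y z : ZMod (p ^ (n + 1))}
    (h : tei n a y = tei n b z) : a = b ∧ y = z := by
  have hab : a = b := Units.ext (by rw [← cast_tei n a y, h, cast_tei])
  subst hab
  refine ⟨rfl, ?_⟩
  rw [tei, tei, ((isUnit_val n a).pow _).mul_right_inj] at h
  have hfin : IsOfFinOrder (1 + p : ZMod (p ^ (n + 2))) :=
    isOfFinOrder_iff_pow_eq_one.mpr ⟨p ^ (n + 1), pow_pos hp.out.pos _, one_add_pow_eq_one hp2 n⟩
  have h1 := hfin.pow_eq_pow_iff_modEq.mp h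
  rw [ZMod.orderOf_one_add_prime hp.out hp2 (n + 1)] at h1
  refine ZMod.val_injective _ ?_
  rwa [Nat.ModEq, Nat.mod_eq_of_lt (ZMod.val_lt y), Nat.mod_eq_of_lt (ZMod.val_lt z)] at h1

theorem exists_tei (hp2 : p ≠ 2) (n : ℕ) {x : ZMod (p ^ (n + 2))} (hx : IsUnit x) :
    ∃ a y, tei n a y = x := by
  let f : (ZMod p)ˣ × ZMod (p ^ (n + 1)) → (ZMod (p ^ (n + 2)))ˣ := fun w =>
    (isUnit_tei hp2 n w.1 w.2).unit
  have hf : Function.Injective f := by
    intro w w' h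
    have h1 := congrArg Units.val h
    obtain ⟨h2, h3⟩ := tei_injective hp2 n h1
    exact Prod.ext h2 h3
  have hcard : Fintype.card ((ZMod p)ˣ × ZMod (p ^ (n + 1))) =
      Fintype.card (ZMod (p ^ (n + 2)))ˣ := by
    rw [Fintype.card_prod, ZMod.card, ZMod.card_units, card_units_pow (n + 1), mul_comm]
  obtain ⟨w, hw⟩ := ((Fintype.bijective_iff_injective_and_card f).mpr ⟨hf, hcard⟩).2 hx.unit
  exact ⟨w.1, w.2, congrArg Units.val hw⟩

theorem red_tei (hp2 : p ≠ 2) (n : ℕ) (a : (ZMod p)ˣ) (y : ZMod (p ^ (n + 2))) :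
    red p (n + 1) (tei (n + 1) a y) = tei n a (red p n y) := by
  have h1 : ((a : ZMod p).val : ZMod (p ^ (n + 2))) ^ p ^ (n + 1 + 1) =
      ((a : ZMod p).val : ZMod (p ^ (n + 2))) ^ p ^ (n + 1) := by
    obtain ⟨u, hu⟩ := isUnit_val n a
    rw [← hu]
    have h3 : ∀ m : ℕ, m = p ^ (n + 1) * (p - 1) + p ^ (n + 1) →
        (u : ZMod (p ^ (n + 2))) ^ m = (u : ZMod (p ^ (n + 2))) ^ p ^ (n + 1) := by
      rintro m rfl
      rw [pow_add (u : ZMod (p ^ (n + 2))) (p ^ (n + 1) * (p - 1)), ← card_units_pow (p := p) (n + 1),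
        ← Units.val_pow_eq_pow_val u (Fintype.card _), pow_card_eq_one, Units.val_one, one_mul]
    refine h3 _ ?_
    rw [← mul_add_one, Nat.sub_add_cancel hp.out.one_le, pow_succ]
  have h4 : (1 + p : ZMod (p ^ (n + 2))) ^ (red p n y).val =
      (1 + p : ZMod (p ^ (n + 2))) ^ y.val := by
    have h5 : (red p n y).val = y.val % p ^ (n + 1) := by
      rw [red, ZMod.castHom_apply, ZMod.cast_eq_val, ZMod.val_natCast]
    rw [h5, ← pow_eq_pow_mod _ (one_add_pow_eq_one hp2 n)]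
  rw [tei, tei, map_mul, map_pow, map_pow, map_natCast, map_add, map_one, map_natCast, h1, h4]

/-- The distribution `∑_a ω(a) μ(tei a y)` on `ℤ_p`. -/
def branch (μ : (n : ℕ) → ZMod (p ^ (n + 1)) → ℚ_[p]) (ω : DirichletCharacter ℚ_[p] p) (n : ℕ)
    (y : ZMod (p ^ (n + 1))) : ℚ_[p] :=
  ∑ a : (ZMod p)ˣ, ω a * μ (n + 1) (tei n a y)

theorem branch_distribution (hp2 : p ≠ 2) {μ : (n : ℕ) → ZMod (p ^ (n + 1)) → ℚ_[p]}
    (hμ : ∀ (n : ℕ) (x : ZMod (p ^ (n + 1))),
      ∑ y : ZMod (p ^ (n + 2)) with red p n y = x, μ (n + 1) y = μ n x)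
    (ω : DirichletCharacter ℚ_[p] p) (n : ℕ) (y : ZMod (p ^ (n + 1))) :
    ∑ z : ZMod (p ^ (n + 2)) with red p n z = y, branch μ ω (n + 1) z = branch μ ω n y := by
  simp only [branch]
  rw [Finset.sum_comm]
  refine Finset.sum_congr rfl fun a _ => ?_
  rw [← Finset.mul_sum, ← hμ (n + 1) (tei n a y)]
  congr 1
  refine Finset.sum_nbij (fun z => tei (n + 1) a z) (fun z hz => ?_) (fun z _ w _ h =>
    (tei_injective hp2 (n + 1) h).2) (fun x hx => ?_) (fun _ _ => rfl)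
  · rw [Finset.mem_filter] at hz ⊢
    refine ⟨Finset.mem_univ _, ?_⟩
    rw [red_tei hp2, hz.2]
  · rw [Finset.mem_coe, Finset.mem_filter] at hx
    have hu : IsUnit x := by
      rw [isUnit_iff_val]
      intro hd
      have h1 := isUnit_tei hp2 n a y
      rw [← hx.2, isUnit_iff_val] at h1
      refine h1 ?_
      rw [red, ZMod.castHom_apply, ZMod.cast_eq_val, ZMod.val_natCast]
      exact (Nat.dvd_mod_iff (dvd_pow_self p (Nat.succ_ne_zero (n + 1)))).mpr hd
    obtain ⟨b, z, rfl⟩ := exists_tei hp2 (n + 1) hu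
    rw [red_tei hp2] at hx
    obtain ⟨rfl, h2⟩ := tei_injective hp2 n hx.2
    exact ⟨z, Finset.mem_coe.mpr (Finset.mem_filter.mpr ⟨Finset.mem_univ _, h2⟩), rfl⟩

theorem norm_branch_le {μ : (n : ℕ) → ZMod (p ^ (n + 1)) → ℚ_[p]} {B : ℝ}
    (hB : ∀ (n : ℕ) (x : ZMod (p ^ (n + 1))), ‖μ n x‖ ≤ B) (ω : DirichletCharacter ℚ_[p] p)
    (n : ℕ) (y : ZMod (p ^ (n + 1))) : ‖branch μ ω n y‖ ≤ B := by
  have hB0 : 0 ≤ B := (norm_nonneg _).trans (hB 0 0)
  refine IsUltrametricDist.norm_sum_le_of_forall_le_of_nonneg hB0 fun a _ => ?_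
  rw [norm_mul]
  have h1 : ‖ω a‖ = 1 := by
    have h2 : ω a ^ Fintype.card (ZMod p)ˣ = 1 := by
      rw [← map_pow, ← Units.val_pow_eq_pow_val, pow_card_eq_one, Units.val_one, map_one]
    have h3 : ‖ω a‖ ^ Fintype.card (ZMod p)ˣ = 1 := by rw [← norm_pow, h2, norm_one]
    exact (pow_eq_one_iff_of_nonneg (norm_nonneg _) Fintype.card_ne_zero).mp h3
  rw [h1, one_mul]
  exact hB _ _

/-- The integral of `ω χ` with respect to `μ` is the integral of `y ↦ χ(1 + p)^y` with respect to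
`branch μ ω`. -/
theorem sum_branch (hp2 : p ≠ 2) (μ : (n : ℕ) → ZMod (p ^ (n + 1)) → ℚ_[p])
    (ω : DirichletCharacter ℚ_[p] p) {C : Type v} [Field C] [Algebra ℚ_[p] C] (n : ℕ)
    {χ : DirichletCharacter C (p ^ (n + 2))} (hχ : χ ^ p ^ (n + 1) = 1) :
    ∑ y : ZMod (p ^ (n + 1)), χ (1 + p) ^ y.val * algebraMap ℚ_[p] C (branch μ ω n y) =
      ∑ x : (ZMod (p ^ (n + 2)))ˣ, algebraMap ℚ_[p] C
        (ω (ZMod.castHom (dvd_pow_self p (Nat.succ_ne_zero (n + 1))) (ZMod p) x)) * χ x *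
          algebraMap ℚ_[p] C (μ (n + 1) x) := by
  simp only [branch, map_sum, Finset.mul_sum]
  rw [Finset.sum_comm, ← Finset.sum_product', Finset.univ_product_univ]
  refine Finset.sum_bij (fun w _ => (isUnit_tei hp2 n w.1 w.2).unit) (fun _ _ => Finset.mem_univ _)
    (fun w _ w' _ h => ?_) (fun x _ => ?_) (fun w _ => ?_)
  · obtain ⟨h2, h3⟩ := tei_injective hp2 n (congrArg Units.val h)
    exact Prod.ext h2 h3
  · obtain ⟨a, y, h⟩ := exists_tei hp2 n x.isUnit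
    exact ⟨(a, y), Finset.mem_univ _, Units.ext h⟩
  · rw [IsUnit.unit_spec, cast_tei, map_mul, ← mul_assoc]
    congr 1
    rw [mul_comm]
    congr 1
    rw [tei, map_mul, map_pow, map_pow]
    have h1 : χ ((w.1 : ZMod p).val : ZMod (p ^ (n + 2))) ^ p ^ (n + 1) = 1 := by
      have h2 := (isUnit_val n w.1).unit_spec
      rw [← h2, ← MulChar.pow_apply_coe, hχ, MulChar.one_apply_coe]
    rw [h1, one_mul]

/-- A character modulo `p^(n+2)` of `p`-power order has order dividing `p^(n+1)`. -/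
theorem pow_eq_one_of_orderOf {K : Type u} [CommRing K] (n : ℕ)
    {χ : DirichletCharacter K (p ^ (n + 2))} (hχ : ∃ l, orderOf χ = p ^ l) :
    χ ^ p ^ (n + 1) = 1 := by
  obtain ⟨l, hl⟩ := hχ
  have h1 : χ ^ (p ^ (n + 1) * (p - 1)) = 1 := by
    refine MulChar.ext fun u => ?_
    rw [MulChar.pow_apply_coe, ← map_pow, ← Units.val_pow_eq_pow_val, ← card_units_pow (n + 1),
      pow_card_eq_one, Units.val_one, map_one, MulChar.one_apply_coe]
  have h2 := orderOf_dvd_of_pow_eq_one h1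
  rw [hl] at h2
  have h3 : Nat.Coprime (p ^ l) (p - 1) := by
    refine Nat.Coprime.pow_left _ ((Nat.Prime.coprime_iff_not_dvd hp.out).mpr fun h => ?_)
    have := Nat.le_of_dvd (Nat.sub_pos_of_lt hp.out.one_lt) h
    have := hp.out.pos
    omega
  rw [← orderOf_dvd_iff_pow_eq_one, hl]
  exact h3.dvd_of_dvd_mul_right h2

section Mahler

variable (C : Type v) [NormedField C] [NormedAlgebra ℚ_[p] C]

/-- The binomial function `x ↦ x (x - 1) ... (x - k + 1) / k!` with values in `C`. -/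
def mah (k : ℕ) : C(ℤ_[p], C) where
  toFun x := algebraMap ℚ_[p] C (mahler k x : ℤ_[p])
  continuous_toFun := (continuous_algebraMap ℚ_[p] C).comp
    (continuous_subtype_val.comp (map_continuous (mahler k)))

theorem mah_apply (k : ℕ) (x : ℤ_[p]) : mah C k x = algebraMap ℚ_[p] C (mahler k x : ℤ_[p]) := rfl

theorem norm_mah_le (k : ℕ) : ‖(mah C k : C(ℤ_[p], C))‖ ≤ 1 := by
  rw [ContinuousMap.norm_le _ zero_le_one]
  intro x
  rw [mah_apply, norm_algebraMap']
  exact PadicInt.norm_le_one _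

variable {C}

theorem hasSum_mah [IsUltrametricDist C] [CompleteSpace C] (n : ℕ) {ζ : C}
    (hζ : ζ ^ p ^ (n + 1) = 1) :
    HasSum (fun k => (ζ - 1) ^ k • (mah C k : C(ℤ_[p], C)))
      (ofMod n fun y : ZMod (p ^ (n + 1)) => ζ ^ y.val) := by
  let alg : Algebra ℤ_[p] C :=
    ((algebraMap ℚ_[p] C).comp (PadicInt.Coe.ringHom (p := p))).toAlgebra
  have hsm : ∀ (x : ℤ_[p]) (c : C), x • c = algebraMap ℚ_[p] C (x : ℚ_[p]) * c := fun x c => rfl
  have : IsBoundedSMul ℤ_[p] C := IsBoundedSMul.of_norm_smul_le fun x c => by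
    rw [hsm, norm_mul, norm_algebraMap', PadicInt.norm_def]
  let κ : AddChar ℤ_[p] C := (AddChar.zmodChar (p ^ (n + 1)) hζ).compAddMonoidHom
    (PadicInt.toZModPow (n + 1)).toAddMonoidHom
  have hκ' : ∀ x, κ x = ζ ^ (PadicInt.toZModPow (n + 1) x).val := fun x => rfl
  have hκ : Continuous κ := (ofMod n fun y : ZMod (p ^ (n + 1)) => ζ ^ y.val).continuous
  have h1 : κ 1 = 1 + (ζ - 1) := by
    have : Fact (1 < p ^ (n + 1)) := ⟨Nat.one_lt_pow (Nat.succ_ne_zero n) hp.out.one_lt⟩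
    rw [hκ', map_one, ZMod.val_one, pow_one]
    ring
  have hr : Tendsto (fun k => (ζ - 1) ^ k) atTop (𝓝 0) := by
    have h2 := κ.tendsto_eval_one_sub_pow hκ
    rwa [h1, add_sub_cancel_left] at h2
  have h2 := PadicInt.eq_addChar_of_value_at_one hr hκ h1
  have h3 := PadicInt.hasSum_mahlerSeries (p := p) hr
  have h4 : (PadicInt.mahlerSeries (fun k => (ζ - 1) ^ k) : C(ℤ_[p], C)) =
      ofMod n fun y : ZMod (p ^ (n + 1)) => ζ ^ y.val := by
    refine ContinuousMap.ext fun x => ?_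
    rw [← PadicInt.coe_addChar_of_value_at_one hr, ← h2]
    rfl
  have h5 : (fun k => (ζ - 1) ^ k • (mah C k : C(ℤ_[p], C))) =
      fun k => PadicInt.mahlerTerm ((ζ - 1) ^ k) k := by
    refine funext fun k => ContinuousMap.ext fun x => ?_
    rw [PadicInt.mahlerTerm_apply, hsm, mul_comm]
    rfl
  rw [← h4, h5]
  exact h3

end Mahler

/-- **Amice transform of a branch.** `μ` a bounded distribution on `ℤ_p`, `ω` a character modulo
`p`: there is a power series over `ℚ_p` with coefficients bounded by `B` whose value at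
`χ(1 + p) - 1` is `∫ ω χ dμ` for all characters `χ` of `p`-power order. -/
theorem exists_powerSeries (hp2 : p ≠ 2) {μ : (n : ℕ) → ZMod (p ^ (n + 1)) → ℚ_[p]}
    (hμ : ∀ (n : ℕ) (x : ZMod (p ^ (n + 1))),
      ∑ y : ZMod (p ^ (n + 2)) with red p n y = x, μ (n + 1) y = μ n x) {B : ℝ}
    (hB : ∀ (n : ℕ) (x : ZMod (p ^ (n + 1))), ‖μ n x‖ ≤ B) (ω : DirichletCharacter ℚ_[p] p) :
    ∃ F : PowerSeries ℚ_[p], (∀ k, ‖F.coeff k‖ ≤ B) ∧
      F.coeff 0 = ∑ x : (ZMod (p ^ (1 + 1)))ˣ,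
        ω (ZMod.castHom (dvd_pow_self p (Nat.succ_ne_zero 1)) (ZMod p) x) * μ 1 x ∧
      ∀ (C : Type v) [NormedField C] [NormedAlgebra ℚ_[p] C] [IsUltrametricDist C]
        [CompleteSpace C] (n : ℕ) (χ : DirichletCharacter C (p ^ (n + 2))), χ ^ p ^ (n + 1) = 1 →
          HasSum (fun k => algebraMap ℚ_[p] C (F.coeff k) * (χ (1 + p) - 1) ^ k)
            (∑ x : (ZMod (p ^ (n + 2)))ˣ, algebraMap ℚ_[p] C
              (ω (ZMod.castHom (dvd_pow_self p (Nat.succ_ne_zero (n + 1))) (ZMod p) x)) * χ x *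
                algebraMap ℚ_[p] C (μ (n + 1) x)) := by
  have hν := branch_distribution hp2 hμ ω
  have hνB := norm_branch_le hB ω
  have hB0 : 0 ≤ B := (norm_nonneg _).trans (hB 0 0)
  obtain ⟨Λ₀, hΛ₀, hΛ₀', -⟩ := exists_functional (C := ℚ_[p]) hν hνB
  refine ⟨PowerSeries.mk fun k => Λ₀ (mah ℚ_[p] k), fun k => ?_, ?_, fun C _ _ _ _ n χ hχ => ?_⟩
  · rw [PowerSeries.coeff_mk]
    exact (hΛ₀ _).trans (mul_le_of_le_one_right hB0 (norm_mah_le _ k))
  · have h1 : (mah ℚ_[p] 0 : C(ℤ_[p], ℚ_[p])) = ofMod 0 fun _ => 1 := by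
      refine ContinuousMap.ext fun x => ?_
      rw [mah_apply, mahler_apply, Ring.choose_zero_right, PadicInt.coe_one, map_one, ofMod_apply]
    have h2 := sum_branch hp2 μ ω (C := ℚ_[p]) 0 (χ := 1) (one_pow _)
    have h3 : (1 : DirichletCharacter ℚ_[p] (p ^ (0 + 2))) (1 + p) = 1 :=
      MulChar.one_apply (IsUnit.of_pow_eq_one (one_add_pow_eq_one hp2 0)
        (pow_ne_zero _ hp.out.ne_zero))
    rw [h3] at h2
    simp only [one_pow, one_mul, Algebra.algebraMap_self, RingHom.id_apply,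
      MulChar.one_apply_coe, mul_one] at h2
    rw [PowerSeries.coeff_mk, h1, hΛ₀']
    simp only [one_mul, Algebra.algebraMap_self, RingHom.id_apply]
    exact h2
  · obtain ⟨Λ, -, hΛ, -⟩ := exists_functional (C := C) hν hνB
    have hk : ∀ k, Λ (mah C k) = algebraMap ℚ_[p] C (Λ₀ (mah ℚ_[p] k)) := by
      intro k
      refine tendsto_nhds_unique ((Λ.continuous.tendsto _).comp (tendsto_ofMod (mah C k))) ?_
      have h1 := ((continuous_algebraMap ℚ_[p] C).tendsto _).comp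
        ((Λ₀.continuous.tendsto _).comp (tendsto_ofMod (mah ℚ_[p] k : C(ℤ_[p], ℚ_[p]))))
      refine h1.congr fun m => ?_
      simp only [Function.comp_apply]
      rw [hΛ, hΛ₀', map_sum]
      exact Finset.sum_congr rfl fun x _ => by rw [map_mul]; rfl
    have hζ : χ (1 + p) ^ p ^ (n + 1) = 1 := by
      rw [← map_pow, one_add_pow_eq_one hp2, map_one]
    rw [← sum_branch hp2 μ ω n hχ, ← hΛ]
    have h5 : (fun k => algebraMap ℚ_[p] C
        ((PowerSeries.mk fun k => Λ₀ (mah ℚ_[p] k)).coeff k) * (χ (1 + p) - 1) ^ k) =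
        fun k => Λ ((χ (1 + p) - 1) ^ k • (mah C k : C(ℤ_[p], C))) := by
      refine funext fun k => ?_
      rw [PowerSeries.coeff_mk, ← hk k, map_smul, smul_eq_mul, mul_comm]
    rw [h5]
    exact Λ.hasSum (hasSum_mah n hζ)

variable {W : WeierstrassCurve ℤ} {Ω₁ Ω₂ : ℝ}

/-- **The branches of the `p`-adic `L`-function of a semistable elliptic curve are power series
with bounded coefficients** (`p` odd, good ordinary): `F(χ(1 + p) - 1)` interpolates the algebraic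
parts of `L(E, (ω χ)⁻¹, 1)`. -/
theorem iwasawa_function (hΔ : W.Δ ≠ 0) (hP : IsPeriodsOf W Ω₁ Ω₂) (p : ℕ)
    [hp : Fact p.Prime] (hp2 : p ≠ 2) (hpΔ : ¬ (p : ℤ) ∣ W.Δ) (hord : ¬ (p : ℤ) ∣ ap W p) :
    ∃ α : ℚ_[p], ‖α‖ = 1 ∧ α ^ 2 - ap W p * α + p = 0 ∧
    ∃ F : DirichletCharacter ℚ_[p] p → PowerSeries ℚ_[p],
      (∃ B : ℝ, ∀ ω k, ‖(F ω).coeff k‖ ≤ B) ∧
      (∀ L : ℂ → ℂ, IsHasseWeil W L → ∃ q : ℚ, L 1 = q * Ω₁ ∧
        (F 1).coeff 0 = (1 - α⁻¹) ^ 2 * q) ∧
      ∀ (K : Type u) [Field K] (ω' : DirichletCharacter K p) (n : ℕ)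
        (χ : DirichletCharacter K (p ^ (n + 2))), χ.IsPrimitive → (∃ l, orderOf χ = p ^ l) →
        ∃ A : K,
          (∀ (C : Type v) [NormedField C] [NormedAlgebra ℚ_[p] C] [IsUltrametricDist C]
            [CompleteSpace C] (j : K →+* C) (ω : DirichletCharacter ℚ_[p] p),
            (∀ a, j (ω' a) = algebraMap ℚ_[p] C (ω a)) →
            HasSum (fun k => algebraMap ℚ_[p] C ((F ω).coeff k) * (j (χ (1 + p)) - 1) ^ k)
              (algebraMap ℚ_[p] C (α⁻¹ ^ (n + 2)) * j A)) ∧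
          ∀ (ψ : DirichletCharacter K (p ^ (n + 2))),
            ψ = changeLevel (dvd_pow_self p (Nat.succ_ne_zero (n + 1))) ω' * χ →
            ∀ (i : K →+* ℂ) (L : ℂ → ℂ), Twist.IsTwist W (MulChar.ringHomComp ψ⁻¹ i) L →
            (ψ.Even → p ^ (n + 2) * L 1 =
              gaussSum (MulChar.ringHomComp ψ⁻¹ i) ZMod.stdAddChar * Ω₁ * i A) ∧
            (ψ.Odd → p ^ (n + 2) * L 1 =
              gaussSum (MulChar.ringHomComp ψ⁻¹ i) ZMod.stdAddChar * (-Complex.I * Ω₂) * i A) := by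
  obtain ⟨α, hα, hα', μ, hμ, ⟨B, hB⟩, hmass, hint⟩ :=
    padic_L_function.{u, v} hΔ hP p hpΔ hord
  choose F hF hF0 hF' using fun ω => exists_powerSeries.{v} hp2 hμ hB ω
  refine ⟨α, hα, hα', F, ⟨B, hF⟩, fun L hL => ?_, fun K _ ω' n χ hχ hl => ?_⟩
  · obtain ⟨q, hq, hm⟩ := hmass L hL
    refine ⟨q, hq, ?_⟩
    rw [hF0, ← hm, ← mass_eq hμ 1]
    refine Finset.sum_congr rfl fun x _ => ?_
    rw [MulChar.one_apply (x.isUnit.map _), one_mul]
  · have hψ := isPrimitive_mul (dvd_pow_self p (Nat.succ_ne_zero n)) hχ ω'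
    obtain ⟨A, h1, h2⟩ := hint (n + 1) K _ hψ
    refine ⟨A, fun C _ _ _ _ j ω hω => ?_, fun ψ hψ' i L hL => ?_⟩
    · have h3 := hF' ω C n (MulChar.ringHomComp χ j) (by
        refine MulChar.ext fun u => ?_
        have h4 := congrArg (fun φ : DirichletCharacter K (p ^ (n + 2)) => j (φ u))
          (pow_eq_one_of_orderOf n hl)
        simp only [MulChar.pow_apply_coe, MulChar.one_apply_coe, map_pow, map_one] at h4
        rw [MulChar.pow_apply_coe, MulChar.ringHomComp_apply, h4, MulChar.one_apply_coe])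
      have h5 : ∑ x : (ZMod (p ^ (n + 1 + 1)))ˣ,
          j ((changeLevel (dvd_pow_self p (Nat.succ_ne_zero (n + 1))) ω' * χ :
            DirichletCharacter K (p ^ (n + 1 + 1))) x) * algebraMap ℚ_[p] C (μ (n + 1) x) =
          ∑ x : (ZMod (p ^ (n + 2)))ˣ, algebraMap ℚ_[p] C
            (ω (ZMod.castHom (dvd_pow_self p (Nat.succ_ne_zero (n + 1))) (ZMod p) x)) *
              MulChar.ringHomComp χ j x * algebraMap ℚ_[p] C (μ (n + 1) x) := by
        refine Finset.sum_congr rfl fun x _ => ?_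
        congr 1
        rw [MulChar.coeToFun_mul, Pi.mul_apply, changeLevel_apply, map_mul, hω,
          MulChar.ringHomComp_apply]
        rfl
      rw [← h1 C j, h5]
      exact h3
    · subst hψ'
      exact h2 i L hL

/-- The same at an odd prime `p` of multiplicative reduction; the value `F(0)` of the principal
branch is `(1 - a_p) L(E, 1)/Ω₁`, it vanishes for split reduction (exceptional zero). -/
theorem iwasawa_function_mult (hΔ : W.Δ ≠ 0) (hW : W.IsSemistableModel)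
    (hP : IsPeriodsOf W Ω₁ Ω₂) (p : ℕ) [hp : Fact p.Prime] (hp2 : p ≠ 2)
    (hpΔ : (p : ℤ) ∣ W.Δ) :
    ∃ F : DirichletCharacter ℚ_[p] p → PowerSeries ℚ_[p],
      (∃ B : ℝ, ∀ ω k, ‖(F ω).coeff k‖ ≤ B) ∧
      (∀ L : ℂ → ℂ, IsHasseWeil W L → ∃ q : ℚ, L 1 = q * Ω₁ ∧
        (F 1).coeff 0 = (1 - ap W p) * q) ∧
      ∀ (K : Type u) [Field K] (ω' : DirichletCharacter K p) (n : ℕ)
        (χ : DirichletCharacter K (p ^ (n + 2))), χ.IsPrimitive → (∃ l, orderOf χ = p ^ l) →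
        ∃ A : K,
          (∀ (C : Type v) [NormedField C] [NormedAlgebra ℚ_[p] C] [IsUltrametricDist C]
            [CompleteSpace C] (j : K →+* C) (ω : DirichletCharacter ℚ_[p] p),
            (∀ a, j (ω' a) = algebraMap ℚ_[p] C (ω a)) →
            HasSum (fun k => algebraMap ℚ_[p] C ((F ω).coeff k) * (j (χ (1 + p)) - 1) ^ k)
              ((ap W p : C) ^ (n + 2) * j A)) ∧
          ∀ (ψ : DirichletCharacter K (p ^ (n + 2))),
            ψ = changeLevel (dvd_pow_self p (Nat.succ_ne_zero (n + 1))) ω' * χ →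
            ∀ (i : K →+* ℂ) (L : ℂ → ℂ), Twist.IsTwist W (MulChar.ringHomComp ψ⁻¹ i) L →
            (ψ.Even → p ^ (n + 2) * L 1 =
              gaussSum (MulChar.ringHomComp ψ⁻¹ i) ZMod.stdAddChar * Ω₁ * i A) ∧
            (ψ.Odd → p ^ (n + 2) * L 1 =
              gaussSum (MulChar.ringHomComp ψ⁻¹ i) ZMod.stdAddChar * (-Complex.I * Ω₂) * i A) := by
  obtain ⟨μ, hμ, ⟨B, hB⟩, hmass, hint⟩ := padic_L_function_mult.{u, v} hΔ hW hP p hpΔ
  choose F hF hF0 hF' using fun ω => exists_powerSeries.{v} hp2 hμ hB ω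
  refine ⟨F, ⟨B, hF⟩, fun L hL => ?_, fun K _ ω' n χ hχ hl => ?_⟩
  · obtain ⟨q, hq, hm⟩ := hmass L hL
    refine ⟨q, hq, ?_⟩
    rw [hF0, ← hm, ← mass_eq hμ 1]
    refine Finset.sum_congr rfl fun x _ => ?_
    rw [MulChar.one_apply (x.isUnit.map _), one_mul]
  · have hψ := isPrimitive_mul (dvd_pow_self p (Nat.succ_ne_zero n)) hχ ω'
    obtain ⟨A, h1, h2⟩ := hint (n + 1) K _ hψ
    refine ⟨A, fun C _ _ _ _ j ω hω => ?_, fun ψ hψ' i L hL => ?_⟩
    · have h3 := hF' ω C n (MulChar.ringHomComp χ j) (by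
        refine MulChar.ext fun u => ?_
        have h4 := congrArg (fun φ : DirichletCharacter K (p ^ (n + 2)) => j (φ u))
          (pow_eq_one_of_orderOf n hl)
        simp only [MulChar.pow_apply_coe, MulChar.one_apply_coe, map_pow, map_one] at h4
        rw [MulChar.pow_apply_coe, MulChar.ringHomComp_apply, h4, MulChar.one_apply_coe])
      have h5 : ∑ x : (ZMod (p ^ (n + 1 + 1)))ˣ,
          j ((changeLevel (dvd_pow_self p (Nat.succ_ne_zero (n + 1))) ω' * χ :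
            DirichletCharacter K (p ^ (n + 1 + 1))) x) * algebraMap ℚ_[p] C (μ (n + 1) x) =
          ∑ x : (ZMod (p ^ (n + 2)))ˣ, algebraMap ℚ_[p] C
            (ω (ZMod.castHom (dvd_pow_self p (Nat.succ_ne_zero (n + 1))) (ZMod p) x)) *
              MulChar.ringHomComp χ j x * algebraMap ℚ_[p] C (μ (n + 1) x) := by
        refine Finset.sum_congr rfl fun x _ => ?_
        congr 1
        rw [MulChar.coeToFun_mul, Pi.mul_apply, changeLevel_apply, map_mul, hω,
          MulChar.ringHomComp_apply]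
        rfl
      rw [← h1 C j, h5]
      exact h3
    · subst hψ'
      exact h2 i L hL

end Fermat.Agent.Cor.HW.Per
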