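import Mathlib

/-!
# Shifting a line of integration

`g` holomorphic with `|g(z)| ≤ C / (1 + (re z)²)` on the strip between `im z = a` and `im z = b`:
then the integrals over the two lines are equal.
-/

set_option autoImplicit false

noncomputable section

open Complex MeasureTheory Filter Topology Set

namespace Fermat.Agent.Cor.HW

section

variable {g : ℂ → ℂ} {a b C : ℝ}
  (hd : ∀ z : ℂ, z.im ∈ uIcc a b → DifferentiableAt ℂ g z)
  (hC : ∀ z : ℂ, z.im ∈ uIcc a b → ‖g z‖ ≤ C * (1 + z.re ^ 2)⁻¹)

include hd in
theorem continuous_line {c : ℝ} (hc : c ∈ uIcc a b) : Continuous fun x : ℝ => g (x + c * I) := by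
  refine continuous_iff_continuousAt.mpr fun x => ?_
  have h1 : ((x : ℂ) + c * I).im ∈ uIcc a b := by simpa using hc
  exact ContinuousAt.comp (g := g) (hd _ h1).continuousAt
    (by fun_prop : ContinuousAt (fun x : ℝ => (x : ℂ) + c * I) x)

include hd hC in
theorem integrable_line {c : ℝ} (hc : c ∈ uIcc a b) :
    Integrable fun x : ℝ => g (x + c * I) := by
  refine Integrable.mono' (integrable_inv_one_add_sq.const_mul C)
    (continuous_line hd hc).aestronglyMeasurable (Eventually.of_forall fun x => ?_)
  have h := hC ((x : ℂ) + c * I) (by simpa using hc)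
  simpa using h

include hd hC in
/-- **Shift of a horizontal line of integration.** -/
theorem integral_line_shift : ∫ x : ℝ, g (x + a * I) = ∫ x : ℝ, g (x + b * I) := by
  have hrect : ∀ T : ℝ, (∫ x : ℝ in (-T)..T, g (x + a * I)) - (∫ x : ℝ in (-T)..T, g (x + b * I)) +
      I • (∫ y : ℝ in a..b, g (T + y * I)) - I • (∫ y : ℝ in a..b, g ((-T : ℝ) + y * I)) = 0 := by
    intro T
    have h := integral_boundary_rect_eq_zero_of_differentiableOn g (((-T : ℝ) : ℂ) + a * I)
      ((T : ℂ) + b * I) (by
        intro z hz
        have h1 : z.im ∈ uIcc a b := by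
          have := (mem_reProdIm.mp hz).2
          simpa using this
        exact (hd z h1).differentiableWithinAt)
    simpa using h
  have hside : ∀ f : ℝ → ℝ, (∀ T, (f T) ^ 2 = T ^ 2) →
      Tendsto (fun T : ℝ => I • ∫ y : ℝ in a..b, g ((f T : ℝ) + y * I)) atTop (𝓝 0) := by
    intro f hf
    rw [tendsto_zero_iff_norm_tendsto_zero]
    have hlim : Tendsto (fun T : ℝ => C * (1 + T ^ 2)⁻¹ * |b - a|) atTop (𝓝 0) := by
      have h1 : Tendsto (fun T : ℝ => (1 + T ^ 2)⁻¹) atTop (𝓝 0) :=
        (tendsto_atTop_add_const_left _ _ (tendsto_pow_atTop two_ne_zero)).inv_tendsto_atTop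
      have h2 := (h1.const_mul C).mul_const |b - a|
      simpa using h2
    refine squeeze_zero (fun _ => norm_nonneg _) (fun T => ?_) hlim
    rw [norm_smul, norm_I, one_mul]
    refine intervalIntegral.norm_integral_le_of_norm_le_const fun y hy => ?_
    have h := hC ((f T : ℝ) + y * I) (by simpa using uIoc_subset_uIcc hy)
    simpa [hf T] using h
  have h1 := intervalIntegral_tendsto_integral (integrable_line hd hC left_mem_uIcc)
    tendsto_neg_atTop_atBot tendsto_id
  have h2 := intervalIntegral_tendsto_integral (integrable_line hd hC right_mem_uIcc)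
    tendsto_neg_atTop_atBot tendsto_id
  have h3 := hside (fun T => T) (fun T => rfl)
  have h4 := hside (fun T => -T) (fun T => neg_sq T)
  have h5 := ((h1.sub h2).add h3).sub h4
  have h6 := h5.congr hrect
  have h7 := tendsto_nhds_unique h6 tendsto_const_nhds
  rw [add_zero, sub_zero] at h7
  exact sub_eq_zero.mp h7

end

end Fermat.Agent.Cor.HW
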