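import Fermat.Agent.Corollaries.HW.Complete

/-!
# The Hasse-Weil `L`-function: the statement from its inputs
-/

set_option autoImplicit false

noncomputable section

open CongruenceSubgroup ModularFormClass UpperHalfPlane Complex

namespace Fermat.Agent.Cor.HW

/-- The conclusion of the Hasse-Weil conjecture for `W`, `N` the conductor: there are entire
functions `L` and `Λ` such that

* `L` is the product of the Euler factors of `W` over all primes for `re s > 2`;
* `Λ(s) = N^(s/2) (2π)^(-s) Γ(s) L(s)` for `re s > 0`;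
* `Λ(2 - s) = w Λ(s)` for all `s`, `w = ± 1` the root number;
* `L` is not zero, and its order of vanishing at `s = 1` has the parity given by `w`. -/
def HasseWeilConj (W : WeierstrassCurve ℤ) : Prop :=
  ∃ L Λ : ℂ → ℂ, IsHasseWeil W L ∧ Differentiable ℂ Λ ∧
    (∀ s : ℂ, 0 < s.re →
      Λ s = (W.conductorLevel : ℂ) ^ (s / 2) * ((2 * (Real.pi : ℂ)) ^ (-s) * Gamma s * L s)) ∧
    (∀ s : ℂ, Λ (2 - s) = rootNumber W * Λ s) ∧
    (rootNumber W = 1 ∨ rootNumber W = -1) ∧ L ≠ 0 ∧
    rootNumber W = (-1) ^ analyticOrderNatAt L 1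

variable {W : WeierstrassCurve ℤ}

/-- **The Hasse-Weil conjecture from a newform** of level the conductor with the coefficients
`a_p(W)` at all primes. -/
theorem hasseWeilConj_of_newform (hΔ : W.Δ ≠ 0) {f : CuspForm (Gamma0 W.conductorLevel) 2}
    (hf : f.IsNewform) (ha : ∀ p : ℕ, p.Prime → qCoeff f p = (ap W p : ℂ)) : HasseWeilConj W :=
  ⟨ModularForm.L two_pos f, LamN f, isHasseWeil hΔ hf ha, differentiable_LamN f,
    fun _ hs => LamN_eq_L f hs, functional_equation hΔ hf ha, rootNumber_eq_one_or hΔ ha hf,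
    L_ne_zero hf.1, rootNumber_eq_neg_one_pow hΔ hf ha⟩

/-- If the root number is `-1`, then the `L`-function vanishes at the centre `s = 1`. -/
theorem eq_zero_of_rootNumber (h : HasseWeilConj W) (hw : rootNumber W = -1) {L : ℂ → ℂ}
    (hL : IsHasseWeil W L) : L 1 = 0 := by
  obtain ⟨L', -, hL', -, -, -, -, -, hpar⟩ := h
  rw [hL.unique hL']
  by_contra h0
  have h1 : analyticOrderAt L' 1 = 0 := (hL'.1.analyticAt 1).analyticOrderAt_eq_zero.mpr h0
  rw [hw, analyticOrderNatAt, h1] at hpar
  norm_num at hpar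

end Fermat.Agent.Cor.HW
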