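import Fermat.Agent.Corollaries.HW.AlgValues

/-!
# Modular symbols of an eigenform of weight two

`msym f r = 2 π i ∫_∞^r f` for rational `r`: `msym f 0 = L(f, 1)`, the relation
`a_p msym(r) = msym(p r) + ∑_j msym((r + j) / p)` for `p ∤ N`, Birch's formula
`L(f, χ, 1) = g(χ)/m ∑ χ⁻¹(u) conj(msym(u / m))` for primitive `χ` modulo `m`.
-/

set_option autoImplicit false

noncomputable section

open UpperHalfPlane hiding I
open CongruenceSubgroup ModularCurve.Period ModularFormClass Complex Filter Topology Set ZMod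
open scoped MatrixGroups ComplexConjugate Real ModularForm

namespace Fermat.Agent.Cor.HW.Per

open Fermat.Agent.HeckePar Fermat.Agent.S21per FermatAgent.HeckeEigen
open Fermat.Agent.Cor.HW.Twist

variable {N : ℕ} [NeZero N] {f : CuspForm (Gamma0 N) 2}

/-- The primitive has a limit at every rational number. -/
theorem exists_cusp {F : ℍ → ℂ} (hF : GoodPrim f F) (r : ℚ) :
    ∃ L : ℂ, Tendsto (fun t : ℝ => F (vert (r : ℝ) t)) (𝓝[>] 0) (𝓝 L) := by
  have h1 : IsCoprime r.num (r.den : ℤ) := by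
    rw [Int.isCoprime_iff_gcd_eq_one]
    exact r.reduced
  obtain ⟨u, v, huv⟩ := h1
  let δ : SL(2, ℤ) := ⟨!![r.num, -v; (r.den : ℤ), u], by
    rw [Matrix.det_fin_two_of]
    linear_combination huv⟩
  have h00 : δ 0 0 = r.num := rfl
  have h10 : δ 1 0 = (r.den : ℤ) := rfl
  obtain ⟨L, hL⟩ := hF.cusp δ
  refine ⟨L, tendsto_F_zero (δ := δ) ?_ ?_ hL⟩
  · rw [h10]
    exact_mod_cast r.den_nz
  · rw [h00, h10]
    have h2 : (r.den : ℚ) ≠ 0 := by exact_mod_cast r.den_nz
    have h3 : (r.num : ℚ) = r * r.den := by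
      rw [Rat.mul_den_eq_num]
    exact_mod_cast h3

/-- The modular symbol `2 π i ∫_∞^r f(z) dz`. -/
def msym (f : CuspForm (Gamma0 N) 2) (r : ℚ) : ℂ :=
  2 * π * I * (exists_cusp (exists_goodPrim f).choose_spec r).choose

theorem msym_eq {F : ℍ → ℂ} (hF : GoodPrim f F) {r : ℚ} {x : ℝ} (hx : x = r) {L : ℂ}
    (hL : Tendsto (fun t : ℝ => F (vert x t)) (𝓝[>] 0) (𝓝 L)) : msym f r = 2 * π * I * L := by
  subst hx
  have h1 := (exists_cusp (exists_goodPrim f).choose_spec r).choose_spec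
  rw [hF.unique (exists_goodPrim f).choose_spec] at hL
  rw [msym, tendsto_nhds_unique hL h1]

/-- `msym f r` is the limit of `2 π i F` on the vertical line. -/
theorem tendsto_msym {F : ℍ → ℂ} (hF : GoodPrim f F) {r : ℚ} {x : ℝ} (hx : x = r) :
    Tendsto (fun t : ℝ => 2 * π * I * F (vert x t)) (𝓝[>] 0) (𝓝 (msym f r)) := by
  subst hx
  obtain ⟨L, hL⟩ := exists_cusp hF r
  rw [msym_eq hF rfl hL]
  exact hL.const_mul _

/-- The modular symbol at zero is `L(f, 1)`. -/
theorem msym_zero : msym f 0 = ModularForm.L (k := 2) two_pos f 1 := by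
  obtain ⟨F, hF⟩ := exists_goodPrim f
  obtain ⟨L, hL⟩ := exists_cusp_zero hF
  have h0 := tendsto_cusp_zero hF hL
  rw [L_one_eq hF h0, msym_eq hF (x := 0) (by simp) h0]

/-- The modular symbols are periodic. -/
theorem msym_add_int (r : ℚ) (k : ℤ) : msym f (r + k) = msym f r := by
  obtain ⟨F, hF⟩ := exists_goodPrim f
  have h1 := tendsto_msym hF (r := r) rfl
  have h2 := tendsto_msym hF (r := r + k) (x := (k : ℝ) + r) (by push_cast; ring)
  refine tendsto_nhds_unique h2 (h1.congr fun t => ?_)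
  rw [← vert_vadd, F_vadd hF]

/-- Complex conjugation. -/
theorem msym_neg (hr : ∀ n, ∃ a : ℤ, qCoeff f n = a) (r : ℚ) :
    msym f (-r) = conj (msym f r) := by
  obtain ⟨F, hF⟩ := exists_goodPrim f
  obtain ⟨L, hL⟩ := exists_cusp hF r
  obtain ⟨L', hL'⟩ := exists_cusp hF (-r)
  have h := cusp_neg (k := 0) hr hF (r := (r : ℝ)) (r' := ((-r : ℚ) : ℝ)) (by push_cast; ring)
    hL hL'
  rw [msym_eq hF rfl hL, msym_eq hF rfl hL', h]
  simp only [map_mul, conj_I, conj_ofReal, map_ofNat]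
  ring

/-- At the rational numbers with denominator prime to `N` the modular symbol is `L(f, 1)` plus a
period. -/
theorem exists_msym_eq {r : ℚ} (hr : N.Coprime r.den) :
    ∃ γ : Gamma0 N, msym f r =
      ModularForm.L (k := 2) two_pos f 1 + om f (Additive.ofMul γ) := by
  obtain ⟨F, hF⟩ := exists_goodPrim f
  obtain ⟨L, hL⟩ := exists_cusp_zero hF
  have h0 := tendsto_cusp_zero hF hL
  have h1 : IsCoprime ((N : ℤ) * r.num) (r.den : ℤ) :=
    IsCoprime.mul_left (Nat.isCoprime_iff_coprime.mpr hr)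
      (Int.isCoprime_iff_gcd_eq_one.mpr r.reduced)
  obtain ⟨x, a, hxa⟩ := h1
  let γ : SL(2, ℤ) := ⟨!![a, r.num; -(N * x), (r.den : ℤ)], by
    rw [Matrix.det_fin_two_of]
    linear_combination hxa⟩
  have hγ : γ ∈ Gamma0 N := by
    rw [Gamma0_mem]
    change ((-((N : ℤ) * x) : ℤ) : ZMod N) = 0
    simp
  have h01 : γ 0 1 = r.num := rfl
  have h11 : γ 1 1 = (r.den : ℤ) := rfl
  refine ⟨⟨γ, hγ⟩, ?_⟩
  have h2 := tendsto_cusp hF hL ⟨γ, hγ⟩ (r := (r : ℝ)) ?_ ?_
  · rw [msym_eq hF rfl h2, L_one_eq hF h0, om_apply]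
    ring
  · change γ 1 1 ≠ 0
    rw [h11]
    exact_mod_cast r.den_nz
  · change ((γ 0 1 : ℤ) : ℝ) = r * ((γ 1 1 : ℤ) : ℝ)
    rw [h01, h11]
    have h3 : (r.num : ℚ) = r * r.den := by
      rw [Rat.mul_den_eq_num]
    exact_mod_cast h3

/-! ### The Hecke relation -/

section hecke

variable {p : ℕ} [hp : Fact p.Prime] {F : ℍ → ℂ}

theorem hrep_none_vert' (x : ℝ) {t : ℝ} (ht : 0 < t) :
    hrep p none • vert x t = vert (p * x) (p * t) := by
  have hp0 : (0 : ℝ) < p := by exact_mod_cast hp.out.pos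
  ext
  rw [hrep, ModularForm.coe_heckeDiagMatrix_smul hp.out.ne_zero, coe_vert x ht,
    coe_vert _ (mul_pos hp0 ht)]
  push_cast
  ring

theorem hrep_some_vert' (x : ℝ) (j : ZMod p) {t : ℝ} (ht : 0 < t) :
    hrep p (some j) • vert x t = vert ((x + j.val) / p) ((p : ℝ)⁻¹ * t) := by
  have hp0 : (0 : ℝ) < p := by exact_mod_cast hp.out.pos
  have hpC : (p : ℂ) ≠ 0 := by exact_mod_cast hp.out.ne_zero
  ext
  rw [hrep, ModularForm.coe_heckeMatrix_smul hp.out.ne_zero, coe_vert x ht,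
    coe_vert _ (mul_pos (inv_pos.mpr hp0) ht)]
  push_cast
  field_simp
  ring

/-- `T_p F = a_p F` for the primitive vanishing at infinity. -/
theorem addOp_eq (hf : f.IsNormalizedEigenform) (hF : GoodPrim f F) (hpN : ¬ p ∣ N) (z : ℍ) :
    (heckeSys N p).addOp F z = qCoeff f p * F z := by
  have hp0 : (0 : ℝ) < p := by exact_mod_cast hp.out.pos
  set a := qCoeff f p with ha
  have h1 : IsPrim (a • (f : ℍ → ℂ)) ((heckeSys N p).addOp F) := by
    have h2 := isPrim_addOp (N := N) (p := p) hF.prim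
    have h3 : (∑ x : HIdx N p, (f : ℍ → ℂ) ∣[(2 : ℤ)] hrep p x.1) = a • (f : ℍ → ℂ) := by
      rw [← heckeT_eq_sum hpN, ← CuspForm.coe_heckeTLin_apply (hp := hp.out) (hpN := hpN)]
      have h4 := heckeOp_eq_of_isNormalizedEigenform hf ⟨p, hp.out⟩
      rw [heckeOp_of_not_dvd (p := ⟨p, hp.out⟩) hpN] at h4
      rw [h4]
      rfl
    rwa [h3] at h2
  have h2 : IsPrim (a • (f : ℍ → ℂ)) (a • F) := hF.prim.const_smul a
  have h3 : ∀ s : ℝ, (heckeSys N p).addOp F z - a * F z =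
      (heckeSys N p).addOp F (vert 0 s) - a * F (vert 0 s) := by
    intro s
    have h4 := h1.sub_eq_sub h2 z (vert 0 s)
    simp only [Pi.smul_apply, smul_eq_mul] at h4
    linear_combination h4
  have hinf : Tendsto (fun t : ℝ => (heckeSys N p).addOp F (vert 0 t) - a * F (vert 0 t)) atTop
      (𝓝 0) := by
    have : NeZero p := ⟨hp.out.ne_zero⟩
    have e1 : Tendsto (fun t : ℝ => F (vert 0 (p * t))) atTop (𝓝 0) :=
      (tendsto_F_atTop hF 0).comp (tendsto_id.const_mul_atTop hp0)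
    have e2 : Tendsto (fun t : ℝ => ∑ j : ZMod p, F (vert ((j.val : ℝ) / p) ((p : ℝ)⁻¹ * t)))
        atTop (𝓝 (∑ j : ZMod p, 0)) :=
      tendsto_finsetSum _ fun j _ => (tendsto_F_atTop hF _).comp
        (tendsto_id.const_mul_atTop (inv_pos.mpr hp0))
    have e3 := (e1.add e2).sub ((tendsto_F_atTop hF 0).const_mul a)
    rw [Finset.sum_const_zero, mul_zero, add_zero, sub_zero] at e3
    refine e3.congr' ?_
    filter_upwards [eventually_gt_atTop 0] with t ht
    rw [addOp_vert hpN ht]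
  have h4 : (fun s : ℝ => (heckeSys N p).addOp F (vert 0 s) - a * F (vert 0 s)) =
      fun _ => (heckeSys N p).addOp F z - a * F z := funext fun s => (h3 s).symm
  rw [h4] at hinf
  exact sub_eq_zero.mp (tendsto_nhds_unique tendsto_const_nhds hinf)

/-- **The Hecke relation of the modular symbols.** -/
theorem msym_hecke (hf : f.IsNormalizedEigenform) (hpN : ¬ p ∣ N) (r : ℚ) :
    qCoeff f p * msym f r = msym f (p * r) + ∑ j : ZMod p, msym f ((r + j.val) / p) := by
  obtain ⟨F, hF⟩ := exists_goodPrim f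
  have : NeZero p := ⟨hp.out.ne_zero⟩
  have hp0 : (0 : ℝ) < p := by exact_mod_cast hp.out.pos
  have e1 := (tendsto_msym hF (r := r) rfl).const_mul (qCoeff f p)
  have e2 := (tendsto_msym hF (r := p * r) (x := p * (r : ℝ)) (by push_cast; ring)).comp
    (tendsto_mul_zero hp0)
  have e3 : Tendsto (fun t : ℝ => ∑ j : ZMod p,
      2 * π * I * F (vert (((r : ℝ) + j.val) / p) ((p : ℝ)⁻¹ * t)))
      (𝓝[>] 0) (𝓝 (∑ j : ZMod p, msym f ((r + j.val) / p))) :=
    tendsto_finsetSum _ fun j _ => (tendsto_msym hF (r := (r + j.val) / p)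
      (x := ((r : ℝ) + j.val) / p) (by push_cast; ring)).comp
      (tendsto_mul_zero (inv_pos.mpr hp0))
  refine tendsto_nhds_unique e1 ((e2.add e3).congr' ?_)
  filter_upwards [self_mem_nhdsWithin] with t ht
  have ht : 0 < t := ht
  have h1 := addOp_eq hf hF hpN (vert (r : ℝ) t)
  rw [CosetSys.addOp, ← Equiv.sum_comp (hidxEquivOfNotDvd hpN).symm, Fintype.sum_option] at h1
  have h2 : ∀ x : Option (ZMod p), (heckeSys N p).rep ((hidxEquivOfNotDvd hpN).symm x) =
      hrep p x := fun x => rfl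
  simp only [h2, hrep_none_vert' _ ht, hrep_some_vert' _ _ ht] at h1
  simp only [Function.comp_apply]
  rw [← Finset.mul_sum]
  linear_combination (2 * π * I : ℂ) * h1

end hecke

/-! ### Birch's formula -/

section birch

variable {m : ℕ} [NeZero m]

/-- **Birch's formula** for the modular symbols; no condition on `m`. -/
theorem LT_one_eq (hr : ∀ n, ∃ a : ℤ, qCoeff f n = a) {χ : DirichletCharacter ℂ m}
    (hχ : χ.IsPrimitive) :
    LT f χ 1 = gaussSum χ stdAddChar / m *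
      ∑ u : (ZMod m)ˣ, χ⁻¹ u * conj (msym f ((u : ZMod m).val / m)) := by
  obtain ⟨F, hF⟩ := exists_goodPrim f
  have hm : (m : ℚ) ≠ 0 := Nat.cast_ne_zero.mpr (NeZero.ne m)
  have hconj : ∀ u : (ZMod m)ˣ, msym f (((-u : (ZMod m)ˣ) : ZMod m).val / m) =
      conj (msym f ((u : ZMod m).val / m)) := by
    intro u
    obtain ⟨k, hk⟩ : ∃ k : ℤ, (((-u : (ZMod m)ˣ) : ZMod m).val : ℚ) / m =
        -(((u : ZMod m).val : ℚ) / m) + k := by
      rw [Units.val_neg, ZMod.neg_val]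
      split_ifs with h
      · refine ⟨0, ?_⟩
        rw [h, ZMod.val_zero]
        simp
      · refine ⟨1, ?_⟩
        rw [Nat.cast_sub (ZMod.val_le _)]
        push_cast
        field_simp
        ring
    rw [hk, msym_add_int, msym_neg hr]
  rw [LT_eq]
  simp only
  have h1 : ∀ u : ZMod m, u ∉ Set.range (Units.val : (ZMod m)ˣ → ZMod m) →
      (m : ℂ)⁻¹ * 𝓕 (χ : ZMod m → ℂ) u *
        (mellin (fun t : ℝ => addT f u (ofComplex (I * (t : ℂ)))) 1 * (2 / Gammaℂ 1)) = 0 := by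
    intro u hu
    have hu' : ¬ IsUnit u := fun ⟨v, hv⟩ => hu ⟨v, hv⟩
    have h1 : χ⁻¹ (-u) = 0 := MulChar.map_nonunit _ (by rwa [IsUnit.neg_iff])
    rw [hχ.fourierTransform_eq_inv_mul_gaussSum, h1, zero_mul, mul_zero, zero_mul]
  rw [← Fintype.sum_of_injective (Units.val : (ZMod m)ˣ → ZMod m) Units.val_injective
    (fun u : (ZMod m)ˣ => (m : ℂ)⁻¹ * 𝓕 (χ : ZMod m → ℂ) u *
      (mellin (fun t : ℝ => addT f (u : ZMod m) (ofComplex (I * (t : ℂ)))) 1 *
        (2 / Gammaℂ 1))) _ h1 (fun u => rfl)]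
  rw [← Equiv.sum_comp (Equiv.neg (ZMod m)ˣ), Finset.mul_sum]
  refine Finset.sum_congr rfl fun u _ => ?_
  simp only [Equiv.neg_apply]
  obtain ⟨L, hL⟩ := exists_cusp hF ((((-u : (ZMod m)ˣ) : ZMod m).val : ℚ) / m)
  have hL' : Tendsto (fun t : ℝ => F (vert ((((-u : (ZMod m)ˣ) : ZMod m).val : ℝ) / m) t))
      (𝓝[>] 0) (𝓝 L) := by
    have e : ((((((-u : (ZMod m)ˣ) : ZMod m).val : ℚ) / m : ℚ)) : ℝ) =
        (((-u : (ZMod m)ˣ) : ZMod m).val : ℝ) / m := by push_cast; ring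
    rw [e] at hL
    exact hL
  rw [mellin_addT_one hF _ hL', ← msym_eq hF rfl hL, hconj,
    hχ.fourierTransform_eq_inv_mul_gaussSum, Units.val_neg, neg_neg]
  ring

end birch

end Fermat.Agent.Cor.HW.Per
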