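import Fermat.Agent.Corollaries.HW.NonVan

/-!
# Modular symbols and a prime dividing the level exactly

`f` a normalised eigenform on `Γ₀(N)`, `N = p M`, `p ∤ M`. The modular symbols satisfy
`a_p [r] = ∑_j [(r + j) / p]`; for `x` prime to `p` the symbol `[x / p^n]`, `n ≥ 1`, is `[1 / p]`
plus a period, and `(1 + ℓ - a_ℓ) [1 / p]` is a period for all primes `ℓ ∤ N`.
-/

set_option autoImplicit false

noncomputable section

open UpperHalfPlane hiding I
open CongruenceSubgroup ModularCurve.Period ModularFormClass Complex Filter Topology Set ZMod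
open scoped MatrixGroups ComplexConjugate Real ModularForm

namespace Fermat.Agent.Cor.HW.Per

open Fermat.Agent.HeckePar Fermat.Agent.S21per FermatAgent.HeckeEigen
open Fermat.Agent.Cor.HW.Twist

variable {N : ℕ} [NeZero N] {f : CuspForm (Gamma0 N) 2}

section heckeU

variable {p : ℕ} [hp : Fact p.Prime] {F : ℍ → ℂ}

omit [NeZero N] in
theorem addOp_dvd (hpN : p ∣ N) (x : ℝ) {t : ℝ} (ht : 0 < t) :
    (heckeSys N p).addOp F (vert x t) =
      ∑ j : ZMod p, F (vert ((x + j.val) / p) ((p : ℝ)⁻¹ * t)) := by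
  rw [CosetSys.addOp, ← Equiv.sum_comp (hidxEquivOfDvd hpN).symm]
  have h1 : ∀ j : ZMod p, (heckeSys N p).rep ((hidxEquivOfDvd hpN).symm j) =
      hrep p (some j) := fun j => rfl
  simp only [h1, hrep_some_vert' _ _ ht]

/-- `U_p F = a_p F` for the primitive vanishing at infinity. -/
theorem addOp_eq_of_dvd (hf : f.IsNormalizedEigenform) (hF : GoodPrim f F) (hpN : p ∣ N)
    (z : ℍ) : (heckeSys N p).addOp F z = qCoeff f p * F z := by
  have hp0 : (0 : ℝ) < p := by exact_mod_cast hp.out.pos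
  set a := qCoeff f p with ha
  have h1 : IsPrim (a • (f : ℍ → ℂ)) ((heckeSys N p).addOp F) := by
    have h2 := isPrim_addOp (N := N) (p := p) hF.prim
    have h3 : (∑ x : HIdx N p, (f : ℍ → ℂ) ∣[(2 : ℤ)] hrep p x.1) = a • (f : ℍ → ℂ) := by
      rw [← heckeU_eq_sum hpN, ← CuspForm.coe_heckeULin_apply (hpN := hpN)]
      have h4 := heckeOp_eq_of_isNormalizedEigenform hf ⟨p, hp.out⟩
      rw [heckeOp_of_dvd (p := ⟨p, hp.out⟩) hpN] at h4
      rw [h4]
      rfl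
    rwa [h3] at h2
  have h2 : IsPrim (a • (f : ℍ → ℂ)) (a • F) := hF.prim.const_smul a
  have h3 : ∀ s : ℝ, (heckeSys N p).addOp F z - a * F z =
      (heckeSys N p).addOp F (vert 0 s) - a * F (vert 0 s) := by
    intro s
    have h4 := h1.sub_eq_sub h2 z (vert 0 s)
    simp only [Pi.smul_apply, smul_eq_mul] at h4
    linear_combination h4
  have hinf : Tendsto (fun t : ℝ => (heckeSys N p).addOp F (vert 0 t) - a * F (vert 0 t)) atTop
      (𝓝 0) := by
    have : NeZero p := ⟨hp.out.ne_zero⟩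
    have e2 : Tendsto (fun t : ℝ => ∑ j : ZMod p, F (vert ((0 + j.val) / p) ((p : ℝ)⁻¹ * t)))
        atTop (𝓝 (∑ j : ZMod p, 0)) :=
      tendsto_finsetSum _ fun j _ => (tendsto_F_atTop hF _).comp
        (tendsto_id.const_mul_atTop (inv_pos.mpr hp0))
    have e3 := e2.sub ((tendsto_F_atTop hF 0).const_mul a)
    rw [Finset.sum_const_zero, mul_zero, sub_zero] at e3
    refine e3.congr' ?_
    filter_upwards [eventually_gt_atTop 0] with t ht
    rw [addOp_dvd hpN 0 ht]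
  have h4 : (fun s : ℝ => (heckeSys N p).addOp F (vert 0 s) - a * F (vert 0 s)) =
      fun _ => (heckeSys N p).addOp F z - a * F z := funext fun s => (h3 s).symm
  rw [h4] at hinf
  exact sub_eq_zero.mp (tendsto_nhds_unique tendsto_const_nhds hinf)

/-- **The relation of `U_p`**: `a_p [r] = ∑_j [(r + j) / p]` for `p ∣ N`. -/
theorem msym_heckeU (hf : f.IsNormalizedEigenform) (hpN : p ∣ N) (r : ℚ) :
    qCoeff f p * msym f r = ∑ j : ZMod p, msym f ((r + j.val) / p) := by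
  obtain ⟨F, hF⟩ := exists_goodPrim f
  have : NeZero p := ⟨hp.out.ne_zero⟩
  have hp0 : (0 : ℝ) < p := by exact_mod_cast hp.out.pos
  have e1 := (tendsto_msym hF (r := r) rfl).const_mul (qCoeff f p)
  have e3 : Tendsto (fun t : ℝ => ∑ j : ZMod p,
      2 * π * I * F (vert (((r : ℝ) + j.val) / p) ((p : ℝ)⁻¹ * t)))
      (𝓝[>] 0) (𝓝 (∑ j : ZMod p, msym f ((r + j.val) / p))) :=
    tendsto_finsetSum _ fun j _ => (tendsto_msym hF (r := (r + j.val) / p)
      (x := ((r : ℝ) + j.val) / p) (by push_cast; ring)).comp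
      (tendsto_mul_zero (inv_pos.mpr hp0))
  refine tendsto_nhds_unique e1 (e3.congr' ?_)
  filter_upwards [self_mem_nhdsWithin] with t ht
  have ht : 0 < t := ht
  have h1 := addOp_eq_of_dvd hf hF hpN (vert (r : ℝ) t)
  rw [addOp_dvd hpN _ ht] at h1
  rw [← Finset.mul_sum, h1]
  ring

end heckeU

/-! ### The cusps with denominator divisible by `p` -/

section cusps

variable {p M : ℕ}

/-- Cusps `x / (p v)` with `v` prime to `M`, `N = p M`, are equivalent to `1 / p`. -/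
theorem exists_msym_eq_inv (hN : N = p * M) (hp0 : p ≠ 0) (hpM : p.Coprime M) {x : ℤ} {v : ℕ}
    (hv0 : v ≠ 0) (hx : IsCoprime x ((p * v : ℕ) : ℤ)) (hvM : v.Coprime M) :
    ∃ γ : Gamma0 N, msym f ((x : ℚ) / (p * v : ℕ)) =
      msym f (1 / p) + om f (Additive.ofMul γ) := by
  obtain ⟨F, hF⟩ := exists_goodPrim f
  have hcop : IsCoprime (x * M) ((p * v : ℕ) : ℤ) := by
    refine IsCoprime.mul_left hx (Nat.isCoprime_iff_coprime.mpr ?_)
    exact (Nat.Coprime.mul_left hpM hvM).symm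
  obtain ⟨u, w, huw⟩ := hcop
  push_cast at huw
  let c : ℤ := u * (x * v - 1)
  let b : ℤ := w * (x * v - 1)
  have hcb : x * M * c + b * (p * v) = x * v - 1 := by
    simp only [c, b]
    linear_combination (x * v - 1) * huw
  let γ₀ : SL(2, ℤ) := ⟨!![x - b * p, b; (N : ℤ) * c, v - M * c], by
    rw [Matrix.det_fin_two_of, hN]
    push_cast
    linear_combination -hcb⟩
  have hγ₀ : γ₀ ∈ Gamma0 N := by
    rw [Gamma0_mem]
    change (((N : ℤ) * c : ℤ) : ZMod N) = 0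
    simp
  let δ : SL(2, ℤ) := ⟨!![1, 0; (p : ℤ), 1], by rw [Matrix.det_fin_two_of]; ring⟩
  obtain ⟨L, hL⟩ := hF.cusp δ
  have hpr : (p : ℝ) ≠ 0 := Nat.cast_ne_zero.mpr hp0
  have hvr : (v : ℝ) ≠ 0 := Nat.cast_ne_zero.mpr hv0
  have h1 : Tendsto (fun t : ℝ => F (vert (1 / p : ℝ) t)) (𝓝[>] 0) (𝓝 L) := by
    refine tendsto_F_zero (δ := δ) ?_ ?_ hL
    · change (p : ℤ) ≠ 0
      exact_mod_cast hp0
    · change ((1 : ℤ) : ℝ) = 1 / p * ((p : ℤ) : ℝ)
      push_cast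
      field_simp
  have e00 : (γ₀ * δ) 0 0 = x := by
    rw [Matrix.SpecialLinearGroup.coe_mul, Matrix.mul_apply, Fin.sum_univ_two]
    change (x - b * p) * 1 + b * (p : ℤ) = x
    ring
  have e10 : (γ₀ * δ) 1 0 = (p * v : ℕ) := by
    rw [Matrix.SpecialLinearGroup.coe_mul, Matrix.mul_apply, Fin.sum_univ_two]
    change (N : ℤ) * c * 1 + (v - M * c) * (p : ℤ) = (p * v : ℕ)
    rw [hN]
    push_cast
    ring
  have h2 : Tendsto (fun t : ℝ => F (vert (((x : ℚ) / (p * v : ℕ) : ℚ) : ℝ) t)) (𝓝[>] 0)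
      (𝓝 (L + periodLin N f (Additive.ofMul ⟨γ₀, hγ₀⟩))) := by
    refine tendsto_F_zero (δ := γ₀ * δ) ?_ ?_ ?_
    · rw [e10]
      exact_mod_cast Nat.mul_ne_zero hp0 hv0
    · rw [e00, e10]
      push_cast
      field_simp
    · have h3 : ∀ w : ℍ, F ((γ₀ * δ) • w) =
          F (δ • w) + periodLin N f (Additive.ofMul ⟨γ₀, hγ₀⟩) := by
        intro w
        rw [periodLin_apply_of_isPrim hF.prim ⟨γ₀, hγ₀⟩ (δ • w), mul_smul]
        change _ = F (δ • w) + (F (γ₀ • δ • w) - F (δ • w))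
        ring
      simp only [h3]
      exact hL.add_const _
  refine ⟨⟨γ₀, hγ₀⟩, ?_⟩
  rw [msym_eq hF rfl h2, msym_eq hF (r := 1 / p) (x := 1 / p) (by push_cast; ring) h1, om_apply]
  ring

/-- **Manin's relation at the cusp `1 / p`**: `(1 + ℓ - a_ℓ) [1 / p]` is minus a sum of
periods. -/
theorem manin_inv (hf : f.IsNormalizedEigenform) (hN : N = p * M) (hp : p.Prime)
    (hpM : p.Coprime M) {ℓ : ℕ} [hℓ : Fact ℓ.Prime] (hℓN : ¬ ℓ ∣ N) :
    ∃ (g₀ : Gamma0 N) (g : ZMod ℓ → Gamma0 N), (1 + ℓ - qCoeff f ℓ) * msym f (1 / p) =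
      -(om f (Additive.ofMul g₀) + ∑ j : ZMod ℓ, om f (Additive.ofMul (g j))) := by
  have : NeZero ℓ := ⟨hℓ.out.ne_zero⟩
  have hℓp : ¬ ℓ ∣ p := fun h => hℓN (by rw [hN]; exact Dvd.dvd.mul_right h M)
  have hℓM : ℓ.Coprime M := (Nat.Prime.coprime_iff_not_dvd hℓ.out).mpr fun h =>
    hℓN (by rw [hN]; exact Dvd.dvd.mul_left h p)
  have hcop : IsCoprime (ℓ : ℤ) (p : ℤ) :=
    Nat.isCoprime_iff_coprime.mpr ((Nat.Prime.coprime_iff_not_dvd hℓ.out).mpr hℓp)
  have hp0 : (p : ℚ) ≠ 0 := Nat.cast_ne_zero.mpr hp.ne_zero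
  have hℓ0 : (ℓ : ℚ) ≠ 0 := Nat.cast_ne_zero.mpr hℓ.out.ne_zero
  obtain ⟨γ₀, hγ₀⟩ : ∃ γ : Gamma0 N, msym f (ℓ * (1 / p)) =
      msym f (1 / p) + om f (Additive.ofMul γ) := by
    obtain ⟨γ, hγ⟩ := exists_msym_eq_inv (f := f) hN hp.ne_zero hpM (x := ℓ) (v := 1) one_ne_zero
      (by rw [mul_one]; exact hcop) (Nat.coprime_one_left M)
    refine ⟨γ, ?_⟩
    rw [← hγ]
    congr 1
    push_cast
    ring
  have hγ : ∀ j : ZMod ℓ, ∃ γ : Gamma0 N, msym f ((1 / p + j.val) / ℓ) =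
      msym f (1 / p) + om f (Additive.ofMul γ) := by
    intro j
    by_cases h : (ℓ : ℤ) ∣ 1 + p * j.val
    · obtain ⟨y, hy⟩ := h
      obtain ⟨γ, hγ⟩ := exists_msym_eq_inv (f := f) hN hp.ne_zero hpM (x := y) (v := 1)
        one_ne_zero (by
          rw [mul_one]
          exact ⟨ℓ, -(j.val : ℤ), by linear_combination -hy⟩) (Nat.coprime_one_left M)
      refine ⟨γ, ?_⟩
      rw [← hγ]
      congr 1
      have hy' : (1 : ℚ) + p * j.val = ℓ * y := by exact_mod_cast hy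
      push_cast
      field_simp
      linarith
    · obtain ⟨γ, hγ⟩ := exists_msym_eq_inv (f := f) hN hp.ne_zero hpM (x := 1 + p * j.val)
        (v := ℓ) hℓ.out.ne_zero (by
          push_cast
          refine IsCoprime.mul_right ⟨1, -(j.val : ℤ), by ring⟩ ?_
          exact ((Nat.prime_iff_prime_int.mp hℓ.out).coprime_iff_not_dvd.mpr h).symm) hℓM
      refine ⟨γ, ?_⟩
      rw [← hγ]
      congr 1
      push_cast
      field_simp
  choose g hg using hγ
  refine ⟨γ₀, g, ?_⟩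
  have h1 := msym_hecke (p := ℓ) hf hℓN (1 / p)
  rw [hγ₀] at h1
  simp only [hg] at h1
  rw [Finset.sum_add_distrib, Finset.sum_const, Finset.card_univ, ZMod.card, nsmul_eq_mul] at h1
  linear_combination -h1

/-- **Rationality** of all the symbols `[x / p^n]`. -/
theorem rat_all (hf : f.IsNormalizedEigenform) (hN : N = p * M) (hp : p.Prime)
    (hpM : p.Coprime M) {ℓ : ℕ} [hℓ : Fact ℓ.Prime] (hℓN : ¬ ℓ ∣ N) {A : ℤ}
    (hA : qCoeff f ℓ = A) (hA1 : (1 + ℓ - A : ℤ) ≠ 0) (pr : ℂ →+ ℝ) {Ω : ℝ}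
    (hpr : ∀ γ, ∃ n : ℤ, pr (om f γ) = n * Ω) {q₀ : ℚ}
    (hq₀ : pr (ModularForm.L (k := 2) two_pos f 1) = q₀ * Ω) (n : ℕ) (x : ℤ) :
    ∃ q : ℚ, pr (msym f (x / p ^ n)) = q * Ω ∧ ∃ k : ℤ, (q₀.den * (1 + ℓ - A) : ℤ) * q = k := by
  induction n generalizing x with
  | zero =>
    refine ⟨q₀, ?_, q₀.num * (1 + ℓ - A), ?_⟩
    · rw [← hq₀, ← msym_zero, ← msym_add_int (f := f) 0 x]
      congr 2
      rw [pow_zero, div_one, zero_add]
    · have h1 := Rat.mul_den_eq_num q₀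
      push_cast
      linear_combination (1 + ℓ - A : ℚ) * h1
  | succ n ih =>
    by_cases hx : (p : ℤ) ∣ x
    · obtain ⟨y, rfl⟩ := hx
      obtain ⟨q, hq, hk⟩ := ih y
      refine ⟨q, ?_, hk⟩
      rw [← hq]
      congr 2
      have hp0 : (p : ℚ) ≠ 0 := Nat.cast_ne_zero.mpr hp.ne_zero
      rw [pow_succ]
      push_cast
      field_simp
    · have : NeZero ℓ := ⟨hℓ.out.ne_zero⟩
      obtain ⟨g₀, g, hg⟩ := manin_inv hf hN hp hpM hℓN
      obtain ⟨k₁, hk₁⟩ : ∃ k₁ : ℤ, pr (-(om f (Additive.ofMul g₀) +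
          ∑ j : ZMod ℓ, om f (Additive.ofMul (g j)))) = k₁ * Ω := by
        obtain ⟨k₀, hk₀⟩ := hpr (Additive.ofMul g₀)
        choose k hk using fun j : ZMod ℓ => hpr (Additive.ofMul (g j))
        refine ⟨-(k₀ + ∑ j : ZMod ℓ, k j), ?_⟩
        rw [map_neg, map_add, map_sum, hk₀, Finset.sum_congr rfl fun j _ => hk j]
        push_cast
        rw [← Finset.sum_mul]
        ring
      obtain ⟨γ, hγ⟩ := exists_msym_eq_inv (f := f) hN hp.ne_zero hpM (x := x) (v := p ^ n)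
        (pow_ne_zero n hp.ne_zero) (by
          rw [← pow_succ']
          push_cast
          exact ((Nat.prime_iff_prime_int.mp hp).coprime_iff_not_dvd.mpr hx).symm.pow_right)
        (Nat.Coprime.pow_left n hpM)
      obtain ⟨k₂, hk₂⟩ := hpr (Additive.ofMul γ)
      have hA1' : ((1 + ℓ - A : ℤ) : ℚ) ≠ 0 := Int.cast_ne_zero.mpr hA1
      have h1 : ((1 + ℓ - A : ℤ) : ℝ) * pr (msym f (1 / p)) = k₁ * Ω := by
        rw [hA] at hg
        have h2 : ((1 + ℓ - A : ℤ) : ℂ) * msym f (1 / p) = -(om f (Additive.ofMul g₀) +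
            ∑ j : ZMod ℓ, om f (Additive.ofMul (g j))) := by
          push_cast
          exact hg
        rw [← hk₁, ← h2, ← zsmul_eq_mul, ← zsmul_eq_mul, map_zsmul]
      have hA1R : ((1 + ℓ - A : ℤ) : ℝ) ≠ 0 := Int.cast_ne_zero.mpr hA1
      refine ⟨k₁ / (1 + ℓ - A : ℤ) + k₂, ?_, q₀.den * (k₁ + (1 + ℓ - A) * k₂), ?_⟩
      · have h3 : (x : ℚ) / p ^ (n + 1) = (x : ℚ) / ((p * p ^ n : ℕ) : ℚ) := by
          push_cast
          rw [pow_succ']
        rw [h3, hγ, map_add, hk₂]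
        push_cast at h1 hA1R ⊢
        field_simp
        linear_combination h1
      · push_cast at hA1' ⊢
        field_simp

end cusps

end Fermat.Agent.Cor.HW.Per
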