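import Fermat.Agent.EC.MultFrob
import Fermat.Agent.TriLow.LocalUnip

/-!
# The line `E[p] ∩ E₀` at a prime `q ≠ p` of multiplicative reduction

For `W` of multiplicative reduction at `q`, `p ≠ q` an odd prime and a place `A` of `ℚ̄` above
`q`, the subgroup `L = E[p] ∩ E₀` of the points with non-singular reduction has order `p`
(`card_line`), it is fixed pointwise by the inertia group (`rho_inertia_apply`), and inertia acts
trivially on `E[p] / L` (`rho_inertia_sub_mem`). The decomposition group acts on the quotient by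
an unramified character `z` of order at most two and on `L` by `z` times the cyclotomic character
(`exists_decomposition`). If a Frobenius acts on `L` by `a q`, `a = ±1`, then it acts on the
quotient by `a` (`rho_frob_sub_mem`) and `(φ - a) (φ - a q) = 0` on `E[p]` (`rho_frob_mul`).
-/

set_option autoImplicit false

noncomputable section

open WeierstrassCurve WeierstrassCurve.Affine WeierstrassCurve.Affine.Point
  FermatAgent.ECVal Fermat.Agent.ECRed Fermat.Agent.ECFrob Fermat.Agent.Tate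
  Fermat.Agent.Torsion Polynomial
open scoped WeierstrassCurve.Affine

namespace Fermat.Agent.Cor.HW

section Linear

variable {k V : Type*} [Field k] [AddCommGroup V] [Module k V]

/-- An endomorphism of a plane with an eigenvector. -/
theorem exists_triangular [Module.Finite k V] (h2 : Module.finrank k V = 2) {v : V} (hv : v ≠ 0)
    {T : Module.End k V} {x : k} (hT : T v = x • v) :
    ∃ z : k, x * z = LinearMap.det T ∧ (∀ u, ∃ c : k, T u - z • u = c • v) ∧
      T.charpoly = (X - C z) * (X - C x) := by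
  obtain ⟨w, hw⟩ : ∃ w : V, LinearIndependent k ![v, w] := by
    by_contra hcon
    push Not at hcon
    have h1 : Module.finrank k V ≤ 1 := by
      apply finrank_le_one v
      intro w
      have h3 := hcon w
      rw [LinearIndependent.pair_iff] at h3
      push Not at h3
      obtain ⟨s, t, h4, h5⟩ := h3
      have ht : t ≠ 0 := by
        rintro rfl
        rw [zero_smul, add_zero, smul_eq_zero] at h4
        exact h5 (h4.resolve_right hv) rfl
      refine ⟨-(t⁻¹ * s), ?_⟩
      have h6 : w = t⁻¹ • (t • w) := by rw [smul_smul, inv_mul_cancel₀ ht, one_smul]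
      rw [h6, eq_neg_of_add_eq_zero_right h4, smul_neg, smul_smul, neg_smul]
    omega
  have hcard : Fintype.card (Fin 2) = Module.finrank k V := by rw [h2]; rfl
  let b := basisOfLinearIndependentOfCardEqFinrank hw hcard
  have hb : ⇑b = ![v, w] := coe_basisOfLinearIndependentOfCardEqFinrank hw hcard
  have hb0 : b 0 = v := by rw [hb]; rfl
  obtain ⟨z, c, h1⟩ : ∃ z c : k, T (b 1) = z • b 1 + c • b 0 := by
    refine ⟨b.repr (T (b 1)) 1, b.repr (T (b 1)) 0, ?_⟩
    have h3 := b.sum_repr (T (b 1))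
    rw [Fin.sum_univ_two] at h3
    rw [add_comm]
    exact h3.symm
  have h0 : T (b 0) = x • b 0 := by rw [hb0]; exact hT
  refine ⟨z, (Fermat.Agent.Tate.det_of_triangular b T h0 h1).symm, fun u => ?_,
    Fermat.Agent.Tate.charpoly_of_triangular b T h0 h1⟩
  refine ⟨(x - z) * b.repr u 0 + c * b.repr u 1, ?_⟩
  have h3 := b.sum_repr u
  rw [Fin.sum_univ_two] at h3
  set s := b.repr u 0
  set t := b.repr u 1
  rw [← h3, map_add, map_smul, map_smul, h0, h1, ← hb0]
  module

end Linear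

variable {W : WeierstrassCurve ℤ} {p : ℕ} [hp : Fact p.Prime] {q : ℕ}
  {A : ValuationSubring (AlgebraicClosure ℚ)} [DecidableEq (IsLocalRing.ResidueField A)]

/-- **The line**: `E[p] ∩ E₀` has order `p`. -/
theorem card_line (hW : IsMultAt W q) (hne : q ≠ p) (hp2 : p ≠ 2) (hA : A.LiesOverPrime q) :
    Nat.card (E0tors W A p) = p := by
  have h1 := pow_le_card_E0tors hW hA hp2 1
  rw [pow_one] at h1
  have hfin := finite_torsionBy_EQ hW.ne hp.out.ne_zero
  have hdvd : Nat.card (E0tors W A p) ∣ p ^ 2 := by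
    rw [← card_torsionBy_EQ hW.ne hp.out.ne_zero]
    exact AddSubgroup.card_addSubgroup_dvd_card _
  obtain ⟨k, hk, hk'⟩ := (Nat.dvd_prime_pow hp.out).mp hdvd
  rw [hk'] at h1 ⊢
  have hk1 : k ≠ 0 := by
    rintro rfl
    rw [pow_zero] at h1
    exact absurd h1 (by have := hp.out.one_lt; omega)
  have hk2 : k ≠ 2 := by
    rintro rfl
    have h2 : E0tors W A p = ⊤ := by
      apply AddSubgroup.eq_top_of_card_eq
      rw [hk', card_torsionBy_EQ hW.ne hp.out.ne_zero]
    obtain ⟨P, hP, hPn⟩ := exists_torsion_notMem_E0_of_ne (p := p) hW hne hp2 hA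
    apply hPn
    have h3 : (⟨P, mem_torsionBy_nat.mpr hP⟩ :
        Submodule.torsionBy ℤ (EQ W).Point (p : ℤ)) ∈ E0tors W A p := by
      rw [h2]; exact AddSubgroup.mem_top _
    exact h3
  have hk3 : k = 1 := by omega
  rw [hk3, pow_one]

/-- A generator of the line. -/
theorem exists_generator (hW : IsMultAt W q) (hne : q ≠ p) (hp2 : p ≠ 2)
    (hA : A.LiesOverPrime q) :
    ∃ v ∈ E0tors W A p, v ≠ 0 ∧ ∀ x, x ∈ E0tors W A p ↔ ∃ c : ZMod p, x = c • v := by
  have hcard := card_line hW hne hp2 hA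
  have hfin := finite_torsionBy_EQ hW.ne hp.out.ne_zero
  have hfin' : Finite (E0tors W A p) := Subtype.finite
  have h2 : 1 < Nat.card (E0tors W A p) := by rw [hcard]; exact hp.out.one_lt
  rw [Finite.one_lt_card_iff_nontrivial] at h2
  obtain ⟨⟨v, hvm⟩, hv⟩ := exists_ne (0 : E0tors W A p)
  have hv0 : v ≠ 0 := fun h => hv (Subtype.ext h)
  refine ⟨v, hvm, hv0, fun x => ⟨fun hx => ?_, ?_⟩⟩
  · -- the line spanned by `v` has `p` elements
    let f : ZMod p → E0tors W A p := fun c => ⟨c • v, by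
      rw [← ZMod.natCast_zmod_val c, Nat.cast_smul_eq_nsmul]
      exact AddSubgroup.nsmul_mem _ hvm _⟩
    have hf : Function.Injective f := by
      intro c d hcd
      have h3 : c • v = d • v := congrArg Subtype.val hcd
      have h4 : (c - d) • v = 0 := by rw [sub_smul, h3, sub_self]
      exact sub_eq_zero.mp ((smul_eq_zero.mp h4).resolve_right hv0)
    have hbij : Function.Bijective f := by
      have := Fintype.ofFinite (E0tors W A p)
      rw [Fintype.bijective_iff_injective_and_card]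
      refine ⟨hf, ?_⟩
      rw [ZMod.card, ← Nat.card_eq_fintype_card, hcard]
    obtain ⟨c, hc⟩ := hbij.2 ⟨x, hx⟩
    exact ⟨c, (congrArg Subtype.val hc).symm⟩
  · rintro ⟨c, rfl⟩
    rw [← ZMod.natCast_zmod_val c, Nat.cast_smul_eq_nsmul]
    exact AddSubgroup.nsmul_mem _ hvm _

/-- Inertia fixes the line pointwise. -/
theorem rho_inertia_apply (hq : q.Prime) (hne : q ≠ p) (hA : A.LiesOverPrime q)
    {σ : AlgebraicClosure ℚ ≃ₐ[ℚ] AlgebraicClosure ℚ} (hσ : σ ∈ A.inertiaSubgroupIn ℚ)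
    {x : Submodule.torsionBy ℤ (EQ W).Point (p : ℤ)} (hx : x ∈ E0tors W A p) :
    rho W p σ x = x := by
  obtain ⟨Q, hQ⟩ := mem_E0tors.mp hx
  have hpv : p • (x : (EQ W).Point) = 0 := mem_torsionBy_nat.mp x.2
  apply Subtype.ext
  exact smul_eq_of_torsion_of_mem_E0 (W' := W.map (Int.castRingHom ℚ)) hσ
    (by have := val_prime_eq_one p hp.out hq hne hA 1; rwa [pow_one] at this)
    (redEk W A) hQ hpv

/-- Inertia acts trivially on the quotient `E[p] / L` (all `q`, `q = 2` included). -/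
theorem rho_inertia_sub_mem (hW : IsMultAt W q) (hne : q ≠ p) (hp2 : p ≠ 2)
    (hA : A.LiesOverPrime q) {σ : AlgebraicClosure ℚ ≃ₐ[ℚ] AlgebraicClosure ℚ}
    (hσ : σ ∈ A.inertiaSubgroupIn ℚ) (x : Submodule.torsionBy ℤ (EQ W).Point (p : ℤ)) :
    rho W p σ x - x ∈ E0tors W A p := by
  have := finite_rat hW.ne hp.out.ne_zero
  have : Module.Finite (ZMod p) (Submodule.torsionBy ℤ (EQ W).Point (p : ℤ)) :=
    Module.Finite.of_finite
  obtain ⟨v, hvm, hv0, hL⟩ := exists_generator hW hne hp2 hA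
  have h1 : rho W p σ v = (1 : ZMod p) • v := by
    rw [one_smul]; exact rho_inertia_apply hW.prime hne hA hσ hvm
  obtain ⟨z, hz, hc, -⟩ := exists_triangular (finrank_rat hW.ne) hv0 h1
  rw [one_mul, det_rho hW.ne, Fermat.Agent.TriLow.cycMod_inertia hW.prime hne hA hσ] at hz
  obtain ⟨c, hc⟩ := hc x
  rw [hz, one_smul] at hc
  exact (hL _).mpr ⟨c, hc⟩

/-- The determinant of a Frobenius at `q ≠ p` on `E[p]` is `q`. -/
theorem det_rho_frob (hΔ : W.Δ ≠ 0) (hq : q.Prime) (hne : q ≠ p)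
    {A : ValuationSubring (AlgebraicClosure ℚ)} (hA : A.LiesOverPrime q)
    {φ : AlgebraicClosure ℚ ≃ₐ[ℚ] AlgebraicClosure ℚ} (hφ : A.IsFrobeniusAt φ q) :
    LinearMap.det (rho W p φ) = (q : ZMod p) := by
  rw [det_rho hΔ φ, cycMod_frobenius hq hA hφ hne]

omit hp in
/-- The decomposition group stabilises the line. -/
theorem rho_mem_of_mem_decomposition (hW : IsMultAt W q) (hA : A.LiesOverPrime q)
    {σ : AlgebraicClosure ℚ ≃ₐ[ℚ] AlgebraicClosure ℚ} (hσ : σ ∈ A.decompositionSubgroup ℚ)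
    {x : Submodule.torsionBy ℤ (EQ W).Point (p : ℤ)} (hx : x ∈ E0tors W A p) :
    rho W p σ x ∈ E0tors W A p := by
  obtain ⟨e, D, NR⟩ := hW.exists_nodeRoot hA
  have h1 := mem_E0tors.mp hx
  have h2 : ((rho W p σ x : Submodule.torsionBy ℤ (EQ W).Point (p : ℤ)) : (EQ W).Point)
    = σ • (x : (EQ W).Point) := rfl
  rw [mem_E0tors, h2]
  rw [mem_E0_iff_pcomp hW.prime hA hW.ne NR] at h1 ⊢
  rw [pcomp_smul hW.prime hA hW.ne NR hσ, h1]

/-- **The decomposition group on `E[p]`**: it acts on the quotient `E[p] / L` by a character `z`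
of order at most two and on `L` by `z` times the cyclotomic character. -/
theorem exists_decomposition
    [Module.Finite (ZMod p) (Submodule.torsionBy ℤ (EQ W).Point (p : ℤ))]
    (hW : IsMultAt W q) (hne : q ≠ p) (hp2 : p ≠ 2) (hA : A.LiesOverPrime q) {σ : AlgebraicClosure ℚ ≃ₐ[ℚ] AlgebraicClosure ℚ}
    (hσ : σ ∈ A.decompositionSubgroup ℚ) :
    ∃ z : ZMod p, (z = 1 ∨ z = -1) ∧
      (∀ x, rho W p σ x - z • x ∈ E0tors W A p) ∧
      (∀ x ∈ E0tors W A p, rho W p σ x = (z * cycMod p σ) • x) ∧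
      (rho W p σ).charpoly = (X - C z) * (X - C (z * cycMod p σ)) := by
  obtain ⟨v, hvm, hv0, hL⟩ := exists_generator hW hne hp2 hA
  obtain ⟨x, hx⟩ := (hL _).mp (rho_mem_of_mem_decomposition hW hA hσ hvm)
  obtain ⟨z, hz, hc, hchar⟩ := exists_triangular (finrank_rat hW.ne) hv0 hx
  rw [det_rho hW.ne] at hz
  -- the sign
  have hz1 : z = 1 ∨ z = -1 := by
    obtain ⟨P, hP, hPn⟩ := exists_torsion_notMem_E0_of_ne (p := p) hW hne hp2 hA
    let u : Submodule.torsionBy ℤ (EQ W).Point (p : ℤ) := ⟨P, mem_torsionBy_nat.mpr hP⟩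
    have hun : u ∉ E0tors W A p := hPn
    have huL : ∀ c : ZMod p, c • u ∈ E0tors W A p → c = 0 := by
      intro c hcu
      by_contra hc0
      apply hun
      have h3 : u = c⁻¹ • (c • u) := by rw [smul_smul, inv_mul_cancel₀ hc0, one_smul]
      obtain ⟨d, hd⟩ := (hL _).mp hcu
      rw [h3, hd, smul_smul]
      exact (hL _).mpr ⟨_, rfl⟩
    obtain ⟨c, hcu⟩ := hc u
    have hcm : rho W p σ u - z • u ∈ E0tors W A p := (hL _).mpr ⟨c, hcu⟩
    rcases smul_sub_or_add_mem_E0 hW hA hσ P with h1 | h1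
    · left
      have h2 : rho W p σ u - u ∈ E0tors W A p := h1
      have h3 := AddSubgroup.sub_mem _ h2 hcm
      have h4 : (z - 1) • u ∈ E0tors W A p := by
        have h5 : (z - 1) • u = rho W p σ u - u - (rho W p σ u - z • u) := by module
        rw [h5]; exact h3
      exact sub_eq_zero.mp (huL _ h4)
    · right
      have h2 : rho W p σ u + u ∈ E0tors W A p := h1
      have h3 := AddSubgroup.sub_mem _ h2 hcm
      have h4 : (z + 1) • u ∈ E0tors W A p := by
        have h5 : (z + 1) • u = rho W p σ u + u - (rho W p σ u - z • u) := by module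
        rw [h5]; exact h3
      exact eq_neg_of_add_eq_zero_left (huL _ h4)
  have hzz : z * z = 1 := by rcases hz1 with rfl | rfl <;> ring
  have hxz : x = z * cycMod p σ := by rw [← hz]; linear_combination (-x) * hzz
  refine ⟨z, hz1, fun u => ?_, fun u hu => ?_, ?_⟩
  · obtain ⟨c, hcu⟩ := hc u
    exact (hL _).mpr ⟨c, hcu⟩
  · obtain ⟨c, rfl⟩ := (hL _).mp hu
    rw [map_smul, hx, hxz, smul_smul, smul_smul, mul_comm c]
  · rw [hchar, hxz]

/-- If a Frobenius acts on one nonzero vector of the line by `a q`, `a² = 1`, then it acts on the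
quotient by `a`, on the line by `a q`, and its characteristic polynomial is
`(X - a) (X - a q)`. -/
theorem rho_frob_of_line
    [Module.Finite (ZMod p) (Submodule.torsionBy ℤ (EQ W).Point (p : ℤ))]
    (hW : IsMultAt W q) (hne : q ≠ p) (hp2 : p ≠ 2) (hA : A.LiesOverPrime q) {φ : AlgebraicClosure ℚ ≃ₐ[ℚ] AlgebraicClosure ℚ}
    (hφ : A.IsFrobeniusAt φ q) {a : ZMod p} (ha : a = 1 ∨ a = -1)
    {v : Submodule.torsionBy ℤ (EQ W).Point (p : ℤ)} (hvm : v ∈ E0tors W A p) (hv0 : v ≠ 0)
    (hv : rho W p φ v = (a * q) • v) :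
    (∀ x, rho W p φ x - a • x ∈ E0tors W A p) ∧
      (∀ x ∈ E0tors W A p, rho W p φ x = (a * q) • x) ∧
      (rho W p φ).charpoly = (X - C a) * (X - C (a * (q : ZMod p))) ∧
      (rho W p φ - algebraMap (ZMod p) _ a) * (rho W p φ - algebraMap (ZMod p) _ (a * (q : ZMod p)))
        = 0 := by
  obtain ⟨z, hz1, h1, h2, h3⟩ := exists_decomposition hW hne hp2 hA hφ.mem_decompositionSubgroup
  rw [cycMod_frobenius hW.prime hA hφ hne] at h2 h3
  have hq0 : (q : ZMod p) ≠ 0 := by
    rw [Ne, ZMod.natCast_eq_zero_iff]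
    intro hd
    exact hne ((Nat.prime_dvd_prime_iff_eq hp.out hW.prime).mp hd).symm
  have hza : z = a := by
    have h4 := h2 v hvm
    rw [hv] at h4
    have h5 : (a * q - z * q) • v = 0 := by rw [sub_smul, h4, sub_self]
    have h6 := sub_eq_zero.mp ((smul_eq_zero.mp h5).resolve_right hv0)
    exact (mul_right_cancel₀ hq0 h6).symm
  subst hza
  refine ⟨h1, h2, h3, ?_⟩
  have h4 := LinearMap.aeval_self_charpoly (rho W p φ)
  rw [h3, map_mul, map_sub, map_sub, aeval_X, aeval_C, aeval_C] at h4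
  exact h4

/-- The same with an integral sign and the action on points, as a relation on `E[p]`: if a
Frobenius acts by `a q` on the `p`-torsion of `E₀`, `a = ±1`, then
`(φ - a) (φ - a q) = 0` on `E[p]`. -/
theorem rho_frob_mul (hW : IsMultAt W q) (hne : q ≠ p) (hp2 : p ≠ 2)
    (hA : A.LiesOverPrime q) {φ : AlgebraicClosure ℚ ≃ₐ[ℚ] AlgebraicClosure ℚ}
    (hφ : A.IsFrobeniusAt φ q) {a : ℤ} (ha : a = 1 ∨ a = -1)
    (h : ∀ P : (EQ W).Point, p • P = 0 →
      P ∈ E0 (redEk W A) (isPlace_valuationSubring A) → φ • P = (a * q) • P) :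
    (rho W p φ - ((a : ℤ) : Module.End (ZMod p) _)) *
      (rho W p φ - ((a * q : ℤ) : Module.End (ZMod p) _)) = 0 := by
  have := finite_rat hW.ne hp.out.ne_zero
  have : Module.Finite (ZMod p) (Submodule.torsionBy ℤ (EQ W).Point (p : ℤ)) :=
    Module.Finite.of_finite
  obtain ⟨v, hvm, hv0, hL⟩ := exists_generator hW hne hp2 hA
  have hpv : p • (v : (EQ W).Point) = 0 := mem_torsionBy_nat.mp v.2
  have h1 : rho W p φ v = (((a : ℤ) : ZMod p) * (q : ZMod p)) • v := by
    have h2 : (((a : ℤ) : ZMod p) * (q : ZMod p)) • v = (a * (q : ℤ)) • v := by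
      rw [← Int.cast_smul_eq_zsmul (ZMod p) (a * (q : ℤ)) v]
      push_cast
      rfl
    rw [h2]
    apply Subtype.ext
    exact h v hpv (mem_E0tors.mp hvm)
  have ha' : ((a : ℤ) : ZMod p) = 1 ∨ ((a : ℤ) : ZMod p) = -1 := by
    rcases ha with rfl | rfl
    · left; exact Int.cast_one
    · right; push_cast; rfl
  have h3 := (rho_frob_of_line hW hne hp2 hA hφ ha' hvm hv0 h1).2.2.2
  have h4 : (algebraMap (ZMod p) (Module.End (ZMod p)
      (Submodule.torsionBy ℤ (EQ W).Point (p : ℤ))) ((a : ℤ) : ZMod p)) = ((a : ℤ) : _) :=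
    map_intCast _ a
  have h5 : (algebraMap (ZMod p) (Module.End (ZMod p)
      (Submodule.torsionBy ℤ (EQ W).Point (p : ℤ))) (((a : ℤ) : ZMod p) * (q : ZMod p))) =
        ((a * q : ℤ) : _) := by
    rw [map_mul, h4, map_natCast]
    push_cast
    rfl
  rw [h4, h5] at h3
  exact h3

end Fermat.Agent.Cor.HW
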