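import Fermat.Agent.S59.ShellUnr
import Fermat.Agent.Ribet.LowerNe
import Fermat.Agent.Corollaries.Surj.Inertia
import Fermat.Prelude.Def_CuspForm_Newforms

/-!
# The form of exact level attached to a semistable elliptic curve is a newform

Let `W` be a semistable Weierstrass equation over `ℤ`, `N` the product of the primes dividing its
discriminant and `f` a normalized eigenform of level `N` with `a_ℓ(f) = a_ℓ(W)` for all primes
`ℓ ∤ N`. Then `f` is a newform.

If the system `(a_ℓ(f))` occurred at a proper divisor `M` of `N`, let `q` be a prime dividing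
`N / M`. Take a large prime `p` with `p ∤ v_q(Δ)`. The `p`-torsion of `W` is the representation
attached to a form of level `M` modulo a prime above `p`, so it is unramified at `q`; but some
element of an inertia group at `q` acts on `W[p]` by a permutation of order `p`.
-/

set_option autoImplicit false

noncomputable section

open WeierstrassCurve WeierstrassCurve.Affine Fermat.Agent.ECRed
open scoped WeierstrassCurve.Affine

namespace Fermat.Agent.Cor.HW

variable {W : WeierstrassCurve ℤ}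

/-- If the eigenvalues of a normalized eigenform of level `M` are the numbers `a_ℓ(W)` for all
primes `ℓ` of good reduction which do not divide `M`, then `W[p]` is modular of level `M` for
every prime `p`. -/
theorem isResiduallyModularOfLevel_of_qCoeff {M p : ℕ} (hp : p.Prime)
    {g : CuspForm (CongruenceSubgroup.Gamma0 M) 2} (hg : g.IsNormalizedEigenform)
    (ha : ∀ ℓ : ℕ, ℓ.Prime → W.IsGoodPrimeFor ℓ → ¬ ℓ ∣ M →
      ModularFormClass.qCoeff g ℓ = (W.apOfModel ℓ : ℂ)) :
    W.IsResiduallyModularOfLevel p M := by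
  obtain ⟨𝔪, hmax, hpm⟩ := FLTPrelim.exists_maximalIdeal_natCast_prime_mem hp
  refine ⟨g, 𝔪, hg, hmax, hpm, fun ℓ hℓ hgood hℓM _ =>
    ⟨((W.apOfModel ℓ : ℤ) : integralClosure ℤ ℂ), ?_, ?_⟩⟩
  · rw [ha ℓ hℓ hgood hℓM]
    exact map_intCast (algebraMap (integralClosure ℤ ℂ) ℂ) _
  · rw [sub_self]
    exact Ideal.zero_mem _

/-- Ramification at a prime of multiplicative reduction: if `W[p]` is irreducible and modular of
level `M`, and `q ∤ M p` is a prime of multiplicative reduction, then `p ∣ v_q(Δ)`. -/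
theorem dvd_padicValInt_of_isResiduallyModularOfLevel (hΔ : W.Δ ≠ 0) {p : ℕ} [hp : Fact p.Prime]
    (hp2 : p ≠ 2) (hirr : W.ModRepIsIrreducible p) {M : ℕ} (hM : M ≠ 0)
    (hres : W.IsResiduallyModularOfLevel p M) {q : ℕ} (hW : IsMultAt W q) (hqM : ¬ q ∣ M * p) :
    p ∣ padicValInt q W.Δ := by
  by_contra hv
  obtain ⟨A, hA⟩ := Fermat.Agent.Frob.exists_liesOverPrime q hW.prime
  obtain ⟨σ, hσ, ho⟩ := Fermat.Agent.Cor.exists_inertia_order hW hp.out hp2 hv hA
  have h1 : (Ribet.rbar (Ribet.map_Δ_ne_zero hΔ) p).ρ σ = 1 :=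
    S59aux.tateRep_residual_isUnramifiedAt (Ribet.map_Δ_ne_zero hΔ) hp2 hirr hM hres hW.prime hqM
      A hA σ hσ
  have h2 : ECFrob.rho W p σ = 1 := Ribet.rho_eq_one_of_rbar (Ribet.map_Δ_ne_zero hΔ) p h1
  have h3 : MulAction.toPermHom (AlgebraicClosure ℚ ≃ₐ[ℚ] AlgebraicClosure ℚ)
      (Submodule.torsionBy ℤ (EQ W).Point (p : ℤ)) σ = 1 := by
    refine Equiv.ext fun x => ?_
    exact LinearMap.congr_fun h2 x
  rw [h3, orderOf_one] at ho
  exact hp.out.one_lt.ne ho

/-- **A level of a semistable elliptic curve is divisible by the bad primes**: if the numbers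
`a_ℓ(W)`, `ℓ` of good reduction and prime to `M`, are the eigenvalues of a normalized eigenform of
level `M`, then every prime dividing the discriminant divides `M`. -/
theorem dvd_of_isModularModelOfLevel (hΔ : W.Δ ≠ 0) (hW : W.IsSemistableModel)
    (hirr : ∃ B : ℕ, ∀ p : ℕ, p.Prime → B < p → W.ModRepIsIrreducible p) {M : ℕ} (hM : M ≠ 0)
    (hmod : W.IsModularModelOfLevel M) {q : ℕ} (hq : q.Prime) (hqΔ : (q : ℤ) ∣ W.Δ) : q ∣ M := by
  by_contra hqM
  obtain ⟨g, hg, hga⟩ := hmod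
  have hmult : IsMultAt W q := Tate.isMultAt_of_semistable hW hΔ hq hqΔ
  -- a large prime `p`
  obtain ⟨B, hB⟩ := hirr
  obtain ⟨p, hple, hp⟩ := Nat.exists_infinite_primes (B + q + 3 + padicValInt q W.Δ)
  have : Fact p.Prime := ⟨hp⟩
  have hv0 : padicValInt q W.Δ ≠ 0 := by
    intro h
    rcases padicValInt.eq_zero_iff.mp h with h1 | h1 | h1
    · exact hq.one_lt.ne' h1
    · exact hΔ h1
    · exact h1 hqΔ
  have hqMp : ¬ q ∣ M * p := by
    intro h
    rcases hq.dvd_mul.mp h with h1 | h1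
    · exact hqM h1
    · have := (Nat.prime_dvd_prime_iff_eq hq hp).mp h1
      omega
  have h1 := dvd_padicValInt_of_isResiduallyModularOfLevel hΔ (by omega) (hB p hp (by omega)) hM
    (isResiduallyModularOfLevel_of_qCoeff hp hg hga) hmult hqMp
  have h2 := Nat.le_of_dvd (Nat.pos_of_ne_zero hv0) h1
  omega

/-- **The form of exact level of a semistable elliptic curve is a newform.** -/
theorem isNewform_of_exact (hΔ : W.Δ ≠ 0) (hW : W.IsSemistableModel) {N : ℕ} [NeZero N]
    (hsq : Squarefree N) (hN : ∀ q : ℕ, q.Prime → (q ∣ N ↔ (q : ℤ) ∣ W.Δ))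
    {f : CuspForm (CongruenceSubgroup.Gamma0 N) 2} (hf : f.IsNormalizedEigenform)
    (ha : ∀ p : ℕ, p.Prime → ¬ p ∣ N → ModularFormClass.qCoeff f p = (W.apOfModel p : ℂ))
    (hirr : ∃ B : ℕ, ∀ p : ℕ, p.Prime → B < p → W.ModRepIsIrreducible p) : f.IsNewform := by
  refine ⟨hf, fun M hMN hne ⟨g, hg, hgf⟩ => ?_⟩
  have hN0 : N ≠ 0 := NeZero.ne N
  have hM0 : M ≠ 0 := fun h => hN0 (Nat.eq_zero_of_zero_dvd (h ▸ hMN))
  -- a prime `q` dividing `N / M`
  obtain ⟨R, rfl⟩ := hMN
  have hR1 : R ≠ 1 := fun h => hne (by rw [h, mul_one])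
  obtain ⟨q, hq, hqR⟩ := Nat.exists_prime_and_dvd hR1
  have hqM : ¬ q ∣ M := fun h => hq.one_lt.ne'
    (Nat.isUnit_iff.mp (hsq q (mul_dvd_mul h hqR)))
  refine hqM (dvd_of_isModularModelOfLevel hΔ hW hirr hM0 ⟨g, hg, fun ℓ hℓ hgood _ => ?_⟩ hq
    ((hN q hq).mp (hqR.trans (dvd_mul_left _ _))))
  have hℓN : ¬ ℓ ∣ M * R := fun h => hgood ((hN ℓ hℓ).mp h)
  rw [hgf ℓ hℓ hℓN, ha ℓ hℓ hℓN]

end Fermat.Agent.Cor.HW

end
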