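import Mathlib

/-!
# The group of non-singular points of a nodal cubic

`W` a Weierstrass cubic over a field `F` with a node `(e, n)` with tangent slopes `s ≠ t` in `F`:
in the coordinates `X = x - e`, `Y = y - n` the equation is `(Y - s X) (Y - t X) = X ^ 3`.
The map `(x, y) ↦ (Y - s X) / (Y - t X)` is an isomorphism from the group of non-singular points
to `Fˣ`.
-/

set_option autoImplicit false

noncomputable section

open Polynomial WeierstrassCurve WeierstrassCurve.Affine

namespace Fermat.Agent.Cor.HW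

universe u

/-- `W` has a node `(e, n)` with tangent slopes `s`, `t`. -/
structure Node {F : Type u} [Field F] (W : Affine F) (e n s t : F) : Prop where
  ne : s ≠ t
  sum : s + t = -W.a₁
  prod : s * t = -(W.a₂ + 3 * e)
  dy : 2 * n + W.a₁ * e + W.a₃ = 0
  dx : W.a₁ * n = 3 * e ^ 2 + 2 * W.a₂ * e + W.a₄
  eq : n ^ 2 + W.a₁ * e * n + W.a₃ * n = e ^ 3 + W.a₂ * e ^ 2 + W.a₄ * e + W.a₆

variable {F : Type u} [Field F] {W : Affine F} {e n s t : F}

/-- `Y - t X` -/
def lin (e n t : F) (x y : F) : F := y - n - t * (x - e)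

namespace Node

variable (h : Node W e n s t)

include h

theorem symm : Node W e n t s :=
  ⟨h.ne.symm, by rw [add_comm, h.sum], by rw [mul_comm, h.prod], h.dy, h.dx, h.eq⟩

theorem equation_iff {x y : F} :
    W.Equation x y ↔ lin e n s x y * lin e n t x y = (x - e) ^ 3 := by
  have key : y ^ 2 + W.a₁ * x * y + W.a₃ * y - (x ^ 3 + W.a₂ * x ^ 2 + W.a₄ * x + W.a₆) =
      lin e n s x y * lin e n t x y - (x - e) ^ 3 := by
    have h1 := h.sum
    have h2 := h.prod
    have h3 := h.dy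
    have h4 := h.dx
    have h5 := h.eq
    simp only [lin]
    linear_combination (x - e) * (y - n) * h1 - (x - e) ^ 2 * h2 + (y - n) * h3 +
      (x - e) * h4 + h5
  rw [equation_iff', key, sub_eq_zero]

theorem not_nonsingular_node : ¬ W.Nonsingular e n := by
  rw [nonsingular_iff']
  rintro ⟨-, h1 | h1⟩
  · exact h1 (sub_eq_zero.mpr h.dx)
  · exact h1 h.dy

theorem lin_ne_zero {x y : F} (hP : W.Nonsingular x y) : lin e n s x y ≠ 0 := by
  intro h0
  have h1 := h.equation_iff.mp hP.1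
  rw [h0, zero_mul] at h1
  have h2 : x = e := by
    have := pow_eq_zero_iff (three_ne_zero) |>.mp h1.symm
    linear_combination this
  subst h2
  have h3 : y = n := by
    rw [lin, sub_self, mul_zero, sub_zero] at h0
    linear_combination h0
  subst h3
  exact h.not_nonsingular_node hP

theorem lin_ne_zero' {x y : F} (hP : W.Nonsingular x y) : lin e n t x y ≠ 0 :=
  h.symm.lin_ne_zero hP

theorem nonsingular_of {x y : F} (hE : W.Equation x y) (hne : lin e n s x y ≠ 0) :
    W.Nonsingular x y := by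
  rw [nonsingular_iff']
  refine ⟨hE, ?_⟩
  by_contra hcon
  push Not at hcon
  obtain ⟨hx, hy⟩ := hcon
  have h0 := h.equation_iff.mp hE
  have h1 := h.sum
  have h2 := h.prod
  have h3 := h.dy
  have h4 := h.dx
  set A := lin e n s x y with hA
  set B := lin e n t x y with hB
  have k1 : A + B = 0 := by
    rw [hA, hB, lin, lin]
    linear_combination hy - h3 - (x - e) * h1
  have k2 : -s * B - t * A - 3 * (x - e) ^ 2 = 0 := by
    rw [hA, hB, lin, lin]
    linear_combination hx - h4 - (y - n) * h1 + 2 * (x - e) * h2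
  have k3 : B - A = (s - t) * (x - e) := by
    rw [hA, hB, lin, lin]
    ring
  have hst : s - t ≠ 0 := sub_ne_zero.mpr h.ne
  -- `B = -A`, `(s - t) A = 3 X²`, `- A² = X³`, `-2 A = (s - t) X`
  have k4 : B = -A := by linear_combination k1
  rw [k4] at k2 k3 h0
  have k5 : (s - t) * A = 3 * (x - e) ^ 2 := by linear_combination k2
  have k6 : -(2 * A) = (s - t) * (x - e) := by linear_combination k3
  have k7 : -(A ^ 2) = (x - e) ^ 3 := by linear_combination h0
  have hX : x - e ≠ 0 := by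
    intro hX
    rw [hX] at k7
    apply hne
    have : A ^ 2 = 0 := by linear_combination -k7
    exact pow_eq_zero_iff two_ne_zero |>.mp this
  have k8 : (s - t) ^ 2 + 6 * (x - e) = 0 := by
    apply mul_left_cancel₀ hX
    linear_combination -(s - t) * k6 - 2 * k5
  have k9 : (s - t) ^ 2 + 4 * (x - e) = 0 := by
    apply mul_left_cancel₀ (pow_ne_zero 2 hX)
    linear_combination (2 * A - (s - t) * (x - e)) * k6 - 4 * k7
  have k10 : 2 * (x - e) = 0 := by linear_combination k8 - k9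
  have k11 : (s - t) ^ 2 = 0 := by linear_combination k9 - 2 * k10
  exact hst (pow_eq_zero_iff two_ne_zero |>.mp k11)

/-- the three points of intersection with a line -/
theorem prod_lin [DecidableEq F] {x₁ x₂ y₁ y₂ : F} (h₁ : W.Equation x₁ y₁)
    (h₂ : W.Equation x₂ y₂) (hxy : ¬(x₁ = x₂ ∧ y₁ = W.negY x₂ y₂)) :
    lin e n s x₁ y₁ * lin e n s x₂ y₂ *
        lin e n s (W.addX x₁ x₂ (W.slope x₁ x₂ y₁ y₂))
          (W.negAddY x₁ x₂ y₁ (W.slope x₁ x₂ y₁ y₂)) =
      (y₁ - n - W.slope x₁ x₂ y₁ y₂ * (x₁ - e)) ^ 3 := by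
  have hline : y₂ = W.slope x₁ x₂ y₁ y₂ * (x₂ - x₁) + y₁ := by
    by_cases hx : x₁ = x₂
    · have hy : y₁ ≠ W.negY x₂ y₂ := fun h => hxy ⟨hx, h⟩
      rcases hx, Y_eq_of_Y_ne h₁ h₂ hx hy with ⟨rfl, rfl⟩
      ring
    · rw [slope_of_X_ne hx]
      have : x₁ - x₂ ≠ 0 := sub_ne_zero.mpr hx
      field_simp
      ring
  have hpoly := addPolynomial_slope h₁ h₂ hxy
  rw [addPolynomial_eq, neg_inj, Cubic.prod_X_sub_C_eq, Cubic.toPoly_injective] at hpoly
  have e2 := congrArg Cubic.c hpoly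
  have e3 := congrArg Cubic.d hpoly
  have e1 : W.addX x₁ x₂ (W.slope x₁ x₂ y₁ y₂) = W.slope x₁ x₂ y₁ y₂ ^ 2 +
    W.a₁ * W.slope x₁ x₂ y₁ y₂ - W.a₂ - x₁ - x₂ := rfl
  simp only at e2 e3
  have hneg : W.negAddY x₁ x₂ y₁ (W.slope x₁ x₂ y₁ y₂) =
      W.slope x₁ x₂ y₁ y₂ * (W.addX x₁ x₂ (W.slope x₁ x₂ y₁ y₂) - x₁) + y₁ := rfl
  rw [hneg]
  generalize W.slope x₁ x₂ y₁ y₂ = ℓ at *
  generalize W.addX x₁ x₂ ℓ = x₃ at *
  subst hline
  have h1 := h.sum
  have h2 := h.prod
  have h3 := h.dy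
  have h4 := h.dx
  have h5 := h.eq
  -- centred symmetric functions
  have f1 : (x₁ - e) + (x₂ - e) + (x₃ - e) = (ℓ - s) * (ℓ - t) := by
    linear_combination e1 + ℓ * h1 - h2
  set m := y₁ - n - ℓ * (x₁ - e) with hm
  have f2 : (x₁ - e) * (x₂ - e) + (x₁ - e) * (x₃ - e) + (x₂ - e) * (x₃ - e) =
      -(m * ((ℓ - s) + (ℓ - t))) := by
    rw [hm]
    linear_combination -e2 - 2 * e * e1 + (x₁ * ℓ - e * ℓ - y₁ + n) * h1 - ℓ * h3 - h4
  have f3 : (x₁ - e) * (x₂ - e) * (x₃ - e) = m ^ 2 := by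
    rw [hm]
    linear_combination e3 + e * e2 + e ^ 2 * e1 + (y₁ - n - ℓ * (x₁ - e)) * h3 + h5
  simp only [lin]
  have g1 : y₁ - n - s * (x₁ - e) = m + (ℓ - s) * (x₁ - e) := by rw [hm]; ring
  have g2 : ℓ * (x₂ - x₁) + y₁ - n - s * (x₂ - e) = m + (ℓ - s) * (x₂ - e) := by rw [hm]; ring
  have g3 : ℓ * (x₃ - x₁) + y₁ - n - s * (x₃ - e) = m + (ℓ - s) * (x₃ - e) := by rw [hm]; ring
  rw [g1, g2, g3]
  linear_combination m ^ 2 * (ℓ - s) * f1 + m * (ℓ - s) ^ 2 * f2 + (ℓ - s) ^ 3 * f3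

/-- `Y - s X` at `-P` -/
theorem lin_negY (x y : F) : lin e n s x (W.negY x y) = -lin e n t x y := by
  have h1 := h.sum
  have h3 := h.dy
  simp only [lin, negY]
  linear_combination -(x - e) * h1 - h3

end Node

/-- the parameter `(Y - s X) / (Y - t X)` -/
def par (e n s t : F) : W.Point → F
  | .zero => 1
  | .some x y _ => lin e n s x y / lin e n t x y

@[simp] theorem par_zero : par e n s t (0 : W.Point) = 1 := rfl

@[simp] theorem par_some {x y : F} (hP : W.Nonsingular x y) :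
    par e n s t (Point.some x y hP) = lin e n s x y / lin e n t x y := rfl

namespace Node

variable (h : Node W e n s t)

include h

theorem par_ne_zero (P : W.Point) : par e n s t P ≠ 0 := by
  rcases P with _ | ⟨x, y, hP⟩
  · exact one_ne_zero
  · exact div_ne_zero (h.lin_ne_zero hP) (h.lin_ne_zero' hP)

theorem par_add [DecidableEq F] (P Q : W.Point) :
    par e n s t (P + Q) = par e n s t P * par e n s t Q := by
  rcases P with _ | ⟨x₁, y₁, h₁⟩
  · change par e n s t (0 + Q) = par e n s t (0 : W.Point) * _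
    rw [zero_add, par_zero, one_mul]
  rcases Q with _ | ⟨x₂, y₂, h₂⟩
  · change par e n s t (_ + 0) = _ * par e n s t (0 : W.Point)
    rw [add_zero, par_zero, mul_one]
  by_cases hxy : x₁ = x₂ ∧ y₁ = W.negY x₂ y₂
  · rw [Point.add_of_Y_eq hxy.1 hxy.2, par_zero, par_some, par_some]
    obtain ⟨rfl, rfl⟩ := hxy
    rw [h.lin_negY, h.symm.lin_negY, neg_div_neg_eq, div_mul_div_comm, mul_comm, div_self]
    exact mul_ne_zero (h.lin_ne_zero h₂) (h.lin_ne_zero' h₂)
  · rw [Point.add_some hxy, par_some, par_some, par_some]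
    have h₃ := nonsingular_negAdd h₁ h₂ hxy
    have k₁ := h.prod_lin h₁.1 h₂.1 hxy
    have k₂ := h.symm.prod_lin h₁.1 h₂.1 hxy
    have e₃ : W.addY x₁ x₂ y₁ (W.slope x₁ x₂ y₁ y₂) =
        W.negY (W.addX x₁ x₂ (W.slope x₁ x₂ y₁ y₂))
          (W.negAddY x₁ x₂ y₁ (W.slope x₁ x₂ y₁ y₂)) := rfl
    rw [e₃, h.lin_negY, h.symm.lin_negY, neg_div_neg_eq]
    have a₁ := h.lin_ne_zero' h₁
    have a₂ := h.lin_ne_zero' h₂
    have a₃ := h.lin_ne_zero h₃
    rw [div_mul_div_comm, div_eq_div_iff a₃ (mul_ne_zero a₁ a₂)]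
    linear_combination k₂ - k₁

theorem par_injective : Function.Injective (par e n s t : W.Point → F) := by
  have hst : s - t ≠ 0 := sub_ne_zero.mpr h.ne
  -- the coordinates in terms of the parameter
  have key : ∀ {x y : F} (hP : W.Nonsingular x y),
      1 - par e n s t (Point.some x y hP) = (s - t) * (x - e) / lin e n t x y := by
    intro x y hP
    have h1 := h.lin_ne_zero' hP
    rw [par_some, eq_div_iff h1, sub_mul, div_mul_cancel₀ _ h1]
    simp only [lin]
    ring
  have hX : ∀ {x y : F} (_ : W.Nonsingular x y), x - e ≠ 0 := by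
    intro x y hP hX
    have h1 := h.equation_iff.mp hP.1
    rw [hX] at h1
    rcases mul_eq_zero.mp (h1.trans (by ring)) with h2 | h2
    · exact h.lin_ne_zero hP h2
    · exact h.lin_ne_zero' hP h2
  have hne1 : ∀ {x y : F} (hP : W.Nonsingular x y), par e n s t (Point.some x y hP) ≠ 1 := by
    intro x y hP h1
    have h2 := key hP
    rw [h1, sub_self, eq_comm, div_eq_zero_iff] at h2
    rcases h2 with h2 | h2
    · rcases mul_eq_zero.mp h2 with h3 | h3
      · exact hst h3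
      · exact hX hP h3
    · exact h.lin_ne_zero' hP h2
  rintro (_ | ⟨x₁, y₁, h₁⟩) (_ | ⟨x₂, y₂, h₂⟩) heq
  · rfl
  · exact absurd heq.symm (hne1 h₂)
  · exact absurd heq (hne1 h₁)
  · -- `u B² = X³`, `(s - t) X = (1 - u) B`
    have u₁ := key h₁
    have u₂ := key h₂
    rw [heq] at u₁
    have b₁ := h.lin_ne_zero' h₁
    have b₂ := h.lin_ne_zero' h₂
    have E₁ := h.equation_iff.mp h₁.1
    have E₂ := h.equation_iff.mp h₂.1
    have p₁ : lin e n s x₁ y₁ = par e n s t (Point.some x₂ y₂ h₂) * lin e n t x₁ y₁ := by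
      rw [← heq, par_some, div_mul_cancel₀ _ b₁]
    have p₂ : lin e n s x₂ y₂ = par e n s t (Point.some x₂ y₂ h₂) * lin e n t x₂ y₂ := by
      rw [par_some, div_mul_cancel₀ _ b₂]
    set u := par e n s t (Point.some x₂ y₂ h₂) with hu
    rw [eq_div_iff b₁] at u₁
    rw [eq_div_iff b₂] at u₂
    rw [p₁] at E₁
    rw [p₂] at E₂
    have hu1 : (1 : F) - u ≠ 0 := sub_ne_zero.mpr (hne1 h₂).symm
    -- `B` is determined: `(1 - u)³ B = (s - t)³ u`
    have c₁ : (1 - u) ^ 3 * lin e n t x₁ y₁ = (s - t) ^ 3 * u := by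
      apply mul_right_cancel₀ (pow_ne_zero 2 b₁)
      have : ((1 - u) * lin e n t x₁ y₁) ^ 3 = ((s - t) * (x₁ - e)) ^ 3 := by rw [u₁]
      linear_combination this - (s - t) ^ 3 * E₁
    have c₂ : (1 - u) ^ 3 * lin e n t x₂ y₂ = (s - t) ^ 3 * u := by
      apply mul_right_cancel₀ (pow_ne_zero 2 b₂)
      have : ((1 - u) * lin e n t x₂ y₂) ^ 3 = ((s - t) * (x₂ - e)) ^ 3 := by rw [u₂]
      linear_combination this - (s - t) ^ 3 * E₂
    have hB : lin e n t x₁ y₁ = lin e n t x₂ y₂ :=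
      mul_left_cancel₀ (pow_ne_zero 3 hu1) (c₁.trans c₂.symm)
    have hx : x₁ = x₂ := by
      have : (s - t) * (x₁ - e) = (s - t) * (x₂ - e) := by rw [← u₁, ← u₂, hB]
      linear_combination mul_left_cancel₀ hst this
    subst hx
    have hy : y₁ = y₂ := by
      simp only [lin] at hB
      linear_combination hB
    subst hy
    rfl

theorem par_surjective {u : F} (hu : u ≠ 0) : ∃ P : W.Point, par e n s t P = u := by
  have hst : s - t ≠ 0 := sub_ne_zero.mpr h.ne
  by_cases hu1 : u = 1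
  · exact ⟨0, by rw [par_zero, hu1]⟩
  have hu1' : (1 : F) - u ≠ 0 := sub_ne_zero.mpr (Ne.symm hu1)
  set X : F := u * (s - t) ^ 2 / (1 - u) ^ 2 with hX
  set B : F := u * (s - t) ^ 3 / (1 - u) ^ 3 with hB
  have hB0 : B ≠ 0 := div_ne_zero (mul_ne_zero hu (pow_ne_zero 3 hst)) (pow_ne_zero 3 hu1')
  have l1 : lin e n t (X + e) (B + t * X + n) = B := by
    simp only [lin]; ring
  have l2 : lin e n s (X + e) (B + t * X + n) = u * B := by
    have : (s - t) * X = (1 - u) * B := by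
      rw [hX, hB]; field_simp
    simp only [lin]
    linear_combination -this
  have hE : W.Equation (X + e) (B + t * X + n) := by
    rw [h.equation_iff, l1, l2, add_sub_cancel_right, hX, hB]
    field_simp
  have hN : W.Nonsingular (X + e) (B + t * X + n) :=
    h.nonsingular_of hE (by rw [l2]; exact mul_ne_zero hu hB0)
  refine ⟨Point.some _ _ hN, ?_⟩
  rw [par_some, l1, l2, mul_div_cancel_right₀ _ hB0]

/-- the parameter as a homomorphism -/
def parHom [DecidableEq F] : W.Point →+ Additive Fˣ where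
  toFun P := Additive.ofMul (Units.mk0 (par e n s t P) (h.par_ne_zero P))
  map_zero' := by
    apply Additive.toMul.injective
    ext
    exact par_zero (W := W) (e := e) (n := n) (s := s) (t := t)
  map_add' P Q := by
    apply Additive.toMul.injective
    ext
    exact h.par_add P Q

theorem parHom_apply [DecidableEq F] (P : W.Point) :
    ((Additive.toMul (h.parHom P) : Fˣ) : F) = par e n s t P := rfl

/-- **The group of non-singular points of a nodal cubic with rational tangents is `Fˣ`.** -/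
def equiv [DecidableEq F] : W.Point ≃+ Additive Fˣ :=
  AddEquiv.ofBijective h.parHom (by
    constructor
    · intro P Q hPQ
      apply h.par_injective
      rw [← h.parHom_apply, ← h.parHom_apply, hPQ]
    · intro z
      obtain ⟨P, hP⟩ := h.par_surjective (Units.ne_zero (Additive.toMul z))
      refine ⟨P, ?_⟩
      apply Additive.toMul.injective
      ext
      exact hP)

theorem equiv_apply [DecidableEq F] (P : W.Point) :
    ((Additive.toMul (h.equiv P) : Fˣ) : F) = par e n s t P := rfl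

theorem par_nsmul [DecidableEq F] (m : ℕ) (P : W.Point) :
    par e n s t (m • P) = par e n s t P ^ m := by
  rw [← h.equiv_apply, map_nsmul, toMul_nsmul, Units.val_pow_eq_pow_val, h.equiv_apply]

theorem par_neg [DecidableEq F] (P : W.Point) :
    par e n s t (-P) = (par e n s t P)⁻¹ := by
  rw [← h.equiv_apply, map_neg, toMul_neg, Units.val_inv_eq_inv_val, h.equiv_apply]

end Node

theorem exists_quad [IsAlgClosed F] (b c : F) : ∃ y : F, y ^ 2 + b * y + c = 0 := by
  obtain ⟨y, hy⟩ := IsAlgClosed.exists_root (X ^ 2 + C b * X + C c : F[X]) (by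
    have : (X ^ 2 + C b * X + C c : F[X]).degree = 2 := by compute_degree!
    rw [this]
    exact two_ne_zero)
  exact ⟨y, by simpa using hy⟩

/-- A double root of `4 x³ + b₂ x² + 2 b₄ x + b₆` that is not a triple root is the abscissa of a
node, in all characteristics. -/
theorem exists_node [IsAlgClosed F] (i6 : W.b₆ + 2 * e * W.b₄ + e ^ 2 * W.b₂ + 4 * e ^ 3 = 0)
    (i8 : W.b₈ + 3 * e * W.b₆ + 3 * e ^ 2 * W.b₄ + e ^ 3 * W.b₂ + 3 * e ^ 4 = 0)
    (hD : W.b₂ + 12 * e ≠ 0) : ∃ n s t : F, Node W e n s t := by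
  obtain ⟨n, hn⟩ := exists_quad (W.a₁ * e + W.a₃)
    (-(e ^ 3 + W.a₂ * e ^ 2 + W.a₄ * e + W.a₆))
  obtain ⟨s, hs⟩ := exists_quad W.a₁ (-(W.a₂ + 3 * e))
  simp only [WeierstrassCurve.b₂, WeierstrassCurve.b₄, WeierstrassCurve.b₆,
    WeierstrassCurve.b₈] at i6 i8 hD
  have hη : 2 * n + W.a₁ * e + W.a₃ = 0 := by
    have : (2 * n + W.a₁ * e + W.a₃) ^ 2 = 0 := by linear_combination 4 * hn + i6
    exact pow_eq_zero_iff two_ne_zero |>.mp this
  have hξ : W.a₁ * n - (3 * e ^ 2 + 2 * W.a₂ * e + W.a₄) = 0 := by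
    have : (W.a₁ * n - (3 * e ^ 2 + 2 * W.a₂ * e + W.a₄)) ^ 2 = 0 := by
      linear_combination (W.a₁ * (W.a₁ * n - (3 * e ^ 2 + 2 * W.a₂ * e + W.a₄)) +
        (W.a₂ + 3 * e) * (2 * n + W.a₁ * e + W.a₃)) * hη - i8 -
          (W.a₁ ^ 2 + 4 * W.a₂ + 12 * e) * hn
    exact pow_eq_zero_iff two_ne_zero |>.mp this
  refine ⟨n, s, -W.a₁ - s, ?_, by ring, by linear_combination -hs, hη, sub_eq_zero.mp hξ,
    by linear_combination hn⟩
  intro h0
  apply hD
  linear_combination (2 * s + W.a₁) * h0 - 4 * hs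

namespace Node

variable (h : Node W e n s t)

include h

theorem unique {e₂ n₂ s₂ t₂ : F} (h₂ : Node W e₂ n₂ s₂ t₂) :
    e₂ = e ∧ n₂ = n ∧ ((s₂ = s ∧ t₂ = t) ∨ (s₂ = t ∧ t₂ = s)) := by
  have hE : W.Equation e₂ n₂ := by
    rw [equation_iff']
    linear_combination h₂.eq
  have h1 : lin e n s e₂ n₂ = 0 := by
    by_contra h0
    exact h₂.not_nonsingular_node (h.nonsingular_of hE h0)
  have h2 : (e₂ - e) ^ 3 = 0 := by rw [← h.equation_iff.mp hE, h1, zero_mul]
  have h3 : e₂ = e := sub_eq_zero.mp (pow_eq_zero_iff three_ne_zero |>.mp h2)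
  have h4 : n₂ = n := by
    rw [h3, lin, sub_self, mul_zero, sub_zero] at h1
    exact sub_eq_zero.mp h1
  refine ⟨h3, h4, ?_⟩
  have h5 : (s₂ - s) * (s₂ - t) = 0 := by
    have k1 := h₂.prod
    rw [h3] at k1
    linear_combination -s₂ * h.sum + h.prod - k1 + s₂ * h₂.sum
  rcases mul_eq_zero.mp h5 with h6 | h6
  · exact Or.inl ⟨sub_eq_zero.mp h6, by linear_combination h₂.sum - h.sum - h6⟩
  · exact Or.inr ⟨sub_eq_zero.mp h6, by linear_combination h₂.sum - h.sum - h6⟩

theorem map (φ : F →+* F) (h₁ : φ W.a₁ = W.a₁) (h₂ : φ W.a₂ = W.a₂) (h₃ : φ W.a₃ = W.a₃)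
    (h₄ : φ W.a₄ = W.a₄) (h₆ : φ W.a₆ = W.a₆) : Node W (φ e) (φ n) (φ s) (φ t) := by
  refine ⟨fun h0 => h.ne (φ.injective h0), ?_, ?_, ?_, ?_, ?_⟩
  · have := congrArg φ h.sum
    simpa only [map_add, map_neg, h₁] using this
  · have := congrArg φ h.prod
    simpa only [map_mul, map_neg, map_add, map_ofNat, h₂] using this
  · have := congrArg φ h.dy
    simpa only [map_mul, map_add, map_ofNat, map_zero, h₁, h₃] using this
  · have := congrArg φ h.dx
    simpa only [map_mul, map_add, map_ofNat, map_pow, h₁, h₂, h₄] using this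
  · have := congrArg φ h.eq
    simpa only [map_mul, map_add, map_pow, h₁, h₂, h₃, h₄, h₆] using this

/-- A field endomorphism fixing the coefficients acts on the parameter, up to inversion. -/
theorem map_cases (φ : F →+* F) (h₁ : φ W.a₁ = W.a₁) (h₂ : φ W.a₂ = W.a₂) (h₃ : φ W.a₃ = W.a₃)
    (h₄ : φ W.a₄ = W.a₄) (h₆ : φ W.a₆ = W.a₆) :
    (∀ (x y : F), lin e n s (φ x) (φ y) = φ (lin e n s x y) ∧
      lin e n t (φ x) (φ y) = φ (lin e n t x y)) ∨
    (∀ (x y : F), lin e n s (φ x) (φ y) = φ (lin e n t x y) ∧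
      lin e n t (φ x) (φ y) = φ (lin e n s x y)) := by
  obtain ⟨he, hn, hst | hst⟩ := h.unique (h.map φ h₁ h₂ h₃ h₄ h₆)
  · left
    intro x y
    simp only [lin, map_sub, map_mul, he, hn, hst.1, hst.2, and_self]
  · right
    intro x y
    simp only [lin, map_sub, map_mul, he, hn, hst.1, hst.2, and_self]

/-- The number of `m`-torsion points, over an algebraically closed field. -/
theorem card_torsion [IsAlgClosed F] [DecidableEq F] {m : ℕ} (hm : (m : F) ≠ 0) :
    Nat.card {P : W.Point // m • P = 0} = m := by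
  have hne : NeZero (m : F) := ⟨hm⟩
  have hne' : NeZero m := ⟨fun h0 => hm (by rw [h0, Nat.cast_zero])⟩
  have hr := HasEnoughRootsOfUnity.natCard_rootsOfUnity F m
  refine (Nat.card_congr ?_).trans hr
  refine (h.equiv.toEquiv.trans Additive.toMul).subtypeEquiv fun P => ?_
  rw [mem_rootsOfUnity]
  change m • P = 0 ↔ (Additive.toMul (h.equiv P)) ^ m = 1
  rw [← toMul_nsmul, ← map_nsmul, ← toMul_zero, Additive.toMul.injective.eq_iff,
    map_eq_zero_iff _ h.equiv.injective]

end Node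

end Fermat.Agent.Cor.HW

end
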