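import Fermat.Agent.Corollaries.HW.PadicL

/-!
# Non-vanishing of almost all twists of `p`-power order

Let `E` be a semistable elliptic curve over `ℚ` with `L(E, 1) ≠ 0` and `p` an odd prime of good
ordinary reduction. Then `L(E, χ, 1) ≠ 0` for all but finitely many Dirichlet characters `χ` whose
order and conductor are powers of `p` (Mazur).

`F_n(X) = ∑_x μ_n(x) X^(log x)`, `μ` the measure of the `p`-adic `L`-function, has bounded
coefficients in `ℚ_p` and `F_n(1) = (1 - α⁻¹)² L(E, 1) / Ω₁ ≠ 0`. If `L(E, χ, 1) = 0` for a `χ` of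
order `p^k` then the cyclotomic polynomial `Φ_{p^k}`, irreducible over `ℚ_p`, divides `F_n`, and
`Φ_{p^k}(1) = p`.
-/

set_option autoImplicit false

noncomputable section

open Polynomial

namespace Fermat.Agent.Cor.HW.Per

universe u v

section cyclo

variable (p : ℕ) [hp : Fact p.Prime]

theorem irreducible_cyclotomic_padicInt (n : ℕ) :
    Irreducible (cyclotomic (p ^ (n + 1)) ℤ_[p]) := by
  set Q : ℤ_[p][X] := (cyclotomic (p ^ (n + 1)) ℤ_[p]).comp (X + C 1) with hQ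
  have hP := cyclotomic_prime_pow_comp_X_add_one_isEisensteinAt p n
  have hmap : Q = ((cyclotomic (p ^ (n + 1)) ℤ).comp (X + 1)).map (Int.castRingHom ℤ_[p]) := by
    rw [hQ, Polynomial.map_comp, map_cyclotomic, Polynomial.map_add, map_X, Polynomial.map_one,
      C_1]
  have hmonic : Q.Monic := by
    refine (cyclotomic.monic _ _).comp (monic_X_add_C 1) ?_
    rw [natDegree_X_add_C]
    exact one_ne_zero
  have hprime : (Ideal.span {(p : ℤ_[p])}).IsPrime :=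
    (Ideal.span_singleton_prime PadicInt.prime_p.ne_zero).mpr PadicInt.prime_p
  have hcoeff0 : Q.coeff 0 = p := by
    rw [coeff_zero_eq_eval_zero, hQ, eval_comp, eval_add, eval_X, eval_C, zero_add,
      eval_one_cyclotomic_prime_pow]
  have hdeg : 0 < Q.natDegree := by
    rw [hQ, natDegree_comp, natDegree_X_add_C, mul_one, natDegree_cyclotomic]
    exact Nat.totient_pos.mpr (pow_pos hp.out.pos _)
  have hE : Q.IsEisensteinAt (Ideal.span {(p : ℤ_[p])}) := by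
    refine Monic.isEisensteinAt_of_mem_of_notMem hmonic hprime.ne_top ?_ ?_
    · intro k hk
      have hk' : k < ((cyclotomic (p ^ (n + 1)) ℤ).comp (X + 1)).natDegree := by
        rw [hmap] at hk
        exact lt_of_lt_of_le hk natDegree_map_le
      have h1 := hP.mem hk'
      rw [hmap, coeff_map]
      have h2 : (p : ℤ) ∣ ((cyclotomic (p ^ (n + 1)) ℤ).comp (X + 1)).coeff k :=
        Ideal.mem_span_singleton.mp h1
      rw [Ideal.mem_span_singleton]
      have h3 := map_dvd (Int.castRingHom ℤ_[p]) h2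
      rwa [map_natCast] at h3
    · rw [hcoeff0, Ideal.span_singleton_pow, Ideal.mem_span_singleton]
      rintro ⟨c, hc⟩
      have h1 : (p : ℤ_[p]) * ((p : ℤ_[p]) * c) = p * 1 := by
        rw [mul_one]
        conv_rhs => rw [hc]
        ring
      have h2 := mul_left_cancel₀ PadicInt.prime_p.ne_zero h1
      exact PadicInt.prime_p.not_isUnit (IsUnit.of_mul_eq_one c h2)
  have hirr := hE.irreducible hprime hmonic.isPrimitive hdeg
  have h1 : Q = algEquivAevalXAddC (1 : ℤ_[p]) (cyclotomic (p ^ (n + 1)) ℤ_[p]) := by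
    rw [hQ]
    simp [algEquivAevalXAddC, comp, aeval_def]
  rw [h1] at hirr
  exact (MulEquiv.irreducible_iff (algEquivAevalXAddC (1 : ℤ_[p]))).mp hirr

theorem irreducible_cyclotomic_padic (n : ℕ) :
    Irreducible (cyclotomic (p ^ (n + 1)) ℚ_[p]) := by
  have h1 := ((cyclotomic.monic (p ^ (n + 1)) ℤ_[p]).irreducible_iff_irreducible_map_fraction_map
    (K := ℚ_[p])).mp (irreducible_cyclotomic_padicInt p n)
  rwa [map_cyclotomic] at h1

variable {p}

/-- If `F ∈ ℤ_p[X]` vanishes at a primitive `p^(k+1)`-th root of unity for every `k ∈ S` then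
`p^|S|` divides `F(1)`. -/
theorem pow_card_dvd (S : Finset ℕ) {F : ℤ_[p][X]} {C : Type v} [Field C] [Algebra ℚ_[p] C]
    (h : ∀ k ∈ S, ∃ ζ : C, IsPrimitiveRoot ζ (p ^ (k + 1)) ∧
      aeval ζ (F.map (algebraMap ℤ_[p] ℚ_[p])) = 0) : (p : ℤ_[p]) ^ S.card ∣ F.eval 1 := by
  have h1 : ∀ k ∈ S, cyclotomic (p ^ (k + 1)) ℚ_[p] ∣ F.map (algebraMap ℤ_[p] ℚ_[p]) := by
    intro k hk
    obtain ⟨ζ, hζ, h0⟩ := h k hk
    have : NeZero ((p ^ (k + 1) : ℕ) : ℚ_[p]) :=
      ⟨Nat.cast_ne_zero.mpr (pow_ne_zero _ hp.out.ne_zero)⟩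
    rw [hζ.minpoly_eq_cyclotomic_of_irreducible (irreducible_cyclotomic_padic p k)]
    exact minpoly.dvd _ _ h0
  have h2 : ∏ k ∈ S, cyclotomic (p ^ (k + 1)) ℚ_[p] ∣ F.map (algebraMap ℤ_[p] ℚ_[p]) := by
    refine Finset.prod_dvd_of_coprime (fun i _ j _ hij => ?_) h1
    have h3 : p ^ (i + 1) ≠ p ^ (j + 1) := fun h => hij (by
      have := Nat.pow_right_injective hp.out.two_le h
      omega)
    have h4 := (cyclotomic.isCoprime_rat h3).map (mapRingHom (algebraMap ℚ ℚ_[p]))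
    simp only [coe_mapRingHom, map_cyclotomic] at h4
    exact h4
  have h3 : (∏ k ∈ S, cyclotomic (p ^ (k + 1)) ℤ_[p]).map (algebraMap ℤ_[p] ℚ_[p]) =
      ∏ k ∈ S, cyclotomic (p ^ (k + 1)) ℚ_[p] := by
    rw [Polynomial.map_prod]
    exact Finset.prod_congr rfl fun k _ => map_cyclotomic _ _
  rw [← h3, map_dvd_map _ (IsFractionRing.injective ℤ_[p] ℚ_[p])
    (monic_prod_of_monic _ _ fun k _ => cyclotomic.monic _ _)] at h2
  obtain ⟨G, hG⟩ := h2
  refine ⟨G.eval 1, ?_⟩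
  rw [hG, eval_mul, eval_prod]
  congr 1
  rw [Finset.prod_congr rfl fun k _ => eval_one_cyclotomic_prime_pow k, Finset.prod_const]

end cyclo

/-! ### Characters of `p`-power order -/

section order

variable {p : ℕ} [hp : Fact p.Prime]

theorem exists_gen (hp2 : p ≠ 2) (n : ℕ) :
    ∃ g : (ZMod (p ^ (n + 1)))ˣ, ∀ x, ∃ k : ℕ, g ^ k = x := by
  have := ZMod.isCyclic_units_of_prime_pow p hp.out hp2 (n + 1)
  obtain ⟨g, hg⟩ := IsCyclic.exists_generator (α := (ZMod (p ^ (n + 1)))ˣ)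
  refine ⟨g, fun x => ?_⟩
  obtain ⟨k, hk⟩ := (mem_powers_iff_mem_zpowers.mpr (hg x) : x ∈ Submonoid.powers g)
  exact ⟨k, hk⟩

theorem card_units_pow (n : ℕ) :
    Fintype.card (ZMod (p ^ (n + 1)))ˣ = p ^ n * (p - 1) := by
  rw [ZMod.card_units_eq_totient, Nat.totient_prime_pow hp.out (Nat.succ_pos n),
    Nat.succ_sub_one]

/-- Elements of the kernel of the reduction have order dividing `p`. -/
theorem pow_eq_one_of_red {n : ℕ} (hn : 1 ≤ n) {w : (ZMod (p ^ (n + 1)))ˣ}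
    (hw : ZMod.castHom (pow_dvd_pow p (Nat.le_succ n)) (ZMod (p ^ n))
      (w : ZMod (p ^ (n + 1))) = 1) : w ^ p = 1 := by
  have h1 : ((p ^ n : ℕ) : ℤ) ∣ ((w : ZMod (p ^ (n + 1))).val : ℤ) - 1 := by
    rw [← ZMod.intCast_zmod_eq_zero_iff_dvd]
    push_cast
    rw [ZMod.castHom_apply, ZMod.cast_eq_val] at hw
    rw [hw, sub_self]
  obtain ⟨y, hy⟩ := h1
  have h2 : (w : ZMod (p ^ (n + 1))) = 1 + (p : ZMod (p ^ (n + 1))) ^ n * (y : ZMod _) := by
    have h3 : ((w : ZMod (p ^ (n + 1))).val : ℤ) = 1 + p ^ n * y := by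
      rw [Nat.cast_pow] at hy
      linear_combination hy
    have h4 := congrArg (fun z : ℤ => (z : ZMod (p ^ (n + 1)))) h3
    push_cast at h4
    rwa [ZMod.natCast_zmod_val] at h4
  have hpz : (p : ZMod (p ^ (n + 1))) ^ (n + 1) = 0 := by
    have := ZMod.natCast_self (p ^ (n + 1))
    rwa [Nat.cast_pow] at this
  apply Units.ext
  rw [Units.val_pow_eq_pow_val, h2, Units.val_one]
  obtain ⟨r, hr⟩ := exists_add_pow_prime_eq hp.out (1 : ZMod (p ^ (n + 1)))
    ((p : ZMod (p ^ (n + 1))) ^ n * (y : ZMod _))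
  have h5 : ((p : ZMod (p ^ (n + 1))) ^ n * (y : ZMod _)) ^ p = 0 := by
    have h6 : n + 1 ≤ n * p := by
      have := hp.out.two_le
      nlinarith
    obtain ⟨e, he⟩ := Nat.exists_eq_add_of_le h6
    have h7 : (p : ZMod (p ^ (n + 1))) ^ (n + 1 + e) =
        (p : ZMod (p ^ (n + 1))) ^ (n + 1) * (p : ZMod (p ^ (n + 1))) ^ e := pow_add _ _ _
    rw [mul_pow, ← pow_mul, he, h7, hpz, zero_mul, zero_mul]
  rw [hr, h5, one_pow]
  have h7 : (p : ZMod (p ^ (n + 1))) * 1 * ((p : ZMod (p ^ (n + 1))) ^ n * (y : ZMod _)) * r =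
      (p : ZMod (p ^ (n + 1))) ^ (n + 1) * ((y : ZMod (p ^ (n + 1))) * r) := by ring
  rw [h7, hpz, zero_mul, add_zero, add_zero]

/-- A primitive character modulo `p^(n+1)` of `p`-power order has order `p^n`. -/
theorem eq_of_orderOf (hp2 : p ≠ 2) {R : Type u} [CommRing R] [IsDomain R] {n k : ℕ}
    {ψ : DirichletCharacter R (p ^ (n + 1))} (hψ : ψ.IsPrimitive) (hk : orderOf ψ = p ^ k) :
    k = n := by
  obtain ⟨g, hg⟩ := exists_gen (p := p) hp2 n
  have hord : orderOf g = p ^ n * (p - 1) := by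
    rw [← card_units_pow n, ← Nat.card_eq_fintype_card]
    refine orderOf_eq_card_of_forall_mem_powers fun x => ?_
    obtain ⟨k, hk⟩ := hg x
    exact ⟨k, hk⟩
  refine le_antisymm ?_ ?_
  · -- the order divides the order of the group
    have h1 : ψ ^ (p ^ n * (p - 1)) = 1 := by
      refine MulChar.ext fun u => ?_
      rw [MulChar.pow_apply_coe, MulChar.one_apply_coe, ← map_pow, ← Units.val_pow_eq_pow_val,
        ← card_units_pow n, pow_card_eq_one, Units.val_one, map_one]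
    have h2 : p ^ k ∣ p ^ n * (p - 1) := by
      rw [← hk]
      exact orderOf_dvd_of_pow_eq_one h1
    have h3 : (p ^ k).Coprime (p - 1) := by
      refine Nat.Coprime.pow_left k ?_
      rw [Nat.Prime.coprime_iff_not_dvd hp.out]
      intro h
      have := Nat.le_of_dvd (Nat.sub_pos_of_lt hp.out.one_lt) h
      have := hp.out.pos
      omega
    exact (Nat.pow_dvd_pow_iff_le_right hp.out.one_lt).mp (h3.dvd_of_dvd_mul_right h2)
  · by_contra hlt
    push Not at hlt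
    obtain ⟨n', rfl⟩ : ∃ n', n = n' + 1 := ⟨n - 1, by omega⟩
    have hkn : k ≤ n' := by omega
    have h1 : ψ ^ (p ^ n') = 1 := by
      refine orderOf_dvd_iff_pow_eq_one.mp ?_
      rw [hk]
      exact pow_dvd_pow p hkn
    have hdvd : p ^ (n' + 1) ∣ p ^ (n' + 1 + 1) := pow_dvd_pow p (Nat.le_succ _)
    have h2 : ψ.FactorsThrough (p ^ (n' + 1)) := by
      rw [DirichletCharacter.factorsThrough_iff_ker_unitsMap hdvd]
      intro w hw
      rw [MonoidHom.mem_ker] at hw ⊢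
      have hw1 : ZMod.castHom hdvd (ZMod (p ^ (n' + 1))) (w : ZMod (p ^ (n' + 1 + 1))) = 1 := by
        have := congrArg Units.val hw
        rw [ZMod.unitsMap_def, Units.coe_map, Units.val_one] at this
        exact this
      have hw2 := pow_eq_one_of_red (Nat.succ_le_succ (Nat.zero_le n')) hw1
      obtain ⟨a, rfl⟩ := hg w
      rw [← pow_mul] at hw2
      have h3 := orderOf_dvd_of_pow_eq_one hw2
      rw [hord] at h3
      have h4 : p ^ n' ∣ a := by
        have h5 : p * p ^ n' ∣ p * a := by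
          rw [mul_comm p a]
          refine Dvd.dvd.trans ?_ h3
          exact ⟨p - 1, by ring⟩
        exact Nat.dvd_of_mul_dvd_mul_left hp.out.pos h5
      obtain ⟨b, rfl⟩ := h4
      apply Units.ext
      rw [MulChar.coe_toUnitHom, Units.val_one, Units.val_pow_eq_pow_val, map_pow, pow_mul]
      have h6 := congrArg (fun φ : DirichletCharacter R (p ^ (n' + 1 + 1)) =>
        φ (g : ZMod (p ^ (n' + 1 + 1)))) h1
      simp only [MulChar.pow_apply_coe, MulChar.one_apply_coe] at h6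
      rw [h6, one_pow]
    have h3 := Nat.sInf_le ((DirichletCharacter.mem_conductorSet_iff ψ).mpr h2)
    rw [DirichletCharacter.isPrimitive_def, DirichletCharacter.conductor] at hψ
    rw [hψ] at h3
    exact absurd h3 (not_le.mpr (Nat.pow_lt_pow_right hp.out.one_lt (Nat.lt_succ_self _)))

end order

/-! ### Integrals of periodic functions -/

section integral

variable {p : ℕ} [hp : Fact p.Prime] {μ : (n : ℕ) → ZMod (p ^ (n + 1)) → ℚ_[p]}
  {C : Type v} [Field C] [Algebra ℚ_[p] C]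

theorem integral_succ (hμ : ∀ (n : ℕ) (x : ZMod (p ^ (n + 1))),
      ∑ y : ZMod (p ^ (n + 2)) with red p n y = x, μ (n + 1) y = μ n x) {h : ℕ → C} {n : ℕ}
    (hh : ∀ a b : ℕ, (a : ZMod (p ^ (n + 1))) = b → h a = h b) :
    ∑ y : ZMod (p ^ (n + 2)), h y.val * algebraMap ℚ_[p] C (μ (n + 1) y) =
      ∑ x : ZMod (p ^ (n + 1)), h x.val * algebraMap ℚ_[p] C (μ n x) := by
  rw [← Finset.sum_fiberwise Finset.univ (red p n)]
  refine Finset.sum_congr rfl fun x _ => ?_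
  rw [← hμ n x, map_sum, Finset.mul_sum]
  refine Finset.sum_congr rfl fun y hy => ?_
  have h1 : red p n y = x := (Finset.mem_filter.mp hy).2
  rw [hh y.val x.val]
  rw [ZMod.natCast_zmod_val, ← h1, red, ZMod.castHom_apply, ZMod.cast_eq_val]

theorem integral_eq (hμ : ∀ (n : ℕ) (x : ZMod (p ^ (n + 1))),
      ∑ y : ZMod (p ^ (n + 2)) with red p n y = x, μ (n + 1) y = μ n x) {h : ℕ → C} {n : ℕ}
    (hh : ∀ a b : ℕ, (a : ZMod (p ^ (n + 1))) = b → h a = h b) {m : ℕ} (hm : n ≤ m) :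
    ∑ y : ZMod (p ^ (m + 1)), h y.val * algebraMap ℚ_[p] C (μ m y) =
      ∑ x : ZMod (p ^ (n + 1)), h x.val * algebraMap ℚ_[p] C (μ n x) := by
  induction m, hm using Nat.le_induction with
  | base => rfl
  | succ m hm ih =>
    rw [← ih]
    refine integral_succ hμ fun a b hab => hh a b ?_
    have hdvd : p ^ (n + 1) ∣ p ^ (m + 1) := pow_dvd_pow p (by omega)
    have h1 := congrArg (ZMod.castHom hdvd (ZMod (p ^ (n + 1)))) hab
    rwa [map_natCast, map_natCast] at h1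

/-- Sums over units. -/
theorem sum_units_eq {M : Type*} [AddCommMonoid M] {m : ℕ} [NeZero m] (F : ZMod m → M)
    (hF : ∀ x, ¬ IsUnit x → F x = 0) : ∑ x : (ZMod m)ˣ, F x = ∑ x : ZMod m, F x :=
  Fintype.sum_of_injective (Units.val : (ZMod m)ˣ → ZMod m) Units.val_injective _ _
    (fun u hu => hF u fun ⟨v, hv⟩ => hu ⟨v, hv⟩) (fun _ => rfl)

theorem isUnit_iff_val {n : ℕ} (x : ZMod (p ^ (n + 1))) : IsUnit x ↔ ¬ p ∣ x.val := by
  conv_lhs => rw [← ZMod.natCast_zmod_val x]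
  rw [ZMod.isUnit_iff_coprime, Nat.coprime_pow_right_iff (Nat.succ_pos n), Nat.coprime_comm,
    Nat.Prime.coprime_iff_not_dvd hp.out]

/-- The mass of `ℤ_pˣ` can be computed at any level. -/
theorem mass_eq (hμ : ∀ (n : ℕ) (x : ZMod (p ^ (n + 1))),
      ∑ y : ZMod (p ^ (n + 2)) with red p n y = x, μ (n + 1) y = μ n x) (m : ℕ) :
    ∑ x : (ZMod (p ^ (m + 1)))ˣ, μ m x = ∑ x : (ZMod (p ^ (0 + 1)))ˣ, μ 0 x := by
  have key : ∀ n : ℕ, ∑ x : (ZMod (p ^ (n + 1)))ˣ, μ n x = ∑ x : ZMod (p ^ (n + 1)),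
      (fun a : ℕ => if p ∣ a then (0 : ℚ_[p]) else 1) x.val *
        algebraMap ℚ_[p] ℚ_[p] (μ n x) := by
    intro n
    rw [← sum_units_eq]
    · refine Finset.sum_congr rfl fun x _ => ?_
      have h1 : ¬ p ∣ (x : ZMod (p ^ (n + 1))).val := (isUnit_iff_val _).mp x.isUnit
      simp only [if_neg h1, one_mul, Algebra.algebraMap_self, RingHom.id_apply]
    · intro x hx
      rw [isUnit_iff_val, not_not] at hx
      simp only [if_pos hx, zero_mul]
  rw [key m, key 0]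
  refine integral_eq (C := ℚ_[p]) hμ (h := fun a : ℕ => if p ∣ a then (0 : ℚ_[p]) else 1)
    (fun a b hab => ?_) (Nat.zero_le m)
  have h1 : p ∣ a ↔ p ∣ b := by
    rw [zero_add, pow_one] at hab
    rw [← ZMod.natCast_eq_zero_iff, ← ZMod.natCast_eq_zero_iff, hab]
  simp only [h1]

end integral

/-! ### Zeros of bounded distributions -/

section zeros

variable {p : ℕ} [hp : Fact p.Prime] {μ : (n : ℕ) → ZMod (p ^ (n + 1)) → ℚ_[p]}
  {C : Type v} [Field C] [Algebra ℚ_[p] C]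

/-- The integral of `ψ` vanishes. -/
def IsZero (μ : (n : ℕ) → ZMod (p ^ (n + 1)) → ℚ_[p]) {n : ℕ}
    (ψ : DirichletCharacter C (p ^ (n + 1))) : Prop :=
  ∑ x : (ZMod (p ^ (n + 1)))ˣ, ψ x * algebraMap ℚ_[p] C (μ n x) = 0

/-- Let `ν = d μ` have values in `ℤ_p`. If for each `k ∈ S` the integral of some primitive character
modulo `p^(k+2)` of `p`-power order vanishes then `p^|S|` divides the mass of `ℤ_pˣ` under `ν`. -/
theorem pow_card_dvd_mass (hp2 : p ≠ 2) (hμ : ∀ (n : ℕ) (x : ZMod (p ^ (n + 1))),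
      ∑ y : ZMod (p ^ (n + 2)) with red p n y = x, μ (n + 1) y = μ n x) {d : ℚ_[p]}
    {ν : (n : ℕ) → ZMod (p ^ (n + 1)) → ℤ_[p]}
    (hν : ∀ (n : ℕ) (x : ZMod (p ^ (n + 1))), (ν n x : ℚ_[p]) = d * μ n x) {S : Finset ℕ}
    (hS : ∀ k ∈ S, ∃ ψ : DirichletCharacter C (p ^ (k + 1 + 1)), ψ.IsPrimitive ∧
      (∃ l, orderOf ψ = p ^ l) ∧ IsZero μ ψ) :
    (p : ℤ_[p]) ^ S.card ∣ ∑ x : (ZMod (p ^ (0 + 1)))ˣ, ν 0 x := by
  have hsum : ∀ m : ℕ, ((∑ x : (ZMod (p ^ (m + 1)))ˣ, ν m x : ℤ_[p]) : ℚ_[p]) =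
      d * ∑ x : (ZMod (p ^ (0 + 1)))ˣ, μ 0 x := by
    intro m
    rw [← mass_eq hμ m, Finset.mul_sum, PadicInt.coe_sum]
    exact Finset.sum_congr rfl fun x _ => hν m x
  -- a common level
  obtain ⟨m, hm⟩ : ∃ m : ℕ, ∀ k ∈ S, k + 1 ≤ m :=
    ⟨S.sup (fun k => k + 1), fun k hk => Finset.le_sup (f := fun k => k + 1) hk⟩
  obtain ⟨g, hg⟩ := exists_gen (p := p) hp2 m
  choose ℓ hℓ using hg
  set F : ℤ_[p][X] := ∑ x : (ZMod (p ^ (m + 1)))ˣ,
    Polynomial.C (ν m x) * X ^ ℓ x with hF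
  have hF1 : F.eval 1 = ∑ x : (ZMod (p ^ (0 + 1)))ˣ, ν 0 x := by
    rw [hF, eval_finsetSum]
    simp only [eval_mul, eval_C, eval_pow, eval_X, one_pow, mul_one]
    apply PadicInt.ext
    rw [hsum m, ← hsum 0]
  rw [← hF1]
  refine pow_card_dvd S (C := C) fun k hk => ?_
  obtain ⟨ψ, hψ, ⟨l, hl⟩, h0⟩ := hS k hk
  have hl' : l = k + 1 := eq_of_orderOf hp2 hψ hl
  subst hl'
  have hdvd : p ^ (k + 1 + 1) ∣ p ^ (m + 1) := pow_dvd_pow p (by have := hm k hk; omega)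
  have hcast : ∀ x : (ZMod (p ^ (m + 1)))ˣ, ((ZMod.unitsMap hdvd x : (ZMod (p ^ (k + 1 + 1)))ˣ) :
      ZMod (p ^ (k + 1 + 1))) = ((x : ZMod (p ^ (m + 1))).val : ZMod (p ^ (k + 1 + 1))) := by
    intro x
    rw [ZMod.unitsMap_def, Units.coe_map]
    change ZMod.castHom hdvd _ (x : ZMod (p ^ (m + 1))) = _
    rw [ZMod.castHom_apply, ZMod.cast_eq_val]
  have hpow : ∀ x : (ZMod (p ^ (m + 1)))ˣ,
      ψ (ZMod.unitsMap hdvd g : (ZMod (p ^ (k + 1 + 1)))ˣ) ^ ℓ x =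
        ψ (ZMod.unitsMap hdvd x : (ZMod (p ^ (k + 1 + 1)))ˣ) := by
    intro x
    conv_rhs => rw [← hℓ x]
    rw [map_pow, Units.val_pow_eq_pow_val, map_pow]
  refine ⟨ψ (ZMod.unitsMap hdvd g : (ZMod (p ^ (k + 1 + 1)))ˣ), ⟨?_, ?_⟩, ?_⟩
  · have h1 : ψ ^ (p ^ (k + 1)) = 1 := by rw [← hl, pow_orderOf_eq_one]
    rw [← MulChar.pow_apply_coe, h1, MulChar.one_apply_coe]
  · intro t ht
    rw [← hl]
    refine orderOf_dvd_of_pow_eq_one (MulChar.ext fun u => ?_)
    obtain ⟨x, rfl⟩ := ZMod.unitsMap_surjective hdvd u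
    rw [MulChar.pow_apply_coe, MulChar.one_apply_coe, ← hpow x, ← pow_mul, mul_comm, pow_mul, ht,
      one_pow]
  · rw [hF, Polynomial.map_sum, map_sum]
    have h1 : ∀ x : (ZMod (p ^ (m + 1)))ˣ,
        aeval (ψ (ZMod.unitsMap hdvd g : (ZMod (p ^ (k + 1 + 1)))ˣ))
          ((Polynomial.C (ν m x) * X ^ ℓ x).map (algebraMap ℤ_[p] ℚ_[p])) =
        algebraMap ℚ_[p] C d *
          ((fun a : ℕ => ψ (a : ZMod (p ^ (k + 1 + 1)))) (x : ZMod (p ^ (m + 1))).val *
            algebraMap ℚ_[p] C (μ m x)) := by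
      intro x
      rw [Polynomial.map_mul, Polynomial.map_C, Polynomial.map_pow, Polynomial.map_X, map_mul,
        aeval_C, map_pow, aeval_X, hpow x, hcast x]
      have h2 : algebraMap ℤ_[p] ℚ_[p] (ν m x) = d * μ m x := hν m x
      rw [h2, map_mul]
      ring
    rw [Finset.sum_congr rfl fun x _ => h1 x, ← Finset.mul_sum]
    have h3 := sum_units_eq (m := p ^ (m + 1)) (fun x : ZMod (p ^ (m + 1)) =>
      (fun a : ℕ => ψ (a : ZMod (p ^ (k + 1 + 1)))) x.val * algebraMap ℚ_[p] C (μ m x))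
      (fun x hx => by
        rw [isUnit_iff_val, not_not] at hx
        have h4 : ¬ IsUnit ((x.val : ℕ) : ZMod (p ^ (k + 1 + 1))) := by
          rw [ZMod.isUnit_iff_coprime, Nat.coprime_pow_right_iff (Nat.succ_pos _),
            Nat.coprime_comm, Nat.Prime.coprime_iff_not_dvd hp.out, not_not]
          exact hx
        simp only [MulChar.map_nonunit ψ h4, zero_mul])
    rw [h3, integral_eq hμ (h := fun a : ℕ => ψ (a : ZMod (p ^ (k + 1 + 1)))) (n := k + 1)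
      (fun a b hab => by simp only [hab]) (hm k hk)]
    have h5 : ∑ x : ZMod (p ^ (k + 1 + 1)), (fun a : ℕ => ψ (a : ZMod (p ^ (k + 1 + 1)))) x.val *
        algebraMap ℚ_[p] C (μ (k + 1) x) = 0 := by
      rw [← h0, ← sum_units_eq]
      · refine Finset.sum_congr rfl fun x _ => ?_
        simp only [ZMod.natCast_zmod_val]
      · intro x hx
        simp only [ZMod.natCast_zmod_val, MulChar.map_nonunit ψ hx, zero_mul]
    rw [h5, mul_zero]

/-- A bounded distribution with non-zero mass on `ℤ_pˣ` has only finitely many zeros among the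
primitive characters of `p`-power order. -/
theorem finite_zeros (hp2 : p ≠ 2) (hμ : ∀ (n : ℕ) (x : ZMod (p ^ (n + 1))),
      ∑ y : ZMod (p ^ (n + 2)) with red p n y = x, μ (n + 1) y = μ n x)
    {B : ℝ} (hB : ∀ (n : ℕ) (x : ZMod (p ^ (n + 1))), ‖μ n x‖ ≤ B)
    (hmass : ∑ x : (ZMod (p ^ (0 + 1)))ˣ, μ 0 x ≠ 0) :
    {k : ℕ | ∃ ψ : DirichletCharacter C (p ^ (k + 1 + 1)), ψ.IsPrimitive ∧
      (∃ l, orderOf ψ = p ^ l) ∧ IsZero μ ψ}.Finite := by
  obtain ⟨e, he⟩ := pow_unbounded_of_one_lt B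
    (by exact_mod_cast hp.out.one_lt : (1 : ℝ) < p)
  have hint : ∀ (n : ℕ) (x : ZMod (p ^ (n + 1))), ‖(p : ℚ_[p]) ^ e * μ n x‖ ≤ 1 := by
    intro n x
    have hp0 : (0 : ℝ) < (p : ℝ) ^ e := pow_pos (by exact_mod_cast hp.out.pos) e
    rw [norm_mul, norm_pow, Padic.norm_p, inv_pow, inv_mul_le_iff₀ hp0, mul_one]
    exact (hB n x).trans he.le
  have hex : ∀ (n : ℕ) (x : ZMod (p ^ (n + 1))), ∃ z : ℤ_[p],
      (z : ℚ_[p]) = (p : ℚ_[p]) ^ e * μ n x := fun n x => ⟨⟨_, hint n x⟩, rfl⟩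
  choose ν hν using hex
  have hc0 : ∑ x : (ZMod (p ^ (0 + 1)))ˣ, ν 0 x ≠ 0 := by
    intro h
    have h1 : ((∑ x : (ZMod (p ^ (0 + 1)))ˣ, ν 0 x : ℤ_[p]) : ℚ_[p]) =
        (p : ℚ_[p]) ^ e * ∑ x : (ZMod (p ^ (0 + 1)))ˣ, μ 0 x := by
      rw [Finset.mul_sum, PadicInt.coe_sum]
      exact Finset.sum_congr rfl fun x _ => hν 0 x
    rw [h, PadicInt.coe_zero] at h1
    exact mul_ne_zero (pow_ne_zero e (Nat.cast_ne_zero.mpr hp.out.ne_zero)) hmass h1.symm
  by_contra hinf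
  obtain ⟨r, hr⟩ := FiniteMultiplicity.of_not_isUnit
    (PadicInt.prime_p (p := p)).not_isUnit hc0
  obtain ⟨S, hS, hcard⟩ := Set.Infinite.exists_subset_card_eq hinf (r + 1)
  refine hr ?_
  rw [← hcard]
  exact pow_card_dvd_mass hp2 hμ hν fun k hk => hS hk

end zeros

/-! ### The theorem -/

section main

theorem exists_extension (p : ℕ) [Fact p.Prime] :
    ∃ (C : Type) (_ : Field C) (_ : Algebra ℚ_[p] C), Nonempty (ℂ →+* C) := by
  let R := TensorProduct ℚ ℂ ℚ_[p]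
  obtain ⟨M, hM⟩ := Ideal.exists_maximal R
  let _ : Field (R ⧸ M) := Ideal.Quotient.field M
  exact ⟨R ⧸ M, inferInstance, RingHom.toAlgebra ((Ideal.Quotient.mk M).comp
    (Algebra.TensorProduct.includeRight (R := ℚ) (A := ℂ) (B := ℚ_[p])).toRingHom),
    ⟨(Ideal.Quotient.mk M).comp
      (Algebra.TensorProduct.includeLeft (R := ℚ) (S := ℚ) (A := ℂ) (B := ℚ_[p])).toRingHom⟩⟩

theorem orderOf_comp {m : ℕ} [NeZero m] {K : Type u} [Field K] (χ : DirichletCharacter K m)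
    {L : Type v} [Field L] (σ : K →+* L) : orderOf (MulChar.ringHomComp χ σ) = orderOf χ := by
  rw [orderOf_eq_orderOf_iff]
  intro n
  constructor
  · intro h
    refine MulChar.ext fun u => σ.injective ?_
    have h1 := congrArg (fun φ : DirichletCharacter L m => φ (u : ZMod m)) h
    simp only [MulChar.pow_apply_coe, MulChar.ringHomComp_apply, MulChar.one_apply_coe] at h1
    rw [MulChar.pow_apply_coe, MulChar.one_apply_coe, map_pow, h1, map_one]
  · intro h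
    refine MulChar.ext fun u => ?_
    have h1 := congrArg (fun φ : DirichletCharacter K m => φ (u : ZMod m)) h
    simp only [MulChar.pow_apply_coe, MulChar.one_apply_coe] at h1
    rw [MulChar.pow_apply_coe, MulChar.ringHomComp_apply, MulChar.one_apply_coe, ← map_pow, h1,
      map_one]

variable {W : WeierstrassCurve ℤ}

/-- `#E(𝔽_p) ≠ 0`. -/
theorem ap_ne (hΔ : W.Δ ≠ 0) (hW : W.IsSemistableModel) {p : ℕ} (hp : p.Prime) :
    ap W p ≠ 1 + p := by
  obtain ⟨f, ⟨hf, ha⟩, -⟩ := existsUnique_newform_ap hΔ hW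
  obtain ⟨α, β, hα, hβ, hsum, -⟩ := isHasse hΔ hf ha p hp
  intro h0
  have h1 : (α + β : ℂ) = 1 + p := by
    rw [hsum, ha p hp, h0]
    push_cast
    rfl
  have h2 : ‖(1 + p : ℂ)‖ ≤ 2 * √p := by
    rw [← h1]
    refine (norm_add_le _ _).trans ?_
    linarith
  have h3 : ‖(1 + p : ℂ)‖ = 1 + p := by
    have h4 : (1 + p : ℂ) = ((1 + p : ℝ) : ℂ) := by push_cast; rfl
    rw [h4, Complex.norm_real, Real.norm_of_nonneg (by positivity)]
  rw [h3] at h2
  have h5 : √(p : ℝ) ^ 2 = p := Real.sq_sqrt (Nat.cast_nonneg p)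
  have h6 : (2 : ℝ) ≤ p := by exact_mod_cast hp.two_le
  have h7 : √(p : ℝ) = 1 := by nlinarith [sq_nonneg (√(p : ℝ) - 1)]
  rw [h7] at h5
  linarith

/-- **Non-vanishing of almost all twists of `p`-power order** (Mazur). If `L(W, 1) ≠ 0` and `p` is
an odd prime of good ordinary reduction, then `L(W, χ, 1) ≠ 0` for all but finitely many Dirichlet
characters `χ` whose order and conductor are powers of `p`. -/
theorem nonvanishing (hΔ : W.Δ ≠ 0) (hW : W.IsSemistableModel) {L₀ : ℂ → ℂ}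
    (hL₀ : IsHasseWeil W L₀) (h0 : L₀ 1 ≠ 0) (p : ℕ) [hp : Fact p.Prime] (hp2 : p ≠ 2)
    (hpΔ : ¬ (p : ℤ) ∣ W.Δ) (hord : ¬ (p : ℤ) ∣ ap W p) :
    ∃ n₀ : ℕ, ∀ n ≥ n₀, ∀ χ : DirichletCharacter ℂ (p ^ (n + 1)), χ.IsPrimitive →
      (∃ k, orderOf χ = p ^ k) → ∀ L : ℂ → ℂ, Twist.IsTwist W χ L → L 1 ≠ 0 := by
  obtain ⟨Ω₁, Ω₂, hP⟩ := exists_isPeriodsOf hΔ hW
  obtain ⟨α, hα1, hα, μ, hμ, ⟨B, hB⟩, hmass, hint⟩ := padic_L_function.{0, 0} hΔ hP p hpΔ hord
  obtain ⟨q, hq, hm⟩ := hmass L₀ hL₀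
  have hq0 : q ≠ 0 := by
    rintro rfl
    rw [Rat.cast_zero, zero_mul] at hq
    exact h0 hq
  have hα1' : α ≠ 1 := by
    rintro rfl
    refine ap_ne hΔ hW hp.out ?_
    have h1 : ((ap W p : ℤ) : ℚ_[p]) = ((1 + p : ℤ) : ℚ_[p]) := by
      push_cast
      linear_combination -hα
    exact Int.cast_injective h1
  have hmass0 : ∑ x : (ZMod (p ^ (0 + 1)))ˣ, μ 0 x ≠ 0 := by
    rw [hm]
    refine mul_ne_zero (pow_ne_zero 2 (sub_ne_zero.mpr fun h => hα1' ?_))
      (Rat.cast_ne_zero.mpr hq0)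
    exact inv_eq_one.mp h.symm
  obtain ⟨C, _, _, ⟨j⟩⟩ := exists_extension p
  obtain ⟨b, hb⟩ := (finite_zeros (C := C) hp2 hμ hB hmass0).bddAbove
  refine ⟨b + 2, fun n hn χ hχ hk L hL hL0 => ?_⟩
  obtain ⟨k, rfl⟩ : ∃ k, n = k + 1 := ⟨n - 1, by omega⟩
  have hψ : χ⁻¹.IsPrimitive := Twist.isPrimitive_inv hχ
  obtain ⟨A, hA₁, hA₂⟩ := hint (k + 1) ℂ χ⁻¹ hψ
  have hid : MulChar.ringHomComp (χ⁻¹)⁻¹ (RingHom.id ℂ) = χ := by
    rw [inv_inv]
    exact MulChar.ext fun u => by rw [MulChar.ringHomComp_apply, RingHom.id_apply]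
  have hg := Twist.gauss_ne_zero hχ
  obtain ⟨he, ho⟩ := hA₂ (RingHom.id ℂ) L (by rw [hid]; exact hL)
  have hA : A = 0 := by
    obtain ⟨f, hf, ha, hPf⟩ := id hP
    rcases DirichletCharacter.even_or_odd χ⁻¹ with hev | hodd
    · have h1 := he hev
      rw [hL0, mul_zero, hid, RingHom.id_apply] at h1
      have h2 : (Ω₁ : ℂ) ≠ 0 := Complex.ofReal_ne_zero.mpr hPf.pos₁.ne'
      exact (mul_eq_zero.mp h1.symm).resolve_left (mul_ne_zero hg h2)
    · have h1 := ho hodd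
      rw [hL0, mul_zero, hid, RingHom.id_apply] at h1
      have h2 : (Ω₂ : ℂ) ≠ 0 := Complex.ofReal_ne_zero.mpr hPf.pos₂.ne'
      exact (mul_eq_zero.mp h1.symm).resolve_left
        (mul_ne_zero hg (mul_ne_zero (neg_ne_zero.mpr Complex.I_ne_zero) h2))
  have h1 := hA₁ C j
  rw [hA, map_zero, mul_zero] at h1
  have h2 : k ≤ b := hb ⟨MulChar.ringHomComp χ⁻¹ j, by
    rw [DirichletCharacter.isPrimitive_def, conductor_comp]
    exact hψ, by
    rw [orderOf_comp, orderOf_inv]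
    exact hk, h1⟩
  omega

end main

end Fermat.Agent.Cor.HW.Per
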