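import Fermat.Agent.Corollaries.HW.NonVan

/-!
# How many twists of `p`-power order can vanish?

Let `E` be a semistable elliptic curve over `ℚ`, `L(E, 1) = q Ω₁` with `q` rational and `p` an odd
prime of good ordinary reduction. If there are `s` exponents `n ≥ 1` such that `L(E, χ, 1) = 0` for
some character `χ` of `p`-power order and conductor `p^(n+1)`, then `p^s` divides
`num(q) (1 + p - a_p)²`. So if `p` does not divide `num(q) (1 + p - a_p)` then `L(E, χ, 1) ≠ 0` for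
every character `χ` of `p`-power order and conductor.
-/

set_option autoImplicit false

noncomputable section

open Polynomial

namespace Fermat.Agent.Cor.HW.Per

variable {W : WeierstrassCurve ℤ} {Ω₁ Ω₂ : ℝ}

/-- **The number of vanishing levels.** Let `L(W, 1) = q Ω₁` and let `p` be an odd prime of good
ordinary reduction. If for each `k ∈ S` there is a primitive character `χ` modulo `p^(k+2)` of
`p`-power order with `L(W, χ, 1) = 0` then `p^|S|` divides `num(q) (1 + p - a_p)²`. -/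
theorem pow_card_dvd_num (hΔ : W.Δ ≠ 0) (hP : IsPeriodsOf W Ω₁ Ω₂) {L₀ : ℂ → ℂ}
    (hL₀ : IsHasseWeil W L₀) {q : ℚ} (hq : L₀ 1 = q * Ω₁) (p : ℕ) [hp : Fact p.Prime]
    (hp2 : p ≠ 2) (hpΔ : ¬ (p : ℤ) ∣ W.Δ) (hord : ¬ (p : ℤ) ∣ ap W p) {S : Finset ℕ}
    (hS : ∀ k ∈ S, ∃ χ : DirichletCharacter ℂ (p ^ (k + 1 + 1)), χ.IsPrimitive ∧
      (∃ l, orderOf χ = p ^ l) ∧ ∃ L : ℂ → ℂ, Twist.IsTwist W χ L ∧ L 1 = 0) :
    (p : ℤ) ^ S.card ∣ q.num * (1 + p - ap W p) ^ 2 := by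
  obtain ⟨f, hf, ha, hPf⟩ := id hP
  have hΩ₁ : (Ω₁ : ℂ) ≠ 0 := Complex.ofReal_ne_zero.mpr hPf.pos₁.ne'
  have hΩ₂ : (Ω₂ : ℂ) ≠ 0 := Complex.ofReal_ne_zero.mpr hPf.pos₂.ne'
  obtain ⟨α, hα1, hα, μ, hμ, ⟨q', hq', hB, hmass⟩, hint⟩ :=
    padic_L_function_aux.{0, 0} hΔ hP p hpΔ hord
  have hqq : q' = q := by
    have h1 := hq' L₀ hL₀
    rw [hq] at h1
    exact_mod_cast (mul_right_cancel₀ hΩ₁ h1).symm
  subst hqq
  have hα0 : α ≠ 0 := by
    intro h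
    rw [h, norm_zero] at hα1
    exact zero_ne_one hα1
  obtain ⟨C, _, _, ⟨j⟩⟩ := exists_extension p
  -- the integral distribution
  have hden : (q'.den : ℚ_[p]) ≠ 0 := Nat.cast_ne_zero.mpr q'.den_nz
  have hex : ∀ (n : ℕ) (x : ZMod (p ^ (n + 1))), ∃ z : ℤ_[p],
      (z : ℚ_[p]) = (q'.den : ℚ_[p]) * μ n x := by
    intro n x
    refine ⟨⟨_, ?_⟩, rfl⟩
    rw [norm_mul, mul_comm, ← le_div_iff₀ (norm_pos_iff.mpr hden), one_div]
    exact hB n x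
  choose ν hν using hex
  have key := pow_card_dvd_mass (C := C) hp2 hμ hν (S := S) fun k hk => by
    obtain ⟨χ, hχ, hk, L, hL, hL0⟩ := hS k hk
    obtain ⟨A, hA₁, hA₂⟩ := hint (k + 1) ℂ χ⁻¹ (Twist.isPrimitive_inv hχ)
    have hid : MulChar.ringHomComp (χ⁻¹)⁻¹ (RingHom.id ℂ) = χ := by
      rw [inv_inv]
      exact MulChar.ext fun u => by rw [MulChar.ringHomComp_apply, RingHom.id_apply]
    have hg := Twist.gauss_ne_zero hχ
    obtain ⟨he, ho⟩ := hA₂ (RingHom.id ℂ) L (by rw [hid]; exact hL)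
    have hA : A = 0 := by
      rcases DirichletCharacter.even_or_odd χ⁻¹ with hev | hodd
      · have h1 := he hev
        rw [hL0, mul_zero, hid, RingHom.id_apply] at h1
        exact (mul_eq_zero.mp h1.symm).resolve_left (mul_ne_zero hg hΩ₁)
      · have h1 := ho hodd
        rw [hL0, mul_zero, hid, RingHom.id_apply] at h1
        exact (mul_eq_zero.mp h1.symm).resolve_left
          (mul_ne_zero hg (mul_ne_zero (neg_ne_zero.mpr Complex.I_ne_zero) hΩ₂))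
    have h1 := hA₁ C j
    rw [hA, map_zero, mul_zero] at h1
    exact ⟨MulChar.ringHomComp χ⁻¹ j, by
      rw [DirichletCharacter.isPrimitive_def, conductor_comp]
      exact Twist.isPrimitive_inv hχ, by
      rw [orderOf_comp, orderOf_inv]
      exact hk, h1⟩
  obtain ⟨c, hc⟩ := key
  -- the unit root as a `p`-adic integer
  obtain ⟨a, haα⟩ : ∃ a : ℤ_[p], (a : ℚ_[p]) = α := ⟨⟨α, hα1.le⟩, rfl⟩
  obtain ⟨b, hbα⟩ : ∃ b : ℤ_[p], (b : ℚ_[p]) = α⁻¹ :=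
    ⟨⟨α⁻¹, by rw [norm_inv, hα1, inv_one]⟩, rfl⟩
  have hmass' : ((∑ x : (ZMod (p ^ (0 + 1)))ˣ, ν 0 x : ℤ_[p]) : ℚ_[p]) =
      (1 - α⁻¹) ^ 2 * q'.num := by
    rw [PadicInt.coe_sum]
    have h1 : ∑ x : (ZMod (p ^ (0 + 1)))ˣ, ((ν 0 x : ℤ_[p]) : ℚ_[p]) =
        (q'.den : ℚ_[p]) * ∑ x : (ZMod (p ^ (0 + 1)))ˣ, μ 0 x := by
      rw [Finset.mul_sum]
      exact Finset.sum_congr rfl fun x _ => hν 0 x
    have h2 : (q' : ℚ_[p]) * (q'.den : ℚ_[p]) = q'.num := by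
      have h3 := congrArg (fun r : ℚ => (r : ℚ_[p])) (Rat.mul_den_eq_num q')
      push_cast at h3
      exact h3
    rw [h1, hmass, ← h2]
    ring
  have hdvd : (p : ℤ_[p]) ^ S.card ∣ ((q'.num * (1 + p - ap W p) ^ 2 : ℤ) : ℤ_[p]) := by
    refine ⟨c * (a * (1 - p * b)) ^ 2, ?_⟩
    apply PadicInt.ext
    have h1 : (1 + p - ap W p : ℚ_[p]) = (1 - α⁻¹) * (-(α * (1 - p * α⁻¹))) := by
      field_simp
      linear_combination hα
    have h2 : ((p : ℚ_[p]) ^ S.card) * (c : ℚ_[p]) = (1 - α⁻¹) ^ 2 * q'.num := by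
      rw [← hmass', hc]
      push_cast
      ring
    push_cast
    rw [haα, hbα, h1]
    linear_combination (-(α * (1 - p * α⁻¹)) ^ 2) * h2
  exact (PadicInt.pow_p_dvd_int_iff _ _).mp hdvd

/-- **Non-vanishing of all twists of `p`-power order.** Let `L(W, 1) = q Ω₁`, `p` an odd prime of
good ordinary reduction which divides neither the numerator of `q` nor `#W(𝔽_p) = 1 + p - a_p`.
Then `L(W, χ, 1) ≠ 0` for every character `χ` of `p`-power order and conductor. -/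
theorem nonvanishing_all (hΔ : W.Δ ≠ 0) (hP : IsPeriodsOf W Ω₁ Ω₂) {L₀ : ℂ → ℂ}
    (hL₀ : IsHasseWeil W L₀) {q : ℚ} (hq : L₀ 1 = q * Ω₁) (p : ℕ) [hp : Fact p.Prime]
    (hp2 : p ≠ 2) (hpΔ : ¬ (p : ℤ) ∣ W.Δ) (hord : ¬ (p : ℤ) ∣ ap W p) (hpq : ¬ (p : ℤ) ∣ q.num)
    (hna : ¬ (p : ℤ) ∣ 1 + p - ap W p) (n : ℕ) {χ : DirichletCharacter ℂ (p ^ (n + 1))}
    (hχ : χ.IsPrimitive) (hk : ∃ k, orderOf χ = p ^ k) {L : ℂ → ℂ} (hL : Twist.IsTwist W χ L) :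
    L 1 ≠ 0 := by
  intro hL0
  rcases n with _ | n
  · obtain ⟨k, hk⟩ := hk
    have h1 : k = 0 := eq_of_orderOf hp2 hχ hk
    rw [h1, pow_zero, orderOf_eq_one_iff] at hk
    rw [DirichletCharacter.isPrimitive_def, hk, DirichletCharacter.conductor_one, zero_add,
      pow_one] at hχ
    exact hp.out.one_lt.ne hχ
  · have h1 := pow_card_dvd_num hΔ hP hL₀ hq p hp2 hpΔ hord (S := {n}) fun k hk' => by
      rw [Finset.mem_singleton] at hk'
      subst hk'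
      exact ⟨χ, hχ, hk, L, hL, hL0⟩
    rw [Finset.card_singleton, pow_one] at h1
    have hpr : Prime (p : ℤ) := Nat.prime_iff_prime_int.mp hp.out
    rcases hpr.dvd_or_dvd h1 with h2 | h2
    · exact hpq h2
    · exact hna (hpr.dvd_of_dvd_pow h2)

/-- The same with Manin's integer: `(1 + p - a_p) L(W, 1) = m Ω₁` and `p ∤ m (1 + p - a_p)`. -/
theorem nonvanishing_of_manin (hΔ : W.Δ ≠ 0) (hP : IsPeriodsOf W Ω₁ Ω₂) {L₀ : ℂ → ℂ}
    (hL₀ : IsHasseWeil W L₀) (p : ℕ) [hp : Fact p.Prime] {m : ℤ}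
    (hm : (1 + p - ap W p) * L₀ 1 = m * Ω₁) (hp2 : p ≠ 2) (hpΔ : ¬ (p : ℤ) ∣ W.Δ)
    (hord : ¬ (p : ℤ) ∣ ap W p) (hpm : ¬ (p : ℤ) ∣ m) (hna : ¬ (p : ℤ) ∣ 1 + p - ap W p) (n : ℕ)
    {χ : DirichletCharacter ℂ (p ^ (n + 1))} (hχ : χ.IsPrimitive) (hk : ∃ k, orderOf χ = p ^ k)
    {L : ℂ → ℂ} (hL : Twist.IsTwist W χ L) : L 1 ≠ 0 := by
  obtain ⟨q, hq⟩ := hP.exists_rat hΔ hL₀
  obtain ⟨f, hf, ha, hPf⟩ := id hP
  have hΩ₁ : (Ω₁ : ℂ) ≠ 0 := Complex.ofReal_ne_zero.mpr hPf.pos₁.ne'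
  refine nonvanishing_all hΔ hP hL₀ hq p hp2 hpΔ hord (fun h => hpm ?_) hna n hχ hk hL
  have h1 : ((1 + p - ap W p : ℤ) : ℚ) * q = m := by
    rw [hq, ← mul_assoc] at hm
    have h2 := mul_right_cancel₀ hΩ₁ hm
    exact_mod_cast h2
  have h2 : (1 + p - ap W p : ℤ) * q.num = m * q.den := by
    have h3 : ((1 + p - ap W p : ℤ) : ℚ) * q.num = m * q.den := by
      rw [← h1, mul_assoc, Rat.mul_den_eq_num]
    exact_mod_cast h3
  have hpr : Prime (p : ℤ) := Nat.prime_iff_prime_int.mp hp.out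
  have h3 : (p : ℤ) ∣ m * q.den := by
    rw [← h2]
    exact Dvd.dvd.mul_left h _
  refine (hpr.dvd_or_dvd h3).resolve_right fun h4 => ?_
  have h5 : p ∣ q.num.natAbs.gcd q.den :=
    Nat.dvd_gcd (Int.natCast_dvd.mp h) (Int.natCast_dvd_natCast.mp h4)
  rw [q.reduced] at h5
  exact hp.out.one_lt.ne' (Nat.dvd_one.mp h5)

end Fermat.Agent.Cor.HW.Per
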