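import Fermat.Agent.Corollaries.HW.NonVanEx
import Fermat.Agent.Corollaries.AlmostAll.Semistable

/-!
# Non-vanishing of all twists of `p`-power order for almost all primes `p`

Let `E` be a semistable elliptic curve over `ℚ` with `L(E, 1) ≠ 0`. The primes `p` such that
`L(E, χ, 1) ≠ 0` for every Dirichlet character `χ` of `p`-power order and conductor have natural
density one.
-/

set_option autoImplicit false

noncomputable section

open Fermat.Agent.Cor.AlmostAll

namespace Fermat.Agent.Cor.HW.Per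

variable {W : WeierstrassCurve ℤ}

/-- `L(W, χ, 1) ≠ 0` for every character `χ` of `p`-power order and conductor. -/
def NonVanishesAt (W : WeierstrassCurve ℤ) (p : ℕ) : Prop :=
  ∀ [Fact p.Prime] (n : ℕ) (χ : DirichletCharacter ℂ (p ^ (n + 1))), χ.IsPrimitive →
    (∃ k, orderOf χ = p ^ k) → ∀ L : ℂ → ℂ, Twist.IsTwist W χ L → L 1 ≠ 0

/-- **Non-vanishing for a set of primes of density one.** Let `L(W, 1) ≠ 0`. The primes `p` such
that `L(W, χ, 1) ≠ 0` for every character `χ` of `p`-power order and conductor have natural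
density one. -/
theorem density_nonvanishing (hΔ : W.Δ ≠ 0) (hW : W.IsSemistableModel) {L₀ : ℂ → ℂ}
    (hL₀ : IsHasseWeil W L₀) (h0 : L₀ 1 ≠ 0) :
    HasNaturalDensity {p | NonVanishesAt W p} 1 := by
  obtain ⟨P, hP⟩ := nonvanishing_primes hΔ hW hL₀ h0
  have h1 := hasNaturalDensity_iff.mp (density_apOfModel_eq hΔ hW 0)
  have h2 := hasNaturalDensity_iff.mp (density_apOfModel_eq hΔ hW 1)
  have h3 := hasNaturalDensity_iff.mpr (MeanSys.dens_union_zero h1 h2)
  have h4 : HasNaturalDensity ({ℓ | W.apOfModel ℓ = 0} ∪ {ℓ | W.apOfModel ℓ = 1} ∪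
      {ℓ | ℓ ≤ max P W.Δ.natAbs}) 0 := by
    refine h3.congr_of_finset (Finset.range (max P W.Δ.natAbs + 1)) fun ℓ _ hℓ => ?_
    rw [Finset.mem_range, not_lt] at hℓ
    constructor
    · exact fun h => Or.inl h
    · rintro (h | h)
      · exact h
      · exact absurd h (not_le.mpr (Nat.lt_of_succ_le hℓ))
  have h5 : HasNaturalDensity {p | NonVanishesAt W p}ᶜ 0 := by
    refine hasNaturalDensity_iff.mpr (MeanSys.dens_mono_zero (hasNaturalDensity_iff.mp h4)
      fun p hp hpS => ?_)
    by_contra hcon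
    rw [Set.mem_union, Set.mem_union, not_or, not_or] at hcon
    obtain ⟨⟨ha0, ha1⟩, hle⟩ := hcon
    have hlt : max P W.Δ.natAbs < p := not_le.mp hle
    have hpΔ : ¬ (p : ℤ) ∣ W.Δ := fun h => by
      have h6 := Nat.le_of_dvd (Int.natAbs_pos.mpr hΔ) (Int.natCast_dvd.mp h)
      exact absurd (lt_of_le_of_lt (le_max_right _ _) hlt) (not_lt.mpr h6)
    have hap : ap W p = W.apOfModel p := by rw [ap, if_neg hpΔ]
    refine hpS ?_
    intro _ n χ hχ hk L hL
    exact hP p (lt_of_le_of_lt (le_max_left _ _) hlt) (by rw [hap]; exact ha0)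
      (by rw [hap]; exact ha1) n χ hχ hk L hL
  have h6 := h5.compl
  rwa [compl_compl, sub_zero] at h6

/-- **Curves of conductor at most `50` and root number `1`.** -/
theorem density_nonvanishing_of_le_fifty (hΔ : W.Δ ≠ 0) (hW : W.IsSemistableModel)
    (hN : W.conductorLevel ≤ 50) (hw : rootNumber W = 1) :
    HasNaturalDensity {p | NonVanishesAt W p} 1 := by
  obtain ⟨f, ⟨hf, ha⟩, -⟩ := existsUnique_newform_ap hΔ hW
  have hL₀ := isHasseWeil hΔ hf ha
  obtain ⟨y, hy, hy1⟩ := L_one_pos hΔ hW hL₀ hN hw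
  refine density_nonvanishing hΔ hW hL₀ ?_
  rw [hy1]
  exact Complex.ofReal_ne_zero.mpr hy.ne'

/-- The curve `y² + y = x³ - x²` of conductor `11`: for almost all primes `p` no twist of `p`-power
order and conductor vanishes at `1`. -/
theorem density_nonvanishing_11a : HasNaturalDensity {p | NonVanishesAt E11 p} 1 := by
  have hq : Nat.Prime 11 := by norm_num
  have hΔ : E11.Δ.natAbs = 11 := by decide
  have hc : ¬ ((11 : ℕ) : ℤ) ∣ E11.c₄ := by decide
  have hΔ0 : E11.Δ ≠ 0 := by decide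
  have hW := isSemistableModel_of_prime hq hΔ hc
  obtain ⟨f, ⟨hf, ha⟩, -⟩ := existsUnique_newform_ap hΔ0 hW
  have hL₀ := isHasseWeil hΔ0 hf ha
  obtain ⟨y, hy, hy1⟩ := L_one_11a hL₀
  refine density_nonvanishing hΔ0 hW hL₀ ?_
  rw [hy1]
  exact Complex.ofReal_ne_zero.mpr hy.ne'

end Fermat.Agent.Cor.HW.Per
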