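import Fermat.Agent.Corollaries.HW.NonVanAll
import Fermat.Agent.Corollaries.HW.LOne

/-!
# Non-vanishing of twists: almost all primes, curves of small conductor

If `L(E, 1) ≠ 0` then for all but finitely many primes `p` with `a_p ≠ 0, 1` no value
`L(E, χ, 1)`, `χ` of `p`-power order and conductor, vanishes.
-/

set_option autoImplicit false

noncomputable section

namespace Fermat.Agent.Cor.HW.Per

variable {W : WeierstrassCurve ℤ}

/-- **All twists for almost all primes.** Let `L(W, 1) ≠ 0`. For all but finitely many primes `p`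
with `a_p ≠ 0, 1` one has `L(W, χ, 1) ≠ 0` for every character `χ` of `p`-power order and
conductor. -/
theorem nonvanishing_primes (hΔ : W.Δ ≠ 0) (hW : W.IsSemistableModel) {L₀ : ℂ → ℂ}
    (hL₀ : IsHasseWeil W L₀) (h0 : L₀ 1 ≠ 0) :
    ∃ P : ℕ, ∀ (p : ℕ) [Fact p.Prime], P < p → ap W p ≠ 0 → ap W p ≠ 1 →
      ∀ (n : ℕ) (χ : DirichletCharacter ℂ (p ^ (n + 1))), χ.IsPrimitive →
        (∃ k, orderOf χ = p ^ k) → ∀ L : ℂ → ℂ, Twist.IsTwist W χ L → L 1 ≠ 0 := by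
  obtain ⟨Ω₁, Ω₂, hP⟩ := exists_isPeriodsOf hΔ hW
  obtain ⟨q, hq⟩ := hP.exists_rat hΔ hL₀
  have hq0 : q.num ≠ 0 := by
    intro h
    rw [Rat.num_eq_zero.mp h, Rat.cast_zero, zero_mul] at hq
    exact h0 hq
  refine ⟨max (max W.Δ.natAbs q.num.natAbs) 6, fun p hp hPp h0p h1p n χ hχ hk L hL => ?_⟩
  have hp6 : 6 < p := lt_of_le_of_lt (le_max_right _ _) hPp
  have hlt : ∀ m : ℤ, m ≠ 0 → m.natAbs < p → ¬ (p : ℤ) ∣ m := by
    intro m hm hmp h
    have h1 := Nat.le_of_dvd (Int.natAbs_pos.mpr hm) (Int.natCast_dvd.mp h)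
    omega
  have hpΔ : ¬ (p : ℤ) ∣ W.Δ := hlt _ hΔ
    (lt_of_le_of_lt ((le_max_left _ _).trans (le_max_left _ _)) hPp)
  have hpq : ¬ (p : ℤ) ∣ q.num := hlt _ hq0
    (lt_of_le_of_lt ((le_max_right _ _).trans (le_max_left _ _)) hPp)
  have hsq := ap_sq_le hp.out hpΔ
  have hp7 : (7 : ℤ) ≤ p := by exact_mod_cast hp6
  refine nonvanishing_all hΔ hP hL₀ hq p (by omega) hpΔ ?_ hpq ?_ n hχ hk hL
  · rintro ⟨c, hc⟩
    have hc0 : c ≠ 0 := by
      rintro rfl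
      exact h0p (by rw [hc, mul_zero])
    have h1 : 1 ≤ c ^ 2 := by
      have := sq_nonneg c
      have h2 : c ^ 2 ≠ 0 := pow_ne_zero 2 hc0
      omega
    rw [hc, mul_pow] at hsq
    nlinarith
  · rintro ⟨c, hc⟩
    have hc1 : ap W p - 1 = p * (1 - c) := by linear_combination -hc
    have hc0 : 1 - c ≠ 0 := by
      intro h
      rw [h, mul_zero] at hc1
      exact h1p (by linarith)
    rcases lt_or_gt_of_ne hc0 with h | h
    · have h1 : ap W p ≤ 1 - p := by nlinarith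
      nlinarith
    · have h1 : 1 + p ≤ ap W p := by nlinarith
      nlinarith

/-- **Curves of conductor at most `50`.** -/
theorem nonvanishing_of_le_fifty (hΔ : W.Δ ≠ 0) (hW : W.IsSemistableModel)
    (hN : W.conductorLevel ≤ 50) (hw : rootNumber W = 1) (p : ℕ) [hp : Fact p.Prime]
    (hp2 : p ≠ 2) (hpΔ : ¬ (p : ℤ) ∣ W.Δ) (hord : ¬ (p : ℤ) ∣ ap W p) :
    ∃ n₀ : ℕ, ∀ n ≥ n₀, ∀ χ : DirichletCharacter ℂ (p ^ (n + 1)), χ.IsPrimitive →
      (∃ k, orderOf χ = p ^ k) → ∀ L : ℂ → ℂ, Twist.IsTwist W χ L → L 1 ≠ 0 := by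
  obtain ⟨f, ⟨hf, ha⟩, -⟩ := existsUnique_newform_ap hΔ hW
  have hL₀ := isHasseWeil hΔ hf ha
  obtain ⟨y, hy, hy1⟩ := L_one_pos hΔ hW hL₀ hN hw
  refine nonvanishing hΔ hW hL₀ ?_ p hp2 hpΔ hord
  rw [hy1]
  exact Complex.ofReal_ne_zero.mpr hy.ne'

end Fermat.Agent.Cor.HW.Per
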