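import Fermat.Agent.Corollaries.HW.PadicMult

/-!
# Non-vanishing of twists at ordinary and at multiplicative primes

The theorems of `NonVan` and `NonVanTame` for all odd primes `p` with `p ∤ a_p`: `p` is a prime of
good ordinary or of multiplicative reduction of the semistable elliptic curve `E`.
-/

set_option autoImplicit false

noncomputable section

open DirichletCharacter

namespace Fermat.Agent.Cor.HW.Per

variable {W : WeierstrassCurve ℤ}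

/-- A bounded distribution on `ℤ_p` with values in `ℚ_p` whose zeros are the zeros of
`L(W, χ, 1)`, for every prime `p ∤ a_p`. -/
theorem exists_measure_ord (hΔ : W.Δ ≠ 0) (hW : W.IsSemistableModel) (p : ℕ)
    [hp : Fact p.Prime] (hord : ¬ (p : ℤ) ∣ ap W p) :
    ∃ μ : (n : ℕ) → ZMod (p ^ (n + 1)) → ℚ_[p],
      (∀ (n : ℕ) (x : ZMod (p ^ (n + 1))),
        ∑ y : ZMod (p ^ (n + 2)) with red p n y = x, μ (n + 1) y = μ n x) ∧
      (∃ B : ℝ, ∀ (n : ℕ) (x : ZMod (p ^ (n + 1))), ‖μ n x‖ ≤ B) ∧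
      (∀ L : ℂ → ℂ, IsHasseWeil W L → (∑ x : (ZMod (p ^ (0 + 1)))ˣ, μ 0 x = 0 ↔
        L 1 = 0 ∨ (p : ℤ) ∣ W.Δ ∧ ap W p = 1)) ∧
      ∀ (C : Type) [Field C] [Algebra ℚ_[p] C] (j : ℂ →+* C) (n : ℕ)
        (χ : DirichletCharacter ℂ (p ^ (n + 1))), χ.IsPrimitive → ∀ L : ℂ → ℂ,
          Twist.IsTwist W χ L → (L 1 = 0 ↔ IsZero μ (MulChar.ringHomComp χ⁻¹ j)) := by
  by_cases hpΔ : (p : ℤ) ∣ W.Δ
  · obtain ⟨Ω₁, Ω₂, hP⟩ := exists_isPeriodsOf hΔ hW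
    obtain ⟨f, hf, ha, hPf⟩ := id hP
    have hΩ₁ : (Ω₁ : ℂ) ≠ 0 := Complex.ofReal_ne_zero.mpr hPf.pos₁.ne'
    have hΩ₂ : (Ω₂ : ℂ) ≠ 0 := Complex.ofReal_ne_zero.mpr hPf.pos₂.ne'
    obtain ⟨μ, hμ, hB, hmass, hint⟩ := padic_L_function_mult.{0, 0} hΔ hW hP p hpΔ
    refine ⟨μ, hμ, hB, fun L hL => ?_, fun C _ _ j n χ hχ L hL => ?_⟩
    · obtain ⟨q, hq, hm⟩ := hmass L hL
      rw [hq, hm, mul_eq_zero, mul_eq_zero, or_iff_left hΩ₁, Rat.cast_eq_zero, Rat.cast_eq_zero,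
        or_comm, sub_eq_zero]
      have h1 : (1 : ℚ_[p]) = (ap W p : ℚ_[p]) ↔ ap W p = 1 := by
        rw [eq_comm]
        exact_mod_cast Iff.rfl
      rw [h1]
      simp only [hpΔ, true_and]
    · obtain ⟨A, hA₁, hA₂⟩ := hint n ℂ χ⁻¹ (Twist.isPrimitive_inv hχ)
      have hid : MulChar.ringHomComp (χ⁻¹)⁻¹ (RingHom.id ℂ) = χ := by
        rw [inv_inv]
        exact MulChar.ext fun u => by rw [MulChar.ringHomComp_apply, RingHom.id_apply]
      have hg := Twist.gauss_ne_zero hχ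
      obtain ⟨he, ho⟩ := hA₂ (RingHom.id ℂ) L (by rw [hid]; exact hL)
      have hpn : (p : ℂ) ^ (n + 1) ≠ 0 := pow_ne_zero _ (Nat.cast_ne_zero.mpr hp.out.ne_zero)
      have hA : L 1 = 0 ↔ A = 0 := by
        rcases DirichletCharacter.even_or_odd χ⁻¹ with hev | hodd
        · have h1 := he hev
          rw [hid, RingHom.id_apply] at h1
          constructor
          · intro h
            rw [h, mul_zero] at h1
            exact (mul_eq_zero.mp h1.symm).resolve_left (mul_ne_zero hg hΩ₁)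
          · intro h
            rw [h, mul_zero] at h1
            exact (mul_eq_zero.mp h1).resolve_left hpn
        · have h1 := ho hodd
          rw [hid, RingHom.id_apply] at h1
          constructor
          · intro h
            rw [h, mul_zero] at h1
            exact (mul_eq_zero.mp h1.symm).resolve_left
              (mul_ne_zero hg (mul_ne_zero (neg_ne_zero.mpr Complex.I_ne_zero) hΩ₂))
          · intro h
            rw [h, mul_zero] at h1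
            exact (mul_eq_zero.mp h1).resolve_left hpn
      rw [hA]
      have h1 := hA₁ C j
      have : CharZero C := charZero_of_injective_algebraMap (algebraMap ℚ_[p] C).injective
      have h2 : (ap W p : C) ^ (n + 1) ≠ 0 := by
        refine pow_ne_zero _ ?_
        rcases ap_eq_one_or hΔ hW hp.out hpΔ with h | h <;> rw [h] <;> norm_num
      have h3 : IsZero μ (MulChar.ringHomComp χ⁻¹ j) ↔
          ∑ x : (ZMod (p ^ (n + 1)))ˣ, j (χ⁻¹ x) * algebraMap ℚ_[p] C (μ n x) = 0 := Iff.rfl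
      rw [h3, h1, mul_eq_zero, or_iff_right h2, _root_.map_eq_zero]
  · obtain ⟨μ, hμ, hB, hmass, hint⟩ := exists_measure hΔ hW p hpΔ hord
    refine ⟨μ, hμ, hB, fun L hL => ?_, hint⟩
    rw [← hmass L hL]
    simp only [hpΔ, false_and, or_false]

/-- **Non-vanishing of almost all twists of `p`-power order**, `p` odd, `p ∤ a_p` and `p` not a
prime of split multiplicative reduction. -/
theorem nonvanishing_ord (hΔ : W.Δ ≠ 0) (hW : W.IsSemistableModel) {L₀ : ℂ → ℂ}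
    (hL₀ : IsHasseWeil W L₀) (h0 : L₀ 1 ≠ 0) (p : ℕ) [hp : Fact p.Prime] (hp2 : p ≠ 2)
    (hord : ¬ (p : ℤ) ∣ ap W p) (hns : ¬ ((p : ℤ) ∣ W.Δ ∧ ap W p = 1)) :
    ∃ n₀ : ℕ, ∀ n ≥ n₀, ∀ χ : DirichletCharacter ℂ (p ^ (n + 1)), χ.IsPrimitive →
      (∃ k, orderOf χ = p ^ k) → ∀ L : ℂ → ℂ, Twist.IsTwist W χ L → L 1 ≠ 0 := by
  obtain ⟨μ, hμ, ⟨B, hB⟩, hmass, hint⟩ := exists_measure_ord hΔ hW p hord
  obtain ⟨C, _, _, ⟨j⟩⟩ := exists_extension p
  have hmass0 : ∑ x : (ZMod (p ^ (0 + 1)))ˣ, μ 0 x ≠ 0 := by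
    rw [Ne, hmass L₀ hL₀, not_or]
    exact ⟨h0, hns⟩
  obtain ⟨b, hb⟩ := (finite_zeros (C := C) hp2 hμ hB hmass0).bddAbove
  refine ⟨b + 2, fun n hn χ hχ hk L hL hL0 => ?_⟩
  obtain ⟨k, rfl⟩ : ∃ k, n = k + 1 := ⟨n - 1, by omega⟩
  have h2 : k ≤ b := hb ⟨MulChar.ringHomComp χ⁻¹ j, by
    rw [DirichletCharacter.isPrimitive_def, conductor_comp]
    exact Twist.isPrimitive_inv hχ, by
    rw [orderOf_comp, orderOf_inv]
    exact hk, (hint C j (k + 1) χ hχ L hL).mp hL0⟩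
  omega

/-- **Non-vanishing of almost all twists in a branch**, `p` odd, `p ∤ a_p`. -/
theorem nonvanishing_mul_ord (hΔ : W.Δ ≠ 0) (hW : W.IsSemistableModel) (p : ℕ)
    [hp : Fact p.Prime] (hp2 : p ≠ 2) (hord : ¬ (p : ℤ) ∣ ap W p) {r : ℕ}
    {χ₀ : DirichletCharacter ℂ (p ^ (r + 1))} (hχ₀ : χ₀.IsPrimitive) {L₀ : ℂ → ℂ}
    (hL₀ : Twist.IsTwist W χ₀ L₀) (h0 : L₀ 1 ≠ 0) :
    ∃ n₀ : ℕ, ∀ (n : ℕ) (hn : r < n) (χ : DirichletCharacter ℂ (p ^ (n + 1))), n₀ ≤ n →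
      χ.IsPrimitive → (∃ k, orderOf χ = p ^ k) → ∀ L : ℂ → ℂ,
        Twist.IsTwist W (changeLevel (pow_dvd_pow p (by omega : r + 1 ≤ n + 1)) χ₀ * χ) L →
          L 1 ≠ 0 := by
  obtain ⟨μ, hμ, ⟨B, hB⟩, -, hint⟩ := exists_measure_ord hΔ hW p hord
  obtain ⟨C, _, _, ⟨j⟩⟩ := exists_extension p
  have h0' : ¬ IsZero μ (MulChar.ringHomComp χ₀⁻¹ j) := fun h =>
    h0 ((hint C j r χ₀ hχ₀ L₀ hL₀).mpr h)
  obtain ⟨k₀, hk₀⟩ := finite_zeros_mul hp2 hμ hB h0'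
  refine ⟨k₀ + 1, fun n hn χ hn' hχ hk L hL hL0 => ?_⟩
  obtain ⟨k, rfl⟩ : ∃ k, n = k + 1 := ⟨n - 1, by omega⟩
  have hdr : p ^ (r + 1) ∣ p ^ (k + 1) := pow_dvd_pow p (by omega)
  have hprim := isPrimitive_mul hdr hχ χ₀
  have h1 := (hint C j (k + 1) _ hprim L hL).mp hL0
  have h2 : MulChar.ringHomComp
      (changeLevel (hdr.trans (pow_dvd_pow p (Nat.le_succ (k + 1)))) χ₀ * χ)⁻¹ j =
      changeLevel (hdr.trans (pow_dvd_pow p (Nat.le_succ (k + 1))))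
        (MulChar.ringHomComp χ₀⁻¹ j) * MulChar.ringHomComp χ⁻¹ j := by
    refine MulChar.ext fun u => ?_
    rw [MulChar.coeToFun_mul, Pi.mul_apply, changeLevel_apply, MulChar.ringHomComp_apply,
      MulChar.ringHomComp_apply, MulChar.ringHomComp_apply, MulChar.inv_apply_eq_inv',
      MulChar.inv_apply_eq_inv', MulChar.inv_apply_eq_inv', MulChar.coeToFun_mul, Pi.mul_apply,
      changeLevel_apply, mul_inv, map_mul]
  rw [h2] at h1
  have h3 := hk₀ k (by omega) (MulChar.ringHomComp χ⁻¹ j) (by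
    rw [DirichletCharacter.isPrimitive_def, conductor_comp]
    exact Twist.isPrimitive_inv hχ) (by
    rw [orderOf_comp, orderOf_inv]
    exact hk) h1
  omega

/-- **Dichotomy** for all odd primes `p ∤ a_p`. -/
theorem dichotomy_ord (hΔ : W.Δ ≠ 0) (hW : W.IsSemistableModel) (p : ℕ) [hp : Fact p.Prime]
    (hp2 : p ≠ 2) (hord : ¬ (p : ℤ) ∣ ap W p) (ω : DirichletCharacter ℂ p) :
    (∀ (n : ℕ) (χ : DirichletCharacter ℂ (p ^ (n + 1 + 1))), χ.IsPrimitive →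
      (∃ k, orderOf χ = p ^ k) → ∀ L : ℂ → ℂ,
        Twist.IsTwist W (changeLevel (dvd_pow_self p (Nat.succ_ne_zero (n + 1))) ω * χ) L →
          L 1 = 0) ∨
    ∃ n₀ : ℕ, ∀ n ≥ n₀, ∀ χ : DirichletCharacter ℂ (p ^ (n + 1 + 1)), χ.IsPrimitive →
      (∃ k, orderOf χ = p ^ k) → ∀ L : ℂ → ℂ,
        Twist.IsTwist W (changeLevel (dvd_pow_self p (Nat.succ_ne_zero (n + 1))) ω * χ) L →
          L 1 ≠ 0 := by
  rw [or_iff_not_imp_left]
  intro h
  push Not at h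
  obtain ⟨n₁, χ₁, hχ₁, hk₁, L₁, hL₁, h1⟩ := h
  have hpn₁ : p ∣ p ^ (n₁ + 1) := dvd_pow_self p (Nat.succ_ne_zero n₁)
  obtain ⟨n₀, hn₀⟩ := nonvanishing_mul_ord hΔ hW p hp2 hord (isPrimitive_mul hpn₁ hχ₁ ω) hL₁ h1
  refine ⟨max (n₁ + 1) n₀, fun n hn χ hχ hk L hL => ?_⟩
  have hnn₁ : n₁ + 1 ≤ n := le_of_max_le_left hn
  have hdvd : p ^ (n₁ + 1 + 1) ∣ p ^ (n + 1) := pow_dvd_pow p (by omega)
  have hdvd' : p ^ (n₁ + 1 + 1) ∣ p ^ (n + 1 + 1) := pow_dvd_pow p (by omega)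
  have hord' : ∃ k, orderOf (changeLevel hdvd' χ₁⁻¹ * χ) = p ^ k := by
    rw [exists_orderOf_eq_prime_pow_iff] at hk hk₁ ⊢
    obtain ⟨a, ha⟩ := hk
    obtain ⟨b, hb⟩ := hk₁
    have e1 : χ ^ p ^ (a + b) = 1 := pow_pow_add a b ha
    have e2 : χ₁⁻¹ ^ p ^ (a + b) = 1 := by
      have := pow_pow_add b a (x := χ₁⁻¹) (by rw [inv_pow, hb, inv_one])
      rwa [add_comm b a] at this
    refine ⟨a + b, ?_⟩
    rw [mul_pow, ← map_pow, e1, e2, map_one, one_mul]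
  refine hn₀ (n + 1) (by omega) (changeLevel hdvd' χ₁⁻¹ * χ)
    (by have := le_of_max_le_right hn; omega) (isPrimitive_mul hdvd hχ χ₁⁻¹) hord' L ?_
  have h2 : changeLevel hdvd' (changeLevel (dvd_pow_self p (Nat.succ_ne_zero (n₁ + 1))) ω * χ₁) *
      (changeLevel hdvd' χ₁⁻¹ * χ) =
      changeLevel (dvd_pow_self p (Nat.succ_ne_zero (n + 1))) ω * χ := by
    rw [map_mul, ← changeLevel_trans, mul_assoc, ← mul_assoc (changeLevel hdvd' χ₁), ← map_mul,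
      mul_inv_cancel, map_one, one_mul]
  rw [← h2] at hL
  exact hL

end Fermat.Agent.Cor.HW.Per
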