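import Fermat.Agent.Corollaries.HW.NonVan

/-!
# The branches of the `p`-adic `L`-function

Let `E` be a semistable elliptic curve over `ℚ`, `p` an odd prime of good ordinary reduction and
`χ₀` a Dirichlet character of `p`-power conductor with `L(E, χ₀, 1) ≠ 0`. Then
`L(E, χ₀ χ, 1) ≠ 0` for all but finitely many characters `χ` of `p`-power order and conductor. So
for each character `ω` modulo `p` either all the values `L(E, ω χ, 1)`, `χ ≠ 1` of `p`-power order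
and conductor, vanish or only finitely many do.
-/

set_option autoImplicit false

noncomputable section

open Polynomial DirichletCharacter

namespace Fermat.Agent.Cor.HW.Per

universe u v

section factor

variable {p : ℕ} [hp : Fact p.Prime] {C : Type v} [Field C] [Algebra ℚ_[p] C]

theorem exists_factor (S : Finset ℕ) {F : ℤ_[p][X]}
    (h : ∀ k ∈ S, ∃ ζ : C, IsPrimitiveRoot ζ (p ^ (k + 1)) ∧
      aeval ζ (F.map (algebraMap ℤ_[p] ℚ_[p])) = 0) :
    ∃ G : ℤ_[p][X], F = (∏ k ∈ S, cyclotomic (p ^ (k + 1)) ℤ_[p]) * G := by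
  have h1 : ∀ k ∈ S, cyclotomic (p ^ (k + 1)) ℚ_[p] ∣ F.map (algebraMap ℤ_[p] ℚ_[p]) := by
    intro k hk
    obtain ⟨ζ, hζ, h0⟩ := h k hk
    have : NeZero ((p ^ (k + 1) : ℕ) : ℚ_[p]) :=
      ⟨Nat.cast_ne_zero.mpr (pow_ne_zero _ hp.out.ne_zero)⟩
    rw [hζ.minpoly_eq_cyclotomic_of_irreducible (irreducible_cyclotomic_padic p k)]
    exact minpoly.dvd _ _ h0
  have h2 : ∏ k ∈ S, cyclotomic (p ^ (k + 1)) ℚ_[p] ∣ F.map (algebraMap ℤ_[p] ℚ_[p]) := by
    refine Finset.prod_dvd_of_coprime (fun i _ j _ hij => ?_) h1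
    have h3 : p ^ (i + 1) ≠ p ^ (j + 1) := fun h => hij (by
      have := Nat.pow_right_injective hp.out.two_le h
      omega)
    have h4 := (cyclotomic.isCoprime_rat h3).map (mapRingHom (algebraMap ℚ ℚ_[p]))
    simp only [coe_mapRingHom, map_cyclotomic] at h4
    exact h4
  have h3 : (∏ k ∈ S, cyclotomic (p ^ (k + 1)) ℤ_[p]).map (algebraMap ℤ_[p] ℚ_[p]) =
      ∏ k ∈ S, cyclotomic (p ^ (k + 1)) ℚ_[p] := by
    rw [Polynomial.map_prod]
    exact Finset.prod_congr rfl fun k _ => map_cyclotomic _ _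
  rw [← h3, map_dvd_map _ (IsFractionRing.injective ℤ_[p] ℚ_[p])
    (monic_prod_of_monic _ _ fun k _ => cyclotomic.monic _ _)] at h2
  exact h2

omit [Algebra ℚ_[p] C] in
/-- `Φ_{p^(k+1)}(ζ) = p` for `ζ` a `p^k`-th root of unity. -/
theorem eval_cyclotomic_of_pow_eq_one {ζ : C} {k : ℕ} (hζ : ζ ^ p ^ k = 1) :
    (cyclotomic (p ^ (k + 1)) C).eval ζ = p := by
  rw [cyclotomic_prime_pow_eq_geom_sum hp.out, eval_finsetSum]
  simp only [eval_pow, eval_X, hζ, one_pow]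
  simp

/-- An element of `ℤ_p` which is divisible by all powers of `p` in the ring of integers is
zero. -/
theorem exists_bound {v : C} (hv : v ≠ 0) (hint : RingHom.IsIntegralElem
      ((algebraMap ℚ_[p] C).comp (algebraMap ℤ_[p] ℚ_[p])) v) :
    ∃ N : ℕ, ∀ (s : ℕ) (w : C), RingHom.IsIntegralElem
      ((algebraMap ℚ_[p] C).comp (algebraMap ℤ_[p] ℚ_[p])) w → v = p ^ s * w → s ≤ N := by
  let _ : Algebra ℤ_[p] C := ((algebraMap ℚ_[p] C).comp (algebraMap ℤ_[p] ℚ_[p])).toAlgebra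
  have : IsScalarTower ℤ_[p] ℚ_[p] C := IsScalarTower.of_algebraMap_eq fun _ => rfl
  have hv1 : IsIntegral ℤ_[p] v := hint
  have hv2 : IsAlgebraic ℤ_[p] v⁻¹ := hv1.isAlgebraic.inv
  obtain ⟨y, hy0, hy⟩ := hv2.exists_integral_multiple
  obtain ⟨N, hN⟩ := FiniteMultiplicity.of_not_isUnit (PadicInt.prime_p (p := p)).not_isUnit hy0
  refine ⟨N, fun s w hw hvw => ?_⟩
  by_contra hlt
  push Not at hlt
  refine hN ((pow_dvd_pow _ hlt).trans ?_)
  have hw1 : IsIntegral ℤ_[p] w := hw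
  have hp0 : (p : ℚ_[p]) ^ s ≠ 0 := pow_ne_zero _ (Nat.cast_ne_zero.mpr hp.out.ne_zero)
  have h1 : algebraMap ℚ_[p] C ((y : ℚ_[p]) / p ^ s) = (y • v⁻¹) * w := by
    have h2 : algebraMap ℚ_[p] C (y : ℚ_[p]) = algebraMap ℤ_[p] C y := rfl
    have h3 : (p : C) ^ s ≠ 0 := by
      have := (map_ne_zero (algebraMap ℚ_[p] C)).mpr hp0
      rwa [map_pow, map_natCast] at this
    rw [map_div₀, h2, map_pow, map_natCast, Algebra.smul_def]
    rw [hvw] at hv ⊢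
    have hw0 : w ≠ 0 := right_ne_zero_of_mul hv
    field_simp
  have h2 : IsIntegral ℤ_[p] (algebraMap ℚ_[p] C ((y : ℚ_[p]) / p ^ s)) := by
    rw [h1]
    exact hy.mul hw1
  have h3 : IsIntegral ℤ_[p] ((y : ℚ_[p]) / p ^ s) :=
    (isIntegral_algebraMap_iff (algebraMap ℚ_[p] C).injective).mp h2
  obtain ⟨z, hz⟩ := IsIntegrallyClosed.isIntegral_iff.mp h3
  refine ⟨z, ?_⟩
  have h4 : (z : ℚ_[p]) = (y : ℚ_[p]) / p ^ s := hz
  apply PadicInt.ext
  push_cast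
  rw [h4]
  field_simp

omit hp in
theorem toZMod_eq_zero_iff [Fact p.Prime] (x : ℤ_[p]) : PadicInt.toZMod x = 0 ↔ ‖x‖ < 1 := by
  rw [← RingHom.mem_ker, PadicInt.ker_toZMod, PadicInt.maximalIdeal_eq_span_p,
    Ideal.mem_span_singleton, ← PadicInt.norm_lt_one_iff_dvd]

/-- The roots of unity of order `p - 1` are in `ℤ_p`. -/
theorem exists_isPrimitiveRoot (p : ℕ) [hp : Fact p.Prime] :
    ∃ t : ℤ_[p], IsPrimitiveRoot t (p - 1) := by
  have hcyc : IsCyclic (ZMod p)ˣ := inferInstance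
  obtain ⟨g, hg⟩ := hcyc.exists_generator
  have hordg : orderOf g = p - 1 := by
    rw [orderOf_eq_card_of_forall_mem_zpowers hg, Nat.card_eq_fintype_card, ZMod.card_units]
  set a : ℤ_[p] := ((g : ZMod p).val : ℤ_[p]) with ha
  have hga : PadicInt.toZMod a = (g : ZMod p) := by
    rw [ha, map_natCast, ZMod.natCast_zmod_val]
  have hunit : ∀ x : ℤ_[p], PadicInt.toZMod x ≠ 0 → ‖x‖ = 1 := fun x hx =>
    le_antisymm (PadicInt.norm_le_one _) (not_lt.mp fun h => hx ((toZMod_eq_zero_iff x).mpr h))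
  let F : ℤ_[p][X] := X ^ (p - 1) - 1
  have h1 : aeval a F = a ^ (p - 1) - 1 := by
    simp only [F, map_sub, map_pow, aeval_X, map_one]
  have h2 : aeval a (derivative F) = ((p - 1 : ℕ) : ℤ_[p]) * a ^ (p - 1 - 1) := by
    simp only [F, derivative_sub, derivative_X_pow, derivative_one, sub_zero, map_mul, map_pow,
      aeval_X, map_natCast]
  have hg1 : ((g : ZMod p)) ^ (p - 1) = 1 := by
    rw [← Units.val_pow_eq_pow_val, ← hordg, pow_orderOf_eq_one, Units.val_one]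
  have h3 : ‖aeval a F‖ < 1 := by
    rw [h1, ← toZMod_eq_zero_iff, map_sub, map_pow, hga, hg1, map_one, sub_self]
  have h4 : ‖aeval a (derivative F)‖ = 1 := by
    rw [h2]
    refine hunit _ ?_
    rw [map_mul, map_pow, hga, map_natCast]
    refine mul_ne_zero ?_ (pow_ne_zero _ g.ne_zero)
    rw [Nat.cast_pred hp.out.pos, ZMod.natCast_self, zero_sub]
    exact neg_ne_zero.mpr one_ne_zero
  obtain ⟨z, hz, hza, -, -⟩ := hensels_lemma (F := F) (a := a) (by rw [h4, one_pow]; exact h3)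
  rw [h4, ← toZMod_eq_zero_iff, map_sub, sub_eq_zero, hga] at hza
  refine ⟨z, ?_, fun l hl => ?_⟩
  · have h5 : aeval z F = z ^ (p - 1) - 1 := by
      simp only [F, map_sub, map_pow, aeval_X, map_one]
    rw [h5] at hz
    exact sub_eq_zero.mp hz
  · rw [← hordg]
    refine orderOf_dvd_of_pow_eq_one (Units.ext ?_)
    rw [Units.val_pow_eq_pow_val, ← hza, ← map_pow, hl, map_one, Units.val_one]

/-- Roots of unity of order dividing `p - 1` in an extension of `ℚ_p` are in `ℤ_p`. -/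
theorem exists_of_pow_eq_one {z : C} (hz : z ^ (p - 1) = 1) :
    ∃ t : ℤ_[p], algebraMap ℚ_[p] C (t : ℚ_[p]) = z := by
  obtain ⟨t, ht⟩ := exists_isPrimitiveRoot p
  have hinj : Function.Injective ((algebraMap ℚ_[p] C).comp (algebraMap ℤ_[p] ℚ_[p])) :=
    (algebraMap ℚ_[p] C).injective.comp (IsFractionRing.injective ℤ_[p] ℚ_[p])
  have : NeZero (p - 1) := ⟨by have := hp.out.two_le; omega⟩
  obtain ⟨i, -, hi⟩ := (ht.map_of_injective hinj).eq_pow_of_pow_eq_one hz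
  refine ⟨t ^ i, ?_⟩
  rw [← hi, ← map_pow]
  rfl

end factor

/-! ### Characters -/

section chars

variable {p : ℕ} [hp : Fact p.Prime] {R : Type u} [CommRing R]

theorem changeLevel_apply {n m : ℕ} (h : n ∣ m) (χ : DirichletCharacter R n) (u : (ZMod m)ˣ) :
    changeLevel h χ u = χ (ZMod.unitsMap h u : (ZMod n)ˣ) := by
  rw [changeLevel_eq_cast_of_dvd, ZMod.unitsMap_val]

/-- A character modulo `p^(n+1)` is primitive iff it is non-trivial on the kernel of the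
reduction. -/
theorem isPrimitive_iff {n : ℕ} (ψ : DirichletCharacter R (p ^ (n + 1))) :
    ψ.IsPrimitive ↔ ∃ w : (ZMod (p ^ (n + 1)))ˣ,
      ZMod.unitsMap (pow_dvd_pow p (Nat.le_succ n)) w = 1 ∧ ψ w ≠ 1 := by
  have hdvd : p ^ n ∣ p ^ (n + 1) := pow_dvd_pow p (Nat.le_succ n)
  have h1 : ψ.IsPrimitive ↔ ¬ ψ.FactorsThrough (p ^ n) := by
    constructor
    · intro hψ h
      have h2 := Nat.sInf_le ((mem_conductorSet_iff ψ).mpr h)
      rw [isPrimitive_def, DirichletCharacter.conductor] at hψ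
      rw [hψ] at h2
      exact absurd h2 (not_le.mpr (Nat.pow_lt_pow_right hp.out.one_lt (Nat.lt_succ_self n)))
    · intro h
      obtain ⟨k, hk, hk'⟩ := (Nat.dvd_prime_pow hp.out).mp ψ.conductor_dvd_level
      rw [isPrimitive_def]
      by_contra hne
      have hkn : k ≤ n := by
        by_contra hlt
        exact hne (by rw [hk', show k = n + 1 by omega])
      refine h ?_
      have h3 : ψ.conductor ∣ p ^ n := by
        rw [hk']
        exact pow_dvd_pow p hkn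
      obtain ⟨hd, χ₀, hχ₀⟩ := ψ.factorsThrough_conductor
      refine ⟨hdvd, changeLevel h3 χ₀, ?_⟩
      rw [← changeLevel_trans]
      exact hχ₀
  rw [h1, factorsThrough_iff_ker_unitsMap hdvd, SetLike.not_le_iff_exists]
  constructor
  · rintro ⟨w, hw1, hw2⟩
    refine ⟨w, hw1, fun h => hw2 ?_⟩
    rw [MonoidHom.mem_ker]
    apply Units.ext
    rw [MulChar.coe_toUnitHom, h, Units.val_one]
  · rintro ⟨w, hw1, hw2⟩
    refine ⟨w, hw1, fun h => hw2 ?_⟩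
    rw [MonoidHom.mem_ker] at h
    rw [← MulChar.coe_toUnitHom, h, Units.val_one]

/-- A primitive character times a character of smaller level is primitive. -/
theorem isPrimitive_mul {n d : ℕ} (h : d ∣ p ^ n) {ψ : DirichletCharacter R (p ^ (n + 1))}
    (hψ : ψ.IsPrimitive) (χ : DirichletCharacter R d) :
    (changeLevel (h.trans (pow_dvd_pow p (Nat.le_succ n))) χ * ψ).IsPrimitive := by
  rw [isPrimitive_iff] at hψ ⊢
  obtain ⟨w, hw1, hw2⟩ := hψ
  refine ⟨w, hw1, ?_⟩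
  rw [MulChar.coeToFun_mul, Pi.mul_apply, changeLevel_apply]
  have h1 : ZMod.unitsMap (h.trans (pow_dvd_pow p (Nat.le_succ n))) w = 1 := by
    rw [← ZMod.unitsMap_comp h (pow_dvd_pow p (Nat.le_succ n)), MonoidHom.comp_apply, hw1, map_one]
  rw [h1, Units.val_one, map_one, one_mul]
  exact hw2

/-- The value of a character at a generator is a primitive root of unity. -/
theorem isPrimitiveRoot_apply {n m : ℕ} {g : (ZMod (p ^ (m + 1)))ˣ}
    (hg : ∀ x, ∃ k : ℕ, g ^ k = x) (hdvd : p ^ (n + 1) ∣ p ^ (m + 1))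
    (ψ : DirichletCharacter R (p ^ (n + 1))) :
    IsPrimitiveRoot (ψ (ZMod.unitsMap hdvd g : (ZMod (p ^ (n + 1)))ˣ)) (orderOf ψ) := by
  refine ⟨?_, fun t ht => ?_⟩
  · rw [← MulChar.pow_apply_coe, pow_orderOf_eq_one, MulChar.one_apply_coe]
  · refine orderOf_dvd_of_pow_eq_one (MulChar.ext fun u => ?_)
    obtain ⟨x, rfl⟩ := ZMod.unitsMap_surjective hdvd u
    obtain ⟨k, rfl⟩ := hg x
    rw [MulChar.pow_apply_coe, MulChar.one_apply_coe, map_pow, Units.val_pow_eq_pow_val, map_pow,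
      ← pow_mul, mul_comm, pow_mul, ht, one_pow]

end chars

/-! ### Zeros in a branch -/

section zeros

variable {p : ℕ} [hp : Fact p.Prime] {μ : (n : ℕ) → ZMod (p ^ (n + 1)) → ℚ_[p]}
  {C : Type v} [Field C] [Algebra ℚ_[p] C]

/-- The integral of a character can be computed at any level. -/
theorem integral_char (hμ : ∀ (n : ℕ) (x : ZMod (p ^ (n + 1))),
      ∑ y : ZMod (p ^ (n + 2)) with red p n y = x, μ (n + 1) y = μ n x) {n m : ℕ} (hnm : n ≤ m)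
    (hdvd : p ^ (n + 1) ∣ p ^ (m + 1)) (φ : DirichletCharacter C (p ^ (n + 1))) :
    ∑ x : (ZMod (p ^ (m + 1)))ˣ, φ (ZMod.unitsMap hdvd x : (ZMod (p ^ (n + 1)))ˣ) *
        algebraMap ℚ_[p] C (μ m x) =
      ∑ x : (ZMod (p ^ (n + 1)))ˣ, φ x * algebraMap ℚ_[p] C (μ n x) := by
  have hcast : ∀ x : (ZMod (p ^ (m + 1)))ˣ, ((ZMod.unitsMap hdvd x : (ZMod (p ^ (n + 1)))ˣ) :
      ZMod (p ^ (n + 1))) = ((x : ZMod (p ^ (m + 1))).val : ZMod (p ^ (n + 1))) := by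
    intro x
    rw [ZMod.unitsMap_val, ZMod.cast_eq_val]
  have h3 := sum_units_eq (m := p ^ (m + 1)) (fun x : ZMod (p ^ (m + 1)) =>
    (fun a : ℕ => φ (a : ZMod (p ^ (n + 1)))) x.val * algebraMap ℚ_[p] C (μ m x))
    (fun x hx => by
      rw [isUnit_iff_val, not_not] at hx
      have h4 : ¬ IsUnit ((x.val : ℕ) : ZMod (p ^ (n + 1))) := by
        rw [ZMod.isUnit_iff_coprime, Nat.coprime_pow_right_iff (Nat.succ_pos _),
          Nat.coprime_comm, Nat.Prime.coprime_iff_not_dvd hp.out, not_not]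
        exact hx
      simp only [MulChar.map_nonunit φ h4, zero_mul])
  simp only [hcast]
  rw [h3, integral_eq hμ (h := fun a : ℕ => φ (a : ZMod (p ^ (n + 1)))) (n := n)
    (fun a b hab => by simp only [hab]) hnm, ← sum_units_eq]
  · refine Finset.sum_congr rfl fun x _ => ?_
    simp only [ZMod.natCast_zmod_val]
  · intro x hx
    simp only [ZMod.natCast_zmod_val, MulChar.map_nonunit φ hx, zero_mul]

/-- **A bounded distribution has only finitely many zeros in a branch** in which it does not vanish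
identically: if the integral of `ψ₀` is not zero then the integral of `ψ₀ ψ` is not zero for all
but finitely many primitive characters `ψ` of `p`-power order. -/
theorem finite_zeros_mul (hp2 : p ≠ 2) (hμ : ∀ (n : ℕ) (x : ZMod (p ^ (n + 1))),
      ∑ y : ZMod (p ^ (n + 2)) with red p n y = x, μ (n + 1) y = μ n x)
    {B : ℝ} (hB : ∀ (n : ℕ) (x : ZMod (p ^ (n + 1))), ‖μ n x‖ ≤ B) {r : ℕ}
    {ψ₀ : DirichletCharacter C (p ^ (r + 1))} (h0 : ¬ IsZero μ ψ₀) :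
    ∃ k₀ : ℕ, ∀ (k : ℕ) (hk : r ≤ k) (ψ : DirichletCharacter C (p ^ (k + 1 + 1))),
      ψ.IsPrimitive → (∃ l, orderOf ψ = p ^ l) →
      IsZero μ (changeLevel (pow_dvd_pow p (by omega : r + 1 ≤ k + 1 + 1)) ψ₀ * ψ) → k < k₀ := by
  obtain ⟨e, he⟩ := pow_unbounded_of_one_lt B
    (by exact_mod_cast hp.out.one_lt : (1 : ℝ) < p)
  have hint : ∀ (n : ℕ) (x : ZMod (p ^ (n + 1))), ‖(p : ℚ_[p]) ^ e * μ n x‖ ≤ 1 := by
    intro n x
    have hp0 : (0 : ℝ) < (p : ℝ) ^ e := pow_pos (by exact_mod_cast hp.out.pos) e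
    rw [norm_mul, norm_pow, Padic.norm_p, inv_pow, inv_mul_le_iff₀ hp0, mul_one]
    exact (hB n x).trans he.le
  have hex : ∀ (n : ℕ) (x : ZMod (p ^ (n + 1))), ∃ z : ℤ_[p],
      (z : ℚ_[p]) = (p : ℚ_[p]) ^ e * μ n x := fun n x => ⟨⟨_, hint n x⟩, rfl⟩
  choose ν hν using hex
  set f : ℤ_[p] →+* C := (algebraMap ℚ_[p] C).comp (algebraMap ℤ_[p] ℚ_[p]) with hf
  have hfν : ∀ (n : ℕ) (x : ZMod (p ^ (n + 1))), f (ν n x) =
      algebraMap ℚ_[p] C ((p : ℚ_[p]) ^ e) * algebraMap ℚ_[p] C (μ n x) := by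
    intro n x
    rw [← map_mul, ← hν n x]
    rfl
  have hp0 : algebraMap ℚ_[p] C ((p : ℚ_[p]) ^ e) ≠ 0 :=
    (_root_.map_ne_zero _).mpr (pow_ne_zero _ (Nat.cast_ne_zero.mpr hp.out.ne_zero))
  -- the integral
  set v : C := algebraMap ℚ_[p] C ((p : ℚ_[p]) ^ e) *
    ∑ x : (ZMod (p ^ (r + 1)))ˣ, ψ₀ x * algebraMap ℚ_[p] C (μ r x) with hv
  have hv0 : v ≠ 0 := mul_ne_zero hp0 h0
  have hroot : ∀ {w : C} {t : ℕ}, t ≠ 0 → w ^ t = 1 → f.IsIntegralElem w := by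
    intro w t ht hw
    refine ⟨X ^ t - Polynomial.C 1, monic_X_pow_sub_C 1 ht, ?_⟩
    simp [hw]
  have hsum : ∀ {ι : Type} (s : Finset ι) (w : ι → C), (∀ i ∈ s, f.IsIntegralElem (w i)) →
      f.IsIntegralElem (∑ i ∈ s, w i) := by
    intro ι s w h
    let _ : Algebra ℤ_[p] C := f.toAlgebra
    have h' : ∀ i ∈ s, IsIntegral ℤ_[p] (w i) := h
    exact IsIntegral.sum w h'
  have hvint : f.IsIntegralElem v := by
    have h1 : v = ∑ x : (ZMod (p ^ (r + 1)))ˣ, ψ₀ x * f (ν r x) := by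
      rw [hv, Finset.mul_sum]
      refine Finset.sum_congr rfl fun x _ => ?_
      rw [hfν]
      ring
    rw [h1]
    refine hsum _ _ fun x _ => RingHom.IsIntegralElem.mul f (hroot (t := orderOf x) ?_ ?_)
      (f.isIntegralElem_map)
    · exact (orderOf_pos x).ne'
    · rw [← map_pow, ← Units.val_pow_eq_pow_val, pow_orderOf_eq_one, Units.val_one, map_one]
  obtain ⟨N, hN⟩ := exists_bound hv0 hvint
  by_contra hcon
  push Not at hcon
  set Bad : Set ℕ := {k | ∃ (hk : r ≤ k) (ψ : DirichletCharacter C (p ^ (k + 1 + 1))),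
      ψ.IsPrimitive ∧ (∃ l, orderOf ψ = p ^ l) ∧
      IsZero μ (changeLevel (pow_dvd_pow p (by omega : r + 1 ≤ k + 1 + 1)) ψ₀ * ψ)} with hBad
  have hinf : Bad.Infinite := by
    refine Set.infinite_of_forall_exists_gt fun a => ?_
    obtain ⟨k, hk, ψ, h1, h2, h3, h4⟩ := hcon (a + 1)
    exact ⟨k, ⟨hk, ψ, h1, h2, h3⟩, h4⟩
  obtain ⟨S, hS, hcard⟩ := hinf.exists_subset_card_eq (N + 1)
  obtain ⟨m, hrm, hm⟩ : ∃ m : ℕ, r ≤ m ∧ ∀ k ∈ S, k + 1 ≤ m :=
    ⟨max r (S.sup fun k => k + 1), le_max_left _ _,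
      fun k hk => le_max_of_le_right (Finset.le_sup (f := fun k => k + 1) hk)⟩
  obtain ⟨g, hg⟩ := exists_gen (p := p) hp2 m
  have hg' := hg
  choose ℓ hℓ using hg
  have hdvd₀ : p ^ (r + 1) ∣ p ^ (m + 1) := pow_dvd_pow p (by omega)
  set z : C := ψ₀ (ZMod.unitsMap hdvd₀ g : (ZMod (p ^ (r + 1)))ˣ) with hz
  have hzpow : ∀ x : (ZMod (p ^ (m + 1)))ˣ,
      ψ₀ (ZMod.unitsMap hdvd₀ x : (ZMod (p ^ (r + 1)))ˣ) = z ^ ℓ x := by
    intro x
    conv_lhs => rw [← hℓ x]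
    rw [map_pow, Units.val_pow_eq_pow_val, map_pow]
  have hz1 : z ^ (p ^ r * (p - 1)) = 1 := by
    rw [hz, ← map_pow, ← Units.val_pow_eq_pow_val, ← card_units_pow r, pow_card_eq_one,
      Units.val_one, map_one]
  have hz0 : z ≠ 0 := by
    intro h
    rw [h, zero_pow (mul_ne_zero (pow_ne_zero _ hp.out.ne_zero)
      (Nat.sub_ne_zero_of_lt hp.out.one_lt))] at hz1
    exact zero_ne_one hz1
  obtain ⟨t, ht⟩ := exists_of_pow_eq_one (C := C) (z := z ^ p ^ r) (by rw [← pow_mul, hz1])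
  have hft : f t = z ^ p ^ r := ht
  set ζ₁ : C := z * (z ^ p ^ r)⁻¹ with hζ₁
  have hζ₁1 : ζ₁ ^ p ^ r = 1 := by
    obtain ⟨c, hc⟩ : p - 1 ∣ p ^ r - 1 := by
      have := Nat.sub_dvd_pow_sub_pow p 1 r
      rwa [one_pow] at this
    have h1 : p ^ r * p ^ r = p ^ r + p ^ r * (p - 1) * c := by
      have h2 : p ^ r = (p - 1) * c + 1 := by
        have := Nat.one_le_pow r p hp.out.pos
        omega
      calc p ^ r * p ^ r = p ^ r * ((p - 1) * c + 1) := by rw [← h2]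
        _ = p ^ r + p ^ r * (p - 1) * c := by ring
    have h2 : z ^ (p ^ r * p ^ r) = z ^ p ^ r := by
      rw [h1, pow_add, pow_mul, hz1, one_pow, mul_one]
    rw [hζ₁, mul_pow, inv_pow, ← pow_mul, h2, mul_inv_cancel₀ (pow_ne_zero _ hz0)]
  have hftζ : f t * ζ₁ = z := by
    rw [hft, hζ₁]
    field_simp
  set F : ℤ_[p][X] := ∑ x : (ZMod (p ^ (m + 1)))ˣ,
    Polynomial.C (ν m x * t ^ ℓ x) * X ^ ℓ x with hF
  have hFeval : ∀ ζ : C, F.eval₂ f ζ = algebraMap ℚ_[p] C ((p : ℚ_[p]) ^ e) *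
      ∑ x : (ZMod (p ^ (m + 1)))ˣ, (f t * ζ) ^ ℓ x * algebraMap ℚ_[p] C (μ m x) := by
    intro ζ
    rw [hF, eval₂_finsetSum, Finset.mul_sum]
    refine Finset.sum_congr rfl fun x _ => ?_
    rw [eval₂_mul, eval₂_C, eval₂_X_pow, map_mul, map_pow, hfν, mul_pow]
    ring
  -- the factorisation
  obtain ⟨G, hG⟩ := exists_factor S (F := F) (C := C) fun k hk => by
    obtain ⟨hrk, ψ, hψ, ⟨l, hl⟩, hzero⟩ := hS hk
    have hl' : l = k + 1 := eq_of_orderOf hp2 hψ hl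
    subst hl'
    have hdk : p ^ (k + 1 + 1) ∣ p ^ (m + 1) := pow_dvd_pow p (by have := hm k hk; omega)
    have hdr : p ^ (r + 1) ∣ p ^ (k + 1 + 1) := pow_dvd_pow p (by omega)
    have hζ : IsPrimitiveRoot (ψ (ZMod.unitsMap hdk g : (ZMod (p ^ (k + 1 + 1)))ˣ))
        (p ^ (k + 1)) := by
      rw [← hl]
      exact isPrimitiveRoot_apply hg' hdk ψ
    set ζ : C := ψ (ZMod.unitsMap hdk g : (ZMod (p ^ (k + 1 + 1)))ˣ) with hζdef
    have hζ₁k : ζ₁ ^ p ^ k = 1 := by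
      obtain ⟨c, hc⟩ := pow_dvd_pow p hrk
      rw [hc, pow_mul, hζ₁1, one_pow]
    refine ⟨ζ₁ * ζ, ?_, ?_⟩
    · have h1 : orderOf (ζ₁ * ζ) = p ^ (k + 1) := by
        refine orderOf_eq_prime_pow ?_ ?_
        · rw [mul_pow, hζ₁k, one_mul]
          intro h
          have h2 := hζ.dvd_of_pow_eq_one _ h
          exact absurd (Nat.le_of_dvd (pow_pos hp.out.pos _) h2)
            (not_le.mpr (Nat.pow_lt_pow_right hp.out.one_lt (Nat.lt_succ_self k)))
        · rw [mul_pow, hζ.pow_eq_one, mul_one, pow_succ, pow_mul, hζ₁k, one_pow]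
      rw [← h1]
      exact IsPrimitiveRoot.orderOf _
    · have h1 : aeval (ζ₁ * ζ) (F.map (algebraMap ℤ_[p] ℚ_[p])) = F.eval₂ f (ζ₁ * ζ) := by
        rw [aeval_def, eval₂_map]
      rw [h1, hFeval, ← mul_assoc, hftζ]
      have h2 : ∀ x : (ZMod (p ^ (m + 1)))ˣ, (z * ζ) ^ ℓ x =
          (changeLevel hdr ψ₀ * ψ) (ZMod.unitsMap hdk x : (ZMod (p ^ (k + 1 + 1)))ˣ) := by
        intro x
        rw [MulChar.coeToFun_mul, Pi.mul_apply, changeLevel_apply, ← MonoidHom.comp_apply,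
          ZMod.unitsMap_comp hdr hdk, hzpow x, mul_pow]
        congr 1
        conv_rhs => rw [← hℓ x]
        rw [map_pow, Units.val_pow_eq_pow_val, map_pow]
      simp only [h2]
      rw [integral_char hμ (hm k hk) hdk]
      have h3 : ∑ x : (ZMod (p ^ (k + 1 + 1)))ˣ, (changeLevel hdr ψ₀ * ψ) x *
          algebraMap ℚ_[p] C (μ (k + 1) x) = 0 := hzero
      rw [h3, mul_zero]
  have hFζ₁ : F.eval₂ f ζ₁ = v := by
    rw [hFeval, hftζ, hv, ← integral_char hμ hrm hdvd₀ ψ₀]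
    simp only [hzpow]
  have hprod : ∀ k ∈ S, (cyclotomic (p ^ (k + 1)) ℤ_[p]).eval₂ f ζ₁ = p := by
    intro k hk
    obtain ⟨hrk, -⟩ := hS hk
    rw [← eval_map, map_cyclotomic]
    refine eval_cyclotomic_of_pow_eq_one ?_
    obtain ⟨c, hc⟩ := pow_dvd_pow p hrk
    rw [hc, pow_mul, hζ₁1, one_pow]
  have h1 : v = p ^ (N + 1) * G.eval₂ f ζ₁ := by
    rw [← hFζ₁, hG, eval₂_mul, eval₂_finsetProd, Finset.prod_congr rfl hprod, Finset.prod_const,
      hcard]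
  have h2 : f.IsIntegralElem (G.eval₂ f ζ₁) := by
    rw [eval₂_eq_sum_range]
    refine hsum _ _ fun i _ => RingHom.IsIntegralElem.mul f (f.isIntegralElem_map)
      (hroot (t := p ^ r) (pow_ne_zero _ hp.out.ne_zero) ?_)
    rw [← pow_mul, mul_comm, pow_mul, hζ₁1, one_pow]
  have h3 := hN (N + 1) _ h2 h1
  omega

end zeros

/-! ### The theorems -/

section main

theorem pow_pow_add {G : Type u} [Monoid G] {x : G} {p : ℕ} (a b : ℕ) (h : x ^ p ^ a = 1) :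
    x ^ p ^ (a + b) = 1 := by
  rw [pow_add, pow_mul, h, one_pow]

variable {W : WeierstrassCurve ℤ}

/-- A bounded distribution on `ℤ_p` with values in `ℚ_p` whose zeros are the zeros of
`L(W, χ, 1)`. -/
theorem exists_measure (hΔ : W.Δ ≠ 0) (hW : W.IsSemistableModel) (p : ℕ) [hp : Fact p.Prime]
    (hpΔ : ¬ (p : ℤ) ∣ W.Δ) (hord : ¬ (p : ℤ) ∣ ap W p) :
    ∃ μ : (n : ℕ) → ZMod (p ^ (n + 1)) → ℚ_[p],
      (∀ (n : ℕ) (x : ZMod (p ^ (n + 1))),
        ∑ y : ZMod (p ^ (n + 2)) with red p n y = x, μ (n + 1) y = μ n x) ∧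
      (∃ B : ℝ, ∀ (n : ℕ) (x : ZMod (p ^ (n + 1))), ‖μ n x‖ ≤ B) ∧
      (∀ L : ℂ → ℂ, IsHasseWeil W L →
        (L 1 = 0 ↔ ∑ x : (ZMod (p ^ (0 + 1)))ˣ, μ 0 x = 0)) ∧
      ∀ (C : Type) [Field C] [Algebra ℚ_[p] C] (j : ℂ →+* C) (n : ℕ)
        (χ : DirichletCharacter ℂ (p ^ (n + 1))), χ.IsPrimitive → ∀ L : ℂ → ℂ,
          Twist.IsTwist W χ L → (L 1 = 0 ↔ IsZero μ (MulChar.ringHomComp χ⁻¹ j)) := by
  obtain ⟨Ω₁, Ω₂, hP⟩ := exists_isPeriodsOf hΔ hW
  obtain ⟨f, hf, ha, hPf⟩ := id hP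
  have hΩ₁ : (Ω₁ : ℂ) ≠ 0 := Complex.ofReal_ne_zero.mpr hPf.pos₁.ne'
  have hΩ₂ : (Ω₂ : ℂ) ≠ 0 := Complex.ofReal_ne_zero.mpr hPf.pos₂.ne'
  obtain ⟨α, hα1, hα, μ, hμ, hB, hmass, hint⟩ := padic_L_function.{0, 0} hΔ hP p hpΔ hord
  have hα0 : α ≠ 0 := by
    intro h
    rw [h, norm_zero] at hα1
    exact zero_ne_one hα1
  have hα1' : α ≠ 1 := by
    rintro rfl
    refine ap_ne hΔ hW hp.out ?_
    have h1 : ((ap W p : ℤ) : ℚ_[p]) = ((1 + p : ℤ) : ℚ_[p]) := by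
      push_cast
      linear_combination -hα
    exact Int.cast_injective h1
  refine ⟨μ, hμ, hB, fun L hL => ?_, fun C _ _ j n χ hχ L hL => ?_⟩
  · obtain ⟨q, hq, hm⟩ := hmass L hL
    have h1 : (1 - α⁻¹) ^ 2 ≠ 0 :=
      pow_ne_zero 2 (sub_ne_zero.mpr fun h => hα1' (inv_eq_one.mp h.symm))
    rw [hq, hm, mul_eq_zero, mul_eq_zero, or_iff_left hΩ₁, or_iff_right h1, Rat.cast_eq_zero,
      Rat.cast_eq_zero]
  · obtain ⟨A, hA₁, hA₂⟩ := hint n ℂ χ⁻¹ (Twist.isPrimitive_inv hχ)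
    have hid : MulChar.ringHomComp (χ⁻¹)⁻¹ (RingHom.id ℂ) = χ := by
      rw [inv_inv]
      exact MulChar.ext fun u => by rw [MulChar.ringHomComp_apply, RingHom.id_apply]
    have hg := Twist.gauss_ne_zero hχ
    obtain ⟨he, ho⟩ := hA₂ (RingHom.id ℂ) L (by rw [hid]; exact hL)
    have hpn : (p : ℂ) ^ (n + 1) ≠ 0 := pow_ne_zero _ (Nat.cast_ne_zero.mpr hp.out.ne_zero)
    have hA : L 1 = 0 ↔ A = 0 := by
      rcases DirichletCharacter.even_or_odd χ⁻¹ with hev | hodd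
      · have h1 := he hev
        rw [hid, RingHom.id_apply] at h1
        constructor
        · intro h
          rw [h, mul_zero] at h1
          exact (mul_eq_zero.mp h1.symm).resolve_left (mul_ne_zero hg hΩ₁)
        · intro h
          rw [h, mul_zero] at h1
          exact (mul_eq_zero.mp h1).resolve_left hpn
      · have h1 := ho hodd
        rw [hid, RingHom.id_apply] at h1
        constructor
        · intro h
          rw [h, mul_zero] at h1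
          exact (mul_eq_zero.mp h1.symm).resolve_left
            (mul_ne_zero hg (mul_ne_zero (neg_ne_zero.mpr Complex.I_ne_zero) hΩ₂))
        · intro h
          rw [h, mul_zero] at h1
          exact (mul_eq_zero.mp h1).resolve_left hpn
    rw [hA]
    have h1 := hA₁ C j
    have h2 : algebraMap ℚ_[p] C (α⁻¹ ^ (n + 1)) ≠ 0 :=
      (_root_.map_ne_zero _).mpr (pow_ne_zero _ (inv_ne_zero hα0))
    have h3 : IsZero μ (MulChar.ringHomComp χ⁻¹ j) ↔
        ∑ x : (ZMod (p ^ (n + 1)))ˣ, j (χ⁻¹ x) * algebraMap ℚ_[p] C (μ n x) = 0 := Iff.rfl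
    rw [h3, h1, mul_eq_zero, or_iff_right h2, _root_.map_eq_zero]

/-- **Non-vanishing of almost all twists in a branch.** Let `p` be an odd prime of good ordinary
reduction and `χ₀` a primitive character of conductor `p^(r+1)` with `L(W, χ₀, 1) ≠ 0`. Then
`L(W, χ₀ χ, 1) ≠ 0` for all but finitely many characters `χ` of `p`-power order and conductor. -/
theorem nonvanishing_mul (hΔ : W.Δ ≠ 0) (hW : W.IsSemistableModel) (p : ℕ) [hp : Fact p.Prime]
    (hp2 : p ≠ 2) (hpΔ : ¬ (p : ℤ) ∣ W.Δ) (hord : ¬ (p : ℤ) ∣ ap W p) {r : ℕ}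
    {χ₀ : DirichletCharacter ℂ (p ^ (r + 1))} (hχ₀ : χ₀.IsPrimitive) {L₀ : ℂ → ℂ}
    (hL₀ : Twist.IsTwist W χ₀ L₀) (h0 : L₀ 1 ≠ 0) :
    ∃ n₀ : ℕ, ∀ (n : ℕ) (hn : r < n) (χ : DirichletCharacter ℂ (p ^ (n + 1))), n₀ ≤ n →
      χ.IsPrimitive → (∃ k, orderOf χ = p ^ k) → ∀ L : ℂ → ℂ,
        Twist.IsTwist W (changeLevel (pow_dvd_pow p (by omega : r + 1 ≤ n + 1)) χ₀ * χ) L →
          L 1 ≠ 0 := by
  obtain ⟨μ, hμ, ⟨B, hB⟩, -, hint⟩ := exists_measure hΔ hW p hpΔ hord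
  obtain ⟨C, _, _, ⟨j⟩⟩ := exists_extension p
  have h0' : ¬ IsZero μ (MulChar.ringHomComp χ₀⁻¹ j) := fun h =>
    h0 ((hint C j r χ₀ hχ₀ L₀ hL₀).mpr h)
  obtain ⟨k₀, hk₀⟩ := finite_zeros_mul hp2 hμ hB h0'
  refine ⟨k₀ + 1, fun n hn χ hn' hχ hk L hL hL0 => ?_⟩
  obtain ⟨k, rfl⟩ : ∃ k, n = k + 1 := ⟨n - 1, by omega⟩
  have hdr : p ^ (r + 1) ∣ p ^ (k + 1) := pow_dvd_pow p (by omega)
  have hprim := isPrimitive_mul hdr hχ χ₀
  have h1 := (hint C j (k + 1) _ hprim L hL).mp hL0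
  have h2 : MulChar.ringHomComp
      (changeLevel (hdr.trans (pow_dvd_pow p (Nat.le_succ (k + 1)))) χ₀ * χ)⁻¹ j =
      changeLevel (hdr.trans (pow_dvd_pow p (Nat.le_succ (k + 1))))
        (MulChar.ringHomComp χ₀⁻¹ j) * MulChar.ringHomComp χ⁻¹ j := by
    refine MulChar.ext fun u => ?_
    rw [MulChar.coeToFun_mul, Pi.mul_apply, changeLevel_apply, MulChar.ringHomComp_apply,
      MulChar.ringHomComp_apply, MulChar.ringHomComp_apply, MulChar.inv_apply_eq_inv',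
      MulChar.inv_apply_eq_inv', MulChar.inv_apply_eq_inv', MulChar.coeToFun_mul, Pi.mul_apply,
      changeLevel_apply, mul_inv, map_mul]
  rw [h2] at h1
  have h3 := hk₀ k (by omega) (MulChar.ringHomComp χ⁻¹ j) (by
    rw [DirichletCharacter.isPrimitive_def, conductor_comp]
    exact Twist.isPrimitive_inv hχ) (by
    rw [orderOf_comp, orderOf_inv]
    exact hk) h1
  omega

/-- **Dichotomy.** Let `p` be an odd prime of good ordinary reduction and `ω` a character modulo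
`p`. Among the values `L(W, ω χ, 1)`, `χ ≠ 1` of `p`-power order and conductor, either all vanish
or only finitely many do. -/
theorem dichotomy (hΔ : W.Δ ≠ 0) (hW : W.IsSemistableModel) (p : ℕ) [hp : Fact p.Prime]
    (hp2 : p ≠ 2) (hpΔ : ¬ (p : ℤ) ∣ W.Δ) (hord : ¬ (p : ℤ) ∣ ap W p)
    (ω : DirichletCharacter ℂ p) :
    (∀ (n : ℕ) (χ : DirichletCharacter ℂ (p ^ (n + 1 + 1))), χ.IsPrimitive →
      (∃ k, orderOf χ = p ^ k) → ∀ L : ℂ → ℂ,
        Twist.IsTwist W (changeLevel (dvd_pow_self p (Nat.succ_ne_zero (n + 1))) ω * χ) L →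
          L 1 = 0) ∨
    ∃ n₀ : ℕ, ∀ n ≥ n₀, ∀ χ : DirichletCharacter ℂ (p ^ (n + 1 + 1)), χ.IsPrimitive →
      (∃ k, orderOf χ = p ^ k) → ∀ L : ℂ → ℂ,
        Twist.IsTwist W (changeLevel (dvd_pow_self p (Nat.succ_ne_zero (n + 1))) ω * χ) L →
          L 1 ≠ 0 := by
  rw [or_iff_not_imp_left]
  intro h
  push Not at h
  obtain ⟨n₁, χ₁, hχ₁, hk₁, L₁, hL₁, h1⟩ := h
  have hpn₁ : p ∣ p ^ (n₁ + 1) := dvd_pow_self p (Nat.succ_ne_zero n₁)
  obtain ⟨n₀, hn₀⟩ := nonvanishing_mul hΔ hW p hp2 hpΔ hord (isPrimitive_mul hpn₁ hχ₁ ω) hL₁ h1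
  refine ⟨max (n₁ + 1) n₀, fun n hn χ hχ hk L hL => ?_⟩
  have hnn₁ : n₁ + 1 ≤ n := le_of_max_le_left hn
  have hdvd : p ^ (n₁ + 1 + 1) ∣ p ^ (n + 1) := pow_dvd_pow p (by omega)
  have hdvd' : p ^ (n₁ + 1 + 1) ∣ p ^ (n + 1 + 1) := pow_dvd_pow p (by omega)
  have hord' : ∃ k, orderOf (changeLevel hdvd' χ₁⁻¹ * χ) = p ^ k := by
    rw [exists_orderOf_eq_prime_pow_iff] at hk hk₁ ⊢
    obtain ⟨a, ha⟩ := hk
    obtain ⟨b, hb⟩ := hk₁
    have e1 : χ ^ p ^ (a + b) = 1 := pow_pow_add a b ha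
    have e2 : χ₁⁻¹ ^ p ^ (a + b) = 1 := by
      have := pow_pow_add b a (x := χ₁⁻¹) (by rw [inv_pow, hb, inv_one])
      rwa [add_comm b a] at this
    refine ⟨a + b, ?_⟩
    rw [mul_pow, ← map_pow, e1, e2, map_one, one_mul]
  refine hn₀ (n + 1) (by omega) (changeLevel hdvd' χ₁⁻¹ * χ)
    (by have := le_of_max_le_right hn; omega) (isPrimitive_mul hdvd hχ χ₁⁻¹) hord' L ?_
  have h2 : changeLevel hdvd' (changeLevel (dvd_pow_self p (Nat.succ_ne_zero (n₁ + 1))) ω * χ₁) *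
      (changeLevel hdvd' χ₁⁻¹ * χ) =
      changeLevel (dvd_pow_self p (Nat.succ_ne_zero (n + 1))) ω * χ := by
    rw [map_mul, ← changeLevel_trans, mul_assoc, ← mul_assoc (changeLevel hdvd' χ₁), ← map_mul,
      mul_inv_cancel, map_one, one_mul]
  rw [← h2] at hL
  exact hL

end main

end Fermat.Agent.Cor.HW.Per
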