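import Fermat.Agent.Corollaries.HW.NonVanOrd
import Mathlib.NumberTheory.Padics.ProperSpace
import Mathlib.Topology.Algebra.InfiniteSum.Nonarchimedean

/-!
# The `p`-adic `L`-function as a continuous functional

A bounded distribution `μ` on `ℤ_p` extends uniquely to a continuous linear functional on the space
of continuous functions on `ℤ_p` with values in a complete ultrametric extension `C` of `ℚ_p`.
-/

set_option autoImplicit false

noncomputable section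

open DirichletCharacter Filter Topology

namespace Fermat.Agent.Cor.HW.Per

universe u v

variable {p : ℕ} [hp : Fact p.Prime] {C : Type u} [NormedField C] [NormedAlgebra ℚ_[p] C]

/-- The Riemann sums of a continuous function. -/
def riemann (μ : (n : ℕ) → ZMod (p ^ (n + 1)) → ℚ_[p]) (n : ℕ) : C(ℤ_[p], C) →ₗ[C] C where
  toFun f := ∑ x : ZMod (p ^ (n + 1)), f ((x.val : ℕ) : ℤ_[p]) * algebraMap ℚ_[p] C (μ n x)
  map_add' f g := by simp only [ContinuousMap.add_apply, add_mul, Finset.sum_add_distrib]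
  map_smul' c f := by
    simp only [ContinuousMap.smul_apply, smul_eq_mul, mul_assoc, ← Finset.mul_sum, RingHom.id_apply]

theorem riemann_apply (μ : (n : ℕ) → ZMod (p ^ (n + 1)) → ℚ_[p]) (n : ℕ) (f : C(ℤ_[p], C)) :
    riemann μ n f =
      ∑ x : ZMod (p ^ (n + 1)), f ((x.val : ℕ) : ℤ_[p]) * algebraMap ℚ_[p] C (μ n x) := rfl

theorem norm_val_sub_le (n : ℕ) (x : ℤ_[p]) :
    ‖(((PadicInt.toZModPow (n + 1) x).val : ℕ) : ℤ_[p]) - x‖ ≤ (p : ℝ) ^ (-((n + 1 : ℕ) : ℤ)) := by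
  rw [PadicInt.norm_le_pow_iff_mem_span_pow, ← PadicInt.ker_toZModPow, RingHom.mem_ker, map_sub,
    map_natCast, ZMod.natCast_zmod_val, sub_self]

theorem red_toZModPow (n : ℕ) (x : ℤ_[p]) :
    red p n (PadicInt.toZModPow (n + 2) x) = PadicInt.toZModPow (n + 1) x :=
  congrArg (fun g : ℤ_[p] →+* ZMod (p ^ (n + 1)) => g x)
    (PadicInt.zmod_cast_comp_toZModPow (n + 1) (n + 2) (Nat.le_succ _))

theorem toZModPow_val (n : ℕ) (x : ZMod (p ^ (n + 1))) :
    PadicInt.toZModPow (n + 1) ((x.val : ℕ) : ℤ_[p]) = x := by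
  rw [map_natCast, ZMod.natCast_zmod_val]

/-- The locally constant function on `ℤ_p` given by a function modulo `p^(n+1)`. -/
def ofMod (n : ℕ) (f : ZMod (p ^ (n + 1)) → C) : C(ℤ_[p], C) where
  toFun x := f (PadicInt.toZModPow (n + 1) x)
  continuous_toFun := by
    refine IsLocallyConstant.continuous ((IsLocallyConstant.iff_exists_open _).mpr fun x => ?_)
    refine ⟨Metric.ball x ((p : ℝ) ^ (-((n : ℕ) : ℤ))), Metric.isOpen_ball,
      Metric.mem_ball_self (zpow_pos (by exact_mod_cast hp.out.pos) _), fun y hy => ?_⟩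
    congr 1
    rw [Metric.mem_ball, dist_eq_norm] at hy
    have h1 : ‖y - x‖ ≤ (p : ℝ) ^ (-((n + 1 : ℕ) : ℤ)) := by
      rw [PadicInt.norm_le_pow_iff_norm_lt_pow_add_one]
      refine lt_of_lt_of_eq hy ?_
      congr 1
      push_cast
      ring
    rw [PadicInt.norm_le_pow_iff_mem_span_pow, ← PadicInt.ker_toZModPow, RingHom.mem_ker, map_sub,
      sub_eq_zero] at h1
    exact h1

omit [NormedAlgebra ℚ_[p] C] in
@[simp]
theorem ofMod_apply (n : ℕ) (f : ZMod (p ^ (n + 1)) → C) (x : ℤ_[p]) :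
    ofMod n f x = f (PadicInt.toZModPow (n + 1) x) := rfl

/-- The Riemann sums of a locally constant function are eventually constant. -/
theorem riemann_ofMod {μ : (n : ℕ) → ZMod (p ^ (n + 1)) → ℚ_[p]}
    (hμ : ∀ (n : ℕ) (x : ZMod (p ^ (n + 1))),
      ∑ y : ZMod (p ^ (n + 2)) with red p n y = x, μ (n + 1) y = μ n x)
    (n : ℕ) (f : ZMod (p ^ (n + 1)) → C) (k : ℕ) :
    riemann μ (n + k) (ofMod n f) = ∑ x : ZMod (p ^ (n + 1)), f x * algebraMap ℚ_[p] C (μ n x) := by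
  induction k with
  | zero =>
    rw [add_zero, riemann_apply]
    exact Finset.sum_congr rfl fun x _ => by rw [ofMod_apply, toZModPow_val]
  | succ k ih =>
    rw [← ih, riemann_apply, riemann_apply]
    change ∑ y : ZMod (p ^ (n + k + 2)), ofMod n f ((y.val : ℕ) : ℤ_[p]) *
      algebraMap ℚ_[p] C (μ (n + k + 1) y) = _
    rw [← Finset.sum_fiberwise _ (red p (n + k))]
    refine Finset.sum_congr rfl fun x _ => ?_
    rw [← hμ (n + k) x, map_sum, Finset.mul_sum]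
    refine Finset.sum_congr rfl fun y hy => ?_
    rw [Finset.mem_filter] at hy
    congr 1
    rw [ofMod_apply, ofMod_apply]
    congr 1
    have h1 : ∀ z : ℤ_[p], PadicInt.toZModPow (n + 1) z =
        ZMod.castHom (pow_dvd_pow p (by omega : n + 1 ≤ n + k + 1)) (ZMod (p ^ (n + 1)))
          (PadicInt.toZModPow (n + k + 1) z) := fun z =>
      (congrArg (fun g : ℤ_[p] →+* ZMod (p ^ (n + 1)) => g z)
        (PadicInt.zmod_cast_comp_toZModPow (n + 1) (n + k + 1) (by omega))).symm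
    rw [h1, h1, toZModPow_val, ← red_toZModPow]
    have h2 : PadicInt.toZModPow (n + k + 2) ((y.val : ℕ) : ℤ_[p]) = y := by
      rw [map_natCast, ZMod.natCast_zmod_val]
    rw [h2, hy.2]

variable [IsUltrametricDist C]

theorem norm_riemann_le {μ : (n : ℕ) → ZMod (p ^ (n + 1)) → ℚ_[p]} {B : ℝ}
    (hB : ∀ (n : ℕ) (x : ZMod (p ^ (n + 1))), ‖μ n x‖ ≤ B) (n : ℕ) (f : C(ℤ_[p], C)) :
    ‖riemann μ n f‖ ≤ B * ‖f‖ := by
  have hB0 : 0 ≤ B := (norm_nonneg _).trans (hB 0 0)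
  rw [riemann_apply]
  refine IsUltrametricDist.norm_sum_le_of_forall_le_of_nonneg (by positivity) fun x _ => ?_
  rw [norm_mul, norm_algebraMap', mul_comm]
  exact mul_le_mul (hB n x) (f.norm_coe_le_norm _) (norm_nonneg _) hB0

omit [IsUltrametricDist C] [NormedAlgebra ℚ_[p] C] in
/-- A continuous function on `ℤ_p` is the uniform limit of the functions
`x ↦ f (x mod p^(n+1))`. -/
theorem tendsto_ofMod (f : C(ℤ_[p], C)) :
    Tendsto (fun n => ofMod n fun x : ZMod (p ^ (n + 1)) => f ((x.val : ℕ) : ℤ_[p])) atTop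
      (𝓝 f) := by
  rw [Metric.tendsto_atTop]
  intro ε hε
  obtain ⟨δ, hδ, h⟩ := Metric.uniformContinuous_iff.mp
    (CompactSpace.uniformContinuous_of_continuous f.continuous) ε hε
  obtain ⟨N, hN⟩ := PadicInt.exists_pow_neg_lt p hδ
  refine ⟨N, fun n hn => ?_⟩
  rw [ContinuousMap.dist_lt_iff hε]
  intro x
  rw [ofMod_apply]
  refine h ?_
  rw [dist_eq_norm]
  refine lt_of_le_of_lt (norm_val_sub_le n x) (lt_of_le_of_lt ?_ hN)
  exact zpow_le_zpow_right₀ (by exact_mod_cast hp.out.one_lt.le) (by omega)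

variable [CompleteSpace C]

/-- **Measures as functionals.** A bounded distribution `μ` on `ℤ_p` with values in `ℚ_p` extends
uniquely to a continuous `C`-linear functional `Λ` on the space of all continuous functions
`ℤ_p → C`, `C` any complete ultrametric extension of `ℚ_p`; moreover `|Λ f| ≤ B |f|`. -/
theorem exists_functional {μ : (n : ℕ) → ZMod (p ^ (n + 1)) → ℚ_[p]}
    (hμ : ∀ (n : ℕ) (x : ZMod (p ^ (n + 1))),
      ∑ y : ZMod (p ^ (n + 2)) with red p n y = x, μ (n + 1) y = μ n x) {B : ℝ}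
    (hB : ∀ (n : ℕ) (x : ZMod (p ^ (n + 1))), ‖μ n x‖ ≤ B) :
    ∃ Λ : C(ℤ_[p], C) →L[C] C, (∀ f, ‖Λ f‖ ≤ B * ‖f‖) ∧
      (∀ (n : ℕ) (f : ZMod (p ^ (n + 1)) → C),
        Λ (ofMod n f) = ∑ x : ZMod (p ^ (n + 1)), f x * algebraMap ℚ_[p] C (μ n x)) ∧
      ∀ Λ' : C(ℤ_[p], C) →L[C] C, (∀ (n : ℕ) (f : ZMod (p ^ (n + 1)) → C),
        Λ' (ofMod n f) = ∑ x : ZMod (p ^ (n + 1)), f x * algebraMap ℚ_[p] C (μ n x)) →
          Λ' = Λ := by
  have hB0 : 0 ≤ B := (norm_nonneg _).trans (hB 0 0)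
  have hc : ∀ f : C(ℤ_[p], C), ∃ a : C, Tendsto (fun n => riemann μ n f) atTop (𝓝 a) := by
    intro f
    refine cauchySeq_tendsto_of_complete
      (NonarchimedeanAddGroup.cauchySeq_of_tendsto_sub_nhds_zero ?_)
    have h1 : ∀ n, riemann μ (n + 1) f - riemann μ n f = riemann μ (n + 1)
        (f - ofMod n fun x : ZMod (p ^ (n + 1)) => f ((x.val : ℕ) : ℤ_[p])) := by
      intro n
      rw [map_sub, riemann_ofMod hμ n _ 1, riemann_apply μ n]
    have h2 : Tendsto (fun n => B * ‖f - ofMod n fun x : ZMod (p ^ (n + 1)) =>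
        f ((x.val : ℕ) : ℤ_[p])‖) atTop (𝓝 0) := by
      have h3 := ((tendsto_const_nhds (x := f)).sub (tendsto_ofMod f)).norm.const_mul B
      rwa [sub_self, norm_zero, mul_zero] at h3
    exact squeeze_zero_norm (fun n => by rw [h1 n]; exact norm_riemann_le hB _ _) h2
  choose Λ₀ hΛ₀ using hc
  let Λ₁ : C(ℤ_[p], C) →ₗ[C] C := linearMapOfTendsto Λ₀ (riemann μ) (tendsto_pi_nhds.mpr hΛ₀)
  have hb : ∀ f, ‖Λ₁ f‖ ≤ B * ‖f‖ := fun f =>
    le_of_tendsto (hΛ₀ f).norm (Eventually.of_forall fun n => norm_riemann_le hB n f)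
  have hint : ∀ (n : ℕ) (f : ZMod (p ^ (n + 1)) → C),
      Λ₁ (ofMod n f) = ∑ x : ZMod (p ^ (n + 1)), f x * algebraMap ℚ_[p] C (μ n x) := by
    intro n f
    refine tendsto_nhds_unique (hΛ₀ (ofMod n f)) ?_
    rw [← tendsto_add_atTop_iff_nat n]
    refine Tendsto.congr (fun k => ?_) tendsto_const_nhds
    rw [add_comm k n, riemann_ofMod hμ]
  refine ⟨Λ₁.mkContinuous B hb, hb, hint, fun Λ' hΛ' => ?_⟩
  refine ContinuousLinearMap.ext fun f => ?_
  refine tendsto_nhds_unique ((Λ'.continuous.tendsto f).comp (tendsto_ofMod f))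
    (Tendsto.congr (fun n => ?_)
      (((Λ₁.mkContinuous B hb).continuous.tendsto f).comp (tendsto_ofMod f)))
  exact (hint n _).trans (hΛ' n _).symm

omit [NormedAlgebra ℚ_[p] C] [IsUltrametricDist C] [CompleteSpace C] in
theorem sum_eq_sum_units (n : ℕ) (g : ZMod (p ^ (n + 1)) → C) (hg : ∀ x, ¬ IsUnit x → g x = 0) :
    ∑ x : ZMod (p ^ (n + 1)), g x = ∑ x : (ZMod (p ^ (n + 1)))ˣ, g x := by
  symm
  refine Finset.sum_of_injOn (fun x : (ZMod (p ^ (n + 1)))ˣ => (x : ZMod (p ^ (n + 1))))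
    (fun a _ b _ h => Units.ext h) (fun _ _ => Finset.mem_coe.mpr (Finset.mem_univ _))
    (fun x _ hx => hg x ?_) (fun _ _ => rfl)
  rintro ⟨y, rfl⟩
  exact hx ⟨y, Finset.mem_coe.mpr (Finset.mem_univ _), rfl⟩

variable {W : WeierstrassCurve ℤ} {Ω₁ Ω₂ : ℝ}

/-- **The `p`-adic `L`-function of a semistable elliptic curve as a functional** on the continuous
functions on `ℤ_p` with values in `C` (a complete ultrametric extension of `ℚ_p`, for instance
`ℚ_p` or `ℂ_p`), `p` a prime of good ordinary reduction. -/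
theorem padic_L_functional (hΔ : W.Δ ≠ 0) (hP : IsPeriodsOf W Ω₁ Ω₂) (p : ℕ)
    [hp : Fact p.Prime] (hpΔ : ¬ (p : ℤ) ∣ W.Δ) (hord : ¬ (p : ℤ) ∣ ap W p)
    (C : Type v) [NormedField C] [NormedAlgebra ℚ_[p] C] [IsUltrametricDist C] [CompleteSpace C] :
    ∃ α : ℚ_[p], ‖α‖ = 1 ∧ α ^ 2 - ap W p * α + p = 0 ∧
    ∃ Λ : C(ℤ_[p], C) →L[C] C,
      (∀ L : ℂ → ℂ, IsHasseWeil W L → ∃ q : ℚ, L 1 = q * Ω₁ ∧
        Λ (ofMod 0 fun x => if IsUnit x then 1 else 0) =
          algebraMap ℚ_[p] C ((1 - α⁻¹) ^ 2 * q)) ∧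
      ∀ (n : ℕ) (K : Type u) [Field K] (ψ : DirichletCharacter K (p ^ (n + 1))),
        ψ.IsPrimitive → ∃ A : K,
          (∀ j : K →+* C, Λ (ofMod n fun x => j (ψ x)) =
            algebraMap ℚ_[p] C (α⁻¹ ^ (n + 1)) * j A) ∧
          ∀ (i : K →+* ℂ) (L : ℂ → ℂ), Twist.IsTwist W (MulChar.ringHomComp ψ⁻¹ i) L →
            (ψ.Even → p ^ (n + 1) * L 1 =
              gaussSum (MulChar.ringHomComp ψ⁻¹ i) ZMod.stdAddChar * Ω₁ * i A) ∧
            (ψ.Odd → p ^ (n + 1) * L 1 =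
              gaussSum (MulChar.ringHomComp ψ⁻¹ i) ZMod.stdAddChar * (-Complex.I * Ω₂) * i A) := by
  obtain ⟨α, hα, hα', μ, hμ, ⟨B, hB⟩, hmass, hint⟩ :=
    padic_L_function.{u, v} hΔ hP p hpΔ hord
  obtain ⟨Λ, -, hΛ, -⟩ := exists_functional (C := C) hμ hB
  refine ⟨α, hα, hα', Λ, fun L hL => ?_, fun n K _ ψ hψ => ?_⟩
  · obtain ⟨q, hq, hm⟩ := hmass L hL
    refine ⟨q, hq, ?_⟩
    rw [hΛ, ← hm, map_sum, sum_eq_sum_units 0 _ fun x hx => by rw [if_neg hx, zero_mul]]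
    exact Finset.sum_congr rfl fun x _ => by rw [if_pos x.isUnit, one_mul]
  · obtain ⟨A, h1, h2⟩ := hint n K ψ hψ
    refine ⟨A, fun j => ?_, h2⟩
    rw [hΛ, ← h1 C j, sum_eq_sum_units n _ fun x hx => by rw [ψ.map_nonunit hx, map_zero, zero_mul]]

/-- **The `p`-adic `L`-function at a prime of multiplicative reduction as a functional**, with the
exceptional zero. -/
theorem padic_L_functional_mult (hΔ : W.Δ ≠ 0) (hW : W.IsSemistableModel)
    (hP : IsPeriodsOf W Ω₁ Ω₂) (p : ℕ) [hp : Fact p.Prime] (hpΔ : (p : ℤ) ∣ W.Δ)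
    (C : Type v) [NormedField C] [NormedAlgebra ℚ_[p] C] [IsUltrametricDist C] [CompleteSpace C] :
    ∃ Λ : C(ℤ_[p], C) →L[C] C,
      (∀ L : ℂ → ℂ, IsHasseWeil W L → ∃ q : ℚ, L 1 = q * Ω₁ ∧
        Λ (ofMod 0 fun x => if IsUnit x then 1 else 0) =
          algebraMap ℚ_[p] C ((1 - ap W p) * q)) ∧
      ∀ (n : ℕ) (K : Type u) [Field K] (ψ : DirichletCharacter K (p ^ (n + 1))),
        ψ.IsPrimitive → ∃ A : K,
          (∀ j : K →+* C, Λ (ofMod n fun x => j (ψ x)) = (ap W p : C) ^ (n + 1) * j A) ∧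
          ∀ (i : K →+* ℂ) (L : ℂ → ℂ), Twist.IsTwist W (MulChar.ringHomComp ψ⁻¹ i) L →
            (ψ.Even → p ^ (n + 1) * L 1 =
              gaussSum (MulChar.ringHomComp ψ⁻¹ i) ZMod.stdAddChar * Ω₁ * i A) ∧
            (ψ.Odd → p ^ (n + 1) * L 1 =
              gaussSum (MulChar.ringHomComp ψ⁻¹ i) ZMod.stdAddChar * (-Complex.I * Ω₂) * i A) := by
  obtain ⟨μ, hμ, ⟨B, hB⟩, hmass, hint⟩ := padic_L_function_mult.{u, v} hΔ hW hP p hpΔ
  obtain ⟨Λ, -, hΛ, -⟩ := exists_functional (C := C) hμ hB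
  refine ⟨Λ, fun L hL => ?_, fun n K _ ψ hψ => ?_⟩
  · obtain ⟨q, hq, hm⟩ := hmass L hL
    refine ⟨q, hq, ?_⟩
    rw [hΛ, ← hm, map_sum, sum_eq_sum_units 0 _ fun x hx => by rw [if_neg hx, zero_mul]]
    exact Finset.sum_congr rfl fun x _ => by rw [if_pos x.isUnit, one_mul]
  · obtain ⟨A, h1, h2⟩ := hint n K ψ hψ
    refine ⟨A, fun j => ?_, h2⟩
    rw [hΛ, ← h1 C j, sum_eq_sum_units n _ fun x hx => by rw [ψ.map_nonunit hx, map_zero, zero_mul]]

end Fermat.Agent.Cor.HW.Per
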