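import Fermat.Agent.Corollaries.HW.ModSymb

/-!
# The `p`-adic `L`-function of a semistable elliptic curve at a good ordinary prime

(Mazur, Swinnerton-Dyer.) `[r]` is the modular symbol of `E`, a rational number with bounded
denominator, `α` the unit root of `X² - a_p X + p`. Then
`μ(u + p^n ℤ_p) = α⁻ⁿ [u / p^n] - α⁻ⁿ⁻¹ [u / p^(n-1)]` is a bounded distribution on `ℤ_p`; the mass
of `ℤ_pˣ` is `(1 - α⁻¹)² L(E, 1) / Ω₁`, and the integral over `ℤ_pˣ` of a primitive character `ψ`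
modulo `p^n` is `α⁻ⁿ p^n / g(ψ⁻¹) * L(E, ψ⁻¹, 1) / Ω`.
-/

set_option autoImplicit false

noncomputable section

open UpperHalfPlane hiding I
open CongruenceSubgroup ModularCurve.Period ModularFormClass Filter Topology Set ZMod
open scoped MatrixGroups ComplexConjugate Real ModularForm

namespace Fermat.Agent.Cor.HW.Per

universe u v

/-! ### Distributions from Hecke relations -/

section abstract_

variable {p : ℕ} [hp : Fact p.Prime]

/-- A function `s(x, n) = [x / p^n]` on `ℤ[1/p] / ℤ` with the Hecke relation and bounded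
denominators. -/
structure HeckeSeq (p : ℕ) [Fact p.Prime] (a D : ℤ) (s : ℤ → ℕ → ℚ) : Prop where
  periodic : ∀ (x k : ℤ) (n : ℕ), s (x + p ^ n * k) n = s x n
  scale : ∀ (x : ℤ) (n : ℕ), s (p * x) (n + 1) = s x n
  hecke : ∀ (x : ℤ) (n : ℕ),
    a * s x (n + 1) = s x n + ∑ j : ZMod p, s (x + p ^ (n + 1) * (j.val : ℤ)) (n + 2)
  hecke_zero : a * s 0 0 = s 0 0 + ∑ j : ZMod p, s (j.val : ℤ) 1
  ne_zero : D ≠ 0
  bounded : ∀ (x : ℤ) (n : ℕ), ∃ k : ℤ, D * s x n = k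

/-- `μ(u + p^(n+1) ℤ_p)` -/
def mu (α : ℚ_[p]) (s : ℤ → ℕ → ℚ) (n : ℕ) (x : ZMod (p ^ (n + 1))) : ℚ_[p] :=
  α⁻¹ ^ (n + 1) * (s (x.val : ℤ) (n + 1) : ℚ) - α⁻¹ ^ (n + 2) * (s (x.val : ℤ) n : ℚ)

variable {a D : ℤ} {s : ℤ → ℕ → ℚ}

theorem HeckeSeq.congr (h : HeckeSeq p a D s) {x y : ℤ} {n : ℕ} (hxy : (p : ℤ) ^ n ∣ x - y) :
    s x n = s y n := by
  obtain ⟨k, hk⟩ := hxy
  rw [show x = y + p ^ n * k by rw [← hk]; ring, h.periodic]

instance neZero_pow (n : ℕ) : NeZero (p ^ n) := ⟨pow_ne_zero _ hp.out.ne_zero⟩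

/-- the lifts of `x` to `ℤ / p^(n+2)` -/
def lift (n : ℕ) (x : ZMod (p ^ (n + 1))) (j : ZMod p) : ZMod (p ^ (n + 2)) :=
  ((x.val + p ^ (n + 1) * j.val : ℕ) : ZMod (p ^ (n + 2)))

theorem lift_lt (n : ℕ) (x : ZMod (p ^ (n + 1))) (j : ZMod p) :
    x.val + p ^ (n + 1) * j.val < p ^ (n + 2) := by
  have h1 : x.val < p ^ (n + 1) := x.val_lt
  have : NeZero p := ⟨hp.out.ne_zero⟩
  have h2 : j.val < p := j.val_lt
  calc x.val + p ^ (n + 1) * j.val < p ^ (n + 1) + p ^ (n + 1) * j.val := by omega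
    _ = p ^ (n + 1) * (j.val + 1) := by ring
    _ ≤ p ^ (n + 1) * p := Nat.mul_le_mul_left _ h2
    _ = p ^ (n + 2) := by ring

theorem val_lift (n : ℕ) (x : ZMod (p ^ (n + 1))) (j : ZMod p) :
    (lift n x j).val = x.val + p ^ (n + 1) * j.val :=
  ZMod.val_cast_of_lt (lift_lt n x j)

/-- the reduction `ℤ / p^(n+2) → ℤ / p^(n+1)` -/
def red (p n : ℕ) : ZMod (p ^ (n + 2)) →+* ZMod (p ^ (n + 1)) :=
  ZMod.castHom (pow_dvd_pow p (Nat.le_succ (n + 1))) (ZMod (p ^ (n + 1)))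

theorem red_eq_iff (n : ℕ) (x : ZMod (p ^ (n + 1))) (y : ZMod (p ^ (n + 2))) :
    red p n y = x ↔ ∃ j : ZMod p, lift n x j = y := by
  have : NeZero p := ⟨hp.out.ne_zero⟩
  have hpos : 0 < p ^ (n + 1) := pow_pos hp.out.pos _
  constructor
  · intro h
    have h1 : (y.val : ZMod (p ^ (n + 1))) = x := by
      rw [← h, red, ZMod.castHom_apply, ZMod.cast_eq_val]
    have h2 : x.val = y.val % p ^ (n + 1) := by rw [← h1, ZMod.val_natCast]
    have h3 : y.val / p ^ (n + 1) < p := by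
      rw [Nat.div_lt_iff_lt_mul hpos]
      have := y.val_lt
      calc y.val < p ^ (n + 2) := this
        _ = p * p ^ (n + 1) := by ring
    refine ⟨((y.val / p ^ (n + 1) : ℕ) : ZMod p), ?_⟩
    apply ZMod.val_injective
    rw [val_lift, ZMod.val_cast_of_lt h3, h2]
    exact Nat.mod_add_div _ _
  · rintro ⟨j, rfl⟩
    rw [red, lift, map_natCast]
    push_cast
    have h1 : ((p : ZMod (p ^ (n + 1))) ^ (n + 1)) = 0 := by
      have := ZMod.natCast_self (p ^ (n + 1))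
      rwa [Nat.cast_pow] at this
    rw [h1, zero_mul, add_zero, ZMod.natCast_zmod_val]

theorem lift_injective (n : ℕ) (x : ZMod (p ^ (n + 1))) :
    Function.Injective (lift n x : ZMod p → ZMod (p ^ (n + 2))) := by
  intro i j h
  have h1 := congrArg ZMod.val h
  rw [val_lift, val_lift] at h1
  have h2 : p ^ (n + 1) * i.val = p ^ (n + 1) * j.val := by omega
  have h3 := Nat.eq_of_mul_eq_mul_left (pow_pos hp.out.pos _) h2
  have : NeZero p := ⟨hp.out.ne_zero⟩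
  exact ZMod.val_injective _ h3

/-- **The distribution relation.** -/
theorem HeckeSeq.distribution (h : HeckeSeq p a D s) {α : ℚ_[p]} (hα0 : α ≠ 0)
    (hα : α ^ 2 - a * α + p = 0) (n : ℕ) (x : ZMod (p ^ (n + 1))) :
    ∑ y : ZMod (p ^ (n + 2)) with red p n y = x, mu α s (n + 1) y = mu α s n x := by
  have h1 : (Finset.univ.filter fun y : ZMod (p ^ (n + 2)) => red p n y = x) =
      Finset.univ.image (lift n x : ZMod p → ZMod (p ^ (n + 2))) := by
    ext y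
    rw [Finset.mem_filter, Finset.mem_image]
    simp only [Finset.mem_univ, true_and]
    exact red_eq_iff n x y
  rw [h1, Finset.sum_image (lift_injective n x).injOn]
  have h2 : ∀ j : ZMod p, mu α s (n + 1) (lift n x j) =
      α⁻¹ ^ (n + 2) * (s ((x.val : ℤ) + p ^ (n + 1) * (j.val : ℤ)) (n + 2) : ℚ) -
        α⁻¹ ^ (n + 3) * (s (x.val : ℤ) (n + 1) : ℚ) := by
    intro j
    rw [mu, val_lift]
    push_cast
    rw [h.periodic]
  simp only [h2]
  rw [Finset.sum_sub_distrib, ← Finset.mul_sum, Finset.sum_const, Finset.card_univ, ZMod.card,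
    nsmul_eq_mul]
  have h3 := h.hecke (x.val : ℤ) n
  have h4 : ((a : ℚ_[p])) * ((s (x.val : ℤ) (n + 1) : ℚ) : ℚ_[p]) =
      ((s (x.val : ℤ) n : ℚ) : ℚ_[p]) +
      ∑ j : ZMod p, ((s ((x.val : ℤ) + p ^ (n + 1) * (j.val : ℤ)) (n + 2) : ℚ) : ℚ_[p]) := by
    have h5 := congrArg (fun q : ℚ => (q : ℚ_[p])) h3
    push_cast at h5
    exact h5
  have h6 : ∑ j : ZMod p, ((s ((x.val : ℤ) + p ^ (n + 1) * (j.val : ℤ)) (n + 2) : ℚ) : ℚ_[p]) =
      (a : ℚ_[p]) * ((s (x.val : ℤ) (n + 1) : ℚ) : ℚ_[p]) -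
        ((s (x.val : ℤ) n : ℚ) : ℚ_[p]) := by
    rw [h4]
    ring
  rw [h6, mu]
  have h7 : α⁻¹ * a - α⁻¹ ^ 2 * p = 1 := by
    field_simp
    linear_combination -hα
  have h8 : α⁻¹ ^ (n + 2) = α⁻¹ ^ (n + 1) * α⁻¹ := pow_succ _ _
  have h9 : α⁻¹ ^ (n + 3) = α⁻¹ ^ (n + 1) * α⁻¹ ^ 2 := by rw [← pow_add]
  rw [h8, h9]
  linear_combination (α⁻¹ ^ (n + 1) * ((s (x.val : ℤ) (n + 1) : ℚ) : ℚ_[p])) * h7

/-- **Boundedness.** -/
theorem HeckeSeq.norm_mu_le (h : HeckeSeq p a D s) {α : ℚ_[p]} (hα : ‖α‖ = 1) (n : ℕ)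
    (x : ZMod (p ^ (n + 1))) : ‖mu α s n x‖ ≤ ‖(D : ℚ_[p])‖⁻¹ := by
  have hD : (D : ℚ_[p]) ≠ 0 := by exact_mod_cast h.ne_zero
  have h1 : ∀ (x : ℤ) (n : ℕ), ‖((s x n : ℚ) : ℚ_[p])‖ ≤ ‖(D : ℚ_[p])‖⁻¹ := by
    intro x n
    obtain ⟨k, hk⟩ := h.bounded x n
    have h2 : (D : ℚ_[p]) * ((s x n : ℚ) : ℚ_[p]) = (k : ℚ_[p]) := by
      have h3 := congrArg (fun q : ℚ => (q : ℚ_[p])) hk
      push_cast at h3
      exact h3
    have h4 : ((s x n : ℚ) : ℚ_[p]) = (D : ℚ_[p])⁻¹ * k := by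
      rw [← h2, inv_mul_cancel_left₀ hD]
    rw [h4, norm_mul, norm_inv]
    exact mul_le_of_le_one_right (inv_nonneg.mpr (norm_nonneg _)) (Padic.norm_int_le_one k)
  have hα' : ∀ k : ℕ, ‖α⁻¹ ^ k‖ = 1 := by
    intro k
    rw [norm_pow, norm_inv, hα, inv_one, one_pow]
  rw [mu]
  rw [sub_eq_add_neg]
  refine (Padic.nonarchimedean _ _).trans (max_le ?_ ?_)
  · rw [norm_mul, hα', one_mul]
    exact h1 _ _
  · rw [norm_neg, norm_mul, hα', one_mul]
    exact h1 _ _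

theorem sum_units {m : ℕ} [NeZero m] {M : Type*} [AddCommMonoid M] (F : ℕ → M) :
    ∑ x : (ZMod m)ˣ, F (x : ZMod m).val =
      ∑ j ∈ (Finset.range m).filter (fun j => j.Coprime m), F j := by
  refine Finset.sum_bij' (fun x _ => (x : ZMod m).val)
    (fun j hj => ZMod.unitOfCoprime j (Finset.mem_filter.mp hj).2) ?_ ?_ ?_ ?_ ?_
  · intro x _
    exact Finset.mem_filter.mpr ⟨Finset.mem_range.mpr (ZMod.val_lt _),
      ZMod.val_coe_unit_coprime x⟩
  · intro j _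
    exact Finset.mem_univ _
  · intro x _
    apply Units.ext
    rw [ZMod.coe_unitOfCoprime, ZMod.natCast_zmod_val]
  · intro j hj
    rw [ZMod.coe_unitOfCoprime, ZMod.val_cast_of_lt
      (Finset.mem_range.mp (Finset.mem_filter.mp hj).1)]
  · intro x _
    rfl

/-- **The mass of `ℤ_pˣ`** is `(1 - α⁻¹)² [0]`. -/
theorem HeckeSeq.mass (h : HeckeSeq p a D s) {α : ℚ_[p]} (hα0 : α ≠ 0)
    (hα : α ^ 2 - a * α + p = 0) :
    ∑ x : (ZMod (p ^ (0 + 1)))ˣ, mu α s 0 (x : ZMod (p ^ (0 + 1))) =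
      (1 - α⁻¹) ^ 2 * ((s 0 0 : ℚ) : ℚ_[p]) := by
  have : NeZero p := ⟨hp.out.ne_zero⟩
  have h01 : s 0 1 = s 0 0 := by
    have := h.scale 0 0
    rwa [mul_zero] at this
  have hs0 : ∀ x : ℤ, s x 0 = s 0 0 := fun x => h.congr (by rw [pow_zero]; exact one_dvd _)
  have e1 : ∀ x : (ZMod (p ^ (0 + 1)))ˣ, mu α s 0 (x : ZMod (p ^ (0 + 1))) =
      (fun j : ℕ => α⁻¹ * ((s (j : ℤ) 1 : ℚ) : ℚ_[p]) - α⁻¹ ^ 2 * ((s 0 0 : ℚ) : ℚ_[p]))
        (x : ZMod (p ^ (0 + 1))).val := by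
    intro x
    rw [mu, hs0]
    simp
  rw [Finset.sum_congr rfl fun x _ => e1 x, sum_units (m := p ^ (0 + 1))
    (fun j : ℕ => α⁻¹ * ((s (j : ℤ) 1 : ℚ) : ℚ_[p]) - α⁻¹ ^ 2 * ((s 0 0 : ℚ) : ℚ_[p]))]
  have e2 : (Finset.range (p ^ (0 + 1))).filter (fun j => j.Coprime (p ^ (0 + 1))) =
      (Finset.range p).erase 0 := by
    rw [zero_add, pow_one]
    ext j
    rw [Finset.mem_filter, Finset.mem_erase, Finset.mem_range]
    constructor
    · rintro ⟨h1, h2⟩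
      refine ⟨?_, h1⟩
      rintro rfl
      rw [Nat.coprime_zero_left] at h2
      exact hp.out.one_lt.ne' h2
    · rintro ⟨h1, h2⟩
      exact ⟨h2, (Nat.coprime_of_lt_prime h1 h2 hp.out).symm⟩
  rw [e2, Finset.sum_sub_distrib, ← Finset.mul_sum, Finset.sum_const,
    Finset.card_erase_of_mem (Finset.mem_range.mpr hp.out.pos), Finset.card_range, nsmul_eq_mul,
    Nat.cast_pred hp.out.pos]
  have e3 : ∑ j ∈ (Finset.range p).erase 0, ((s (j : ℤ) 1 : ℚ) : ℚ_[p]) =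
      (a : ℚ_[p]) * ((s 0 0 : ℚ) : ℚ_[p]) - 2 * ((s 0 0 : ℚ) : ℚ_[p]) := by
    have e4 := Finset.add_sum_erase (Finset.range p) (fun j : ℕ => ((s (j : ℤ) 1 : ℚ) : ℚ_[p]))
      (Finset.mem_range.mpr hp.out.pos)
    have e5 := Fermat.Agent.HeckePar.sum_range_eq_sum_zmod (p := p)
      (fun j : ℕ => ((s (j : ℤ) 1 : ℚ) : ℚ_[p]))
    have e6 := congrArg (fun q : ℚ => (q : ℚ_[p])) h.hecke_zero
    push_cast at e6
    simp only [Nat.cast_zero, h01] at e4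
    rw [e5] at e4
    linear_combination e4 - e6
  rw [e3]
  have h7 : α⁻¹ * a - α⁻¹ ^ 2 * p = 1 := by
    field_simp
    linear_combination -hα
  linear_combination ((s 0 0 : ℚ) : ℚ_[p]) * h7

/-- Sums of a primitive character against functions of smaller level vanish. -/
theorem sum_primitive {R : Type u} [CommRing R] [IsDomain R] {n : ℕ}
    {ψ : DirichletCharacter R (p ^ (n + 1))} (hψ : ψ.IsPrimitive) (F : ℤ → R)
    (hF : ∀ x y : ℤ, (p : ℤ) ^ n ∣ x - y → F x = F y) :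
    ∑ x : (ZMod (p ^ (n + 1)))ˣ, ψ x * F ((x : ZMod (p ^ (n + 1))).val : ℤ) = 0 := by
  have hdvd : p ^ n ∣ p ^ (n + 1) := pow_dvd_pow p (Nat.le_succ n)
  have h1 : ¬ ψ.FactorsThrough (p ^ n) := by
    intro h
    have h2 := Nat.sInf_le ((DirichletCharacter.mem_conductorSet_iff ψ).mpr h)
    rw [DirichletCharacter.isPrimitive_def, DirichletCharacter.conductor] at hψ
    rw [hψ] at h2
    exact absurd h2 (not_le.mpr (Nat.pow_lt_pow_right hp.out.one_lt (Nat.lt_succ_self n)))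
  rw [DirichletCharacter.factorsThrough_iff_ker_unitsMap hdvd, SetLike.not_le_iff_exists] at h1
  obtain ⟨w, hw1, hw2⟩ := h1
  rw [MonoidHom.mem_ker] at hw1 hw2
  have hw3 : ψ w ≠ 1 := by
    intro h
    apply hw2
    apply Units.ext
    rw [MulChar.coe_toUnitHom, h, Units.val_one]
  have hmod : ∀ x : (ZMod (p ^ (n + 1)))ˣ, (p : ℤ) ^ n ∣
      (((w * x : (ZMod (p ^ (n + 1)))ˣ) : ZMod (p ^ (n + 1))).val : ℤ) -
        ((x : ZMod (p ^ (n + 1))).val : ℤ) := by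
    intro x
    have h3 : ((p ^ n : ℕ) : ℤ) ∣ (((w * x : (ZMod (p ^ (n + 1)))ˣ) :
        ZMod (p ^ (n + 1))).val : ℤ) - ((x : ZMod (p ^ (n + 1))).val : ℤ) := by
      rw [← ZMod.intCast_zmod_eq_zero_iff_dvd]
      push_cast
      have h4 : ∀ y : ZMod (p ^ (n + 1)), ((y.val : ℕ) : ZMod (p ^ n)) =
          ZMod.castHom hdvd (ZMod (p ^ n)) y := by
        intro y
        rw [ZMod.castHom_apply, ZMod.cast_eq_val]
      rw [h4, h4, map_mul]
      have h5 : ZMod.castHom hdvd (ZMod (p ^ n)) (w : ZMod (p ^ (n + 1))) = 1 := by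
        have := congrArg Units.val hw1
        rw [ZMod.unitsMap_def, Units.coe_map, Units.val_one] at this
        exact this
      rw [h5, one_mul, sub_self]
    rwa [Nat.cast_pow] at h3
  have key : ψ w * ∑ x : (ZMod (p ^ (n + 1)))ˣ, ψ x * F ((x : ZMod (p ^ (n + 1))).val : ℤ) =
      ∑ x : (ZMod (p ^ (n + 1)))ˣ, ψ x * F ((x : ZMod (p ^ (n + 1))).val : ℤ) := by
    conv_rhs => rw [← Equiv.sum_comp (Equiv.mulLeft w)]
    rw [Finset.mul_sum]
    refine Finset.sum_congr rfl fun x _ => ?_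
    rw [Equiv.coe_mulLeft, hF _ _ (hmod x), Units.val_mul, map_mul]
    ring
  have h6 : (ψ w - 1) * ∑ x : (ZMod (p ^ (n + 1)))ˣ,
      ψ x * F ((x : ZMod (p ^ (n + 1))).val : ℤ) = 0 := by
    rw [sub_mul, key, one_mul, sub_self]
  exact (mul_eq_zero.mp h6).resolve_left (sub_ne_zero.mpr hw3)

/-- **The integral of a primitive character.** -/
theorem HeckeSeq.interpolation (h : HeckeSeq p a D s) (α : ℚ_[p]) {n : ℕ} {K : Type u} [Field K]
    {ψ : DirichletCharacter K (p ^ (n + 1))} (hψ : ψ.IsPrimitive) {C : Type v} [Field C]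
    [Algebra ℚ_[p] C] (j : K →+* C) :
    ∑ x : (ZMod (p ^ (n + 1)))ˣ, j (ψ x) * algebraMap ℚ_[p] C (mu α s n x) =
      algebraMap ℚ_[p] C (α⁻¹ ^ (n + 1)) *
        j (∑ x : (ZMod (p ^ (n + 1)))ˣ, ψ x *
          ((s ((x : ZMod (p ^ (n + 1))).val : ℤ) (n + 1) : ℚ) : K)) := by
  have : CharZero C := charZero_of_injective_algebraMap (algebraMap ℚ_[p] C).injective
  have : CharZero K := ⟨fun x y hxy => by
    have h1 := congrArg j hxy
    rw [map_natCast, map_natCast] at h1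
    exact_mod_cast h1⟩
  have h1 : ∑ x : (ZMod (p ^ (n + 1)))ˣ, ψ x *
      ((s ((x : ZMod (p ^ (n + 1))).val : ℤ) n : ℚ) : K) = 0 :=
    sum_primitive hψ (fun x => ((s x n : ℚ) : K)) fun x y hxy => by rw [h.congr hxy]
  have h2 : ∀ x : (ZMod (p ^ (n + 1)))ˣ, j (ψ x) * algebraMap ℚ_[p] C (mu α s n x) =
      algebraMap ℚ_[p] C (α⁻¹ ^ (n + 1)) *
        j (ψ x * ((s ((x : ZMod (p ^ (n + 1))).val : ℤ) (n + 1) : ℚ) : K)) -
      algebraMap ℚ_[p] C (α⁻¹ ^ (n + 2)) *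
        j (ψ x * ((s ((x : ZMod (p ^ (n + 1))).val : ℤ) n : ℚ) : K)) := by
    intro x
    rw [mu, map_sub, map_mul, map_mul, map_mul, map_mul, map_ratCast, map_ratCast, map_ratCast,
      map_ratCast]
    ring
  simp only [h2]
  rw [Finset.sum_sub_distrib, ← Finset.mul_sum, ← Finset.mul_sum, ← map_sum, ← map_sum, h1,
    map_zero, mul_zero, sub_zero]

end abstract_

/-! ### The rational modular symbols -/

section symb

open Complex in
/-- The modular symbols at opposite residue classes are conjugate. -/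
theorem msym_unit_neg {N : ℕ} [NeZero N] {f : CuspForm (Gamma0 N) 2}
    (hr : ∀ n, ∃ a : ℤ, qCoeff f n = a) {m : ℕ} [NeZero m] (u : (ZMod m)ˣ) :
    msym f (((-u : (ZMod m)ˣ) : ZMod m).val / m) = conj (msym f ((u : ZMod m).val / m)) := by
  have hm : (m : ℚ) ≠ 0 := Nat.cast_ne_zero.mpr (NeZero.ne m)
  obtain ⟨k, hk⟩ : ∃ k : ℤ, (((-u : (ZMod m)ˣ) : ZMod m).val : ℚ) / m =
      -(((u : ZMod m).val : ℚ) / m) + k := by
    rw [Units.val_neg, ZMod.neg_val]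
    split_ifs with h
    · refine ⟨0, ?_⟩
      rw [h, ZMod.val_zero]
      simp
    · refine ⟨1, ?_⟩
      rw [Nat.cast_sub (ZMod.val_le _)]
      push_cast
      field_simp
      ring
  rw [hk, msym_add_int, msym_neg hr]

variable {N : ℕ} [NeZero N] {f : CuspForm (Gamma0 N) 2}

/-- The rational number `q` with `pr(msym(r)) = q Ω`. -/
def symb (f : CuspForm (Gamma0 N) 2) (pr : ℂ →+ ℝ) (Ω : ℝ) (r : ℚ) : ℚ :=
  open Classical in
  if h : ∃ q : ℚ, pr (msym f r) = q * Ω then h.choose else 0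

theorem symb_congr (pr : ℂ →+ ℝ) (Ω : ℝ) {r r' : ℚ} (h : msym f r = msym f r') :
    symb f pr Ω r = symb f pr Ω r' := by
  unfold symb
  rw [h]

theorem symb_spec (pr : ℂ →+ ℝ) {Ω : ℝ} {r : ℚ} (h : ∃ q : ℚ, pr (msym f r) = q * Ω) :
    pr (msym f r) = symb f pr Ω r * Ω := by
  unfold symb
  rw [dif_pos h]
  exact h.choose_spec

theorem symb_eq (pr : ℂ →+ ℝ) {Ω : ℝ} (hΩ : Ω ≠ 0) {r q : ℚ} (h : pr (msym f r) = q * Ω) :
    symb f pr Ω r = q := by
  have h1 := symb_spec pr ⟨q, h⟩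
  rw [h] at h1
  exact_mod_cast (mul_right_cancel₀ hΩ h1).symm

variable {p : ℕ} [hp : Fact p.Prime]

omit [NeZero N] in
theorem coprime_den (hpN : ¬ p ∣ N) (x : ℤ) (n : ℕ) : N.Coprime ((x : ℚ) / p ^ n).den := by
  have h1 : ((((x : ℚ) / ((p ^ n : ℤ) : ℚ) : ℚ)).den : ℤ) ∣ (p ^ n : ℤ) := by
    rw [← Rat.divInt_eq_div]
    exact Rat.den_dvd x (p ^ n)
  have h2 : ((x : ℚ) / p ^ n).den ∣ p ^ n := by
    have h3 : ((x : ℚ) / p ^ n) = (x : ℚ) / ((p ^ n : ℤ) : ℚ) := by push_cast; rfl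
    rw [h3]
    exact_mod_cast h1
  exact Nat.Coprime.coprime_dvd_right h2
    (Nat.Coprime.pow_right n ((Nat.Prime.coprime_iff_not_dvd hp.out).mpr hpN).symm)

/-- The rational modular symbols on `ℤ[1/p]`. -/
theorem heckeSeq_symb (hf : f.IsNormalizedEigenform) {a : ℤ} (ha : qCoeff f p = a)
    (hpN : ¬ p ∣ N) (pr : ℂ →+ ℝ) {Ω : ℝ} (hΩ : Ω ≠ 0) {D : ℤ} (hD : D ≠ 0)
    (hrat : ∀ r : ℚ, N.Coprime r.den → ∃ q : ℚ, pr (msym f r) = q * Ω ∧ ∃ k : ℤ, D * q = k) :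
    HeckeSeq p a D (fun x n => symb f pr Ω (x / p ^ n)) := by
  have hp0 : (p : ℚ) ≠ 0 := by exact_mod_cast hp.out.ne_zero
  have : NeZero p := ⟨hp.out.ne_zero⟩
  have hspec : ∀ (x : ℤ) (n : ℕ), pr (msym f (x / p ^ n)) = symb f pr Ω (x / p ^ n) * Ω := by
    intro x n
    obtain ⟨q, hq, -⟩ := hrat _ (coprime_den hpN x n)
    exact symb_spec pr ⟨q, hq⟩
  have hpra : ∀ z : ℂ, pr ((a : ℂ) * z) = a * pr z := by
    intro z
    rw [← zsmul_eq_mul, map_zsmul, zsmul_eq_mul]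
  refine ⟨fun x k n => ?_, fun x n => ?_, fun x n => ?_, ?_, hD, fun x n => ?_⟩
  · refine symb_congr pr Ω ?_
    rw [← msym_add_int (f := f) ((x : ℚ) / p ^ n) k]
    congr 1
    push_cast
    field_simp
  · congr 1
    push_cast
    field_simp
    ring
  · have h1 := msym_hecke (p := p) hf hpN ((x : ℚ) / p ^ (n + 1))
    rw [ha] at h1
    have h2 := congrArg pr h1
    rw [hpra, map_add, map_sum] at h2
    have e1 : (p : ℚ) * ((x : ℚ) / p ^ (n + 1)) = (x : ℚ) / p ^ n := by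
      rw [pow_succ]
      field_simp
    have e2 : ∀ j : ZMod p, (((x : ℚ) / p ^ (n + 1) + j.val) / p) =
        (((x + p ^ (n + 1) * (j.val : ℤ) : ℤ) : ℚ) / p ^ (n + 2)) := by
      intro j
      push_cast
      rw [pow_succ (p : ℚ) (n + 1)]
      field_simp
    rw [e1] at h2
    simp only [e2, hspec] at h2
    rw [← Finset.sum_mul, ← add_mul, ← mul_assoc] at h2
    have h3 := mul_right_cancel₀ hΩ h2
    exact_mod_cast h3
  · have h1 := msym_hecke (p := p) hf hpN 0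
    rw [ha] at h1
    have h2 := congrArg pr h1
    rw [hpra, map_add, map_sum, mul_zero] at h2
    have e0 : (0 : ℚ) = ((0 : ℤ) : ℚ) / p ^ 0 := by simp
    have e2 : ∀ j : ZMod p, ((0 : ℚ) + j.val) / p = ((j.val : ℤ) : ℚ) / p ^ 1 := by
      intro j
      push_cast
      rw [zero_add, pow_one]
    simp only [e2] at h2
    rw [e0] at h2
    simp only [hspec] at h2
    rw [← Finset.sum_mul, ← add_mul, ← mul_assoc] at h2
    have h3 := mul_right_cancel₀ hΩ h2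
    exact_mod_cast h3
  · obtain ⟨q, hq, k, hk⟩ := hrat _ (coprime_den hpN x n)
    refine ⟨k, ?_⟩
    rw [symb_eq pr hΩ hq, hk]

theorem HeckeSeq.add {a D : ℤ} {s s' : ℤ → ℕ → ℚ} (h : HeckeSeq p a D s)
    (h' : HeckeSeq p a D s') : HeckeSeq p a D (fun x n => s x n + s' x n) := by
  refine ⟨fun x k n => ?_, fun x n => ?_, fun x n => ?_, ?_, h.ne_zero, fun x n => ?_⟩
  · rw [h.periodic, h'.periodic]
  · rw [h.scale, h'.scale]
  · rw [mul_add, h.hecke, h'.hecke, Finset.sum_add_distrib]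
    ring
  · rw [mul_add, h.hecke_zero, h'.hecke_zero, Finset.sum_add_distrib]
    ring
  · obtain ⟨k, hk⟩ := h.bounded x n
    obtain ⟨k', hk'⟩ := h'.bounded x n
    exact ⟨k + k', by rw [mul_add, hk, hk']; push_cast; ring⟩

/-- Rationality of the modular symbols at the good cusps. -/
theorem IsPeriods.rat_re {Ω₁ Ω₂ : ℝ} (h : IsPeriods f Ω₁ Ω₂) {q₀ : ℚ}
    (hq : ModularForm.L (k := 2) two_pos f 1 = q₀ * Ω₁) {r : ℚ} (hr : N.Coprime r.den) :
    ∃ q : ℚ, Complex.reAddGroupHom (msym f r) = q * Ω₁ ∧ ∃ k : ℤ, (q₀.den : ℤ) * q = k := by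
  obtain ⟨γ, hγ⟩ := exists_msym_eq (f := f) hr
  obtain ⟨n, hn⟩ := (h.re _).mp ⟨Additive.ofMul γ, rfl⟩
  have h1 : (ModularForm.L (k := 2) two_pos f 1).re = q₀ * Ω₁ := by
    rw [hq]
    have h2 : ((q₀ : ℂ) * (Ω₁ : ℂ)) = ((q₀ * Ω₁ : ℝ) : ℂ) := by push_cast; rfl
    rw [h2, Complex.ofReal_re]
  refine ⟨q₀ + n, ?_, q₀.num + q₀.den * n, ?_⟩
  · rw [hγ]
    change (_ + _ : ℂ).re = _
    rw [Complex.add_re, h1, hn]
    push_cast
    ring
  · push_cast
    rw [mul_add, mul_comm (q₀.den : ℚ) q₀, Rat.mul_den_eq_num]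

theorem IsPeriods.rat_im {Ω₁ Ω₂ : ℝ} (h : IsPeriods f Ω₁ Ω₂) {q₀ : ℚ}
    (hq : ModularForm.L (k := 2) two_pos f 1 = q₀ * Ω₁) {r : ℚ} (hr : N.Coprime r.den) :
    ∃ q : ℚ, Complex.imAddGroupHom (msym f r) = q * Ω₂ ∧ ∃ k : ℤ, (q₀.den : ℤ) * q = k := by
  obtain ⟨γ, hγ⟩ := exists_msym_eq (f := f) hr
  obtain ⟨n, hn⟩ := (h.im _).mp ⟨Additive.ofMul γ, rfl⟩
  have h1 : (ModularForm.L (k := 2) two_pos f 1).im = 0 := by
    rw [hq]
    have h2 : ((q₀ : ℂ) * (Ω₁ : ℂ)) = ((q₀ * Ω₁ : ℝ) : ℂ) := by push_cast; rfl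
    rw [h2, Complex.ofReal_im]
  refine ⟨n, ?_, q₀.den * n, ?_⟩
  · rw [hγ]
    change (_ + _ : ℂ).im = _
    rw [Complex.add_im, h1, hn, zero_add]
    push_cast
    ring
  · push_cast
    ring

end symb

/-! ### The unit root -/

/-- The unit root of `X² - a X + p` for `p ∤ a`. -/
theorem exists_unitRoot {p : ℕ} [hp : Fact p.Prime] {a : ℤ} (ha : ¬ (p : ℤ) ∣ a) :
    ∃ α : ℤ_[p], ‖α‖ = 1 ∧ α ^ 2 - a * α + p = 0 := by
  have hna : ‖(a : ℤ_[p])‖ = 1 := by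
    refine le_antisymm (PadicInt.norm_le_one _) (not_lt.mp fun h => ha ?_)
    exact PadicInt.norm_int_lt_one_iff_dvd a |>.mp h
  let F : Polynomial ℤ_[p] := Polynomial.X ^ 2 - Polynomial.C (a : ℤ_[p]) * Polynomial.X +
    Polynomial.C (p : ℤ_[p])
  have h1 : Polynomial.aeval (a : ℤ_[p]) F = p := by
    simp only [F, map_add, map_sub, map_mul, map_pow, Polynomial.aeval_X, Polynomial.aeval_C,
      Algebra.algebraMap_self, RingHom.id_apply]
    ring
  have h2 : Polynomial.aeval (a : ℤ_[p]) (Polynomial.derivative F) = a := by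
    simp only [F, Polynomial.derivative_mul, Polynomial.derivative_C, Polynomial.derivative_X,
      Polynomial.derivative_X_pow, map_add, map_sub, map_mul, map_pow, Polynomial.aeval_X,
      Polynomial.aeval_C, Algebra.algebraMap_self, RingHom.id_apply]
    push_cast
    simp
    ring
  obtain ⟨z, hz, hza, -, -⟩ := hensels_lemma (F := F) (a := (a : ℤ_[p])) (by
    rw [h1, h2, hna, one_pow, PadicInt.norm_p]
    exact inv_lt_one_of_one_lt₀ (by exact_mod_cast hp.out.one_lt))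
  rw [h2, hna] at hza
  refine ⟨z, ?_, ?_⟩
  · have h3 : ‖z‖ = ‖(a : ℤ_[p])‖ := by
      refine PadicInt.norm_eq_of_norm_add_lt_right (z1 := z) (z2 := -(a : ℤ_[p])) ?_ |>.trans
        (norm_neg _)
      rw [← sub_eq_add_neg, norm_neg, hna]
      exact hza
    rw [h3, hna]
  · simpa only [F, map_add, map_sub, map_mul, map_pow, Polynomial.aeval_X, Polynomial.aeval_C,
      Algebra.algebraMap_self, RingHom.id_apply] using hz

/-! ### The `p`-adic `L`-function -/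

section main

theorem conductor_comp {m : ℕ} [NeZero m] {K : Type u} [Field K] (χ : DirichletCharacter K m)
    {L : Type v} [Field L] (σ : K →+* L) :
    DirichletCharacter.conductor (MulChar.ringHomComp χ σ) = χ.conductor := by
  have h1 : ∀ d : ℕ, DirichletCharacter.FactorsThrough (MulChar.ringHomComp χ σ) d ↔
      χ.FactorsThrough d := by
    intro d
    by_cases hd : d ∣ m
    · rw [DirichletCharacter.factorsThrough_iff_ker_unitsMap hd,
        DirichletCharacter.factorsThrough_iff_ker_unitsMap hd]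
      have h2 : (MulChar.toUnitHom (MulChar.ringHomComp χ σ)).ker =
          (MulChar.toUnitHom χ).ker := by
        ext u
        rw [MonoidHom.mem_ker, MonoidHom.mem_ker, ← Units.val_inj, ← Units.val_inj,
          MulChar.coe_toUnitHom, MulChar.coe_toUnitHom, MulChar.ringHomComp_apply,
          Units.val_one, Units.val_one]
        constructor
        · intro h
          exact σ.injective (by rw [h, map_one])
        · intro h
          rw [h, map_one]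
      rw [h2]
    · exact ⟨fun h => absurd h.dvd hd, fun h => absurd h.dvd hd⟩
  rw [DirichletCharacter.conductor, DirichletCharacter.conductor]
  congr 1
  ext d
  exact h1 d

variable {W : WeierstrassCurve ℤ} {Ω₁ Ω₂ : ℝ}

open Complex in
/-- The `p`-adic `L`-function with an explicit bound, see `padic_L_function`. -/
theorem padic_L_function_aux (hΔ : W.Δ ≠ 0) (hP : IsPeriodsOf W Ω₁ Ω₂) (p : ℕ) [hp : Fact p.Prime]
    (hpΔ : ¬ (p : ℤ) ∣ W.Δ) (hord : ¬ (p : ℤ) ∣ ap W p) :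
    ∃ α : ℚ_[p], ‖α‖ = 1 ∧ α ^ 2 - ap W p * α + p = 0 ∧
    ∃ μ : (n : ℕ) → ZMod (p ^ (n + 1)) → ℚ_[p],
      (∀ (n : ℕ) (x : ZMod (p ^ (n + 1))),
        ∑ y : ZMod (p ^ (n + 2)) with red p n y = x, μ (n + 1) y = μ n x) ∧
      (∃ q : ℚ, (∀ L : ℂ → ℂ, IsHasseWeil W L → L 1 = q * Ω₁) ∧
        (∀ (n : ℕ) (x : ZMod (p ^ (n + 1))), ‖μ n x‖ ≤ ‖(q.den : ℚ_[p])‖⁻¹) ∧
        ∑ x : (ZMod (p ^ (0 + 1)))ˣ, μ 0 x = (1 - α⁻¹) ^ 2 * q) ∧
      ∀ (n : ℕ) (K : Type u) [Field K] (ψ : DirichletCharacter K (p ^ (n + 1))),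
        ψ.IsPrimitive → ∃ A : K,
          (∀ (C : Type v) [Field C] [Algebra ℚ_[p] C] (j : K →+* C),
            ∑ x : (ZMod (p ^ (n + 1)))ˣ, j (ψ x) * algebraMap ℚ_[p] C (μ n x) =
              algebraMap ℚ_[p] C (α⁻¹ ^ (n + 1)) * j A) ∧
          ∀ (i : K →+* ℂ) (L : ℂ → ℂ), Twist.IsTwist W (MulChar.ringHomComp ψ⁻¹ i) L →
            (ψ.Even → p ^ (n + 1) * L 1 =
              gaussSum (MulChar.ringHomComp ψ⁻¹ i) stdAddChar * Ω₁ * i A) ∧
            (ψ.Odd → p ^ (n + 1) * L 1 =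
              gaussSum (MulChar.ringHomComp ψ⁻¹ i) stdAddChar * (-I * Ω₂) * i A) := by
  obtain ⟨α', hα1', hα'⟩ := exists_unitRoot hord
  set α : ℚ_[p] := (α' : ℚ_[p]) with hαdef
  have hα1 : ‖α‖ = 1 := hα1'
  have hα : α ^ 2 - ap W p * α + p = 0 := by
    have h := congrArg (fun z : ℤ_[p] => (z : ℚ_[p])) hα'
    push_cast at h
    exact h
  have hα0 : α ≠ 0 := by
    intro h
    rw [h, norm_zero] at hα1
    exact zero_ne_one hα1
  refine ⟨α, hα1, hα, ?_⟩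
  -- the newform
  obtain ⟨f, hf, ha, hPf⟩ := id hP
  have haZ : ∀ ℓ : Nat.Primes, ∃ a : ℤ, qCoeff f ℓ = a := fun ℓ => ⟨ap W ℓ, ha ℓ ℓ.2⟩
  have hr := exists_int_qCoeff hf.1 haZ
  have hpN : ¬ p ∣ W.conductorLevel := fun h =>
    hpΔ ((W.prime_dvd_conductorLevel_iff hΔ hp.out).mp h)
  obtain ⟨q₀, hq₀⟩ := hP.exists_rat hΔ (isHasseWeil hΔ hf ha)
  have hD : (q₀.den : ℤ) ≠ 0 := by exact_mod_cast q₀.den_nz
  set s₁ : ℤ → ℕ → ℚ := fun x n => symb f Complex.reAddGroupHom Ω₁ (x / p ^ n) with hs₁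
  set s₂ : ℤ → ℕ → ℚ := fun x n => symb f Complex.imAddGroupHom Ω₂ (x / p ^ n) with hs₂
  have H₁ : HeckeSeq p (ap W p) q₀.den s₁ := heckeSeq_symb hf.1 (ha p hp.out) hpN _
    hPf.pos₁.ne' hD fun r hr' => hPf.rat_re hq₀ hr'
  have H₂ : HeckeSeq p (ap W p) q₀.den s₂ := heckeSeq_symb hf.1 (ha p hp.out) hpN _
    hPf.pos₂.ne' hD fun r hr' => hPf.rat_im hq₀ hr'
  have H := H₁.add H₂
  have hre : ∀ (x : ℤ) (n : ℕ), (msym f (x / p ^ n)).re = s₁ x n * Ω₁ := by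
    intro x n
    obtain ⟨q, hq, -⟩ := hPf.rat_re hq₀ (coprime_den hpN x n)
    exact symb_spec Complex.reAddGroupHom ⟨q, hq⟩
  have him : ∀ (x : ℤ) (n : ℕ), (msym f (x / p ^ n)).im = s₂ x n * Ω₂ := by
    intro x n
    obtain ⟨q, hq, -⟩ := hPf.rat_im hq₀ (coprime_den hpN x n)
    exact symb_spec Complex.imAddGroupHom ⟨q, hq⟩
  refine ⟨fun n x => mu α (fun x n => s₁ x n + s₂ x n) n x, H.distribution hα0 hα,
    ⟨q₀, fun L hL => by rw [hL.unique (isHasseWeil hΔ hf ha), hq₀], fun n x => ?_, ?_⟩, ?_⟩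
  · have h1 := H.norm_mu_le hα1 n x
    rwa [Int.cast_natCast] at h1
  · -- the mass
    have h1 := H.mass hα0 hα
    have h00 : msym f (((0 : ℤ) : ℚ) / p ^ 0) = q₀ * Ω₁ := by
      rw [← hq₀, ← msym_zero]
      congr 1
      simp
    have h2 : ((q₀ : ℂ) * (Ω₁ : ℂ)) = ((q₀ * Ω₁ : ℝ) : ℂ) := by push_cast; rfl
    have e1 : s₁ 0 0 = q₀ := by
      refine symb_eq _ hPf.pos₁.ne' ?_
      change (msym f (((0 : ℤ) : ℚ) / p ^ 0)).re = _
      rw [h00, h2, Complex.ofReal_re]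
    have e2 : s₂ 0 0 = 0 := by
      refine symb_eq _ hPf.pos₂.ne' ?_
      change (msym f (((0 : ℤ) : ℚ) / p ^ 0)).im = _
      rw [h00, h2, Complex.ofReal_im, Rat.cast_zero, zero_mul]
    rw [e1, e2, add_zero] at h1
    exact h1
  · -- interpolation
    intro n K _ ψ hψ
    refine ⟨∑ x : (ZMod (p ^ (n + 1)))ˣ, ψ x *
      ((s₁ ((x : ZMod (p ^ (n + 1))).val : ℤ) (n + 1) +
        s₂ ((x : ZMod (p ^ (n + 1))).val : ℤ) (n + 1) : ℚ) : K), ?_, ?_⟩
    · intro C _ _ j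
      exact H.interpolation α hψ j
    · intro i L hL
      set χ : DirichletCharacter ℂ (p ^ (n + 1)) := MulChar.ringHomComp ψ⁻¹ i with hχ
      have hχp : χ.IsPrimitive := by
        rw [DirichletCharacter.isPrimitive_def, hχ, conductor_comp,
          DirichletCharacter.conductor_inv]
        exact hψ
      have hχinv : ∀ u : (ZMod (p ^ (n + 1)))ˣ, χ⁻¹ (u : ZMod (p ^ (n + 1))) =
          i (ψ (u : ZMod (p ^ (n + 1)))) := by
        intro u
        rw [MulChar.inv_apply_eq_inv', hχ, MulChar.ringHomComp_apply,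
          MulChar.inv_apply_eq_inv', map_inv₀, inv_inv]
      set w : (ZMod (p ^ (n + 1)))ˣ → ℂ := fun u =>
        msym f ((u : ZMod (p ^ (n + 1))).val / ((p ^ (n + 1) : ℕ) : ℚ)) with hw
      have hwneg : ∀ u, w (-u) = conj (w u) := fun u => msym_unit_neg hr u
      have hwval : ∀ u, w u = msym f ((((u : ZMod (p ^ (n + 1))).val : ℤ) : ℚ) / p ^ (n + 1)) := by
        intro u
        rw [hw]
        simp only
        congr 1
        push_cast
        rfl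
      have hwre : ∀ u, (w u).re = s₁ ((u : ZMod (p ^ (n + 1))).val : ℤ) (n + 1) * Ω₁ := fun u => by
        rw [hwval, hre]
      have hwim : ∀ u, (w u).im = s₂ ((u : ZMod (p ^ (n + 1))).val : ℤ) (n + 1) * Ω₂ := fun u => by
        rw [hwval, him]
      have hL1 : L 1 = gaussSum χ stdAddChar / ((p ^ (n + 1) : ℕ) : ℂ) *
          ∑ u : (ZMod (p ^ (n + 1)))ˣ, χ⁻¹ u * conj (w u) := by
        rw [hL.unique (Twist.isTwist_LT hΔ hf ha χ)]
        exact LT_one_eq hr hχp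
      have hpow : ((p ^ (n + 1) : ℕ) : ℂ) ≠ 0 := Nat.cast_ne_zero.mpr (NeZero.ne _)
      have hpow' : (p : ℂ) ^ (n + 1) = ((p ^ (n + 1) : ℕ) : ℂ) := by push_cast; rfl
      have hR : ∑ u : (ZMod (p ^ (n + 1)))ˣ, χ⁻¹ u * ((w u).re : ℂ) = Ω₁ *
          ∑ u : (ZMod (p ^ (n + 1)))ˣ, i (ψ u) *
            ((s₁ ((u : ZMod (p ^ (n + 1))).val : ℤ) (n + 1) : ℚ) : ℂ) := by
        rw [Finset.mul_sum]
        refine Finset.sum_congr rfl fun u _ => ?_
        rw [hwre, hχinv]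
        push_cast
        ring
      have hI : ∑ u : (ZMod (p ^ (n + 1)))ˣ, χ⁻¹ u * ((w u).im : ℂ) = Ω₂ *
          ∑ u : (ZMod (p ^ (n + 1)))ˣ, i (ψ u) *
            ((s₂ ((u : ZMod (p ^ (n + 1))).val : ℤ) (n + 1) : ℚ) : ℂ) := by
        rw [Finset.mul_sum]
        refine Finset.sum_congr rfl fun u _ => ?_
        rw [hwim, hχinv]
        push_cast
        ring
      have hdec : ∑ u : (ZMod (p ^ (n + 1)))ˣ, χ⁻¹ u * conj (w u) =
          ∑ u : (ZMod (p ^ (n + 1)))ˣ, χ⁻¹ u * ((w u).re : ℂ) -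
            I * ∑ u : (ZMod (p ^ (n + 1)))ˣ, χ⁻¹ u * ((w u).im : ℂ) := by
        rw [Finset.mul_sum, ← Finset.sum_sub_distrib]
        refine Finset.sum_congr rfl fun u _ => ?_
        have h1 : conj (w u) = (w u).re - (w u).im * I := by
          apply Complex.ext <;> simp
        rw [h1]
        ring
      have hiA : i (∑ x : (ZMod (p ^ (n + 1)))ˣ, ψ x *
          ((s₁ ((x : ZMod (p ^ (n + 1))).val : ℤ) (n + 1) +
            s₂ ((x : ZMod (p ^ (n + 1))).val : ℤ) (n + 1) : ℚ) : K)) =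
          ∑ u : (ZMod (p ^ (n + 1)))ˣ, i (ψ u) *
            ((s₁ ((u : ZMod (p ^ (n + 1))).val : ℤ) (n + 1) : ℚ) : ℂ) +
          ∑ u : (ZMod (p ^ (n + 1)))ˣ, i (ψ u) *
            ((s₂ ((u : ZMod (p ^ (n + 1))).val : ℤ) (n + 1) : ℚ) : ℂ) := by
        rw [map_sum, ← Finset.sum_add_distrib]
        refine Finset.sum_congr rfl fun u _ => ?_
        rw [map_mul, map_ratCast]
        push_cast
        ring
      have hΩ₁ : (Ω₁ : ℂ) ≠ 0 := by exact_mod_cast hPf.pos₁.ne'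
      have hΩ₂ : (Ω₂ : ℂ) ≠ 0 := by exact_mod_cast hPf.pos₂.ne'
      refine ⟨fun hev => ?_, fun hodd => ?_⟩
      · have hχe : χ.Even := by
          change χ (-1) = 1
          rw [hχ, MulChar.ringHomComp_apply, MulChar.inv_apply_eq_inv',
            show ψ (-1) = 1 from hev, inv_one, map_one]
        have h1 := sum_even hχe hwneg
        have h2 : ∑ u : (ZMod (p ^ (n + 1)))ˣ, i (ψ u) *
            ((s₂ ((u : ZMod (p ^ (n + 1))).val : ℤ) (n + 1) : ℚ) : ℂ) = 0 := by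
          rw [hdec] at h1
          have h3 : I * ∑ u : (ZMod (p ^ (n + 1)))ˣ, χ⁻¹ u * ((w u).im : ℂ) = 0 := by
            linear_combination -h1
          rw [hI, mul_eq_zero, or_iff_right I_ne_zero, mul_eq_zero, or_iff_right hΩ₂] at h3
          exact h3
        rw [hiA, h2, add_zero, hL1, h1, hR, hpow']
        field_simp
      · have hχo : χ.Odd := by
          change χ (-1) = -1
          rw [hχ, MulChar.ringHomComp_apply, MulChar.inv_apply_eq_inv',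
            show ψ (-1) = -1 from hodd, inv_neg, inv_one, map_neg, map_one]
        have h1 := sum_odd hχo hwneg
        have h2 : ∑ u : (ZMod (p ^ (n + 1)))ˣ, i (ψ u) *
            ((s₁ ((u : ZMod (p ^ (n + 1))).val : ℤ) (n + 1) : ℚ) : ℂ) = 0 := by
          rw [hdec] at h1
          have h3 : ∑ u : (ZMod (p ^ (n + 1)))ˣ, χ⁻¹ u * ((w u).re : ℂ) = 0 := by
            linear_combination h1
          rw [hR, mul_eq_zero, or_iff_right hΩ₁] at h3
          exact h3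
        rw [hiA, h2, zero_add, hL1, h1, hI, hpow']
        field_simp

open Complex in
/-- **The `p`-adic `L`-function of a semistable elliptic curve over `ℚ` at a good ordinary prime**
(Mazur, Swinnerton-Dyer). Let `Ω₁, Ω₂` be the periods of `W`, `p` a prime of good ordinary
reduction. There are the unit root `α` of `X² - a_p X + p` in `ℚ_p` and a bounded distribution `μ`
on `ℤ_p` with values in `ℚ_p` such that the mass of `ℤ_pˣ` is `(1 - α⁻¹)² L(W, 1) / Ω₁` and for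
every primitive character `ψ` modulo `p^(n+1)` with values in a field `K` there is `A ∈ K` with
* `∫ j ψ dμ = α^(-n-1) j(A)` for every embedding `j` of `K` in an extension of `ℚ_p`,
* `p^(n+1) L(W, i ψ⁻¹, 1) = g(i ψ⁻¹) Ω i(A)` for every embedding `i : K → ℂ`, where `Ω = Ω₁` for
  even and `Ω = -i Ω₂` for odd `ψ`. -/
theorem padic_L_function (hΔ : W.Δ ≠ 0) (hP : IsPeriodsOf W Ω₁ Ω₂) (p : ℕ) [hp : Fact p.Prime]
    (hpΔ : ¬ (p : ℤ) ∣ W.Δ) (hord : ¬ (p : ℤ) ∣ ap W p) :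
    ∃ α : ℚ_[p], ‖α‖ = 1 ∧ α ^ 2 - ap W p * α + p = 0 ∧
    ∃ μ : (n : ℕ) → ZMod (p ^ (n + 1)) → ℚ_[p],
      (∀ (n : ℕ) (x : ZMod (p ^ (n + 1))),
        ∑ y : ZMod (p ^ (n + 2)) with red p n y = x, μ (n + 1) y = μ n x) ∧
      (∃ B : ℝ, ∀ (n : ℕ) (x : ZMod (p ^ (n + 1))), ‖μ n x‖ ≤ B) ∧
      (∀ L : ℂ → ℂ, IsHasseWeil W L → ∃ q : ℚ, L 1 = q * Ω₁ ∧
        ∑ x : (ZMod (p ^ (0 + 1)))ˣ, μ 0 x = (1 - α⁻¹) ^ 2 * q) ∧
      ∀ (n : ℕ) (K : Type u) [Field K] (ψ : DirichletCharacter K (p ^ (n + 1))),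
        ψ.IsPrimitive → ∃ A : K,
          (∀ (C : Type v) [Field C] [Algebra ℚ_[p] C] (j : K →+* C),
            ∑ x : (ZMod (p ^ (n + 1)))ˣ, j (ψ x) * algebraMap ℚ_[p] C (μ n x) =
              algebraMap ℚ_[p] C (α⁻¹ ^ (n + 1)) * j A) ∧
          ∀ (i : K →+* ℂ) (L : ℂ → ℂ), Twist.IsTwist W (MulChar.ringHomComp ψ⁻¹ i) L →
            (ψ.Even → p ^ (n + 1) * L 1 =
              gaussSum (MulChar.ringHomComp ψ⁻¹ i) stdAddChar * Ω₁ * i A) ∧
            (ψ.Odd → p ^ (n + 1) * L 1 =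
              gaussSum (MulChar.ringHomComp ψ⁻¹ i) stdAddChar * (-I * Ω₂) * i A) := by
  obtain ⟨α, hα1, hα, μ, hμ, ⟨q, hq, hB, hmass⟩, hint⟩ :=
    padic_L_function_aux.{u, v} hΔ hP p hpΔ hord
  exact ⟨α, hα1, hα, μ, hμ, ⟨_, hB⟩, fun L hL => ⟨q, hq L hL, hmass⟩, hint⟩

end main

end Fermat.Agent.Cor.HW.Per
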