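import Fermat.Agent.Corollaries.HW.ModSymbU
import Fermat.Agent.Corollaries.HW.NonVanTame

/-!
# The `p`-adic `L`-function at a prime of multiplicative reduction, the exceptional zero

(Mazur, Tate, Teitelbaum.) Let `E` be a semistable elliptic curve over `ℚ` and `p` a prime of bad
reduction, so `a_p = ±1`. Then `μ(u + p^n ℤ_p) = a_p^n [u / p^n]` is a bounded distribution on `ℤ_p`
with values in `ℚ_p`; the mass of `ℤ_pˣ` is `(1 - a_p) L(E, 1) / Ω₁` and the integral over `ℤ_pˣ` of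
a primitive character `ψ` modulo `p^n` is `a_p^n p^n / g(ψ⁻¹) * L(E, ψ⁻¹, 1) / Ω`. If `E` has split
multiplicative reduction at `p`, that is `a_p = 1`, the mass is `0`: the exceptional zero.
-/

set_option autoImplicit false

noncomputable section

open UpperHalfPlane hiding I
open CongruenceSubgroup ModularCurve.Period ModularFormClass Filter Topology Set ZMod
open scoped MatrixGroups ComplexConjugate Real ModularForm

namespace Fermat.Agent.Cor.HW.Per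

universe u v

/-! ### Distributions from the relation of `U_p` -/

section abstract_

variable {p : ℕ} [hp : Fact p.Prime]

/-- A function `s(x, n) = [x / p^n]` on `ℤ[1/p] / ℤ` with the relation of `U_p` and bounded
denominators. -/
structure USeq (p : ℕ) [Fact p.Prime] (a D : ℤ) (s : ℤ → ℕ → ℚ) : Prop where
  periodic : ∀ (x k : ℤ) (n : ℕ), s (x + p ^ n * k) n = s x n
  scale : ∀ (x : ℤ) (n : ℕ), s (p * x) (n + 1) = s x n
  hecke : ∀ (x : ℤ) (n : ℕ), a * s x n = ∑ j : ZMod p, s (x + p ^ n * (j.val : ℤ)) (n + 1)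
  ne_zero : D ≠ 0
  bounded : ∀ (x : ℤ) (n : ℕ), ∃ k : ℤ, D * s x n = k

/-- `μ(u + p^(n+1) ℤ_p)` -/
def muU (α : ℚ_[p]) (s : ℤ → ℕ → ℚ) (n : ℕ) (x : ZMod (p ^ (n + 1))) : ℚ_[p] :=
  α⁻¹ ^ (n + 1) * (s (x.val : ℤ) (n + 1) : ℚ)

variable {a D : ℤ} {s : ℤ → ℕ → ℚ}

/-- **The distribution relation.** -/
theorem USeq.distribution (h : USeq p a D s) {α : ℚ_[p]} (hα0 : α ≠ 0) (hα : α = a) (n : ℕ)
    (x : ZMod (p ^ (n + 1))) :
    ∑ y : ZMod (p ^ (n + 2)) with red p n y = x, muU α s (n + 1) y = muU α s n x := by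
  have h1 : (Finset.univ.filter fun y : ZMod (p ^ (n + 2)) => red p n y = x) =
      Finset.univ.image (lift n x : ZMod p → ZMod (p ^ (n + 2))) := by
    ext y
    rw [Finset.mem_filter, Finset.mem_image]
    simp only [Finset.mem_univ, true_and]
    exact red_eq_iff n x y
  rw [h1, Finset.sum_image (lift_injective n x).injOn]
  have h2 : ∀ j : ZMod p, muU α s (n + 1) (lift n x j) =
      α⁻¹ ^ (n + 2) * (s ((x.val : ℤ) + p ^ (n + 1) * (j.val : ℤ)) (n + 2) : ℚ) := by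
    intro j
    rw [muU, val_lift]
    push_cast
    rfl
  simp only [h2]
  rw [← Finset.mul_sum]
  have h4 : (a : ℚ_[p]) * ((s (x.val : ℤ) (n + 1) : ℚ) : ℚ_[p]) =
      ∑ j : ZMod p, ((s ((x.val : ℤ) + p ^ (n + 1) * (j.val : ℤ)) (n + 2) : ℚ) : ℚ_[p]) := by
    have h5 := congrArg (fun q : ℚ => (q : ℚ_[p])) (h.hecke (x.val : ℤ) (n + 1))
    push_cast at h5
    exact h5
  rw [← h4, ← hα, muU, pow_succ α⁻¹ (n + 1), mul_assoc, inv_mul_cancel_left₀ hα0]

/-- **Boundedness.** -/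
theorem USeq.norm_mu_le (h : USeq p a D s) {α : ℚ_[p]} (hα : ‖α‖ = 1) (n : ℕ)
    (x : ZMod (p ^ (n + 1))) : ‖muU α s n x‖ ≤ ‖(D : ℚ_[p])‖⁻¹ := by
  have hD : (D : ℚ_[p]) ≠ 0 := by exact_mod_cast h.ne_zero
  obtain ⟨k, hk⟩ := h.bounded (x.val : ℤ) (n + 1)
  have h2 : (D : ℚ_[p]) * ((s (x.val : ℤ) (n + 1) : ℚ) : ℚ_[p]) = (k : ℚ_[p]) := by
    have h3 := congrArg (fun q : ℚ => (q : ℚ_[p])) hk
    push_cast at h3
    exact h3
  have h4 : ((s (x.val : ℤ) (n + 1) : ℚ) : ℚ_[p]) = (D : ℚ_[p])⁻¹ * k := by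
    rw [← h2, inv_mul_cancel_left₀ hD]
  rw [muU, norm_mul, norm_pow, norm_inv, hα, inv_one, one_pow, one_mul, h4, norm_mul, norm_inv]
  exact mul_le_of_le_one_right (inv_nonneg.mpr (norm_nonneg _)) (Padic.norm_int_le_one k)

/-- **The mass of `ℤ_pˣ`** is `(1 - α⁻¹) [0]`. -/
theorem USeq.mass (h : USeq p a D s) {α : ℚ_[p]} (hα0 : α ≠ 0) (hα : α = a) :
    ∑ x : (ZMod (p ^ (0 + 1)))ˣ, muU α s 0 (x : ZMod (p ^ (0 + 1))) =
      (1 - α⁻¹) * ((s 0 0 : ℚ) : ℚ_[p]) := by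
  have : NeZero p := ⟨hp.out.ne_zero⟩
  have h01 : s 0 1 = s 0 0 := by
    have := h.scale 0 0
    rwa [mul_zero] at this
  have e1 : ∀ x : (ZMod (p ^ (0 + 1)))ˣ, muU α s 0 (x : ZMod (p ^ (0 + 1))) =
      (fun j : ℕ => α⁻¹ * ((s (j : ℤ) 1 : ℚ) : ℚ_[p])) (x : ZMod (p ^ (0 + 1))).val := by
    intro x
    rw [muU]
    simp
  rw [Finset.sum_congr rfl fun x _ => e1 x, sum_units (m := p ^ (0 + 1))
    (fun j : ℕ => α⁻¹ * ((s (j : ℤ) 1 : ℚ) : ℚ_[p]))]
  have e2 : (Finset.range (p ^ (0 + 1))).filter (fun j => j.Coprime (p ^ (0 + 1))) =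
      (Finset.range p).erase 0 := by
    rw [zero_add, pow_one]
    ext j
    rw [Finset.mem_filter, Finset.mem_erase, Finset.mem_range]
    constructor
    · rintro ⟨h1, h2⟩
      refine ⟨?_, h1⟩
      rintro rfl
      rw [Nat.coprime_zero_left] at h2
      exact hp.out.one_lt.ne' h2
    · rintro ⟨h1, h2⟩
      exact ⟨h2, (Nat.coprime_of_lt_prime h1 h2 hp.out).symm⟩
  rw [e2, ← Finset.mul_sum]
  have e4 := Finset.add_sum_erase (Finset.range p) (fun j : ℕ => ((s (j : ℤ) 1 : ℚ) : ℚ_[p]))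
    (Finset.mem_range.mpr hp.out.pos)
  have e5 := Fermat.Agent.HeckePar.sum_range_eq_sum_zmod (p := p)
    (fun j : ℕ => ((s (j : ℤ) 1 : ℚ) : ℚ_[p]))
  have e6 := congrArg (fun q : ℚ => (q : ℚ_[p])) (h.hecke 0 0)
  simp only [pow_zero, one_mul, zero_add] at e6
  push_cast at e6
  simp only [Nat.cast_zero, h01] at e4
  rw [e5, ← e6, ← hα] at e4
  have e7 : ∑ j ∈ (Finset.range p).erase 0, ((s (j : ℤ) 1 : ℚ) : ℚ_[p]) =
      α * ((s 0 0 : ℚ) : ℚ_[p]) - ((s 0 0 : ℚ) : ℚ_[p]) := by linear_combination e4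
  rw [e7]
  field_simp

/-- **The integral of a character.** -/
theorem USeq.interpolation (_h : USeq p a D s) (α : ℚ_[p]) {n : ℕ} {K : Type u} [Field K]
    (ψ : DirichletCharacter K (p ^ (n + 1))) {C : Type v} [Field C]
    [Algebra ℚ_[p] C] (j : K →+* C) :
    ∑ x : (ZMod (p ^ (n + 1)))ˣ, j (ψ x) * algebraMap ℚ_[p] C (muU α s n x) =
      algebraMap ℚ_[p] C (α⁻¹ ^ (n + 1)) *
        j (∑ x : (ZMod (p ^ (n + 1)))ˣ, ψ x *
          ((s ((x : ZMod (p ^ (n + 1))).val : ℤ) (n + 1) : ℚ) : K)) := by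
  have : CharZero C := charZero_of_injective_algebraMap (algebraMap ℚ_[p] C).injective
  have : CharZero K := ⟨fun x y hxy => by
    have h1 := congrArg j hxy
    rw [map_natCast, map_natCast] at h1
    exact_mod_cast h1⟩
  rw [map_sum, Finset.mul_sum]
  refine Finset.sum_congr rfl fun x _ => ?_
  rw [muU, map_mul, map_mul, map_ratCast, map_ratCast]
  ring

theorem USeq.add {a D : ℤ} {s s' : ℤ → ℕ → ℚ} (h : USeq p a D s)
    (h' : USeq p a D s') : USeq p a D (fun x n => s x n + s' x n) := by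
  refine ⟨fun x k n => ?_, fun x n => ?_, fun x n => ?_, h.ne_zero, fun x n => ?_⟩
  · rw [h.periodic, h'.periodic]
  · rw [h.scale, h'.scale]
  · rw [mul_add, h.hecke, h'.hecke, Finset.sum_add_distrib]
  · obtain ⟨k, hk⟩ := h.bounded x n
    obtain ⟨k', hk'⟩ := h'.bounded x n
    exact ⟨k + k', by rw [mul_add, hk, hk']; push_cast; ring⟩

end abstract_

/-! ### The rational modular symbols -/

section symb

variable {N : ℕ} [NeZero N] {f : CuspForm (Gamma0 N) 2} {p : ℕ} [hp : Fact p.Prime]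

theorem uSeq_symb (hf : f.IsNormalizedEigenform) {a : ℤ} (ha : qCoeff f p = a)
    (hpN : p ∣ N) (pr : ℂ →+ ℝ) {Ω : ℝ} (hΩ : Ω ≠ 0) {D : ℤ} (hD : D ≠ 0)
    (hrat : ∀ (n : ℕ) (x : ℤ), ∃ q : ℚ, pr (msym f (x / p ^ n)) = q * Ω ∧
      ∃ k : ℤ, D * q = k) :
    USeq p a D (fun x n => symb f pr Ω (x / p ^ n)) := by
  have hp0 : (p : ℚ) ≠ 0 := by exact_mod_cast hp.out.ne_zero
  have : NeZero p := ⟨hp.out.ne_zero⟩
  have hspec : ∀ (x : ℤ) (n : ℕ), pr (msym f (x / p ^ n)) = symb f pr Ω (x / p ^ n) * Ω := by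
    intro x n
    obtain ⟨q, hq, -⟩ := hrat n x
    exact symb_spec pr ⟨q, hq⟩
  have hpra : ∀ z : ℂ, pr ((a : ℂ) * z) = a * pr z := by
    intro z
    rw [← zsmul_eq_mul, map_zsmul, zsmul_eq_mul]
  refine ⟨fun x k n => ?_, fun x n => ?_, fun x n => ?_, hD, fun x n => ?_⟩
  · refine symb_congr pr Ω ?_
    rw [← msym_add_int (f := f) ((x : ℚ) / p ^ n) k]
    congr 1
    push_cast
    field_simp
  · congr 1
    push_cast
    field_simp
    ring
  · have h1 := msym_heckeU (p := p) hf hpN ((x : ℚ) / p ^ n)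
    rw [ha] at h1
    have h2 := congrArg pr h1
    rw [hpra, map_sum] at h2
    have e2 : ∀ j : ZMod p, (((x : ℚ) / p ^ n + j.val) / p) =
        (((x + p ^ n * (j.val : ℤ) : ℤ) : ℚ) / p ^ (n + 1)) := by
      intro j
      push_cast
      rw [pow_succ (p : ℚ) n]
      field_simp
    simp only [e2, hspec] at h2
    rw [← Finset.sum_mul, ← mul_assoc] at h2
    have h3 := mul_right_cancel₀ hΩ h2
    exact_mod_cast h3
  · obtain ⟨q, hq, k, hk⟩ := hrat n x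
    refine ⟨k, ?_⟩
    rw [symb_eq pr hΩ hq, hk]

end symb

/-! ### The `p`-adic `L`-function -/

section main

variable {W : WeierstrassCurve ℤ} {Ω₁ Ω₂ : ℝ}

/-- `a_p = ±1` at the bad primes of a semistable curve. -/
theorem ap_eq_one_or (hΔ : W.Δ ≠ 0) (hW : W.IsSemistableModel) {p : ℕ} (hp : p.Prime)
    (hpΔ : (p : ℤ) ∣ W.Δ) : ap W p = 1 ∨ ap W p = -1 := by
  rw [ap, if_pos hpΔ]
  exact apOfModel_sub_one ⟨hp, hpΔ, hW p hp hpΔ, hΔ⟩

open Complex in
/-- **The `p`-adic `L`-function of a semistable elliptic curve over `ℚ` at a prime of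
multiplicative reduction** (Mazur, Tate, Teitelbaum). There is a bounded distribution `μ` on `ℤ_p`
with values in `ℚ_p` such that the mass of `ℤ_pˣ` is `(1 - a_p) L(W, 1) / Ω₁` and for every primitive
character `ψ` modulo `p^(n+1)` with values in a field `K` there is `A ∈ K` with
* `∫ j ψ dμ = a_p^(n+1) j(A)` for every embedding `j` of `K` in an extension of `ℚ_p`,
* `p^(n+1) L(W, i ψ⁻¹, 1) = g(i ψ⁻¹) Ω i(A)` for every embedding `i : K → ℂ`, where `Ω = Ω₁` for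
  even and `Ω = -i Ω₂` for odd `ψ`. -/
theorem padic_L_function_mult (hΔ : W.Δ ≠ 0) (hW : W.IsSemistableModel)
    (hP : IsPeriodsOf W Ω₁ Ω₂) (p : ℕ) [hp : Fact p.Prime] (hpΔ : (p : ℤ) ∣ W.Δ) :
    ∃ μ : (n : ℕ) → ZMod (p ^ (n + 1)) → ℚ_[p],
      (∀ (n : ℕ) (x : ZMod (p ^ (n + 1))),
        ∑ y : ZMod (p ^ (n + 2)) with red p n y = x, μ (n + 1) y = μ n x) ∧
      (∃ B : ℝ, ∀ (n : ℕ) (x : ZMod (p ^ (n + 1))), ‖μ n x‖ ≤ B) ∧
      (∀ L : ℂ → ℂ, IsHasseWeil W L → ∃ q : ℚ, L 1 = q * Ω₁ ∧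
        ∑ x : (ZMod (p ^ (0 + 1)))ˣ, μ 0 x = (1 - ap W p) * q) ∧
      ∀ (n : ℕ) (K : Type u) [Field K] (ψ : DirichletCharacter K (p ^ (n + 1))),
        ψ.IsPrimitive → ∃ A : K,
          (∀ (C : Type v) [Field C] [Algebra ℚ_[p] C] (j : K →+* C),
            ∑ x : (ZMod (p ^ (n + 1)))ˣ, j (ψ x) * algebraMap ℚ_[p] C (μ n x) =
              (ap W p : C) ^ (n + 1) * j A) ∧
          ∀ (i : K →+* ℂ) (L : ℂ → ℂ), Twist.IsTwist W (MulChar.ringHomComp ψ⁻¹ i) L →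
            (ψ.Even → p ^ (n + 1) * L 1 =
              gaussSum (MulChar.ringHomComp ψ⁻¹ i) stdAddChar * Ω₁ * i A) ∧
            (ψ.Odd → p ^ (n + 1) * L 1 =
              gaussSum (MulChar.ringHomComp ψ⁻¹ i) stdAddChar * (-I * Ω₂) * i A) := by
  -- the eigenvalue
  have hone := ap_eq_one_or hΔ hW hp.out hpΔ
  set α : ℚ_[p] := (ap W p : ℚ_[p]) with hαdef
  have hα0 : α ≠ 0 := by
    rw [hαdef]
    rcases hone with h | h <;> rw [h] <;> norm_num
  have hαinv : α⁻¹ = (ap W p : ℚ_[p]) := by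
    rw [hαdef]
    rcases hone with h | h <;> rw [h] <;> norm_num
  have hα1 : ‖α‖ = 1 := by
    rw [hαdef]
    rcases hone with h | h <;> rw [h] <;> simp
  -- the newform
  obtain ⟨f, hf, ha, hPf⟩ := id hP
  have haZ : ∀ ℓ : Nat.Primes, ∃ a : ℤ, qCoeff f ℓ = a := fun ℓ => ⟨ap W ℓ, ha ℓ ℓ.2⟩
  have hr := exists_int_qCoeff hf.1 haZ
  have hpN : p ∣ W.conductorLevel := (W.prime_dvd_conductorLevel_iff hΔ hp.out).mpr hpΔ
  obtain ⟨M, hM⟩ := hpN
  have hpM : p.Coprime M := by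
    have h1 := W.squarefree_conductorLevel
    rw [hM, Nat.squarefree_mul_iff] at h1
    exact h1.1
  -- an auxiliary prime
  obtain ⟨ℓ, hℓ1, hℓ⟩ := Nat.exists_infinite_primes (W.Δ.natAbs + 1)
  have hℓF : Fact ℓ.Prime := ⟨hℓ⟩
  have hℓΔ : ¬ (ℓ : ℤ) ∣ W.Δ := by
    intro h
    have h1 := Nat.le_of_dvd (Int.natAbs_pos.mpr hΔ) (Int.natCast_dvd.mp h)
    omega
  have hℓN : ¬ ℓ ∣ W.conductorLevel := fun h =>
    hℓΔ ((W.prime_dvd_conductorLevel_iff hΔ hℓ).mp h)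
  have hA1 : (1 + ℓ - ap W ℓ : ℤ) ≠ 0 := by
    have h1 := ap_ne hΔ hW hℓ
    omega
  obtain ⟨q₀, hq₀⟩ := hP.exists_rat hΔ (isHasseWeil hΔ hf ha)
  have hcast : ((q₀ : ℂ) * (Ω₁ : ℂ)) = ((q₀ * Ω₁ : ℝ) : ℂ) := by push_cast; rfl
  have hqre : Complex.reAddGroupHom (ModularForm.L (k := 2) two_pos f 1) = q₀ * Ω₁ := by
    change (ModularForm.L (k := 2) two_pos f 1).re = _
    rw [hq₀, hcast, Complex.ofReal_re]
  have hqim : Complex.imAddGroupHom (ModularForm.L (k := 2) two_pos f 1) = (0 : ℚ) * Ω₂ := by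
    change (ModularForm.L (k := 2) two_pos f 1).im = _
    rw [hq₀, hcast, Complex.ofReal_im, Rat.cast_zero, zero_mul]
  have hrat₁ := rat_all hf.1 hM hp.out hpM hℓN (ha ℓ hℓ) hA1 Complex.reAddGroupHom
    (fun γ => (hPf.re _).mp ⟨γ, rfl⟩) hqre
  have hrat₂ := rat_all hf.1 hM hp.out hpM hℓN (ha ℓ hℓ) hA1 Complex.imAddGroupHom
    (fun γ => (hPf.im _).mp ⟨γ, rfl⟩) hqim
  have hD : (q₀.den * (1 + ℓ - ap W ℓ) : ℤ) ≠ 0 :=
    mul_ne_zero (by exact_mod_cast q₀.den_nz) hA1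
  set s₁ : ℤ → ℕ → ℚ := fun x n => symb f Complex.reAddGroupHom Ω₁ (x / p ^ n) with hs₁
  set s₂ : ℤ → ℕ → ℚ := fun x n => symb f Complex.imAddGroupHom Ω₂ (x / p ^ n) with hs₂
  have H₁ : USeq p (ap W p) (q₀.den * (1 + ℓ - ap W ℓ)) s₁ :=
    uSeq_symb hf.1 (ha p hp.out) ⟨M, hM⟩ _ hPf.pos₁.ne' hD hrat₁
  have H₂ : USeq p (ap W p) (q₀.den * (1 + ℓ - ap W ℓ)) s₂ :=
    uSeq_symb hf.1 (ha p hp.out) ⟨M, hM⟩ _ hPf.pos₂.ne' hD fun n x => by
      obtain ⟨q, hq, k, hk⟩ := hrat₂ n x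
      refine ⟨q, hq, q₀.den * k, ?_⟩
      push_cast at hk ⊢
      rw [← hk]
      simp
      ring
  have H := H₁.add H₂
  have hre : ∀ (x : ℤ) (n : ℕ), (msym f (x / p ^ n)).re = s₁ x n * Ω₁ := by
    intro x n
    obtain ⟨q, hq, -⟩ := hrat₁ n x
    exact symb_spec Complex.reAddGroupHom ⟨q, hq⟩
  have him : ∀ (x : ℤ) (n : ℕ), (msym f (x / p ^ n)).im = s₂ x n * Ω₂ := by
    intro x n
    obtain ⟨q, hq, -⟩ := hrat₂ n x
    exact symb_spec Complex.imAddGroupHom ⟨q, hq⟩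
  refine ⟨fun n x => muU α (fun x n => s₁ x n + s₂ x n) n x, H.distribution hα0 rfl,
    ⟨_, H.norm_mu_le hα1⟩, fun L hL => ⟨q₀, by rw [hL.unique (isHasseWeil hΔ hf ha), hq₀], ?_⟩,
    ?_⟩
  · -- the mass
    have h1 := H.mass hα0 rfl
    have h00 : msym f (((0 : ℤ) : ℚ) / p ^ 0) = q₀ * Ω₁ := by
      rw [← hq₀, ← msym_zero]
      congr 1
      simp
    have e1 : s₁ 0 0 = q₀ := by
      refine symb_eq _ hPf.pos₁.ne' ?_
      change (msym f (((0 : ℤ) : ℚ) / p ^ 0)).re = _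
      rw [h00, hcast, Complex.ofReal_re]
    have e2 : s₂ 0 0 = 0 := by
      refine symb_eq _ hPf.pos₂.ne' ?_
      change (msym f (((0 : ℤ) : ℚ) / p ^ 0)).im = _
      rw [h00, hcast, Complex.ofReal_im, Rat.cast_zero, zero_mul]
    rw [e1, e2, add_zero, hαinv] at h1
    exact h1
  · -- interpolation
    intro n K _ ψ hψ
    refine ⟨∑ x : (ZMod (p ^ (n + 1)))ˣ, ψ x *
      ((s₁ ((x : ZMod (p ^ (n + 1))).val : ℤ) (n + 1) +
        s₂ ((x : ZMod (p ^ (n + 1))).val : ℤ) (n + 1) : ℚ) : K), ?_, ?_⟩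
    · intro C _ _ j
      have h1 := H.interpolation α ψ j
      rw [hαinv, map_pow, map_intCast] at h1
      exact h1
    · intro i L hL
      set χ : DirichletCharacter ℂ (p ^ (n + 1)) := MulChar.ringHomComp ψ⁻¹ i with hχ
      have hχp : χ.IsPrimitive := by
        rw [DirichletCharacter.isPrimitive_def, hχ, conductor_comp,
          DirichletCharacter.conductor_inv]
        exact hψ
      have hχinv : ∀ u : (ZMod (p ^ (n + 1)))ˣ, χ⁻¹ (u : ZMod (p ^ (n + 1))) =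
          i (ψ (u : ZMod (p ^ (n + 1)))) := by
        intro u
        rw [MulChar.inv_apply_eq_inv', hχ, MulChar.ringHomComp_apply,
          MulChar.inv_apply_eq_inv', map_inv₀, inv_inv]
      set w : (ZMod (p ^ (n + 1)))ˣ → ℂ := fun u =>
        msym f ((u : ZMod (p ^ (n + 1))).val / ((p ^ (n + 1) : ℕ) : ℚ)) with hw
      have hwneg : ∀ u, w (-u) = conj (w u) := fun u => msym_unit_neg hr u
      have hwval : ∀ u, w u = msym f ((((u : ZMod (p ^ (n + 1))).val : ℤ) : ℚ) / p ^ (n + 1)) := by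
        intro u
        rw [hw]
        simp only
        congr 1
        push_cast
        rfl
      have hwre : ∀ u, (w u).re = s₁ ((u : ZMod (p ^ (n + 1))).val : ℤ) (n + 1) * Ω₁ := fun u => by
        rw [hwval, hre]
      have hwim : ∀ u, (w u).im = s₂ ((u : ZMod (p ^ (n + 1))).val : ℤ) (n + 1) * Ω₂ := fun u => by
        rw [hwval, him]
      have hL1 : L 1 = gaussSum χ stdAddChar / ((p ^ (n + 1) : ℕ) : ℂ) *
          ∑ u : (ZMod (p ^ (n + 1)))ˣ, χ⁻¹ u * conj (w u) := by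
        rw [hL.unique (Twist.isTwist_LT hΔ hf ha χ)]
        exact LT_one_eq hr hχp
      have hpow : ((p ^ (n + 1) : ℕ) : ℂ) ≠ 0 := Nat.cast_ne_zero.mpr (NeZero.ne _)
      have hpow' : (p : ℂ) ^ (n + 1) = ((p ^ (n + 1) : ℕ) : ℂ) := by push_cast; rfl
      have hR : ∑ u : (ZMod (p ^ (n + 1)))ˣ, χ⁻¹ u * ((w u).re : ℂ) = Ω₁ *
          ∑ u : (ZMod (p ^ (n + 1)))ˣ, i (ψ u) *
            ((s₁ ((u : ZMod (p ^ (n + 1))).val : ℤ) (n + 1) : ℚ) : ℂ) := by
        rw [Finset.mul_sum]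
        refine Finset.sum_congr rfl fun u _ => ?_
        rw [hwre, hχinv]
        push_cast
        ring
      have hI : ∑ u : (ZMod (p ^ (n + 1)))ˣ, χ⁻¹ u * ((w u).im : ℂ) = Ω₂ *
          ∑ u : (ZMod (p ^ (n + 1)))ˣ, i (ψ u) *
            ((s₂ ((u : ZMod (p ^ (n + 1))).val : ℤ) (n + 1) : ℚ) : ℂ) := by
        rw [Finset.mul_sum]
        refine Finset.sum_congr rfl fun u _ => ?_
        rw [hwim, hχinv]
        push_cast
        ring
      have hdec : ∑ u : (ZMod (p ^ (n + 1)))ˣ, χ⁻¹ u * conj (w u) =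
          ∑ u : (ZMod (p ^ (n + 1)))ˣ, χ⁻¹ u * ((w u).re : ℂ) -
            I * ∑ u : (ZMod (p ^ (n + 1)))ˣ, χ⁻¹ u * ((w u).im : ℂ) := by
        rw [Finset.mul_sum, ← Finset.sum_sub_distrib]
        refine Finset.sum_congr rfl fun u _ => ?_
        have h1 : conj (w u) = (w u).re - (w u).im * I := by
          apply Complex.ext <;> simp
        rw [h1]
        ring
      have hiA : i (∑ x : (ZMod (p ^ (n + 1)))ˣ, ψ x *
          ((s₁ ((x : ZMod (p ^ (n + 1))).val : ℤ) (n + 1) +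
            s₂ ((x : ZMod (p ^ (n + 1))).val : ℤ) (n + 1) : ℚ) : K)) =
          ∑ u : (ZMod (p ^ (n + 1)))ˣ, i (ψ u) *
            ((s₁ ((u : ZMod (p ^ (n + 1))).val : ℤ) (n + 1) : ℚ) : ℂ) +
          ∑ u : (ZMod (p ^ (n + 1)))ˣ, i (ψ u) *
            ((s₂ ((u : ZMod (p ^ (n + 1))).val : ℤ) (n + 1) : ℚ) : ℂ) := by
        rw [map_sum, ← Finset.sum_add_distrib]
        refine Finset.sum_congr rfl fun u _ => ?_
        rw [map_mul, map_ratCast]
        push_cast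
        ring
      have hΩ₁ : (Ω₁ : ℂ) ≠ 0 := by exact_mod_cast hPf.pos₁.ne'
      have hΩ₂ : (Ω₂ : ℂ) ≠ 0 := by exact_mod_cast hPf.pos₂.ne'
      refine ⟨fun hev => ?_, fun hodd => ?_⟩
      · have hχe : χ.Even := by
          change χ (-1) = 1
          rw [hχ, MulChar.ringHomComp_apply, MulChar.inv_apply_eq_inv',
            show ψ (-1) = 1 from hev, inv_one, map_one]
        have h1 := sum_even hχe hwneg
        have h2 : ∑ u : (ZMod (p ^ (n + 1)))ˣ, i (ψ u) *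
            ((s₂ ((u : ZMod (p ^ (n + 1))).val : ℤ) (n + 1) : ℚ) : ℂ) = 0 := by
          rw [hdec] at h1
          have h3 : I * ∑ u : (ZMod (p ^ (n + 1)))ˣ, χ⁻¹ u * ((w u).im : ℂ) = 0 := by
            linear_combination -h1
          rw [hI, mul_eq_zero, or_iff_right I_ne_zero, mul_eq_zero, or_iff_right hΩ₂] at h3
          exact h3
        rw [hiA, h2, add_zero, hL1, h1, hR, hpow']
        field_simp
      · have hχo : χ.Odd := by
          change χ (-1) = -1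
          rw [hχ, MulChar.ringHomComp_apply, MulChar.inv_apply_eq_inv',
            show ψ (-1) = -1 from hodd, inv_neg, inv_one, map_neg, map_one]
        have h1 := sum_odd hχo hwneg
        have h2 : ∑ u : (ZMod (p ^ (n + 1)))ˣ, i (ψ u) *
            ((s₁ ((u : ZMod (p ^ (n + 1))).val : ℤ) (n + 1) : ℚ) : ℂ) = 0 := by
          rw [hdec] at h1
          have h3 : ∑ u : (ZMod (p ^ (n + 1)))ˣ, χ⁻¹ u * ((w u).re : ℂ) = 0 := by
            linear_combination h1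
          rw [hR, mul_eq_zero, or_iff_right hΩ₁] at h3
          exact h3
        rw [hiA, h2, zero_add, hL1, h1, hI, hpow']
        field_simp

end main

end Fermat.Agent.Cor.HW.Per
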