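import Fermat.Agent.Corollaries.HW.LOne
import Fermat.Agent.Corollaries.CondLevel
import Mathlib.Analysis.Complex.AbsMax
import Mathlib.NumberTheory.ZetaValues

/-!
# A bound for the analytic rank in terms of the conductor

For every semistable elliptic curve `E` over `ℚ` with conductor `N` and analytic rank `r`
(`r` the order of vanishing of the `L`-function at `s = 1`): `2^r ≤ N^7`, so `r ≤ 7 log N / log 2`.

Proof: `|Λ(s)| ≤ 2 B`, `B = 20! ζ(2) (√N / 2π)^20`, for `|re s - 1| ≤ 18`, `|Λ(4)| ≥ 2 N² / (2π)^4`,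
and the maximum principle for `Λ(s) / (s - 1)^r` on the disc `|s - 4| ≤ 15`.
-/

set_option autoImplicit false

noncomputable section

open UpperHalfPlane hiding I
open CongruenceSubgroup ModularFormClass Complex MeasureTheory Filter Topology Set
open scoped MatrixGroups ModularForm Nat

namespace Fermat.Agent.Cor.HW

variable {N : ℕ} [NeZero N]

omit [NeZero N] in
theorem norm_qCoeff_le_sq {f : CuspForm (Gamma0 N) 2} (hf : f.IsNormalizedEigenform)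
    (hH : IsHasse f) (n : ℕ) : ‖qCoeff f n‖ ≤ (n : ℝ) ^ 2 := by
  rcases Nat.eq_zero_or_pos n with rfl | hn
  · rw [FermatAgent.HeckeEigen.qCoeff_at_zero f]
    simp
  refine (norm_qCoeff_le hf hH n).trans ?_
  have h1 : (n.divisors.card : ℝ) ≤ n := by exact_mod_cast Nat.card_divisors_le_self n
  have hn1 : (1 : ℝ) ≤ n := by exact_mod_cast hn
  have h2 : √(n : ℝ) ≤ n := by
    rw [Real.sqrt_le_left (by linarith)]
    nlinarith
  rw [sq]
  exact mul_le_mul h1 h2 (Real.sqrt_nonneg _) (by linarith)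

omit [NeZero N] in
theorem norm_qCoeff_le_two_mul {f : CuspForm (Gamma0 N) 2} (hf : f.IsNormalizedEigenform)
    (hH : IsHasse f) (n : ℕ) : ‖qCoeff f n‖ ≤ 2 * n := by
  refine (norm_qCoeff_le hf hH n).trans ?_
  calc (n.divisors.card : ℝ) * √n ≤ 2 * √n * √n :=
        mul_le_mul_of_nonneg_right (card_divisors_le n) (Real.sqrt_nonneg _)
    _ = 2 * n := by rw [mul_assoc, Real.mul_self_sqrt (Nat.cast_nonneg n)]

/-- `|f(i u / √N)| ≤ 20! ζ(2) (x u)^(-20)`, `x = 2π / √N`. -/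
theorem norm_phi_le {f : CuspForm (Gamma0 N) 2} (hf : f.IsNormalizedEigenform) (hH : IsHasse f)
    {u : ℝ} (hu : 0 < u) :
    ‖phi f u‖ ≤ (20 ! : ℕ) * (Real.pi ^ 2 / 6) / (xpar N * u) ^ 20 := by
  have hx0 : 0 < xpar N := xpar_pos
  set y := xpar N * u with hy
  have hy0 : 0 < y := mul_pos hx0 hu
  have h := (hasSum_phi f hu)
  have hb : HasSum (fun n : ℕ => (20 ! : ℕ) / y ^ 20 * ((1 : ℝ) / (n : ℝ) ^ 2))
      ((20 ! : ℕ) / y ^ 20 * (Real.pi ^ 2 / 6)) := hasSum_zeta_two.mul_left _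
  have hle : ∀ n : ℕ, ‖qCoeff f n * (Real.exp (-(n * (xpar N * u))) : ℂ)‖ ≤
      (20 ! : ℕ) / y ^ 20 * ((1 : ℝ) / (n : ℝ) ^ 2) := by
    intro n
    rcases Nat.eq_zero_or_pos n with rfl | hn
    · rw [FermatAgent.HeckeEigen.qCoeff_at_zero f]
      simp
    have hn0 : (0 : ℝ) < n := by exact_mod_cast hn
    have hn1 : (1 : ℝ) ≤ n := by exact_mod_cast hn
    have hny : 0 < (n : ℝ) * y := mul_pos hn0 hy0
    rw [norm_mul, norm_real, Real.norm_eq_abs, Real.abs_exp, ← hy]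
    have h1 := Real.pow_div_factorial_le_exp (n * y) hny.le 20
    have h2 : Real.exp (-(n * y)) ≤ (20 ! : ℕ) / (n * y) ^ 20 := by
      rw [Real.exp_neg, ← inv_div]
      exact inv_anti₀ (by positivity) h1
    calc ‖qCoeff f n‖ * Real.exp (-(n * y)) ≤ (n : ℝ) ^ 2 * ((20 ! : ℕ) / (n * y) ^ 20) :=
          mul_le_mul (norm_qCoeff_le_sq hf hH n) h2 (Real.exp_nonneg _) (by positivity)
      _ = (20 ! : ℕ) / y ^ 20 * ((1 : ℝ) / (n : ℝ) ^ 18) := by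
          field_simp
      _ ≤ (20 ! : ℕ) / y ^ 20 * ((1 : ℝ) / (n : ℝ) ^ 2) := by
          refine mul_le_mul_of_nonneg_left ?_ (by positivity)
          exact one_div_le_one_div_of_le (by positivity) (pow_le_pow_right₀ hn1 (by norm_num))
  have h3 := tsum_of_norm_bounded hb hle
  rw [h.tsum_eq] at h3
  refine h3.trans (le_of_eq ?_)
  ring

/-- The bound on the strip `|re s - 1| ≤ 18`. -/
theorem norm_LamN_le_strip {A : GL (Fin 2) ℝ}
    (hA : (A : Matrix (Fin 2) (Fin 2) ℝ) = !![0, -1; (N : ℝ), 0]) {f : CuspForm (Gamma0 N) 2}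
    {c : ℂ} (hc : ‖c‖ ≤ 1) (hsl : (⇑f : ℍ → ℂ) ∣[(2 : ℤ)] A = c • ⇑f)
    (hf : f.IsNormalizedEigenform) (hH : IsHasse f) {s : ℂ} (h1 : -17 ≤ s.re) (h2 : s.re ≤ 19) :
    ‖LamN f s‖ ≤ 2 * ((20 ! : ℕ) * (Real.pi ^ 2 / 6) / xpar N ^ 20) := by
  have hx0 : 0 < xpar N := xpar_pos
  set B : ℝ := (20 ! : ℕ) * (Real.pi ^ 2 / 6) / xpar N ^ 20 with hB
  have hB0 : 0 ≤ B := by positivity
  rw [LamN_eq_integral hA hsl s]
  have hint : IntegrableOn (fun u : ℝ => 2 * B * u ^ (-2 : ℝ)) (Ioi 1) :=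
    (integrableOn_Ioi_rpow_of_lt (by norm_num) zero_lt_one).const_mul _
  have hval : (∫ u in Ioi (1 : ℝ), 2 * B * u ^ (-2 : ℝ)) = 2 * B := by
    rw [integral_const_mul, integral_Ioi_rpow_of_lt (by norm_num) zero_lt_one]
    norm_num
  rw [← hval]
  refine norm_integral_le_of_norm_le hint ?_
  refine (ae_restrict_iff' measurableSet_Ioi).mpr (Eventually.of_forall fun u hu => ?_)
  have hu1 : (1 : ℝ) < u := hu
  have hu0 : 0 < u := by linarith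
  have e1 : ‖(u : ℂ) ^ (s - 1)‖ ≤ u ^ (18 : ℝ) := by
    rw [norm_cpow_eq_rpow_re_of_pos hu0, sub_re, one_re]
    exact Real.rpow_le_rpow_of_exponent_le hu1.le (by linarith)
  have e2 : ‖(u : ℂ) ^ (1 - s)‖ ≤ u ^ (18 : ℝ) := by
    rw [norm_cpow_eq_rpow_re_of_pos hu0, sub_re, one_re]
    exact Real.rpow_le_rpow_of_exponent_le hu1.le (by linarith)
  have e3 : ‖(u : ℂ) ^ (s - 1) - c * (u : ℂ) ^ (1 - s)‖ ≤ 2 * u ^ (18 : ℝ) := by
    refine (norm_sub_le _ _).trans ?_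
    rw [norm_mul]
    have : ‖c‖ * ‖(u : ℂ) ^ (1 - s)‖ ≤ 1 * u ^ (18 : ℝ) :=
      mul_le_mul hc e2 (norm_nonneg _) zero_le_one
    linarith
  have e4 : (u : ℝ) ^ (-2 : ℝ) = u ^ (18 : ℝ) * (u ^ 20)⁻¹ := by
    rw [← Real.rpow_natCast u 20, ← Real.rpow_neg hu0.le, ← Real.rpow_add hu0]
    norm_num
  rw [norm_mul]
  calc ‖(u : ℂ) ^ (s - 1) - c * (u : ℂ) ^ (1 - s)‖ * ‖phi f u‖
      ≤ (2 * u ^ (18 : ℝ)) * ((20 ! : ℕ) * (Real.pi ^ 2 / 6) / (xpar N * u) ^ 20) :=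
        mul_le_mul e3 (norm_phi_le hf hH hu0) (norm_nonneg _) (by positivity)
    _ = 2 * B * u ^ (-2 : ℝ) := by
        rw [e4, hB, mul_pow]
        field_simp

/-- `|L(f, 4)| ≥ 1/3`. -/
theorem one_third_le_norm_L_four {f : CuspForm (Gamma0 N) 2} (hf : f.IsNormalizedEigenform)
    (hH : IsHasse f) : 1 / 3 ≤ ‖ModularForm.L two_pos f 4‖ := by
  have h := hasSum_L_two f (s := 4) (by norm_num)
  have h2 := h.summable.sum_add_tsum_nat_add 2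
  have e0 : ((0 : ℕ) : ℂ) ^ (4 : ℂ) = 0 := by rw [Nat.cast_zero]; exact zero_cpow (by norm_num)
  rw [h.tsum_eq, Finset.sum_range_succ, Finset.sum_range_one, hf.qCoeff_one, e0, div_zero,
    zero_add, Nat.cast_one, one_cpow, div_one] at h2
  -- the tail
  have hz := (hasSum_nat_add_iff' 2).mpr hasSum_zeta_two
  have hle : ∀ n : ℕ, ‖qCoeff f (n + 2) / (((n + 2 : ℕ) : ℂ) ^ (4 : ℂ))‖ ≤
      (1 : ℝ) / ((n + 2 : ℕ) : ℝ) ^ 2 := by
    intro n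
    have hn0 : (0 : ℝ) < ((n + 2 : ℕ) : ℝ) := by positivity
    have hn2 : (2 : ℝ) ≤ ((n + 2 : ℕ) : ℝ) := by exact_mod_cast Nat.le_add_left 2 n
    have e1 : ‖((n + 2 : ℕ) : ℂ) ^ (4 : ℂ)‖ = ((n + 2 : ℕ) : ℝ) ^ 4 := by
      rw [norm_natCast_cpow_of_pos (by omega), re_ofNat]
      norm_cast
    rw [norm_div, e1, div_le_div_iff₀ (by positivity) (by positivity), one_mul]
    calc ‖qCoeff f (n + 2)‖ * ((n + 2 : ℕ) : ℝ) ^ 2
        ≤ (2 * ((n + 2 : ℕ) : ℝ)) * ((n + 2 : ℕ) : ℝ) ^ 2 :=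
          mul_le_mul_of_nonneg_right (norm_qCoeff_le_two_mul hf hH _) (by positivity)
      _ = 2 * ((n + 2 : ℕ) : ℝ) ^ 3 := by ring
      _ ≤ ((n + 2 : ℕ) : ℝ) * ((n + 2 : ℕ) : ℝ) ^ 3 :=
          mul_le_mul_of_nonneg_right hn2 (by positivity)
      _ = ((n + 2 : ℕ) : ℝ) ^ 4 := by ring
  have htail := tsum_of_norm_bounded hz hle
  have hv : Real.pi ^ 2 / 6 - ∑ i ∈ Finset.range 2, (1 : ℝ) / (i : ℝ) ^ 2 =
      Real.pi ^ 2 / 6 - 1 := by
    rw [Finset.sum_range_succ, Finset.sum_range_one]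
    norm_num
  rw [hv] at htail
  have hpi : Real.pi ^ 2 ≤ 9.9225 := by
    have h3 := Real.pi_lt_d2
    have h4 := Real.pi_pos
    norm_num at h3 ⊢
    nlinarith
  have h5 : (1 : ℝ) ≤ ‖ModularForm.L two_pos f 4‖ +
      ‖∑' n : ℕ, qCoeff f (n + 2) / (((n + 2 : ℕ) : ℂ) ^ (4 : ℂ))‖ := by
    have h6 : (1 : ℂ) = ModularForm.L two_pos f 4 -
        ∑' n : ℕ, qCoeff f (n + 2) / (((n + 2 : ℕ) : ℂ) ^ (4 : ℂ)) := by
      rw [← h2]
      ring
    calc (1 : ℝ) = ‖(1 : ℂ)‖ := norm_one.symm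
      _ = ‖ModularForm.L two_pos f 4 -
        ∑' n : ℕ, qCoeff f (n + 2) / (((n + 2 : ℕ) : ℂ) ^ (4 : ℂ))‖ := by rw [← h6]
      _ ≤ _ := norm_sub_le _ _
  linarith

/-- `|Λ(f, 4)| ≥ 2 N² / (2π)^4`. -/
theorem le_norm_LamN_four {f : CuspForm (Gamma0 N) 2} (hf : f.IsNormalizedEigenform)
    (hH : IsHasse f) : 2 * (N : ℝ) ^ 2 / (2 * Real.pi) ^ 4 ≤ ‖LamN f 4‖ := by
  have h := one_third_le_norm_L_four hf hH
  have e1 : ‖(N : ℂ) ^ ((4 : ℂ) / 2)‖ = (N : ℝ) ^ 2 := by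
    rw [show (4 : ℂ) / 2 = 2 from by norm_num, norm_natCast_cpow_of_pos
      (Nat.pos_of_ne_zero (NeZero.ne N)), re_ofNat]
    norm_cast
  have e2 : ‖(2 * (Real.pi : ℂ)) ^ (-(4 : ℂ))‖ = ((2 * Real.pi) ^ 4)⁻¹ := by
    have h7 : (2 * (Real.pi : ℂ)) = ((2 * Real.pi : ℝ) : ℂ) := by push_cast; rfl
    rw [h7, norm_cpow_eq_rpow_re_of_pos (by positivity), neg_re, re_ofNat,
      Real.rpow_neg (by positivity)]
    norm_cast
  have e3 : ‖Gamma (4 : ℂ)‖ = 6 := by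
    have : Gamma (4 : ℂ) = ((3 ! : ℕ) : ℂ) := by
      rw [← Gamma_nat_eq_factorial]
      norm_num
    rw [this, norm_natCast]
    norm_num [Nat.factorial]
  rw [LamN_eq_L f (s := 4) (by norm_num), norm_mul, norm_mul, norm_mul, e1, e2, e3]
  have hpos : 0 ≤ (N : ℝ) ^ 2 * ((2 * Real.pi) ^ 4)⁻¹ := by positivity
  calc 2 * (N : ℝ) ^ 2 / (2 * Real.pi) ^ 4 = (N : ℝ) ^ 2 * ((2 * Real.pi) ^ 4)⁻¹ * 6 * (1 / 3) := by
        rw [div_eq_mul_inv]
        ring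
    _ ≤ (N : ℝ) ^ 2 * ((2 * Real.pi) ^ 4)⁻¹ * 6 * ‖ModularForm.L two_pos f 4‖ :=
        mul_le_mul_of_nonneg_left h (by positivity)
    _ = _ := by ring

/-- **The basic inequality**: `4^r |Λ(4)| ≤ sup |Λ|` on the disc `|s - 4| ≤ 15`. -/
theorem four_pow_mul_le {F : ℂ → ℂ} (hF : Differentiable ℂ F) (h0 : F 4 ≠ 0) {M : ℝ}
    (hM : ∀ s : ℂ, ‖s - 4‖ = 15 → ‖F s‖ ≤ M) :
    4 ^ analyticOrderNatAt F 1 * ‖F 4‖ ≤ M := by
  obtain ⟨n, G, hG, hG1, hFG⟩ := exists_divide hF ⟨4, h0⟩ 1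
  have hn : analyticOrderNatAt F 1 = n := by
    have h1 : analyticOrderAt F 1 = n :=
      (hF.analyticAt 1).analyticOrderAt_eq_natCast.mpr
        ⟨G, hG.analyticAt 1, hG1, Eventually.of_forall fun z => by rw [hFG z, smul_eq_mul]⟩
    rw [analyticOrderNatAt, h1, ENat.toNat_natCast]
  rw [hn]
  have hfr : ∀ z ∈ frontier (Metric.ball (4 : ℂ) 15), ‖G z‖ ≤ M / 12 ^ n := by
    intro z hz
    rw [frontier_ball _ (by norm_num), mem_sphere_iff_norm] at hz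
    have h1 : 12 ≤ ‖z - 1‖ := by
      have h2 : ‖z - 4‖ ≤ ‖z - 1‖ + ‖(3 : ℂ)‖ := by
        calc ‖z - 4‖ = ‖(z - 1) - 3‖ := by ring_nf
          _ ≤ _ := norm_sub_le _ _
      rw [hz, norm_ofNat] at h2
      linarith
    have h3 := hM z hz
    rw [hFG z, norm_mul, norm_pow] at h3
    rw [le_div_iff₀ (by positivity)]
    have h4 : (12 : ℝ) ^ n ≤ ‖z - 1‖ ^ n := pow_le_pow_left₀ (by norm_num) h1 n
    calc ‖G z‖ * 12 ^ n ≤ ‖G z‖ * ‖z - 1‖ ^ n := mul_le_mul_of_nonneg_left h4 (norm_nonneg _)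
      _ = ‖z - 1‖ ^ n * ‖G z‖ := mul_comm _ _
      _ ≤ M := h3
  have h1 := norm_le_of_forall_mem_frontier_norm_le Metric.isBounded_ball
    hG.diffContOnCl hfr (subset_closure (Metric.mem_ball_self (by norm_num)) :
      (4 : ℂ) ∈ closure (Metric.ball (4 : ℂ) 15))
  rw [le_div_iff₀ (by positivity)] at h1
  have h2 : ‖F 4‖ = 3 ^ n * ‖G 4‖ := by
    rw [hFG 4, norm_mul, norm_pow]
    norm_num
  rw [h2, ← mul_assoc, ← mul_pow]
  norm_num
  linarith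

/-- The bound for a newform of level `N`: `4^r ≤ 20! ζ(2) (2π)^(-16) N^8`. -/
theorem four_pow_order_le {A : GL (Fin 2) ℝ}
    (hA : (A : Matrix (Fin 2) (Fin 2) ℝ) = !![0, -1; (N : ℝ), 0]) {f : CuspForm (Gamma0 N) 2}
    {c : ℂ} (hc : ‖c‖ ≤ 1) (hsl : (⇑f : ℍ → ℂ) ∣[(2 : ℤ)] A = c • ⇑f)
    (hf : f.IsNormalizedEigenform) (hH : IsHasse f) :
    (4 : ℝ) ^ analyticOrderNatAt (LamN f) 1 ≤
      (20 ! : ℕ) * (Real.pi ^ 2 / 6) / (2 * Real.pi) ^ 16 * (N : ℝ) ^ 8 := by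
  have hN : (0 : ℝ) < N := by exact_mod_cast Nat.pos_of_ne_zero (NeZero.ne N)
  have h4 := le_norm_LamN_four hf hH
  have hpos : 0 < 2 * (N : ℝ) ^ 2 / (2 * Real.pi) ^ 4 := by positivity
  have h0 : LamN f 4 ≠ 0 := norm_pos_iff.mp (hpos.trans_le h4)
  have h := four_pow_mul_le (differentiable_LamN f) h0
    (M := 2 * ((20 ! : ℕ) * (Real.pi ^ 2 / 6) / xpar N ^ 20)) (by
      intro s hs
      have h1 : |(s - 4).re| ≤ 15 := (abs_re_le_norm _).trans hs.le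
      rw [sub_re, re_ofNat, abs_le] at h1
      exact norm_LamN_le_strip hA hc hsl hf hH (by linarith) (by linarith))
  have h5 : (4 : ℝ) ^ analyticOrderNatAt (LamN f) 1 * (2 * (N : ℝ) ^ 2 / (2 * Real.pi) ^ 4) ≤
      2 * ((20 ! : ℕ) * (Real.pi ^ 2 / 6) / xpar N ^ 20) :=
    (mul_le_mul_of_nonneg_left h4 (by positivity)).trans h
  have h6 : xpar N ^ 20 = (2 * Real.pi) ^ 20 / (N : ℝ) ^ 10 := by
    rw [xpar, div_pow]
    congr 1
    rw [show (20 : ℕ) = 2 * 10 from rfl, pow_mul, Real.sq_sqrt hN.le]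
  rw [h6] at h5
  have h7 : 2 * ((20 ! : ℕ) * (Real.pi ^ 2 / 6) / ((2 * Real.pi) ^ 20 / (N : ℝ) ^ 10)) =
      ((20 ! : ℕ) * (Real.pi ^ 2 / 6) / (2 * Real.pi) ^ 16 * (N : ℝ) ^ 8) *
        (2 * (N : ℝ) ^ 2 / (2 * Real.pi) ^ 4) := by
    have := Real.pi_pos
    field_simp
  rw [h7] at h5
  exact le_of_mul_le_mul_right h5 hpos

theorem const_le : (20 ! : ℕ) * (Real.pi ^ 2 / 6) / (2 * Real.pi) ^ 16 ≤ (11 : ℝ) ^ 6 := by
  have h1 := Real.pi_gt_d2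
  have h2 := Real.pi_lt_d2
  have h3 : (6.28 : ℝ) ≤ 2 * Real.pi := by norm_num at h1 ⊢; linarith
  have h4 : (6.28 : ℝ) ^ 16 ≤ (2 * Real.pi) ^ 16 := pow_le_pow_left₀ (by norm_num) h3 16
  have h5 : Real.pi ^ 2 ≤ 9.9225 := by
    have h6 := Real.pi_pos
    norm_num at h2 ⊢
    nlinarith
  rw [div_le_iff₀ (by positivity)]
  calc ((20 ! : ℕ) : ℝ) * (Real.pi ^ 2 / 6) ≤ ((20 ! : ℕ) : ℝ) * (9.9225 / 6) := by gcongr
    _ ≤ 11 ^ 6 * 6.28 ^ 16 := by norm_num [Nat.factorial]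
    _ ≤ 11 ^ 6 * (2 * Real.pi) ^ 16 := by gcongr

section

variable {W : WeierstrassCurve ℤ} (hΔ : W.Δ ≠ 0) (hW : W.IsSemistableModel) {L : ℂ → ℂ}
  (hL : IsHasseWeil W L)

include hΔ hW hL in
/-- **The analytic rank `r` of a semistable elliptic curve over `ℚ` of conductor `N` satisfies
`2^r ≤ N^7`.** -/
theorem two_pow_order_le : 2 ^ analyticOrderNatAt L 1 ≤ W.conductorLevel ^ 7 := by
  obtain ⟨f, ⟨hf, ha⟩, -⟩ := existsUnique_newform_ap hΔ hW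
  have hL' : L = ModularForm.L two_pos f := hL.unique (isHasseWeil hΔ hf ha)
  have hw := rootNumber_eq_one_or hΔ ha hf
  have hc : ‖(-(((rootNumber W : ℤ) : ℝ) : ℂ))‖ ≤ 1 := by
    rcases hw with h | h <;> rw [h] <;> norm_num
  have h1 := four_pow_order_le (frickeMat_val W) hc (slash_frickeMat hΔ hf ha) hf.1
    (isHasse hΔ hf ha)
  have hord : analyticOrderNatAt (LamN f) 1 = analyticOrderNatAt L 1 := by
    rw [analyticOrderNatAt, analyticOrderNatAt, analyticOrderAt_LamN, hL']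
  rw [hord] at h1
  have h11 : (11 : ℝ) ≤ (W.conductorLevel : ℝ) := by
    exact_mod_cast eleven_le_conductorLevel hΔ hW
  have h2 : (4 : ℝ) ^ analyticOrderNatAt L 1 ≤ (W.conductorLevel : ℝ) ^ 14 := by
    calc (4 : ℝ) ^ analyticOrderNatAt L 1
        ≤ (20 ! : ℕ) * (Real.pi ^ 2 / 6) / (2 * Real.pi) ^ 16 * (W.conductorLevel : ℝ) ^ 8 := h1
      _ ≤ (11 : ℝ) ^ 6 * (W.conductorLevel : ℝ) ^ 8 :=
          mul_le_mul_of_nonneg_right const_le (by positivity)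
      _ ≤ (W.conductorLevel : ℝ) ^ 6 * (W.conductorLevel : ℝ) ^ 8 := by gcongr
      _ = (W.conductorLevel : ℝ) ^ 14 := by ring
  have h3 : 4 ^ analyticOrderNatAt L 1 ≤ W.conductorLevel ^ 14 := by exact_mod_cast h2
  have h4 : (2 ^ analyticOrderNatAt L 1) ^ 2 ≤ (W.conductorLevel ^ 7) ^ 2 := by
    rw [← pow_mul, ← pow_mul, mul_comm _ 2, pow_mul]
    exact h3
  exact (Nat.pow_le_pow_iff_left two_ne_zero).mp h4

include hΔ hW hL in
/-- **The analytic rank of a semistable elliptic curve over `ℚ` is at most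
`7 log N / log 2`**, `N` the conductor. -/
theorem order_le_log :
    (analyticOrderNatAt L 1 : ℝ) ≤ 7 / Real.log 2 * Real.log W.conductorLevel := by
  have h1 := two_pow_order_le hΔ hW hL
  have h2 : (2 : ℝ) ^ analyticOrderNatAt L 1 ≤ (W.conductorLevel : ℝ) ^ 7 := by exact_mod_cast h1
  have h3 := Real.log_le_log (by positivity) h2
  rw [Real.log_pow, Real.log_pow] at h3
  have h4 : 0 < Real.log 2 := Real.log_pos (by norm_num)
  rw [div_mul_eq_mul_div, le_div_iff₀ h4]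
  exact_mod_cast h3

end

end Fermat.Agent.Cor.HW
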