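import Fermat.Agent.Corollaries.HW.SmallRank

/-!
# The real zeros of `L(E, s)` for conductor at most `50`

For a semistable elliptic curve over `ℚ` of conductor at most `50` the real zeros of `L(E, s)` are
`0, -1, -2, …` and, if the root number is `-1`, the point `s = 1`: there are no other real zeros in
the critical strip.
-/

set_option autoImplicit false

noncomputable section

open UpperHalfPlane hiding I
open CongruenceSubgroup ModularFormClass Complex MeasureTheory Filter Topology Set
open scoped MatrixGroups ModularForm Nat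

namespace Fermat.Agent.Cor.HW

section

variable {W : WeierstrassCurve ℤ} (hΔ : W.Δ ≠ 0) (hW : W.IsSemistableModel) {L : ℂ → ℂ}
  (hL : IsHasseWeil W L) (hN : W.conductorLevel ≤ 50)

include hΔ hW hL hN in
/-- `L(E, x) ≠ 0` for `1 < x ≤ 2`. -/
theorem L_real_ne_zero {ε : ℝ} (hε : 0 < ε) (hε1 : ε ≤ 1) : L (1 + ε) ≠ 0 := by
  obtain ⟨f, ⟨hf, ha⟩, -⟩ := existsUnique_newform_ap hΔ hW
  have hL' : L = ModularForm.L two_pos f := hL.unique (isHasseWeil hΔ hf ha)
  have hN0 : (W.conductorLevel : ℝ) ≠ 0 := by exact_mod_cast W.conductorLevel_pos.ne'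
  have hdet : (!![0, -1; (W.conductorLevel : ℝ), 0] : Matrix (Fin 2) (Fin 2) ℝ).det ≠ 0 := by
    rw [Matrix.det_fin_two_of]
    simpa using hN0
  set A : GL (Fin 2) ℝ := Matrix.GeneralLinearGroup.mkOfDetNeZero _ hdet with hA
  have hval : (A : Matrix (Fin 2) (Fin 2) ℝ) = !![0, -1; (W.conductorLevel : ℝ), 0] := rfl
  have hsl := slash_fricke W.squarefree_conductorLevel hf hval
  have hc := rootNumber_cast hΔ ha
  have hw := rootNumber_eq_one_or hΔ ha hf
  have hwR : ((rootNumber W : ℤ) : ℝ) = 1 ∨ ((rootNumber W : ℤ) : ℝ) = -1 := by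
    rcases hw with h | h <;> rw [h] <;> norm_num
  have hcc : (∏ q ∈ W.conductorLevel.primeFactors, (-qCoeff f q)) =
      -((((rootNumber W : ℤ) : ℝ) : ℝ) : ℂ) := by
    push_cast
    rw [hc, neg_neg]
  rw [hcc] at hsl
  have hS := tailS_lt_one hf.1 (isHasse hΔ hf ha) hN
  have hge := norm_LamN_ge hval hwR hsl hf.1.qCoeff_one hε.le hε1
  have hx0 : 0 < xpar W.conductorLevel := xpar_pos
  have hJ : 0 < jint ((rootNumber W : ℤ) : ℝ) ε (xpar W.conductorLevel) 1 :=
    lt_of_lt_of_le (by positivity) (le_jint_one hwR hε.le hε1 hx0)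
  have hne : LamN f (1 + ε) ≠ 0 := by
    rw [← norm_pos_iff]
    refine lt_of_lt_of_le ?_ hge
    exact mul_pos (mul_pos (Real.exp_pos _) hJ) (by linarith)
  rw [hL', Ne, L_eq_zero_iff f]
  · exact hne
  · intro n hn
    have h1 := congrArg Complex.re hn
    rw [add_re, one_re, ofReal_re, neg_re, natCast_re] at h1
    have h2 : (0 : ℝ) ≤ n := Nat.cast_nonneg n
    linarith

include hΔ hW hL hN in
/-- **The real zeros of `L(E, s)`** for a semistable elliptic curve of conductor at most `50`. -/
theorem L_real_eq_zero_iff (x : ℝ) :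
    L x = 0 ↔ (∃ n : ℕ, x = -n) ∨ (x = 1 ∧ rootNumber W = -1) := by
  have hC := criticalStrip_of_semistable hΔ hW hL
  have hone : L 1 = 0 ↔ rootNumber W = -1 := by
    obtain ⟨L', -, hL', -, -, -, hw, -, -⟩ := hasseWeil hΔ hW
    have h1 := L_one_ne_zero_iff hΔ hW hL hN
    constructor
    · intro h2
      exact hw.resolve_left fun h3 => h1.mpr h3 h2
    · intro h2
      by_contra h3
      have h4 := h1.mp h3
      rw [h4] at h2
      norm_num at h2
  constructor
  · intro h
    by_cases hx : ∃ n : ℕ, x = -n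
    · exact Or.inl hx
    right
    have hstrip := (hC.zero _ h).resolve_left (fun ⟨n, hn⟩ => hx ⟨n, by exact_mod_cast hn⟩)
    rw [ofReal_re] at hstrip
    rcases lt_trichotomy x 1 with h1 | h1 | h1
    · exfalso
      have h2 := (hC.symm x (by rw [ofReal_re]; linarith) (by rw [ofReal_re]; linarith)).mpr h
      refine L_real_ne_zero hΔ hW hL hN (ε := 1 - x) (by linarith) (by linarith) ?_
      rw [show (1 : ℂ) + ((1 - x : ℝ) : ℂ) = 2 - x by push_cast; ring]
      exact h2
    · subst h1
      rw [ofReal_one] at h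
      exact ⟨rfl, hone.mp h⟩
    · exfalso
      refine L_real_ne_zero hΔ hW hL hN (ε := x - 1) (by linarith) (by linarith) ?_
      rw [show (1 : ℂ) + ((x - 1 : ℝ) : ℂ) = x by push_cast; ring]
      exact h
  · rintro (⟨n, rfl⟩ | ⟨rfl, h⟩)
    · have h1 := hC.trivial n
      by_contra h2
      have h3 : L (-(n : ℂ)) ≠ 0 := by
        intro h4
        apply h2
        push_cast
        exact h4
      rw [(hL.1.analyticAt _).analyticOrderAt_eq_zero.mpr h3] at h1
      norm_num at h1
    · rw [ofReal_one]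
      exact hone.mpr h

end

end Fermat.Agent.Cor.HW

end
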