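import Fermat.Agent.Corollaries.HW.RankBound
import Fermat.Agent.Corollaries.HW.LineShift
import Mathlib.Analysis.MellinInversion

/-!
# The Mellin transform of a cusp form along a rotated ray

For `|α| < π / 2`: `∫ Λ(f, 1 + i t) e^(α t) dt = 2π e^(iα) f(i e^(iα) / √N)`.
-/

set_option autoImplicit false

noncomputable section

open UpperHalfPlane hiding I
open CongruenceSubgroup ModularFormClass Complex MeasureTheory Filter Topology Set
open scoped MatrixGroups ModularForm Nat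

namespace Fermat.Agent.Cor.HW

/-! ### The Mellin transform in the logarithmic variable -/

theorem cpow_exp_aux (s : ℂ) (y : ℝ) : ((Real.exp y : ℝ) : ℂ) ^ s = exp (s * y) := by
  have h : ((Real.exp y : ℝ) : ℂ) ≠ 0 := by exact_mod_cast (Real.exp_pos y).ne'
  rw [cpow_def_of_ne_zero h, ← ofReal_log (Real.exp_pos y).le, Real.log_exp, mul_comm]

theorem image_exp_univ : Real.exp '' univ = Ioi 0 := by
  rw [image_univ, Real.range_exp]

theorem abs_exp_smul_aux (F : ℝ → ℂ) (s : ℂ) (y : ℝ) :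
    |Real.exp y| • (((Real.exp y : ℝ) : ℂ) ^ (s - 1) • F (Real.exp y)) =
      exp (s * y) * F (Real.exp y) := by
  rw [Real.abs_exp, cpow_exp_aux, real_smul, smul_eq_mul, ← mul_assoc, ofReal_exp, ← exp_add]
  congr 2
  ring

theorem mellin_eq_integral_exp (F : ℝ → ℂ) (s : ℂ) :
    mellin F s = ∫ y : ℝ, exp (s * y) * F (Real.exp y) := by
  rw [mellin, ← image_exp_univ, integral_image_eq_integral_abs_deriv_smul MeasurableSet.univ
    (fun x _ => (Real.hasDerivAt_exp x).hasDerivWithinAt) Real.exp_injective.injOn,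
    setIntegral_univ]
  exact integral_congr_ae (Eventually.of_forall fun y => abs_exp_smul_aux F s y)

theorem mellinConvergent_iff_exp (F : ℝ → ℂ) (s : ℂ) :
    MellinConvergent F s ↔ Integrable fun y : ℝ => exp (s * y) * F (Real.exp y) := by
  rw [MellinConvergent, ← image_exp_univ, integrableOn_image_iff_integrableOn_abs_deriv_smul
    MeasurableSet.univ (fun x _ => (Real.hasDerivAt_exp x).hasDerivWithinAt)
    Real.exp_injective.injOn, integrableOn_univ]
  exact integrable_congr (Eventually.of_forall fun y => abs_exp_smul_aux F s y)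

variable {N : ℕ} [NeZero N]

/-- `f(i v / √N)` for complex `v`. -/
def phiC (f : CuspForm (Gamma0 N) 2) (v : ℂ) : ℂ := f (ofComplex (I * ((√(N : ℝ) : ℂ)⁻¹ * v)))

omit [NeZero N] in
theorem phiC_ofReal (f : CuspForm (Gamma0 N) 2) (u : ℝ) : phiC f u = phi f u := by
  rw [phiC, phi, axis]
  push_cast
  rfl

omit [NeZero N] in
theorem im_arg (v : ℂ) : (I * ((√(N : ℝ) : ℂ)⁻¹ * v)).im = (√(N : ℝ))⁻¹ * v.re := by
  rw [← ofReal_inv, mul_im, Complex.I_re, Complex.I_im, re_ofReal_mul]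
  ring

theorem im_arg_pos {v : ℂ} (hv : 0 < v.re) : 0 < (I * ((√(N : ℝ) : ℂ)⁻¹ * v)).im := by
  rw [im_arg]
  exact mul_pos (inv_pos.mpr sqrt_pos_of_neZero) hv

theorem coe_ofComplex_arg {v : ℂ} (hv : 0 < v.re) :
    ((ofComplex (I * ((√(N : ℝ) : ℂ)⁻¹ * v)) : ℍ) : ℂ) = I * ((√(N : ℝ) : ℂ)⁻¹ * v) := by
  rw [ofComplex_apply_of_im_pos (im_arg_pos hv)]

theorem differentiableAt_phiC (f : CuspForm (Gamma0 N) 2) {v : ℂ} (hv : 0 < v.re) :
    DifferentiableAt ℂ (phiC f) v := by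
  have h1 := UpperHalfPlane.mdifferentiable_iff.mp (CuspFormClass.holo f)
  have h2 : DifferentiableAt ℂ (⇑f ∘ ofComplex) (I * ((√(N : ℝ) : ℂ)⁻¹ * v)) :=
    (h1 _ (im_arg_pos hv)).differentiableAt (isOpen_upperHalfPlaneSet.mem_nhds (im_arg_pos hv))
  exact DifferentiableAt.comp (g := ⇑f ∘ ofComplex) v h2 (by fun_prop)

/-- The Fourier expansion bound. -/
theorem norm_phiC_le {f : CuspForm (Gamma0 N) 2} (hf : f.IsNormalizedEigenform) (hH : IsHasse f)
    {v : ℂ} (hv : 0 < v.re) :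
    ‖phiC f v‖ ≤ (20 ! : ℕ) * (Real.pi ^ 2 / 6) / (xpar N * v.re) ^ 20 := by
  have hx0 : 0 < xpar N := xpar_pos
  set y := xpar N * v.re with hy
  have hy0 : 0 < y := mul_pos hx0 hv
  have : Fact (IsCusp OnePoint.infty (Gamma0 N : Subgroup (GL (Fin 2) ℝ))) :=
    ⟨Subgroup.isCusp_of_mem_strictPeriods one_pos (one_mem_strictPeriods_Gamma0 N)⟩
  have h := ModularForm.hasSum_qExpansion f one_pos (one_mem_strictPeriods_Gamma0 N)
    (ofComplex (I * ((√(N : ℝ) : ℂ)⁻¹ * v)))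
  have hb : HasSum (fun n : ℕ => (20 ! : ℕ) / y ^ 20 * ((1 : ℝ) / (n : ℝ) ^ 2))
      ((20 ! : ℕ) / y ^ 20 * (Real.pi ^ 2 / 6)) := hasSum_zeta_two.mul_left _
  have hle : ∀ n : ℕ, ‖(PowerSeries.coeff n) (qExpansion 1 ⇑f) * Function.Periodic.qParam 1
      ((ofComplex (I * ((√(N : ℝ) : ℂ)⁻¹ * v)) : ℍ) : ℂ) ^ n‖ ≤
      (20 ! : ℕ) / y ^ 20 * ((1 : ℝ) / (n : ℝ) ^ 2) := by
    intro n
    have hq : ‖(PowerSeries.coeff n) (qExpansion 1 ⇑f)‖ ≤ (n : ℝ) ^ 2 := norm_qCoeff_le_sq hf hH n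
    rcases Nat.eq_zero_or_pos n with rfl | hn
    · have h0 : ‖(PowerSeries.coeff 0) (qExpansion 1 ⇑f)‖ ≤ 0 := by simpa using hq
      rw [norm_mul, le_antisymm h0 (norm_nonneg _)]
      simp
    have hn0 : (0 : ℝ) < n := by exact_mod_cast hn
    have hn1 : (1 : ℝ) ≤ n := by exact_mod_cast hn
    have hny : 0 < (n : ℝ) * y := mul_pos hn0 hy0
    have hnorm : ‖Function.Periodic.qParam 1
        ((ofComplex (I * ((√(N : ℝ) : ℂ)⁻¹ * v)) : ℍ) : ℂ) ^ n‖ = Real.exp (-(n * y)) := by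
      rw [norm_pow, Function.Periodic.norm_qParam, coe_ofComplex_arg hv, im_arg,
        ← Real.exp_nat_mul]
      congr 1
      rw [hy, xpar]
      ring
    rw [norm_mul, hnorm]
    have h1 := Real.pow_div_factorial_le_exp (n * y) hny.le 20
    have h2 : Real.exp (-(n * y)) ≤ (20 ! : ℕ) / (n * y) ^ 20 := by
      rw [Real.exp_neg, ← inv_div]
      exact inv_anti₀ (by positivity) h1
    calc ‖(PowerSeries.coeff n) (qExpansion 1 ⇑f)‖ * Real.exp (-(n * y))
        ≤ (n : ℝ) ^ 2 * ((20 ! : ℕ) / (n * y) ^ 20) :=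
          mul_le_mul hq h2 (Real.exp_nonneg _) (by positivity)
      _ = (20 ! : ℕ) / y ^ 20 * ((1 : ℝ) / (n : ℝ) ^ 18) := by
          field_simp
      _ ≤ (20 ! : ℕ) / y ^ 20 * ((1 : ℝ) / (n : ℝ) ^ 2) := by
          refine mul_le_mul_of_nonneg_left ?_ (by positivity)
          exact one_div_le_one_div_of_le (by positivity) (pow_le_pow_right₀ hn1 (by norm_num))
  have h3 := tsum_of_norm_bounded hb hle
  rw [h.tsum_eq] at h3
  refine h3.trans (le_of_eq ?_)
  ring

/-- `φ(1/v) = -c v² φ(v)` for complex `v`, `re v > 0`. -/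
theorem phiC_inv {A : GL (Fin 2) ℝ}
    (hA : (A : Matrix (Fin 2) (Fin 2) ℝ) = !![0, -1; (N : ℝ), 0]) {f : CuspForm (Gamma0 N) 2}
    {c : ℂ} (hf : (⇑f : ℍ → ℂ) ∣[(2 : ℤ)] A = c • ⇑f) {v : ℂ} (hv : 0 < v.re) :
    phiC f v⁻¹ = -c * v ^ 2 * phiC f v := by
  have hN := sqrt_pos_of_neZero (N := N)
  have hN0 : ((√(N : ℝ) : ℝ) : ℂ) ≠ 0 := by exact_mod_cast hN.ne'
  have hN2 : ((√(N : ℝ) : ℝ) : ℂ) * ((√(N : ℝ) : ℝ) : ℂ) = (N : ℂ) := by
    rw [← ofReal_mul, Real.mul_self_sqrt (Nat.cast_nonneg N)]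
    push_cast
    rfl
  have hNN : (N : ℂ) ≠ 0 := Nat.cast_ne_zero.mpr (NeZero.ne N)
  have hv0 : v ≠ 0 := by
    rintro rfl
    simp at hv
  have hvi : 0 < (v⁻¹).re := by
    rw [inv_re]
    exact div_pos hv (normSq_pos.mpr hv0)
  set τ : ℍ := ofComplex (I * ((√(N : ℝ) : ℂ)⁻¹ * v)) with hτ
  have hτv : (τ : ℂ) = I * ((√(N : ℝ) : ℂ)⁻¹ * v) := coe_ofComplex_arg hv
  have h1 : A • τ = ofComplex (I * ((√(N : ℝ) : ℂ)⁻¹ * v⁻¹)) := by
    ext
    rw [coe_smul_of_val hA, coe_ofComplex_arg hvi, hτv, ← hN2]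
    field_simp
    rw [I_sq]
  have h2 := congrFun hf τ
  rw [slash_of_val hA, h1, Pi.smul_apply, smul_eq_mul, hτv] at h2
  rw [phiC, phiC, ← hτ]
  have h3 : (N : ℂ) ^ ((2 : ℤ) - 1) * ((N : ℂ) * (I * ((√(N : ℝ) : ℂ)⁻¹ * v))) ^ (-(2 : ℤ)) =
      -(v ^ 2)⁻¹ := by
    rw [show (2 : ℤ) - 1 = 1 from rfl, zpow_one, zpow_neg,
      show (2 : ℤ) = ((2 : ℕ) : ℤ) from rfl, zpow_natCast, ← hN2]
    field_simp
    rw [I_sq]
    ring
  rw [h3] at h2
  have h4 : (v ^ 2) ≠ 0 := pow_ne_zero 2 hv0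
  calc f (ofComplex (I * ((√(N : ℝ) : ℂ)⁻¹ * v⁻¹)))
      = -(v ^ 2) * (-(v ^ 2)⁻¹ * f (ofComplex (I * ((√(N : ℝ) : ℂ)⁻¹ * v⁻¹)))) := by
        field_simp
    _ = -c * v ^ 2 * f τ := by
        rw [h2]
        ring

/-! ### The rays -/

theorem one_add_sq_le_exp (y : ℝ) : 1 + y ^ 2 ≤ Real.exp (2 * |y|) := by
  have h1 := Real.add_one_le_exp |y|
  have h2 : Real.exp (2 * |y|) = Real.exp |y| * Real.exp |y| := by
    rw [← Real.exp_add]
    congr 1
    ring
  have h3 : 0 ≤ |y| := abs_nonneg y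
  rw [h2, ← sq_abs]
  nlinarith

theorem exp_neg_two_abs_le (y : ℝ) : Real.exp (-(2 * |y|)) ≤ (1 + y ^ 2)⁻¹ := by
  rw [Real.exp_neg]
  exact inv_anti₀ (by positivity) (one_add_sq_le_exp y)

/-- The constant in the bounds on the sector. -/
def Ksec (N : ℕ) (β : ℝ) : ℝ := (20 ! : ℕ) * (Real.pi ^ 2 / 6) / (xpar N * Real.cos β) ^ 20

section

variable {A : GL (Fin 2) ℝ} (hA : (A : Matrix (Fin 2) (Fin 2) ℝ) = !![0, -1; (N : ℝ), 0])
  {f : CuspForm (Gamma0 N) 2} {c : ℂ} (hc : ‖c‖ ≤ 1) (hsl : (⇑f : ℍ → ℂ) ∣[(2 : ℤ)] A = c • ⇑f)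
  (hf : f.IsNormalizedEigenform) (hH : IsHasse f) {β : ℝ} (hβ : β < Real.pi / 2)

theorem cos_le_of_abs {x : ℝ} (hx : |x| ≤ β) (hβ : β < Real.pi / 2) :
    Real.cos β ≤ Real.cos x ∧ 0 < Real.cos β := by
  have h0 : 0 ≤ β := (abs_nonneg x).trans hx
  constructor
  · rw [← Real.cos_abs x]
    exact Real.cos_le_cos_of_nonneg_of_le_pi (abs_nonneg x) (by linarith [Real.pi_pos]) hx
  · exact Real.cos_pos_of_mem_Ioo ⟨by linarith [Real.pi_pos], hβ⟩

include hf hH hβ in
theorem norm_phiC_exp_le {z : ℂ} (hz : |z.im| ≤ β) :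
    0 < (exp z).re ∧ ‖phiC f (exp z)‖ ≤ Ksec N β * Real.exp (-(20 * z.re)) := by
  obtain ⟨h1, h2⟩ := cos_le_of_abs hz hβ
  have hx0 : 0 < xpar N := xpar_pos
  have hre : (exp z).re = Real.exp z.re * Real.cos z.im := exp_re z
  have hpos : 0 < (exp z).re := by
    rw [hre]
    exact mul_pos (Real.exp_pos _) (h2.trans_le h1)
  refine ⟨hpos, (norm_phiC_le hf hH hpos).trans ?_⟩
  have h3 : xpar N * Real.cos β * Real.exp z.re ≤ xpar N * (exp z).re := by
    rw [hre]
    have := mul_le_mul_of_nonneg_left h1 (mul_pos hx0 (Real.exp_pos z.re)).le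
    linarith
  have h4 : Real.exp (-(20 * z.re)) = (Real.exp z.re ^ 20)⁻¹ := by
    rw [Real.exp_neg, ← Real.exp_nat_mul]
    norm_num
  rw [Ksec, h4]
  calc (20 ! : ℕ) * (Real.pi ^ 2 / 6) / (xpar N * (exp z).re) ^ 20
      ≤ (20 ! : ℕ) * (Real.pi ^ 2 / 6) / (xpar N * Real.cos β * Real.exp z.re) ^ 20 := by
        gcongr
    _ = (20 ! : ℕ) * (Real.pi ^ 2 / 6) / (xpar N * Real.cos β) ^ 20 * (Real.exp z.re ^ 20)⁻¹ := by
        rw [mul_pow, div_mul_eq_div_div, div_eq_mul_inv _ (Real.exp z.re ^ 20)]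

include hA hc hsl hf hH hβ in
theorem norm_phiC_exp_le' {z : ℂ} (hz : |z.im| ≤ β) :
    ‖phiC f (exp z)‖ ≤ Ksec N β * Real.exp (18 * z.re) := by
  have hz' : |(-z).im| ≤ β := by rwa [neg_im, abs_neg]
  obtain ⟨h1, h2⟩ := norm_phiC_exp_le hf hH hβ hz'
  have h3 := phiC_inv hA hsl h1
  rw [← exp_neg, neg_neg] at h3
  rw [h3, norm_mul, norm_mul, norm_neg, norm_pow, norm_exp, neg_re]
  rw [neg_re] at h2
  have h4 : Real.exp (18 * z.re) = Real.exp (-z.re) ^ 2 * Real.exp (-(20 * -z.re)) := by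
    rw [← Real.exp_nat_mul, ← Real.exp_add]
    congr 1
    push_cast
    ring
  rw [h4]
  calc ‖c‖ * Real.exp (-z.re) ^ 2 * ‖phiC f (exp (-z))‖
      ≤ 1 * Real.exp (-z.re) ^ 2 * (Ksec N β * Real.exp (-(20 * -z.re))) := by gcongr
    _ = _ := by ring

include hA hc hsl hf hH hβ in
/-- The decay in the strip. -/
theorem norm_strip_le {z : ℂ} (hz : |z.im| ≤ β) (t : ℝ) :
    ‖phiC f (exp z) * exp ((1 + t * I) * z)‖ ≤
      Ksec N β * Real.exp (|t| * β) * (1 + z.re ^ 2)⁻¹ := by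
  have h1 := (norm_phiC_exp_le hf hH hβ hz).2
  have h2 := norm_phiC_exp_le' hA hc hsl hf hH hβ hz
  obtain ⟨-, hcos⟩ := cos_le_of_abs hz hβ
  have hK : 0 ≤ Ksec N β := by
    have := xpar_pos (N := N)
    unfold Ksec
    positivity
  have h3 : ((1 + t * I) * z).re = z.re + -(t * z.im) := by
    simp
    ring
  have h4 : -(t * z.im) ≤ |t| * β := by
    calc -(t * z.im) ≤ |t * z.im| := neg_le_abs _
      _ = |t| * |z.im| := abs_mul _ _
      _ ≤ |t| * β := mul_le_mul_of_nonneg_left hz (abs_nonneg t)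
  rw [norm_mul, norm_exp, h3, Real.exp_add]
  have h5 : ‖phiC f (exp z)‖ * Real.exp z.re ≤ Ksec N β * Real.exp (-(2 * |z.re|)) := by
    rcases le_total 0 z.re with h | h
    · rw [abs_of_nonneg h]
      calc ‖phiC f (exp z)‖ * Real.exp z.re ≤ Ksec N β * Real.exp (-(20 * z.re)) * Real.exp z.re := by
            gcongr
        _ = Ksec N β * Real.exp (-(19 * z.re)) := by
            rw [mul_assoc, ← Real.exp_add]
            congr 2
            ring
        _ ≤ Ksec N β * Real.exp (-(2 * z.re)) := by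
            refine mul_le_mul_of_nonneg_left (Real.exp_le_exp.mpr ?_) hK
            linarith
    · rw [abs_of_nonpos h]
      calc ‖phiC f (exp z)‖ * Real.exp z.re ≤ Ksec N β * Real.exp (18 * z.re) * Real.exp z.re := by
            gcongr
        _ = Ksec N β * Real.exp (19 * z.re) := by
            rw [mul_assoc, ← Real.exp_add]
            congr 2
            ring
        _ ≤ Ksec N β * Real.exp (-(2 * -z.re)) := by
            refine mul_le_mul_of_nonneg_left (Real.exp_le_exp.mpr ?_) hK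
            linarith
  have h6 := exp_neg_two_abs_le z.re
  calc ‖phiC f (exp z)‖ * (Real.exp z.re * Real.exp (-(t * z.im)))
      = (‖phiC f (exp z)‖ * Real.exp z.re) * Real.exp (-(t * z.im)) := by ring
    _ ≤ (Ksec N β * (1 + z.re ^ 2)⁻¹) * Real.exp (|t| * β) := by
        refine mul_le_mul (h5.trans (mul_le_mul_of_nonneg_left h6 hK))
          (Real.exp_le_exp.mpr h4) (Real.exp_nonneg _) (by positivity)
    _ = _ := by ring

theorem abs_le_of_mem_uIcc {x α : ℝ} (h : x ∈ uIcc 0 α) : |x| ≤ |α| := by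
  rcases le_total 0 α with h1 | h1
  · rw [uIcc_of_le h1] at h
    rw [abs_of_nonneg h.1, abs_of_nonneg h1]
    exact h.2
  · rw [uIcc_of_ge h1] at h
    rw [abs_of_nonpos h.2, abs_of_nonpos h1]
    linarith [h.1]

include hf hH in
theorem differentiableAt_strip {α : ℝ} (hα : |α| < Real.pi / 2) (t : ℝ) {z : ℂ}
    (hz : |z.im| ≤ |α|) :
    DifferentiableAt ℂ (fun z => phiC f (exp z) * exp ((1 + t * I) * z)) z := by
  have h1 := (norm_phiC_exp_le hf hH hα hz).1
  exact ((differentiableAt_phiC f h1).comp z differentiableAt_exp).mul (by fun_prop)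

include hA hc hsl hf hH in
theorem integrable_ray {α : ℝ} (hα : |α| < Real.pi / 2) (t : ℝ) :
    Integrable fun y : ℝ => phiC f (exp (y + α * I)) * exp ((1 + t * I) * (y + α * I)) :=
  integrable_line (g := fun z => phiC f (exp z) * exp ((1 + t * I) * z)) (a := 0) (b := α)
    (fun _ hz => differentiableAt_strip hf hH hα t (abs_le_of_mem_uIcc hz))
    (fun _ hz => norm_strip_le hA hc hsl hf hH hα (abs_le_of_mem_uIcc hz) t) right_mem_uIcc

include hA hc hsl hf hH in
/-- **Rotation of the ray of integration.** -/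
theorem integral_ray {α : ℝ} (hα : |α| < Real.pi / 2) (t : ℝ) :
    ∫ y : ℝ, phiC f (exp (y + α * I)) * exp ((1 + t * I) * (y + α * I)) =
      LamN f (1 + t * I) := by
  have h := integral_line_shift (g := fun z => phiC f (exp z) * exp ((1 + t * I) * z))
    (a := 0) (b := α)
    (fun _ hz => differentiableAt_strip hf hH hα t (abs_le_of_mem_uIcc hz))
    (fun _ hz => norm_strip_le hA hc hsl hf hH hα (abs_le_of_mem_uIcc hz) t)
  rw [← h, ← mellin_phi, mellin_eq_integral_exp]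
  refine integral_congr_ae (Eventually.of_forall fun y => ?_)
  simp only
  rw [ofReal_zero, zero_mul, add_zero, ← ofReal_exp, phiC_ofReal]
  ring

/-- The rotated function. -/
def phiRot (f : CuspForm (Gamma0 N) 2) (α u : ℝ) : ℂ := phiC f (u * exp (α * I))

omit [NeZero N] in
theorem phiRot_exp (α y : ℝ) : phiRot f α (Real.exp y) = phiC f (exp (y + α * I)) := by
  rw [phiRot, exp_add, ofReal_exp]

omit [NeZero N] in
theorem ray_aux (α t y : ℝ) : phiC f (exp (y + α * I)) * exp ((1 + t * I) * (y + α * I)) =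
    exp ((1 + t * I) * (α * I)) * (exp ((1 + t * I) * y) * phiRot f α (Real.exp y)) := by
  have h : exp ((1 + t * I) * ((y : ℂ) + α * I)) =
      exp ((1 + t * I) * (α * I)) * exp ((1 + t * I) * y) := by
    rw [← exp_add]
    congr 1
    ring
  rw [phiRot_exp, h]
  ring

include hA hc hsl hf hH in
theorem mellin_phiRot {α : ℝ} (hα : |α| < Real.pi / 2) (t : ℝ) :
    MellinConvergent (phiRot f α) (1 + t * I) ∧
      mellin (phiRot f α) (1 + t * I) = exp (-((1 + t * I) * (α * I))) * LamN f (1 + t * I) := by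
  have h1 := integrable_ray hA hc hsl hf hH hα t
  have h2 := integral_ray hA hc hsl hf hH hα t
  simp only [ray_aux] at h1 h2
  rw [integral_const_mul] at h2
  constructor
  · rw [mellinConvergent_iff_exp]
    have h3 := h1.const_mul (exp ((1 + t * I) * (α * I)))⁻¹
    refine h3.congr (Eventually.of_forall fun y => ?_)
    simp only
    rw [inv_mul_cancel_left₀ (exp_ne_zero _)]
  · rw [mellin_eq_integral_exp, ← h2, ← mul_assoc, ← exp_add, neg_add_cancel, exp_zero, one_mul]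

/-- The integral of the absolute value along a ray. -/
def rayNorm (f : CuspForm (Gamma0 N) 2) (α : ℝ) : ℝ :=
  ∫ y : ℝ, ‖phiC f (exp (y + α * I))‖ * Real.exp y

include hA hc hsl hf hH in
/-- `|Λ(1 + i t)| e^(α t)` is bounded. -/
theorem norm_LamN_mul_exp_le {α : ℝ} (hα : |α| < Real.pi / 2) (t : ℝ) :
    ‖LamN f (1 + t * I)‖ * Real.exp (α * t) ≤ rayNorm f α := by
  rw [← integral_ray hA hc hsl hf hH hα t]
  have h1 := norm_integral_le_integral_norm (μ := volume)
    (fun y : ℝ => phiC f (exp (y + α * I)) * exp ((1 + t * I) * (y + α * I)))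
  have h2 : (∫ y : ℝ, ‖phiC f (exp (y + α * I)) * exp ((1 + t * I) * (y + α * I))‖) =
      Real.exp (-(α * t)) * rayNorm f α := by
    rw [rayNorm, ← integral_const_mul]
    refine integral_congr_ae (Eventually.of_forall fun y => ?_)
    simp only
    rw [norm_mul, norm_exp]
    have h3 : ((1 + t * I) * ((y : ℂ) + α * I)).re = y + -(α * t) := by
      simp
      ring
    rw [h3, Real.exp_add]
    ring
  rw [h2] at h1
  calc _ ≤ Real.exp (-(α * t)) * rayNorm f α * Real.exp (α * t) :=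
        mul_le_mul_of_nonneg_right h1 (Real.exp_nonneg _)
    _ = rayNorm f α * (Real.exp (-(α * t)) * Real.exp (α * t)) := by ring
    _ = rayNorm f α := by rw [← Real.exp_add, neg_add_cancel, Real.exp_zero, mul_one]

omit [NeZero N] in
theorem integrable_exp_neg_mul_abs' {r : ℝ} (hr : 0 < r) :
    Integrable fun t : ℝ => Real.exp (-(r * |t|)) := by
  have h1 : Integrable fun t : ℝ => (1 + (r / 2 * t) ^ 2)⁻¹ :=
    integrable_inv_one_add_sq.comp_mul_left' (by positivity : r / 2 ≠ 0)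
  refine Integrable.mono' h1 (by fun_prop) (Eventually.of_forall fun t => ?_)
  rw [Real.norm_eq_abs, Real.abs_exp]
  refine le_trans (le_of_eq ?_) (exp_neg_two_abs_le (r / 2 * t))
  rw [abs_mul, abs_of_pos (by positivity : 0 < r / 2)]
  congr 1
  ring

include hA hc hsl hf hH in
/-- `Λ(1 + i t) e^(α t)` is integrable for `|α| < π / 2`. -/
theorem integrable_LamN_mul_exp {α : ℝ} (hα : |α| < Real.pi / 2) :
    Integrable fun t : ℝ => LamN f (1 + t * I) * exp (α * t) := by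
  set β : ℝ := (|α| + Real.pi / 2) / 2 with hβ
  have hβ1 : |α| < β := by rw [hβ]; linarith
  have hβ2 : β < Real.pi / 2 := by rw [hβ]; linarith
  have hβ0 : 0 ≤ β := (abs_nonneg α).trans hβ1.le
  have hb1 : |β| < Real.pi / 2 := by rwa [abs_of_nonneg hβ0]
  have hb2 : |(-β)| < Real.pi / 2 := by rwa [abs_neg]
  have hr : 0 < β - |α| := sub_pos.mpr hβ1
  have hcont : Continuous fun t : ℝ => LamN f (1 + t * I) * exp (α * t) := by
    have h1 : Continuous (LamN f) := (differentiable_LamN f).continuous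
    exact (h1.comp (by fun_prop)).mul (by fun_prop)
  refine Integrable.mono' ((integrable_exp_neg_mul_abs' hr).const_mul
    (rayNorm f β + rayNorm f (-β))) hcont.aestronglyMeasurable (Eventually.of_forall fun t => ?_)
  have e1 : ‖exp ((α : ℂ) * t)‖ = Real.exp (α * t) := by
    rw [norm_exp]
    simp
  rw [norm_mul, e1]
  have h1 := norm_LamN_mul_exp_le hA hc hsl hf hH hb1 t
  have h2 := norm_LamN_mul_exp_le hA hc hsl hf hH hb2 t
  have p1 : 0 ≤ rayNorm f β := le_trans (by positivity) h1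
  have p2 : 0 ≤ rayNorm f (-β) := le_trans (by positivity) h2
  rcases le_total 0 t with ht | ht
  · have e2 : Real.exp (α * t) ≤ Real.exp (β * t) * Real.exp (-((β - |α|) * |t|)) := by
      rw [← Real.exp_add, abs_of_nonneg ht]
      refine Real.exp_le_exp.mpr ?_
      have := mul_le_mul_of_nonneg_right (le_abs_self α) ht
      linarith
    calc ‖LamN f (1 + t * I)‖ * Real.exp (α * t)
        ≤ ‖LamN f (1 + t * I)‖ * (Real.exp (β * t) * Real.exp (-((β - |α|) * |t|))) :=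
          mul_le_mul_of_nonneg_left e2 (norm_nonneg _)
      _ = (‖LamN f (1 + t * I)‖ * Real.exp (β * t)) * Real.exp (-((β - |α|) * |t|)) := by ring
      _ ≤ (rayNorm f β + rayNorm f (-β)) * Real.exp (-((β - |α|) * |t|)) :=
          mul_le_mul_of_nonneg_right (by linarith) (Real.exp_nonneg _)
  · have e2 : Real.exp (α * t) ≤ Real.exp (-β * t) * Real.exp (-((β - |α|) * |t|)) := by
      rw [← Real.exp_add, abs_of_nonpos ht]
      refine Real.exp_le_exp.mpr ?_
      have := mul_le_mul_of_nonpos_right (neg_abs_le α) ht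
      linarith
    calc ‖LamN f (1 + t * I)‖ * Real.exp (α * t)
        ≤ ‖LamN f (1 + t * I)‖ * (Real.exp (-β * t) * Real.exp (-((β - |α|) * |t|))) :=
          mul_le_mul_of_nonneg_left e2 (norm_nonneg _)
      _ = (‖LamN f (1 + t * I)‖ * Real.exp (-β * t)) * Real.exp (-((β - |α|) * |t|)) := by ring
      _ ≤ (rayNorm f β + rayNorm f (-β)) * Real.exp (-((β - |α|) * |t|)) :=
          mul_le_mul_of_nonneg_right (by linarith) (Real.exp_nonneg _)

include hA hc hsl hf hH in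
/-- **Mellin inversion**: `∫ Λ(1 + i t) e^(α t) dt = 2π e^(iα) f(i e^(iα) / √N)`. -/
theorem integral_LamN_mul_exp {α : ℝ} (hα : |α| < Real.pi / 2) :
    ∫ t : ℝ, LamN f (1 + t * I) * exp (α * t) =
      2 * Real.pi * exp (α * I) * phiC f (exp (α * I)) := by
  have hM := fun t : ℝ => mellin_phiRot hA hc hsl hf hH hα t
  have e1 : ∀ t : ℝ, mellin (phiRot f α) ((1 : ℝ) + t * I) =
      exp (-(α * I)) * (LamN f (1 + t * I) * exp (α * t)) := by
    intro t
    rw [ofReal_one, (hM t).2]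
    have h1 : exp (-((1 + t * I) * (α * I))) = exp (-(α * I)) * exp (α * t) := by
      rw [← exp_add]
      congr 1
      linear_combination (-(t : ℂ) * α) * I_sq
    rw [h1]
    ring
  have hconv : MellinConvergent (phiRot f α) ((1 : ℝ) : ℂ) := by
    have h1 := (hM 0).1
    rwa [ofReal_zero, zero_mul, add_zero, ← ofReal_one] at h1
  have hvert : VerticalIntegrable (mellin (phiRot f α)) 1 := by
    have h1 := (integrable_LamN_mul_exp hA hc hsl hf hH hα).const_mul (exp (-(α * I)))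
    exact h1.congr (Eventually.of_forall fun t => (e1 t).symm)
  have hre : 0 < (exp ((α : ℂ) * I)).re := by
    rw [exp_ofReal_mul_I_re]
    exact Real.cos_pos_of_mem_Ioo ⟨by linarith [neg_abs_le α], (le_abs_self α).trans_lt hα⟩
  have hcont : ContinuousAt (phiRot f α) 1 := by
    have h1 : ContinuousAt (fun u : ℝ => (u : ℂ) * exp (α * I)) 1 := by fun_prop
    have h2 : ContinuousAt (phiC f) ((((1 : ℝ) : ℝ) : ℂ) * exp (α * I)) := by
      rw [ofReal_one, one_mul]
      exact (differentiableAt_phiC f hre).continuousAt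
    exact ContinuousAt.comp (g := phiC f) h2 h1
  have h := mellinInv_mellin_eq 1 (phiRot f α) one_pos hconv hvert hcont
  rw [mellinInv] at h
  simp only [ofReal_one, one_cpow, one_smul] at h
  simp only [ofReal_one] at e1
  simp only [e1] at h
  rw [integral_const_mul, phiRot, ofReal_one, one_mul, real_smul] at h
  have hpi : (Real.pi : ℂ) ≠ 0 := ofReal_ne_zero.mpr Real.pi_ne_zero
  have h2 : exp ((α : ℂ) * I) * exp (-(α * I)) = 1 := by
    rw [← exp_add, add_neg_cancel, exp_zero]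
  generalize (∫ t : ℝ, LamN f (1 + t * I) * exp (α * t)) = X at h ⊢
  rw [← h]
  generalize exp ((α : ℂ) * I) = E at h2 ⊢
  generalize exp (-((α : ℂ) * I)) = E' at h2 ⊢
  push_cast
  field_simp
  linear_combination (-X) * h2

end

end Fermat.Agent.Cor.HW
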