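import Fermat.Agent.Corollaries.HW.StripFinal
import Fermat.Agent.Corollaries.CondLevel
import Mathlib.NumberTheory.LSeries.Positivity

/-!
# The Dirichlet coefficients of `L(E, s)` change sign infinitely often

For a semistable elliptic curve over `ℚ` with `L(E, s) = ∑ a_n n^(-s)` there are infinitely many
`n` with `a_n > 0` and infinitely many `n` with `a_n < 0`.

Proof: if `a_n ≥ 0` for all `n > n₀`, Landau's theorem shows that for every `M > n₀` the function
`L(s) + ∑_{n ≤ n₀} c_n n^(-s) - a_M M^(-s)` is positive on the whole real axis. At the trivial zeros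
`s = -k` this gives `a_M M^k < C n₀^k` for all `k`, so `a_M = 0`; but `a_M = 1` if `M` is an even
power of a bad prime.
-/

set_option autoImplicit false

noncomputable section

open Complex Filter Topology Set
open scoped ComplexOrder

namespace Fermat.Agent.Cor.HW

/-- The finite Dirichlet polynomial. -/
theorem lseries_finite {c : ℕ → ℂ} {M : ℕ} (hc : ∀ n, M < n → c n = 0) (s : ℂ) :
    LSeriesSummable c s ∧ LSeries c s = ∑ n ∈ Finset.Icc 1 M, c n * (n : ℂ) ^ (-s) := by
  have h0 : ∀ n, n ∉ Finset.Icc 1 M → LSeries.term c s n = 0 := by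
    intro n hn
    rw [Finset.mem_Icc, not_and_or, not_le, not_le] at hn
    rcases hn with h | h
    · rw [Nat.lt_one_iff.mp h, LSeries.term_zero]
    · rw [LSeries.term_of_ne_zero (by omega), hc n h, zero_div]
  refine ⟨summable_of_ne_finset_zero h0, ?_⟩
  rw [LSeries, tsum_eq_sum h0]
  refine Finset.sum_congr rfl fun n hn => ?_
  rw [LSeries.term_of_ne_zero (by rw [Finset.mem_Icc] at hn; omega), cpow_neg, div_eq_mul_inv]

/-- **Landau's argument**: an entire Dirichlet series with integral coefficients which vanishes at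
`0, -1, -2, …` and whose coefficients are `≥ 0` from some point on has only finitely many non-zero
coefficients. -/
theorem eq_zero_of_eventually_nonneg {a : ℕ → ℤ} {L : ℂ → ℂ} (hL : Differentiable ℂ L)
    (ha : ∀ s : ℂ, 2 < s.re → HasSum (fun n : ℕ => (a n : ℂ) / (n : ℂ) ^ s) (L s))
    (h0 : ∀ k : ℕ, L (-(k : ℂ)) = 0) {n₀ : ℕ} (hn₀ : 1 ≤ n₀) (hpos : ∀ n, n₀ < n → 0 ≤ a n)
    {M : ℕ} (hM : n₀ < M) : a M = 0 := by
  by_contra hne
  have haM : 1 ≤ a M := by
    have := hpos M hM
    omega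
  set c : ℕ → ℂ := fun n => if n ≤ n₀ then ((|a n| + 1 - a n : ℤ) : ℂ) else
    if n = M then -((a M : ℤ) : ℂ) else 0 with hc
  have hc0 : ∀ n, M < n → c n = 0 := by
    intro n hn
    rw [hc]
    simp only
    rw [if_neg (by omega), if_neg (by omega)]
  set f : ℂ → ℂ := fun s => L s + ∑ n ∈ Finset.Icc 1 M, c n * (n : ℂ) ^ (-s) with hf
  have hfd : Differentiable ℂ f := by
    refine hL.add (Differentiable.fun_sum fun n hn => ?_)
    have hn' : (n : ℂ) ≠ 0 := by
      rw [Finset.mem_Icc] at hn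
      exact_mod_cast (by omega : n ≠ 0)
    exact (differentiable_id.neg.const_cpow (Or.inl hn')).const_mul _
  set b : ℕ → ℂ := (fun n => (a n : ℂ)) + c with hb
  have hasum : ∀ s : ℂ, 2 < s.re → LSeriesSummable (fun n => (a n : ℂ)) s ∧
      LSeries (fun n => (a n : ℂ)) s = L s := by
    intro s hs
    have hs0 : s ≠ 0 := by
      rintro rfl
      rw [zero_re] at hs
      linarith
    have e : ∀ n : ℕ, LSeries.term (fun n => (a n : ℂ)) s n = (a n : ℂ) / (n : ℂ) ^ s := by
      intro n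
      rcases eq_or_ne n 0 with rfl | hn
      · rw [LSeries.term_zero, Nat.cast_zero, zero_cpow hs0, div_zero]
      · rw [LSeries.term_of_ne_zero hn]
    have h1 := (ha s hs).congr_fun e
    exact ⟨h1.summable, h1.tsum_eq⟩
  have hbs : ∀ s : ℂ, 2 < s.re → LSeriesSummable b s ∧ LSeries b s = f s := by
    intro s hs
    obtain ⟨h1, h2⟩ := hasum s hs
    obtain ⟨h3, h4⟩ := lseries_finite hc0 s
    exact ⟨h1.add h3, by rw [hb, LSeries_add h1 h3, h2, h4]⟩
  have hb0 : 0 ≤ b := by
    intro n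
    rw [hb, hc]
    simp only [Pi.zero_apply, Pi.add_apply]
    split_ifs with h1 h2
    · have h3 : (0 : ℤ) ≤ a n + (|a n| + 1 - a n) := by
        have := abs_nonneg (a n)
        linarith
      exact_mod_cast h3
    · rw [h2, add_neg_cancel]
    · rw [add_zero]
      exact_mod_cast hpos n (by omega)
  have hb1 : 0 < b 1 := by
    rw [hb, hc]
    simp only [Pi.add_apply]
    rw [if_pos hn₀]
    have h3 : (0 : ℤ) < a 1 + (|a 1| + 1 - a 1) := by
      have := abs_nonneg (a 1)
      linarith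
    exact_mod_cast h3
  have habs : LSeries.abscissaOfAbsConv b ≤ ((3 : ℝ) : EReal) := by
    have h1 := (hbs 3 (by norm_num)).1.abscissaOfAbsConv_le
    simpa using h1
  have hpos' := LSeries.positive_of_differentiable_of_eqOn hb0 hb1 hfd habs (x := 3)
    (fun s hs => ((hbs s (by
      have : (3 : ℝ) < s.re := hs
      linarith)).2).symm)
  -- the values at the trivial zeros
  set C : ℝ := ∑ n ∈ Finset.Icc 1 n₀, ((|a n| + 1 - a n : ℤ) : ℝ) with hC
  have hval : ∀ k : ℕ, (M : ℝ) ^ k < C * (n₀ : ℝ) ^ k := by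
    intro k
    have h1 := hpos' (-(k : ℝ))
    have h2 : f ((-(k : ℝ) : ℝ) : ℂ) =
        ((∑ n ∈ Finset.Icc 1 n₀, ((|a n| + 1 - a n : ℤ) : ℝ) * (n : ℝ) ^ k - a M * (M : ℝ) ^ k : ℝ) :
          ℂ) := by
      rw [hf]
      simp only
      rw [show ((-(k : ℝ) : ℝ) : ℂ) = -(k : ℂ) by push_cast; ring, h0 k, zero_add, neg_neg]
      have h3 : Finset.Icc 1 M = Finset.Icc 1 n₀ ∪ Finset.Ioc n₀ M := by
        ext n
        simp only [Finset.mem_Icc, Finset.mem_union, Finset.mem_Ioc]
        omega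
      have h4 : Disjoint (Finset.Icc 1 n₀) (Finset.Ioc n₀ M) := by
        rw [Finset.disjoint_left]
        intro n h5 h6
        rw [Finset.mem_Icc] at h5
        rw [Finset.mem_Ioc] at h6
        omega
      rw [h3, Finset.sum_union h4]
      have h5 : ∑ n ∈ Finset.Ioc n₀ M, c n * (n : ℂ) ^ ((k : ℂ)) = -((a M : ℤ) : ℂ) * (M : ℂ) ^ k := by
        rw [Finset.sum_eq_single M]
        · rw [hc]
          simp only
          rw [if_neg (by omega), if_true, cpow_natCast]
        · intro n hn hnM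
          rw [Finset.mem_Ioc] at hn
          rw [hc]
          simp only
          rw [if_neg (by omega), if_neg hnM, zero_mul]
        · intro h
          exact absurd (Finset.mem_Ioc.mpr ⟨hM, le_rfl⟩) h
      have h6 : ∑ n ∈ Finset.Icc 1 n₀, c n * (n : ℂ) ^ ((k : ℂ)) =
          ∑ n ∈ Finset.Icc 1 n₀, ((|a n| + 1 - a n : ℤ) : ℂ) * (n : ℂ) ^ k := by
        refine Finset.sum_congr rfl fun n hn => ?_
        rw [Finset.mem_Icc] at hn
        rw [hc]
        simp only
        rw [if_pos hn.2, cpow_natCast]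
      rw [h5, h6]
      simp only [ofReal_sub, ofReal_sum, ofReal_mul, ofReal_pow, ofReal_intCast, ofReal_natCast]
      ring
    rw [h2] at h1
    have h3 : (0 : ℝ) < ∑ n ∈ Finset.Icc 1 n₀, ((|a n| + 1 - a n : ℤ) : ℝ) * (n : ℝ) ^ k -
        a M * (M : ℝ) ^ k := by
      exact_mod_cast h1
    have h4 : ∑ n ∈ Finset.Icc 1 n₀, ((|a n| + 1 - a n : ℤ) : ℝ) * (n : ℝ) ^ k ≤
        C * (n₀ : ℝ) ^ k := by
      rw [hC, Finset.sum_mul]
      refine Finset.sum_le_sum fun n hn => ?_
      rw [Finset.mem_Icc] at hn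
      have h5 : (0 : ℤ) ≤ |a n| + 1 - a n := by
        have := le_abs_self (a n)
        linarith
      refine mul_le_mul_of_nonneg_left (pow_le_pow_left₀ (Nat.cast_nonneg n) ?_ k)
        (by exact_mod_cast h5)
      exact_mod_cast hn.2
    have h5 : (M : ℝ) ^ k ≤ a M * (M : ℝ) ^ k :=
      le_mul_of_one_le_left (by positivity) (by exact_mod_cast haM)
    linarith
  have hn0 : (0 : ℝ) < n₀ := by exact_mod_cast hn₀
  have hr : 1 < (M : ℝ) / n₀ := by
    rw [one_lt_div hn0]
    exact_mod_cast hM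
  obtain ⟨k, hk⟩ := pow_unbounded_of_one_lt C hr
  have h1 := hval k
  rw [div_pow, lt_div_iff₀ (by positivity)] at hk
  linarith

/-- **The coefficients of the `L`-function of a semistable elliptic curve change sign infinitely
often.** -/
theorem exists_coeff_infinite_signs {W : WeierstrassCurve ℤ} (hΔ : W.Δ ≠ 0)
    (hW : W.IsSemistableModel) {L : ℂ → ℂ} (hL : IsHasseWeil W L) :
    ∃ a : ℕ → ℤ, a 1 = 1 ∧ (∀ m n : ℕ, m.Coprime n → a (m * n) = a m * a n) ∧
      (∀ p : ℕ, p.Prime → a p = ap W p) ∧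
      (∀ s : ℂ, 3 / 2 < s.re → HasSum (fun n : ℕ => (a n : ℂ) / (n : ℂ) ^ s) (L s)) ∧
      {n : ℕ | 0 < a n}.Infinite ∧ {n : ℕ | a n < 0}.Infinite := by
  obtain ⟨a, h1, hmul, hp, hpow, -, hsum⟩ := exists_dirichlet_coeff hΔ hW hL
  have hC := criticalStrip_of_semistable hΔ hW hL
  have h0 : ∀ k : ℕ, L (-(k : ℂ)) = 0 := by
    intro k
    have h2 := hC.trivial k
    by_contra h3
    rw [(hL.1.analyticAt _).analyticOrderAt_eq_zero.mpr h3] at h2
    norm_num at h2
  -- a bad prime
  obtain ⟨q, hq, hqΔ⟩ := exists_prime_dvd_Δ W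
  have hε : ap W q = 1 ∨ ap W q = -1 := ap_eq_one_or hΔ hW q hq hqΔ
  have hpw : ∀ m : ℕ, a (q ^ m) = ap W q ^ m ∧ a (q ^ (m + 1)) = ap W q ^ (m + 1) := by
    intro m
    induction m with
    | zero => exact ⟨by rw [pow_zero, pow_zero, h1], by rw [zero_add, pow_one, pow_one, hp q hq]⟩
    | succ m ih =>
      refine ⟨ih.2, ?_⟩
      rw [hpow q m hq, if_pos hqΔ, sub_zero, ih.2]
      ring
  have heven : ∀ m : ℕ, a (q ^ (2 * m)) = 1 := by
    intro m
    rw [(hpw _).1, pow_mul]
    rcases hε with h | h <;> rw [h] <;> norm_num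
  refine ⟨a, h1, hmul, hp, hsum, ?_, ?_⟩
  · have hinj : Function.Injective fun m : ℕ => q ^ (2 * m) := by
      intro m m' h
      have h2 := Nat.pow_right_injective hq.two_le h
      omega
    refine (Set.infinite_range_of_injective hinj).mono ?_
    rintro _ ⟨m, rfl⟩
    change 0 < a (q ^ (2 * m))
    rw [heven m]
    exact one_pos
  · intro hfin
    obtain ⟨b, hb⟩ := hfin.bddAbove
    have hpos : ∀ n, b + 1 < n → 0 ≤ a n := by
      intro n hn
      by_contra h
      have := hb (not_le.mp h : n ∈ {n : ℕ | a n < 0})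
      omega
    have hM : b + 1 < q ^ (2 * (b + 1)) := by
      refine lt_of_lt_of_le (Nat.lt_pow_self hq.one_lt) ?_
      exact Nat.pow_le_pow_right hq.pos (by omega)
    have h2 := eq_zero_of_eventually_nonneg hL.1 (fun s hs => hsum s (by linarith)) h0
      (by omega) hpos hM
    rw [heven] at h2
    exact one_ne_zero h2

end Fermat.Agent.Cor.HW

end
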