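import Fermat.Agent.Corollaries.HW.Center

/-!
# The analytic rank of a semistable elliptic curve of small conductor

Let `f` be a newform of weight two with root number `w = ± 1` and `x = 2π / √N`. If
`∑_{n ≥ 2} |a_n| / n · e^(-(n-1)x) < 1` then the order of vanishing of `L(f, s)` at `s = 1` is `0` if
`w = 1` and `1` if `w = -1`. By the Hasse bound this holds for all newforms of elliptic curves of
conductor `N ≤ 50`.
-/

set_option autoImplicit false

noncomputable section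

open UpperHalfPlane hiding I
open CongruenceSubgroup ModularFormClass Complex MeasureTheory Filter Topology Set
open scoped MatrixGroups ModularForm Nat

namespace Fermat.Agent.Cor.HW

/-! ### The kernel -/

/-- `g(t) = (1 + t)^ε + w (1 + t)^(-ε)`. -/
def gker (w ε t : ℝ) : ℝ := (1 + t) ^ ε + w * (1 + t) ^ (-ε)

section

variable {w ε : ℝ} (hw : w = 1 ∨ w = -1) (hε : 0 ≤ ε)

theorem one_le_rpow_one_add {t : ℝ} (ht : 0 ≤ t) (hε : 0 ≤ ε) : 1 ≤ (1 + t) ^ ε :=
  Real.one_le_rpow (by linarith) hε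

theorem rpow_neg_one_add_le {t : ℝ} (ht : 0 ≤ t) (hε : 0 ≤ ε) : (1 + t) ^ (-ε) ≤ 1 :=
  Real.rpow_le_one_of_one_le_of_nonpos (by linarith) (by linarith)

include hw hε in
theorem sub_one_le_gker {t : ℝ} (ht : 0 ≤ t) : (1 + t) ^ ε - 1 ≤ gker w ε t := by
  have h1 := rpow_neg_one_add_le ht hε
  have h2 : 0 ≤ (1 + t) ^ (-ε) := Real.rpow_nonneg (by linarith) _
  unfold gker
  rcases hw with rfl | rfl <;> linarith

include hw hε in
theorem gker_nonneg {t : ℝ} (ht : 0 ≤ t) : 0 ≤ gker w ε t :=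
  (by linarith [one_le_rpow_one_add ht hε] : (0 : ℝ) ≤ (1 + t) ^ ε - 1).trans
    (sub_one_le_gker hw hε ht)

include hw hε in
theorem gker_mono {s t : ℝ} (hs : 0 ≤ s) (hst : s ≤ t) : gker w ε s ≤ gker w ε t := by
  have h1 := one_le_rpow_one_add hs hε
  have h2 : (1 + s) ^ ε ≤ (1 + t) ^ ε := Real.rpow_le_rpow (by linarith) (by linarith) hε
  have h3 : (1 + s) ^ (-ε) = ((1 + s) ^ ε)⁻¹ := Real.rpow_neg (by linarith) _
  have h4 : (1 + t) ^ (-ε) = ((1 + t) ^ ε)⁻¹ := Real.rpow_neg (by linarith) _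
  unfold gker
  rw [h3, h4]
  set a := (1 + s) ^ ε
  set b := (1 + t) ^ ε
  have ha : 0 < a := by linarith
  have hb : 0 < b := by linarith
  rcases hw with rfl | rfl
  · have h5 : b + 1 * b⁻¹ - (a + 1 * a⁻¹) = (b - a) * (1 - (a * b)⁻¹) := by
      field_simp
      ring
    have h6 : (a * b)⁻¹ ≤ 1 := inv_le_one_of_one_le₀ (by nlinarith)
    nlinarith
  · have h5 : b⁻¹ ≤ a⁻¹ := inv_anti₀ ha h2
    linarith

include hw hε in
theorem gker_le {t : ℝ} (ht : 0 ≤ t) (hε1 : ε ≤ 1) : gker w ε t ≤ 2 * (1 + t) := by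
  have h1 : (1 + t) ^ ε ≤ (1 + t) ^ (1 : ℝ) := Real.rpow_le_rpow_of_exponent_le (by linarith) hε1
  rw [Real.rpow_one] at h1
  have h2 := rpow_neg_one_add_le ht hε
  have h3 : 0 ≤ (1 + t) ^ (-ε) := Real.rpow_nonneg (by linarith) _
  unfold gker
  rcases hw with rfl | rfl <;> linarith

include hw hε in
theorem le_gker {t : ℝ} (ht : 2 ≤ t) : ε ≤ gker w ε t := by
  refine le_trans ?_ (sub_one_le_gker hw hε (by linarith))
  have h1 : (3 : ℝ) ^ ε ≤ (1 + t) ^ ε := Real.rpow_le_rpow (by norm_num) (by linarith) hε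
  have h2 : (3 : ℝ) ^ ε = Real.exp (Real.log 3 * ε) := Real.rpow_def_of_pos (by norm_num) _
  have h3 : 1 ≤ Real.log 3 := by
    rw [Real.le_log_iff_exp_le (by norm_num)]
    linarith [Real.exp_one_lt_d9]
  have h4 := Real.add_one_le_exp (Real.log 3 * ε)
  nlinarith

theorem continuousOn_gker : ContinuousOn (gker w ε) (Ioi 0) := by
  intro t ht
  have ht' : 0 < t := ht
  have h1 : (1 + t) ≠ 0 := by linarith
  have h2 : ContinuousAt (fun t : ℝ => 1 + t) t := by fun_prop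
  exact ((h2.rpow_const (Or.inl h1)).add
    ((h2.rpow_const (Or.inl h1)).const_mul w)).continuousWithinAt

/-- The integrals `J_n`. -/
def jint (w ε x : ℝ) (n : ℕ) : ℝ := ∫ t in Ioi (0 : ℝ), gker w ε t * Real.exp (-(n * (x * t)))

include hw hε in
theorem integrable_gker (hε1 : ε ≤ 1) {x : ℝ} (hx : 0 < x) :
    IntegrableOn (fun t => gker w ε t * Real.exp (-(x * t))) (Ioi 0) := by
  have h1 : IntegrableOn (fun t => 2 * (1 + 2 / x) * Real.exp (-(x / 2) * t)) (Ioi 0) :=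
    (exp_neg_integrableOn_Ioi 0 (by positivity : 0 < x / 2)).const_mul _
  refine Integrable.mono' h1 ?_ ?_
  · refine (ContinuousOn.mul continuousOn_gker ?_).aestronglyMeasurable measurableSet_Ioi
    exact (by fun_prop : Continuous fun t : ℝ => Real.exp (-(x * t))).continuousOn
  · refine (ae_restrict_iff' measurableSet_Ioi).mpr (Eventually.of_forall fun t ht => ?_)
    have ht' : 0 < t := ht
    have h2 := gker_nonneg hw hε ht'.le
    rw [Real.norm_eq_abs, abs_of_nonneg (mul_nonneg h2 (Real.exp_nonneg _))]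
    have h3 := gker_le hw hε ht'.le hε1
    have h4 : 1 + t ≤ (1 + 2 / x) * Real.exp (x / 2 * t) := by
      have h5 := Real.add_one_le_exp (x / 2 * t)
      have h6 : t = 2 / x * (x / 2 * t) := by field_simp
      have h7 : 0 < 2 / x := by positivity
      have h8 : 0 ≤ x / 2 * t := by positivity
      nlinarith
    have h9 : Real.exp (-(x * t)) = Real.exp (-(x / 2) * t) * Real.exp (-(x / 2) * t) := by
      rw [← Real.exp_add]
      congr 1
      ring
    have h10 : Real.exp (x / 2 * t) * Real.exp (-(x / 2) * t) = 1 := by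
      rw [← Real.exp_add, neg_mul, add_neg_cancel, Real.exp_zero]
    have h11 := Real.exp_pos (-(x / 2) * t)
    calc gker w ε t * Real.exp (-(x * t)) ≤ 2 * (1 + t) * Real.exp (-(x * t)) :=
          mul_le_mul_of_nonneg_right h3 (Real.exp_nonneg _)
      _ ≤ 2 * ((1 + 2 / x) * Real.exp (x / 2 * t)) * Real.exp (-(x * t)) := by gcongr
      _ = 2 * (1 + 2 / x) * (Real.exp (x / 2 * t) * Real.exp (-(x / 2) * t)) *
            Real.exp (-(x / 2) * t) := by
          rw [h9]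
          ring
      _ = 2 * (1 + 2 / x) * Real.exp (-(x / 2) * t) := by rw [h10, mul_one]

include hw hε in
theorem integrable_gker_nat (hε1 : ε ≤ 1) {x : ℝ} (hx : 0 < x) {n : ℕ} (hn : n ≠ 0) :
    IntegrableOn (fun t => gker w ε t * Real.exp (-(n * (x * t)))) (Ioi 0) := by
  have h := integrable_gker hw hε hε1 (x := n * x)
    (mul_pos (by exact_mod_cast Nat.pos_of_ne_zero hn) hx)
  simpa only [mul_assoc] using h

include hw hε in
theorem jint_nonneg (x : ℝ) (n : ℕ) : 0 ≤ jint w ε x n := by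
  refine setIntegral_nonneg measurableSet_Ioi fun t ht => ?_
  have ht' : 0 < t := ht
  exact mul_nonneg (gker_nonneg hw hε ht'.le) (Real.exp_nonneg _)

include hw hε in
/-- `J_n ≤ J_1 / n`. -/
theorem jint_le (hε1 : ε ≤ 1) {x : ℝ} (hx : 0 < x) {n : ℕ} (hn : n ≠ 0) :
    jint w ε x n ≤ (n : ℝ)⁻¹ * jint w ε x 1 := by
  have hn0 : (0 : ℝ) < n := by exact_mod_cast Nat.pos_of_ne_zero hn
  have h1 := integral_comp_mul_left_Ioi
    (fun τ : ℝ => gker w ε (τ / n) * Real.exp (-(x * τ))) 0 hn0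
  rw [mul_zero, smul_eq_mul] at h1
  have h2 : jint w ε x n = (n : ℝ)⁻¹ * ∫ τ in Ioi (0 : ℝ), gker w ε (τ / n) *
      Real.exp (-(x * τ)) := by
    rw [← h1, jint]
    refine setIntegral_congr_fun measurableSet_Ioi fun t _ => ?_
    rw [mul_div_cancel_left₀ _ hn0.ne']
    congr 2
    ring
  rw [h2]
  refine mul_le_mul_of_nonneg_left ?_ (inv_nonneg.mpr hn0.le)
  rw [jint]
  simp only [Nat.cast_one, one_mul]
  refine integral_mono_of_nonneg ?_ (integrable_gker hw hε hε1 hx) ?_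
  · refine (ae_restrict_iff' measurableSet_Ioi).mpr (Eventually.of_forall fun t ht => ?_)
    have ht' : 0 < t := ht
    exact mul_nonneg (gker_nonneg hw hε (by positivity)) (Real.exp_nonneg _)
  · refine (ae_restrict_iff' measurableSet_Ioi).mpr (Eventually.of_forall fun t ht => ?_)
    have ht' : 0 < t := ht
    have h3 : t / n ≤ t := div_le_self ht'.le (by exact_mod_cast Nat.pos_of_ne_zero hn)
    exact mul_le_mul_of_nonneg_right (gker_mono hw hε (by positivity) h3) (Real.exp_nonneg _)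

include hw hε in
/-- `J_1 ≥ ε e^(-2x) / x`. -/
theorem le_jint_one (hε1 : ε ≤ 1) {x : ℝ} (hx : 0 < x) :
    ε * (Real.exp (-(2 * x)) / x) ≤ jint w ε x 1 := by
  have hint := integrable_gker hw hε hε1 hx
  have h1 : (∫ t in Ioi (2 : ℝ), ε * Real.exp (-x * t)) = ε * (Real.exp (-(2 * x)) / x) := by
    rw [integral_const_mul, integral_exp_mul_Ioi (by linarith) 2]
    rw [show -x * 2 = -(2 * x) by ring]
    field_simp
  rw [← h1, jint]
  simp only [Nat.cast_one, one_mul]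
  calc (∫ t in Ioi (2 : ℝ), ε * Real.exp (-x * t))
      ≤ ∫ t in Ioi (2 : ℝ), gker w ε t * Real.exp (-(x * t)) := by
        refine setIntegral_mono_on ?_ (hint.mono_set (Ioi_subset_Ioi (by norm_num)))
          measurableSet_Ioi fun t ht => ?_
        · exact (exp_neg_integrableOn_Ioi 2 hx).const_mul _
        · have ht' : 2 < t := ht
          rw [show -x * t = -(x * t) by ring]
          exact mul_le_mul_of_nonneg_right (le_gker hw hε ht'.le) (Real.exp_nonneg _)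
    _ ≤ ∫ t in Ioi (0 : ℝ), gker w ε t * Real.exp (-(x * t)) := by
        refine setIntegral_mono_set hint ?_ (Ioi_subset_Ioi (by norm_num)).eventuallyLE
        refine (ae_restrict_iff' measurableSet_Ioi).mpr (Eventually.of_forall fun t ht => ?_)
        have ht' : 0 < t := ht
        exact mul_nonneg (gker_nonneg hw hε ht'.le) (Real.exp_nonneg _)

end

/-! ### The lower bound for `Λ(f, 1 + ε)` -/

variable {N : ℕ} [NeZero N]

/-- `Λ(f, 1 + ε) = ∫_0^∞ g(t) f(i (1 + t) / √N) dt`. -/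
theorem LamN_one_add {A : GL (Fin 2) ℝ}
    (hA : (A : Matrix (Fin 2) (Fin 2) ℝ) = !![0, -1; (N : ℝ), 0]) {f : CuspForm (Gamma0 N) 2}
    {w : ℝ} (hf : (⇑f : ℍ → ℂ) ∣[(2 : ℤ)] A = (-(w : ℂ)) • ⇑f) (ε : ℝ) :
    LamN f (1 + ε) = ∫ t in Ioi (0 : ℝ), (gker w ε t : ℂ) * phi f (1 + t) := by
  rw [LamN_eq_integral hA hf]
  have h := (measurePreserving_add_left (volume : Measure ℝ) 1).setIntegral_preimage_emb
    (measurableEmbedding_addLeft (1 : ℝ))
    (fun u : ℝ => ((u : ℂ) ^ (1 + (ε : ℂ) - 1) - -(w : ℂ) * (u : ℂ) ^ (1 - (1 + (ε : ℂ)))) *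
      phi f u) (Ioi 1)
  have h1 : (fun x : ℝ => 1 + x) ⁻¹' Ioi 1 = Ioi 0 := by
    ext x
    simp
  rw [h1] at h
  rw [← h]
  refine setIntegral_congr_fun measurableSet_Ioi fun t ht => ?_
  have ht' : 0 < t := ht
  have h2 : 0 ≤ 1 + t := by linarith
  have e1 : (1 : ℂ) + ε - 1 = (ε : ℂ) := by ring
  have e2 : (1 : ℂ) - (1 + ε) = ((-ε : ℝ) : ℂ) := by push_cast; ring
  rw [e1, e2, ← ofReal_cpow h2, ← ofReal_cpow h2, gker]
  push_cast
  ring

/-- The sum `S = ∑_{n ≥ 2} |a_n| / n · e^(-(n-1) x)`. -/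
def tailS (f : CuspForm (Gamma0 N) 2) : ℝ :=
  ∑' n : ℕ, ‖qCoeff f (n + 2)‖ / ((n + 2 : ℕ) : ℝ) * Real.exp (-((n + 1 : ℕ) * xpar N))

theorem summable_norm_phi (f : CuspForm (Gamma0 N) 2) :
    Summable fun n : ℕ => ‖qCoeff f n‖ * Real.exp (-(n * xpar N)) := by
  have h := (hasSum_phi f one_pos).summable.norm
  refine h.congr fun n => ?_
  rw [norm_mul, norm_real, Real.norm_eq_abs, Real.abs_exp, mul_one]

/-- `Λ(f, 1 + ε) = ∑ a_n e^(-n x) J_n`. -/
theorem hasSum_LamN {A : GL (Fin 2) ℝ}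
    (hA : (A : Matrix (Fin 2) (Fin 2) ℝ) = !![0, -1; (N : ℝ), 0]) {f : CuspForm (Gamma0 N) 2}
    {w : ℝ} (hw : w = 1 ∨ w = -1) (hf : (⇑f : ℍ → ℂ) ∣[(2 : ℤ)] A = (-(w : ℂ)) • ⇑f)
    {ε : ℝ} (hε : 0 ≤ ε) (hε1 : ε ≤ 1) :
    HasSum (fun n : ℕ => (qCoeff f n * (Real.exp (-(n * xpar N)) : ℂ)) *
      (jint w ε (xpar N) n : ℂ)) (LamN f (1 + ε)) := by
  set x := xpar N with hx
  have hx0 : 0 < x := xpar_pos
  set J := jint w ε x 1 with hJ
  have hJ0 : 0 ≤ J := jint_nonneg hw hε x 1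
  set F : ℕ → ℝ → ℂ := fun n t =>
    (gker w ε t : ℂ) * (qCoeff f n * (Real.exp (-(n * (x * (1 + t)))) : ℂ)) with hF
  have hq0 : qCoeff f 0 = 0 := FermatAgent.HeckeEigen.qCoeff_at_zero f
  have e0 : ∀ (n : ℕ) (t : ℝ), F n t = (qCoeff f n * (Real.exp (-(n * x)) : ℂ)) *
      ((gker w ε t * Real.exp (-(n * (x * t))) : ℝ) : ℂ) := by
    intro n t
    have e1 : Real.exp (-(n * (x * (1 + t)))) = Real.exp (-(n * x)) * Real.exp (-(n * (x * t))) := by
      rw [← Real.exp_add]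
      congr 1
      ring
    simp only [hF]
    rw [e1]
    push_cast
    ring
  have hint : ∀ n, Integrable (F n) (volume.restrict (Ioi 0)) := by
    intro n
    rcases eq_or_ne n 0 with rfl | hn
    · have : F 0 = fun _ => 0 := by
        funext t
        rw [e0, hq0, zero_mul, zero_mul]
      rw [this]
      exact integrable_zero _ _ _
    · have h2 : Integrable (fun t => ((gker w ε t * Real.exp (-(n * (x * t))) : ℝ) : ℂ))
          (volume.restrict (Ioi 0)) := (integrable_gker_nat hw hε hε1 hx0 hn).ofReal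
      exact (h2.const_mul _).congr (Eventually.of_forall fun t => (e0 n t).symm)
  have hI : ∀ n, (∫ t in Ioi (0 : ℝ), F n t) =
      (qCoeff f n * (Real.exp (-(n * x)) : ℂ)) * (jint w ε x n : ℂ) := by
    intro n
    simp only [e0]
    rw [integral_const_mul, integral_complex_ofReal, jint]
  have hnorm : ∀ n, (∫ t in Ioi (0 : ℝ), ‖F n t‖) =
      (‖qCoeff f n‖ * Real.exp (-(n * x))) * jint w ε x n := by
    intro n
    rw [jint, ← integral_const_mul]
    refine setIntegral_congr_fun measurableSet_Ioi fun t ht => ?_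
    have ht' : 0 < t := ht
    rw [e0, norm_mul, norm_mul, norm_real, norm_real, Real.norm_eq_abs, Real.norm_eq_abs,
      Real.abs_exp, abs_of_nonneg (mul_nonneg (gker_nonneg hw hε ht'.le) (Real.exp_nonneg _))]
  have hb : ∀ n, (‖qCoeff f n‖ * Real.exp (-(n * x))) * jint w ε x n ≤
      (‖qCoeff f n‖ * Real.exp (-(n * x))) * J := by
    intro n
    rcases eq_or_ne n 0 with rfl | hn
    · rw [hq0, norm_zero, zero_mul, zero_mul, zero_mul]
    · refine mul_le_mul_of_nonneg_left ((jint_le hw hε hε1 hx0 hn).trans ?_) (by positivity)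
      refine mul_le_of_le_one_left hJ0 (inv_le_one_of_one_le₀ ?_)
      exact_mod_cast Nat.pos_of_ne_zero hn
  have hsum : Summable fun n => ∫ t in Ioi (0 : ℝ), ‖F n t‖ := by
    refine Summable.of_nonneg_of_le (fun n => integral_nonneg fun _ => norm_nonneg _)
      (fun n => ?_) ((summable_norm_phi f).mul_right J)
    rw [hnorm n]
    exact hb n
  have hS := hasSum_integral_of_summable_integral_norm hint hsum
  have hK : (∫ t in Ioi (0 : ℝ), ∑' n, F n t) = LamN f (1 + ε) := by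
    rw [LamN_one_add hA hf ε]
    refine setIntegral_congr_fun measurableSet_Ioi fun t ht => ?_
    have ht' : 0 < t := ht
    simp only [hF]
    rw [tsum_mul_left, (hasSum_phi f (by linarith : 0 < 1 + t)).tsum_eq]
  rw [hK] at hS
  exact hS.congr_fun fun n => (hI n).symm

/-- **The lower bound.** -/
theorem norm_LamN_ge {A : GL (Fin 2) ℝ}
    (hA : (A : Matrix (Fin 2) (Fin 2) ℝ) = !![0, -1; (N : ℝ), 0]) {f : CuspForm (Gamma0 N) 2}
    {w : ℝ} (hw : w = 1 ∨ w = -1) (hf : (⇑f : ℍ → ℂ) ∣[(2 : ℤ)] A = (-(w : ℂ)) • ⇑f)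
    (h1 : qCoeff f 1 = 1) {ε : ℝ} (hε : 0 ≤ ε) (hε1 : ε ≤ 1) :
    Real.exp (-xpar N) * jint w ε (xpar N) 1 * (1 - tailS f) ≤ ‖LamN f (1 + ε)‖ := by
  have hS := hasSum_LamN hA hw hf hε hε1
  set x := xpar N with hx
  have hx0 : 0 < x := xpar_pos
  set J := jint w ε x 1 with hJ
  have hJ0 : 0 ≤ J := jint_nonneg hw hε x 1
  have hq0 : qCoeff f 0 = 0 := FermatAgent.HeckeEigen.qCoeff_at_zero f
  have hS2 := hS.summable.sum_add_tsum_nat_add 2
  rw [hS.tsum_eq, Finset.sum_range_succ, Finset.sum_range_one, hq0, zero_mul, zero_mul, zero_add,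
    h1, one_mul, Nat.cast_one, one_mul, ← hJ] at hS2
  -- the tail
  have hsum2 : Summable fun n : ℕ => ‖qCoeff f (n + 2)‖ / ((n + 2 : ℕ) : ℝ) *
      Real.exp (-((n + 1 : ℕ) * x)) := by
    have h2 := ((summable_nat_add_iff 2).mpr (summable_norm_phi f)).mul_left (Real.exp x)
    refine Summable.of_nonneg_of_le (fun n => by positivity) (fun n => ?_) h2
    have e1 : Real.exp x * (‖qCoeff f (n + 2)‖ * Real.exp (-(((n + 2 : ℕ) : ℝ) * x))) =
        ‖qCoeff f (n + 2)‖ * Real.exp (-((n + 1 : ℕ) * x)) := by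
      rw [mul_left_comm, ← Real.exp_add]
      congr 2
      push_cast
      ring
    rw [← hx, e1]
    refine mul_le_mul_of_nonneg_right (div_le_self (norm_nonneg _) ?_) (Real.exp_nonneg _)
    push_cast
    linarith [(Nat.cast_nonneg n : (0 : ℝ) ≤ n)]
  have htail : ‖∑' n : ℕ, (qCoeff f (n + 2) * (Real.exp (-(((n + 2 : ℕ) : ℝ) * x)) : ℂ)) *
      (jint w ε x (n + 2) : ℂ)‖ ≤ Real.exp (-x) * J * tailS f := by
    rw [tailS, ← tsum_mul_left]
    refine tsum_of_norm_bounded (hsum2.mul_left (Real.exp (-x) * J)).hasSum fun n => ?_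
    rw [norm_mul, norm_mul, norm_real, norm_real, Real.norm_eq_abs, Real.norm_eq_abs,
      Real.abs_exp, abs_of_nonneg (jint_nonneg hw hε x _)]
    have h2 := jint_le hw hε hε1 hx0 (n := n + 2) (by omega)
    have e1 : Real.exp (-(((n + 2 : ℕ) : ℝ) * x)) =
        Real.exp (-x) * Real.exp (-(((n + 1 : ℕ) : ℝ) * x)) := by
      rw [← Real.exp_add]
      congr 1
      push_cast
      ring
    rw [e1]
    calc ‖qCoeff f (n + 2)‖ * (Real.exp (-x) * Real.exp (-(((n + 1 : ℕ) : ℝ) * x))) *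
          jint w ε x (n + 2)
        ≤ ‖qCoeff f (n + 2)‖ * (Real.exp (-x) * Real.exp (-(((n + 1 : ℕ) : ℝ) * x))) *
          (((n + 2 : ℕ) : ℝ)⁻¹ * J) := mul_le_mul_of_nonneg_left h2 (by positivity)
      _ = Real.exp (-x) * J * (‖qCoeff f (n + 2)‖ / ((n + 2 : ℕ) : ℝ) *
          Real.exp (-(((n + 1 : ℕ) : ℝ) * x))) := by
        rw [div_eq_mul_inv]
        ring
  have h3 : ‖(Real.exp (-x) : ℂ) * (J : ℂ)‖ = Real.exp (-x) * J := by
    rw [norm_mul, norm_real, norm_real, Real.norm_eq_abs, Real.norm_eq_abs, Real.abs_exp,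
      abs_of_nonneg hJ0]
  have h4 : Real.exp (-x) * J ≤ ‖LamN f (1 + ε)‖ + Real.exp (-x) * J * tailS f := by
    rw [← h3]
    have e2 : (Real.exp (-x) : ℂ) * (J : ℂ) = LamN f (1 + ε) -
        ∑' n : ℕ, (qCoeff f (n + 2) * (Real.exp (-(((n + 2 : ℕ) : ℝ) * x)) : ℂ)) *
          (jint w ε x (n + 2) : ℂ) := by
      rw [← hS2]
      ring
    nth_rewrite 1 [e2]
    rw [h3]
    exact (norm_sub_le _ _).trans (by linarith)
  linarith

/-- The order of vanishing at the centre is at most one if `S < 1`. -/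
theorem analyticOrderAt_LamN_le_one {A : GL (Fin 2) ℝ}
    (hA : (A : Matrix (Fin 2) (Fin 2) ℝ) = !![0, -1; (N : ℝ), 0]) {f : CuspForm (Gamma0 N) 2}
    {w : ℝ} (hw : w = 1 ∨ w = -1) (hf : (⇑f : ℍ → ℂ) ∣[(2 : ℤ)] A = (-(w : ℂ)) • ⇑f)
    (h1 : qCoeff f 1 = 1) (hS : tailS f < 1) : analyticOrderAt (LamN f) 1 ≤ 1 := by
  by_contra hcon
  have h2 : ((2 : ℕ) : ℕ∞) ≤ analyticOrderAt (LamN f) 1 := by
    have := Order.add_one_le_of_lt (not_le.mp hcon)
    rwa [one_add_one_eq_two] at this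
  obtain ⟨g, hg, hev⟩ := (natCast_le_analyticOrderAt ((differentiable_LamN f).analyticAt 1)).mp h2
  have hx0 : 0 < xpar N := xpar_pos
  set c : ℝ := Real.exp (-xpar N) * (Real.exp (-(2 * xpar N)) / xpar N) * (1 - tailS f) with hc
  have hc0 : 0 < c := mul_pos (mul_pos (Real.exp_pos _) (div_pos (Real.exp_pos _) hx0))
    (by linarith)
  have key : ∀ ε : ℝ, 0 ≤ ε → ε ≤ 1 → c * ε ≤ ‖LamN f (1 + ε)‖ := by
    intro ε hε hε1
    refine le_trans ?_ (norm_LamN_ge hA hw hf h1 hε hε1)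
    have h3 := le_jint_one hw hε hε1 hx0
    calc c * ε = Real.exp (-xpar N) * (ε * (Real.exp (-(2 * xpar N)) / xpar N)) *
          (1 - tailS f) := by
          rw [hc]
          ring
      _ ≤ Real.exp (-xpar N) * jint w ε (xpar N) 1 * (1 - tailS f) :=
          mul_le_mul_of_nonneg_right (mul_le_mul_of_nonneg_left h3 (Real.exp_nonneg _))
            (by linarith)
  have hcont : Tendsto (fun ε : ℝ => (1 : ℂ) + ε) (𝓝[>] 0) (𝓝 1) := by
    have : Continuous fun ε : ℝ => (1 : ℂ) + ε := by fun_prop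
    have h3 := this.tendsto 0
    rw [ofReal_zero, add_zero] at h3
    exact h3.mono_left nhdsWithin_le_nhds
  have hlim : Tendsto (fun ε : ℝ => ε * ‖g (1 + ε)‖) (𝓝[>] 0) (𝓝 0) := by
    have h3 : Tendsto (fun ε : ℝ => ‖g (1 + ε)‖) (𝓝[>] 0) (𝓝 ‖g 1‖) :=
      (hg.continuousAt.tendsto.comp hcont).norm
    have h4 : Tendsto (fun ε : ℝ => ε) (𝓝[>] 0) (𝓝 0) := nhdsWithin_le_nhds
    have h5 := h4.mul h3
    rwa [zero_mul] at h5
  have hle : ∀ᶠ ε : ℝ in 𝓝[>] 0, c ≤ ε * ‖g (1 + ε)‖ := by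
    have h3 := hcont.eventually hev
    have h4 : ∀ᶠ ε : ℝ in 𝓝[>] (0 : ℝ), ε ≤ 1 :=
      nhdsWithin_le_nhds (Iic_mem_nhds zero_lt_one)
    filter_upwards [h3, h4, self_mem_nhdsWithin] with ε h5 h6 h7
    have h7' : 0 < ε := h7
    have h8 := key ε h7'.le h6
    rw [h5, add_sub_cancel_left, norm_smul, norm_pow, norm_real, Real.norm_eq_abs,
      abs_of_pos h7'] at h8
    have h9 : c * ε ≤ (ε * ‖g (1 + ε)‖) * ε := by linarith [h8, sq ε]
    exact le_of_mul_le_mul_right h9 h7'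
  exact absurd (ge_of_tendsto hlim hle) (not_le.mpr hc0)

end Fermat.Agent.Cor.HW
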