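import Fermat.Agent.Corollaries.HW.SmallConductor

/-!
# The analytic rank of a semistable elliptic curve of conductor at most `50`

It is `0` if the root number is `1` and `1` if the root number is `-1`.
-/

set_option autoImplicit false

noncomputable section

open UpperHalfPlane hiding I
open CongruenceSubgroup ModularFormClass Complex MeasureTheory Filter Topology Set
open scoped MatrixGroups ModularForm Nat

namespace Fermat.Agent.Cor.HW

/-- `d(n) ≤ 2 √n`. -/
theorem card_divisors_le (n : ℕ) : (n.divisors.card : ℝ) ≤ 2 * √n := by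
  rcases Nat.eq_zero_or_pos n with rfl | hn
  · simp
  have h1 : (n.divisors.filter fun d => d * d ≤ n).card ≤ n.sqrt := by
    have h2 : (n.divisors.filter fun d => d * d ≤ n) ⊆ Finset.Icc 1 n.sqrt := by
      intro d hd
      rw [Finset.mem_filter] at hd
      rw [Finset.mem_Icc]
      exact ⟨Nat.pos_of_mem_divisors hd.1, Nat.le_sqrt.mpr hd.2⟩
    refine (Finset.card_le_card h2).trans ?_
    simp
  have h3 : (n.divisors.filter fun d => ¬ d * d ≤ n).card ≤ n.sqrt := by
    have h4 : (n.divisors.filter fun d => ¬ d * d ≤ n).card ≤ (Finset.Icc 1 n.sqrt).card := by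
      refine Finset.card_le_card_of_injOn (fun d => n / d) ?_ ?_
      · intro d hd
        rw [Finset.mem_coe, Finset.mem_filter] at hd
        obtain ⟨hd1, hd2⟩ := hd
        have hdn := Nat.dvd_of_mem_divisors hd1
        have hd0 := Nat.pos_of_mem_divisors hd1
        rw [Finset.mem_coe, Finset.mem_Icc]
        obtain ⟨e, rfl⟩ := hdn
        have he0 : 0 < e := Nat.pos_of_mul_pos_left hn
        change 1 ≤ d * e / d ∧ d * e / d ≤ _
        rw [Nat.mul_div_cancel_left _ hd0]
        refine ⟨he0, Nat.le_sqrt.mpr ?_⟩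
        push Not at hd2
        have h5 : e < d := Nat.lt_of_mul_lt_mul_left hd2
        exact Nat.mul_le_mul_right e h5.le
      · intro d hd d' hd' h
        rw [Finset.mem_coe, Finset.mem_filter] at hd hd'
        exact (Nat.div_eq_iff_eq_of_dvd_dvd hn.ne' (Nat.dvd_of_mem_divisors hd.1)
          (Nat.dvd_of_mem_divisors hd'.1)).mp h
    simpa using h4
  have h5 : n.divisors.card ≤ 2 * n.sqrt := by
    rw [← Finset.card_filter_add_card_filter_not (s := n.divisors) (fun d => d * d ≤ n)]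
    omega
  have h6 : ((n.sqrt : ℕ) : ℝ) ≤ √n := Real.nat_sqrt_le_real_sqrt
  calc (n.divisors.card : ℝ) ≤ ((2 * n.sqrt : ℕ) : ℝ) := by exact_mod_cast h5
    _ = 2 * (n.sqrt : ℝ) := by push_cast; rfl
    _ ≤ 2 * √n := by linarith

variable {N : ℕ} [NeZero N]

/-- The coefficients of the majorant. -/
def bcoef (n : ℕ) : ℝ := if n = 0 then 1.4143 else if n = 1 then 1.1548 else if n = 2 then 1.5 else 2

omit [NeZero N] in
theorem norm_qCoeff_div_le {f : CuspForm (Gamma0 N) 2} (hf : f.IsNormalizedEigenform)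
    (hH : IsHasse f) (n : ℕ) : ‖qCoeff f (n + 2)‖ / ((n + 2 : ℕ) : ℝ) ≤ bcoef n := by
  have h := norm_qCoeff_le hf hH (n + 2)
  have hn : (0 : ℝ) < ((n + 2 : ℕ) : ℝ) := by positivity
  rw [div_le_iff₀ hn]
  refine h.trans ?_
  unfold bcoef
  split_ifs with h0 h1 h2
  · subst h0
    have e1 : ((0 + 2 : ℕ).divisors.card : ℝ) = 2 := by
      rw [show (0 + 2 : ℕ).divisors.card = 2 from by decide]
      norm_num
    have e2 : √((0 + 2 : ℕ) : ℝ) ≤ 1.4143 := by
      rw [Real.sqrt_le_left (by norm_num)]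
      norm_num
    rw [e1]
    push_cast at e2 ⊢
    linarith
  · subst h1
    have e1 : ((1 + 2 : ℕ).divisors.card : ℝ) = 2 := by
      rw [show (1 + 2 : ℕ).divisors.card = 2 from by decide]
      norm_num
    have e2 : √((1 + 2 : ℕ) : ℝ) ≤ 1.7322 := by
      rw [Real.sqrt_le_left (by norm_num)]
      norm_num
    rw [e1]
    push_cast at e2 ⊢
    linarith
  · subst h2
    have e1 : ((2 + 2 : ℕ).divisors.card : ℝ) = 3 := by
      rw [show (2 + 2 : ℕ).divisors.card = 3 from by decide]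
      norm_num
    have e2 : √((2 + 2 : ℕ) : ℝ) ≤ 2 := by
      rw [Real.sqrt_le_left (by norm_num)]
      norm_num
    rw [e1]
    push_cast at e2 ⊢
    linarith
  · have e1 := card_divisors_le (n + 2)
    have e2 : √((n + 2 : ℕ) : ℝ) * √((n + 2 : ℕ) : ℝ) = ((n + 2 : ℕ) : ℝ) :=
      Real.mul_self_sqrt hn.le
    calc ((n + 2).divisors.card : ℝ) * √((n + 2 : ℕ) : ℝ)
        ≤ 2 * √((n + 2 : ℕ) : ℝ) * √((n + 2 : ℕ) : ℝ) :=
          mul_le_mul_of_nonneg_right e1 (Real.sqrt_nonneg _)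
      _ = 2 * ((n + 2 : ℕ) : ℝ) := by rw [mul_assoc, e2]

theorem bcoef_nonneg (n : ℕ) : 0 ≤ bcoef n := by
  unfold bcoef
  split_ifs <;> norm_num

theorem hasSum_bcoef {q : ℝ} (hq0 : 0 ≤ q) (hq1 : q < 1) :
    HasSum (fun n : ℕ => bcoef n * q ^ (n + 1))
      (1.4143 * q + 1.1548 * q ^ 2 + 1.5 * q ^ 3 + 2 * q ^ 4 / (1 - q)) := by
  refine (hasSum_nat_add_iff' 3).mp ?_
  have h1 : HasSum (fun n : ℕ => 2 * q ^ 4 * q ^ n) (2 * q ^ 4 * (1 - q)⁻¹) :=
    (hasSum_geometric_of_lt_one hq0 hq1).mul_left _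
  have h2 : 1.4143 * q + 1.1548 * q ^ 2 + 1.5 * q ^ 3 + 2 * q ^ 4 / (1 - q) -
      ∑ i ∈ Finset.range 3, bcoef i * q ^ (i + 1) = 2 * q ^ 4 * (1 - q)⁻¹ := by
    have b0 : bcoef 0 = 1.4143 := by simp [bcoef]
    have b1 : bcoef 1 = 1.1548 := by simp [bcoef]
    have b2 : bcoef 2 = 1.5 := by simp [bcoef]
    rw [Finset.sum_range_succ, Finset.sum_range_succ, Finset.sum_range_one, b0, b1, b2]
    ring
  rw [h2]
  refine h1.congr_fun fun n => ?_
  have : bcoef (n + 3) = 2 := by
    unfold bcoef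
    rw [if_neg (by omega), if_neg (by omega), if_neg (by omega)]
  rw [this]
  ring

omit [NeZero N] in
theorem tailS_le {f : CuspForm (Gamma0 N) 2} (hf : f.IsNormalizedEigenform) (hH : IsHasse f)
    {q : ℝ} (hq : Real.exp (-xpar N) ≤ q) (hq1 : q < 1) :
    tailS f ≤ 1.4143 * q + 1.1548 * q ^ 2 + 1.5 * q ^ 3 + 2 * q ^ 4 / (1 - q) := by
  have hq0 : 0 ≤ q := (Real.exp_nonneg _).trans hq
  have hB := hasSum_bcoef hq0 hq1
  have hle : ∀ n : ℕ, ‖qCoeff f (n + 2)‖ / ((n + 2 : ℕ) : ℝ) *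
      Real.exp (-((n + 1 : ℕ) * xpar N)) ≤ bcoef n * q ^ (n + 1) := by
    intro n
    have h1 : Real.exp (-((n + 1 : ℕ) * xpar N)) = Real.exp (-xpar N) ^ (n + 1) := by
      rw [← Real.exp_nat_mul]
      congr 1
      ring
    rw [h1]
    exact mul_le_mul (norm_qCoeff_div_le hf hH n)
      (pow_le_pow_left₀ (Real.exp_nonneg _) hq _) (by positivity) (bcoef_nonneg n)
  have hs : Summable fun n : ℕ => ‖qCoeff f (n + 2)‖ / ((n + 2 : ℕ) : ℝ) *
      Real.exp (-((n + 1 : ℕ) * xpar N)) :=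
    Summable.of_nonneg_of_le (fun n => by positivity) hle hB.summable
  exact (hs.tsum_le_tsum hle hB.summable).trans hB.tsum_eq.le

theorem exp_neg_xpar_le (hN : N ≤ 50) : Real.exp (-xpar N) ≤ 0.4125 := by
  have hN0 := sqrt_pos_of_neZero (N := N)
  have h1 : √(N : ℝ) ≤ 7.0711 := by
    rw [Real.sqrt_le_left (by norm_num)]
    have h0 : (N : ℝ) ≤ 50 := by exact_mod_cast hN
    exact h0.trans (by norm_num)
  have h2 : 0.888 ≤ xpar N := by
    rw [xpar, le_div_iff₀ hN0]
    have := Real.pi_gt_d2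
    norm_num at this h1 ⊢
    nlinarith
  have h3 : (2.4249 : ℝ) ≤ Real.exp 0.888 := by
    refine le_trans ?_ (Real.sum_le_exp_of_nonneg (by norm_num) 6)
    norm_num [Finset.sum_range_succ, Nat.factorial]
  have h4 : Real.exp (-xpar N) ≤ Real.exp (-0.888) := Real.exp_le_exp.mpr (by linarith)
  refine h4.trans ?_
  rw [Real.exp_neg]
  refine (inv_anti₀ (by norm_num) h3).trans ?_
  norm_num

theorem tailS_lt_one {f : CuspForm (Gamma0 N) 2} (hf : f.IsNormalizedEigenform) (hH : IsHasse f)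
    (hN : N ≤ 50) : tailS f < 1 := by
  refine (tailS_le hf hH (exp_neg_xpar_le hN) (by norm_num)).trans_lt ?_
  norm_num

/-! ### Semistable elliptic curves of small conductor -/

section

variable {W : WeierstrassCurve ℤ} (hΔ : W.Δ ≠ 0) (hW : W.IsSemistableModel) {L : ℂ → ℂ}
  (hL : IsHasseWeil W L) (hN : W.conductorLevel ≤ 50)

include hΔ hW hL hN in
/-- **The analytic rank of a semistable elliptic curve of conductor at most `50` is at most one.** -/
theorem analyticOrderNatAt_le_one : analyticOrderNatAt L 1 ≤ 1 := by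
  obtain ⟨f, ⟨hf, ha⟩, -⟩ := existsUnique_newform_ap hΔ hW
  have hL' : L = ModularForm.L two_pos f := hL.unique (isHasseWeil hΔ hf ha)
  have hN0 : (W.conductorLevel : ℝ) ≠ 0 := by exact_mod_cast W.conductorLevel_pos.ne'
  have hdet : (!![0, -1; (W.conductorLevel : ℝ), 0] : Matrix (Fin 2) (Fin 2) ℝ).det ≠ 0 := by
    rw [Matrix.det_fin_two_of]
    simpa using hN0
  set A : GL (Fin 2) ℝ := Matrix.GeneralLinearGroup.mkOfDetNeZero _ hdet with hA
  have hval : (A : Matrix (Fin 2) (Fin 2) ℝ) = !![0, -1; (W.conductorLevel : ℝ), 0] := rfl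
  have hsl := slash_fricke W.squarefree_conductorLevel hf hval
  have hc := rootNumber_cast hΔ ha
  have hw := rootNumber_eq_one_or hΔ ha hf
  have hwR : ((rootNumber W : ℤ) : ℝ) = 1 ∨ ((rootNumber W : ℤ) : ℝ) = -1 := by
    rcases hw with h | h <;> rw [h] <;> norm_num
  have hcc : (∏ q ∈ W.conductorLevel.primeFactors, (-qCoeff f q)) =
      -((((rootNumber W : ℤ) : ℝ) : ℝ) : ℂ) := by
    push_cast
    rw [hc, neg_neg]
  rw [hcc] at hsl
  have hle := analyticOrderAt_LamN_le_one hval hwR hsl hf.1.qCoeff_one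
    (tailS_lt_one hf.1 (isHasse hΔ hf ha) hN)
  rw [analyticOrderAt_LamN, ← hL'] at hle
  rw [analyticOrderNatAt]
  exact ENat.toNat_le_of_le_natCast hle

include hΔ hW hL hN in
/-- **The analytic rank of a semistable elliptic curve `E` over `ℚ` of conductor at most `50`** is
`0` if the root number is `1`, and `1` if the root number is `-1`. -/
theorem analyticOrderNatAt_eq :
    analyticOrderNatAt L 1 = if rootNumber W = 1 then 0 else 1 := by
  have h1 := analyticOrderNatAt_le_one hΔ hW hL hN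
  obtain ⟨L', -, hL', -, -, -, hw, -, hpar⟩ := hasseWeil hΔ hW
  rw [← hL.unique hL'] at hpar
  split_ifs with h
  · rw [h] at hpar
    interval_cases hr : analyticOrderNatAt L 1
    · rfl
    · norm_num at hpar
  · have h2 : rootNumber W = -1 := hw.resolve_left h
    rw [h2] at hpar
    interval_cases hr : analyticOrderNatAt L 1
    · norm_num at hpar
    · rfl

include hΔ hW hL hN in
/-- `L(E, 1) ≠ 0` iff the root number is `1`, for conductor at most `50`. -/
theorem L_one_ne_zero_iff : L 1 ≠ 0 ↔ rootNumber W = 1 := by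
  have hC := criticalStrip_of_semistable hΔ hW hL
  have h0 : L ≠ 0 := fun h => hC.ne_zero 2 (by norm_num) (congrFun h 2)
  have htop : analyticOrderAt L 1 ≠ ⊤ := by
    intro h
    exact h0 ((AnalyticOnNhd.analyticOrderAt_eq_top_iff_eq_zero 1
      (fun z => hL.1.analyticAt z)).mp h)
  have h1 := analyticOrderNatAt_eq hΔ hW hL hN
  rw [← (hL.1.analyticAt 1).analyticOrderAt_eq_zero]
  constructor
  · intro h
    by_contra hne
    rw [if_neg hne, analyticOrderNatAt, h] at h1
    exact absurd h1 (by simp)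
  · intro h
    rw [if_pos h, analyticOrderNatAt] at h1
    rcases ENat.toNat_eq_zero.mp h1 with h2 | h2
    · exact h2
    · exact absurd h2 htop

end

end Fermat.Agent.Cor.HW
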