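import Fermat.Agent.Corollaries.HW.Legendre

/-!
# Split multiplicative reduction in terms of the polynomial `c₄ T² + a₁ c₄ T - (54 b₆ - 3 b₂ b₄ + a₂ c₄)`

`W` a Weierstrass curve over a finite field `k` with `Δ = 0`, `c₄ ≠ 0` (a nodal cubic). The polynomial of
Mathlib's definition of split multiplicative reduction splits over `k` if and only if `W` has
`#k - 1` non-singular points (with the point at infinity); otherwise it has `#k + 1`.
-/

set_option autoImplicit false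

noncomputable section

open Polynomial WeierstrassCurve WeierstrassCurve.Affine
open scoped WeierstrassCurve.Affine

namespace Fermat.Agent.Cor.HW

/-- the node of a cubic with `Δ = 0`, `c₄ ≠ 0`, in all characteristics -/
theorem node_of_disc {F : Type*} [Field F] {b₂ b₄ b₆ b₈ e : F} (hR : 4 * b₈ = b₂ * b₆ - b₄ ^ 2)
    (hΔ : -b₂ ^ 2 * b₈ - 8 * b₄ ^ 3 - 27 * b₆ ^ 2 + 9 * b₂ * b₄ * b₆ = 0)
    (hc : b₂ ^ 2 - 24 * b₄ ≠ 0) (he : e * (b₂ ^ 2 - 24 * b₄) = 18 * b₆ - b₂ * b₄) :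
    b₆ + 2 * e * b₄ + e ^ 2 * b₂ + 4 * e ^ 3 = 0 ∧
      b₈ + 3 * e * b₆ + 3 * e ^ 2 * b₄ + e ^ 3 * b₂ + 3 * e ^ 4 = 0 ∧ b₂ + 12 * e ≠ 0 := by
  refine ⟨?_, ?_, ?_⟩
  · apply mul_left_cancel₀ (pow_ne_zero 3 hc)
    set c := b₂ ^ 2 - 24 * b₄ with hcd
    set u := 18 * b₆ - b₂ * b₄ with hu
    linear_combination (2 * b₄ * c ^ 2 + b₂ * c * (e * c + u) +
      4 * ((e * c) ^ 2 + e * c * u + u ^ 2)) * he +
      4 * (-b₂ ^ 3 + 36 * b₂ * b₄ - 216 * b₆) * hΔ +
      (-b₂ ^ 5 + 36 * b₂ ^ 3 * b₄ - 216 * b₂ ^ 2 * b₆) * hR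
  · apply mul_left_cancel₀ (pow_ne_zero 4 hc)
    set c := b₂ ^ 2 - 24 * b₄ with hcd
    set u := 18 * b₆ - b₂ * b₄ with hu
    linear_combination (3 * b₆ * c ^ 3 + 3 * b₄ * c ^ 2 * (e * c + u) +
      b₂ * c * ((e * c) ^ 2 + e * c * u + u ^ 2) +
      3 * ((e * c) ^ 3 + (e * c) ^ 2 * u + e * c * u ^ 2 + u ^ 3)) * he -
      ((-b₂ ^ 3 + 36 * b₂ * b₄ - 216 * b₆) ^ 2 + 1296 *
        (-b₂ ^ 2 * b₈ - 8 * b₄ ^ 3 - 27 * b₆ ^ 2 + 9 * b₂ * b₄ * b₆)) * hΔ +
      (-6 * b₂ ^ 6 * b₄ - 27 * b₂ ^ 5 * b₆ + 459 * b₂ ^ 4 * b₄ ^ 2 + 324 * b₂ ^ 4 * b₈ -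
        1944 * b₂ ^ 3 * b₄ * b₆ - 8640 * b₂ ^ 2 * b₄ ^ 3 + 5832 * b₂ ^ 2 * b₆ ^ 2 +
        82944 * b₄ ^ 4) * hR
  · intro h0
    apply pow_ne_zero 3 hc
    have h6 : -b₂ ^ 3 + 36 * b₂ * b₄ - 216 * b₆ = 0 := by
      linear_combination -(b₂ ^ 2 - 24 * b₄) * h0 + 12 * he
    linear_combination (-b₂ ^ 3 + 36 * b₂ * b₄ - 216 * b₆) * h6 + 1728 * hΔ + 432 * b₂ ^ 2 * hR

section finite

variable {k : Type*} [Field k] [Fintype k] (W : WeierstrassCurve k)

/-- the polynomial of Mathlib's definition of split multiplicative reduction -/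
def splitPoly : k[X] :=
  C W.c₄ * X ^ 2 + C (W.a₁ * W.c₄) * X - C (54 * W.b₆ - 3 * W.b₂ * W.b₄ + W.a₂ * W.c₄)

variable {W}

theorem splitPoly_cases [DecidableEq k] (hΔ : W.Δ = 0) (hc : W.c₄ ≠ 0) :
    ((splitPoly W).Splits ∧ Nat.card W.toAffine.Point + 1 = Nat.card k) ∨
      (¬ (splitPoly W).Splits ∧ Nat.card W.toAffine.Point = Nat.card k + 1) := by
  classical
  set K := AlgebraicClosure k
  set e₀ : k := (18 * W.b₆ - W.b₂ * W.b₄) / W.c₄ with he₀
  have he : e₀ * W.c₄ = 18 * W.b₆ - W.b₂ * W.b₄ := div_mul_cancel₀ _ hc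
  obtain ⟨i6, i8, hD⟩ := node_of_disc (e := e₀) W.b_relation hΔ hc he
  -- the same over `K`
  have j6 := congrArg (algebraMap k K) i6
  have j8 := congrArg (algebraMap k K) i8
  have jD : algebraMap k K (W.b₂ + 12 * e₀) ≠ 0 := by
    rw [Ne, map_eq_zero]
    exact hD
  simp only [map_add, map_mul, map_pow, map_ofNat, map_zero] at j6 j8 jD
  have m2 : WeierstrassCurve.b₂ (W.toAffine⁄K) = algebraMap k K W.b₂ :=
    WeierstrassCurve.map_b₂ W (algebraMap k K)
  have m4 : WeierstrassCurve.b₄ (W.toAffine⁄K) = algebraMap k K W.b₄ :=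
    WeierstrassCurve.map_b₄ W (algebraMap k K)
  have m6 : WeierstrassCurve.b₆ (W.toAffine⁄K) = algebraMap k K W.b₆ :=
    WeierstrassCurve.map_b₆ W (algebraMap k K)
  have m8 : WeierstrassCurve.b₈ (W.toAffine⁄K) = algebraMap k K W.b₈ :=
    WeierstrassCurve.map_b₈ W (algebraMap k K)
  obtain ⟨n, s, t, h⟩ := exists_node (W := (W.toAffine⁄K)) (e := algebraMap k K e₀)
    (by rw [m2, m4, m6]; exact j6) (by rw [m2, m4, m6, m8]; exact j8) (by rw [m2]; exact jD)
  have hsum : s + t = -(algebraMap k K W.a₁) := h.sum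
  have hprod : s * t = -(algebraMap k K W.a₂ + 3 * algebraMap k K e₀) := h.prod
  have hN : Nat.card k = Fintype.card k := Nat.card_eq_fintype_card
  have hp : splitPoly W = C W.c₄ * (X ^ 2 + C W.a₁ * X - C (W.a₂ + 3 * e₀)) := by
    have h1 : 54 * W.b₆ - 3 * W.b₂ * W.b₄ + W.a₂ * W.c₄ = W.c₄ * (W.a₂ + 3 * e₀) := by
      linear_combination -3 * he
    rw [splitPoly, h1]
    simp only [map_mul]
    ring
  have hdeg : (splitPoly W).degree = 2 := by
    rw [hp, degree_C_mul hc]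
    compute_degree!
  rcases card_slopes h with ⟨h1, h2, h3⟩ | ⟨h1, h2, h3⟩
  · left
    refine ⟨?_, by rw [hN]; exact h3⟩
    obtain ⟨r, hr⟩ := Fermat.Agent.ECFrob.exists_of_pow_card_eq h1
    obtain ⟨r', hr'⟩ := Fermat.Agent.ECFrob.exists_of_pow_card_eq h2
    have e1 : r + r' = -W.a₁ := by
      apply (algebraMap k K).injective
      rw [map_add, map_neg, hr, hr', hsum]
    have e2 : r * r' = -(W.a₂ + 3 * e₀) := by
      apply (algebraMap k K).injective
      rw [map_mul, map_neg, map_add, map_mul, map_ofNat, hr, hr', hprod]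
    have e3 : splitPoly W = C W.c₄ * ((X - C r) * (X - C r')) := by
      have e4 : W.a₁ = -(r + r') := by rw [e1, neg_neg]
      have e5 : W.a₂ + 3 * e₀ = -(r * r') := by rw [e2, neg_neg]
      rw [hp, e4, e5]
      simp only [map_neg, map_add, map_mul]
      ring
    rw [e3]
    exact (Splits.C _).mul ((Splits.X_sub_C r).mul (Splits.X_sub_C r'))
  · right
    refine ⟨fun hsp => ?_, by rw [hN]; exact h3⟩
    obtain ⟨r, hr⟩ := hsp.exists_eval_eq_zero (by rw [hdeg]; exact two_ne_zero)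
    rw [hp] at hr
    simp only [eval_mul, eval_C, eval_sub, eval_add, eval_pow, eval_X, mul_eq_zero, hc,
      false_or] at hr
    have hr' := congrArg (algebraMap k K) hr
    simp only [map_sub, map_add, map_mul, map_pow, map_ofNat, map_zero] at hr'
    have h4 : (algebraMap k K r - s) * (algebraMap k K r - t) = 0 := by
      linear_combination hr' - algebraMap k K r * hsum + hprod
    have h5 : (algebraMap k K r) ^ Fintype.card k = algebraMap k K r := by
      rw [← map_pow, FiniteField.pow_card]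
    rcases mul_eq_zero.mp h4 with h6 | h6
    · rw [sub_eq_zero.mp h6, h1] at h5
      exact h.ne h5.symm
    · rw [sub_eq_zero.mp h6, h2] at h5
      exact h.ne h5

end finite

section Finite

variable {k : Type*} [Field k] [Finite k] {W : WeierstrassCurve k}

/-- **Split multiplicative reduction over a finite field**: the polynomial of Mathlib's definition
splits if and only if the nodal cubic has `#k - 1` non-singular points. -/
theorem splits_iff_card (hΔ : W.Δ = 0) (hc : W.c₄ ≠ 0) :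
    (C W.c₄ * X ^ 2 + C (W.a₁ * W.c₄) * X -
      C (54 * W.b₆ - 3 * W.b₂ * W.b₄ + W.a₂ * W.c₄) : k[X]).Splits ↔
      Nat.card W.toAffine.Point + 1 = Nat.card k := by
  classical
  have := Fintype.ofFinite k
  rcases splitPoly_cases hΔ hc with ⟨h1, h2⟩ | ⟨h1, h2⟩
  · exact ⟨fun _ => h2, fun _ => h1⟩
  · exact ⟨fun h => absurd h h1, fun h => by omega⟩

theorem not_splits_iff_card (hΔ : W.Δ = 0) (hc : W.c₄ ≠ 0) :
    ¬ (C W.c₄ * X ^ 2 + C (W.a₁ * W.c₄) * X -
      C (54 * W.b₆ - 3 * W.b₂ * W.b₄ + W.a₂ * W.c₄) : k[X]).Splits ↔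
      Nat.card W.toAffine.Point = Nat.card k + 1 := by
  classical
  have := Fintype.ofFinite k
  rcases splitPoly_cases hΔ hc with ⟨h1, h2⟩ | ⟨h1, h2⟩
  · exact ⟨fun h => absurd h1 h, fun h => by omega⟩
  · exact ⟨fun _ => h2, fun _ => h1⟩

end Finite

section curve

open Fermat.Agent.ECRed

variable {W : WeierstrassCurve ℤ} {q : ℕ}

/-- for a curve over `ℤ` and a prime `q` of multiplicative reduction -/
theorem splits_reductionMod_iff (hW : IsMultAt W q) [Fact q.Prime] :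
    (C (W.reductionMod q).c₄ * X ^ 2 + C ((W.reductionMod q).a₁ * (W.reductionMod q).c₄) * X -
      C (54 * (W.reductionMod q).b₆ - 3 * (W.reductionMod q).b₂ * (W.reductionMod q).b₄ +
        (W.reductionMod q).a₂ * (W.reductionMod q).c₄) : (ZMod q)[X]).Splits ↔
      W.apOfModel q - 1 = 1 := by
  have hΔ : (W.reductionMod q).Δ = 0 := by
    rw [WeierstrassCurve.reductionMod, WeierstrassCurve.map_Δ, eq_intCast,
      ZMod.intCast_zmod_eq_zero_iff_dvd]
    exact hW.dvd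
  have hc : (W.reductionMod q).c₄ ≠ 0 := by
    rw [WeierstrassCurve.reductionMod, WeierstrassCurve.map_c₄, eq_intCast, Ne,
      ZMod.intCast_zmod_eq_zero_iff_dvd]
    exact hW.ndvd
  rw [splits_iff_card hΔ hc, Nat.card_zmod]
  have hap : W.apOfModel q = (q : ℤ) + 1 - (Nat.card (W.reductionMod q).toAffine.Point : ℤ) := by
    rw [WeierstrassCurve.apOfModel, WeierstrassCurve.traceOfFrobenius, Nat.card_zmod]
    rfl
  rw [hap]
  omega

end curve

end Fermat.Agent.Cor.HW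

end
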