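import Fermat.Agent.Corollaries.HW.Hasse
import Mathlib.Analysis.SpecialFunctions.Gamma.Beta

/-!
# The zeros of the `L`-function of a semistable elliptic curve

The trivial zeros of `L(f, s)` are the simple zeros `s = 0, -1, -2, …`. All other zeros are in the
strip `1/2 ≤ re s ≤ 3/2`, and they are symmetric with respect to `s ↦ 2 - s`.
-/

set_option autoImplicit false

noncomputable section

open UpperHalfPlane hiding I
open CongruenceSubgroup ModularFormClass Complex
open scoped MatrixGroups ModularForm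

namespace Fermat.Agent.Cor.HW

/-! ### The inverse of the Gamma function -/

theorem inv_Gamma_eq (n : ℕ) (s : ℂ) :
    (Gamma s)⁻¹ = (∏ j ∈ Finset.range n, (s + j)) * (Gamma (s + n))⁻¹ := by
  induction n with
  | zero => simp
  | succ n ih =>
    rw [ih, Finset.prod_range_succ, one_div_Gamma_eq_self_mul_one_div_Gamma_add_one (s + n)]
    push_cast
    rw [mul_assoc, add_assoc]

/-- `1/Γ` has a simple zero at `-n`. -/
theorem analyticOrderAt_inv_Gamma (n : ℕ) :
    analyticOrderAt (fun s : ℂ => (Gamma s)⁻¹) (-(n : ℂ)) = 1 := by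
  have hd := differentiable_one_div_Gamma
  have h1 : AnalyticAt ℂ (fun s : ℂ => (Gamma s)⁻¹) (-(n : ℂ)) := hd.analyticAt _
  have h := (h1.analyticOrderAt_eq_natCast (n := 1)).mpr
    ⟨fun s : ℂ => (∏ j ∈ Finset.range n, (s + j)) * (Gamma (s + (n + 1 : ℕ)))⁻¹, ?_, ?_, ?_⟩
  · exact_mod_cast h
  · have h2 : Differentiable ℂ fun s : ℂ => (Gamma (s + (n + 1 : ℕ)))⁻¹ :=
      hd.comp (differentiable_id.add_const _)
    have h3 : Differentiable ℂ fun s : ℂ => ∏ j ∈ Finset.range n, (s + (j : ℂ)) :=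
      Differentiable.fun_finsetProd fun j _ => differentiable_id.add_const _
    exact (h3.mul h2).analyticAt _
  · refine mul_ne_zero (Finset.prod_ne_zero_iff.mpr fun j hj => ?_) ?_
    · rw [Finset.mem_range] at hj
      intro h0
      have h4 : (j : ℂ) = n := by linear_combination h0
      exact hj.ne (by exact_mod_cast h4)
    · have h5 : -(n : ℂ) + ((n + 1 : ℕ) : ℂ) = 1 := by
        push_cast
        ring
      rw [h5, Gamma_one, inv_one]
      exact one_ne_zero
  · refine Filter.Eventually.of_forall fun s => ?_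
    simp only
    rw [inv_Gamma_eq (n + 1) s, Finset.prod_range_succ, smul_eq_mul, pow_one]
    ring

variable {N : ℕ} [NeZero N]

/-- The exponential factor in `L(f, s) = u(s) Γ(s)⁻¹ Λ(f, s)`. -/
def expFactor (N : ℕ) (s : ℂ) : ℂ := (N : ℂ) ^ (-(s / 2)) * (2 * (Real.pi : ℂ)) ^ s

theorem two_pi_ne_zero' : (2 * (Real.pi : ℂ)) ≠ 0 :=
  mul_ne_zero two_ne_zero (ofReal_ne_zero.mpr Real.pi_ne_zero)

theorem expFactor_ne_zero (s : ℂ) : expFactor N s ≠ 0 := by
  have hN : (N : ℂ) ≠ 0 := Nat.cast_ne_zero.mpr (NeZero.ne N)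
  refine mul_ne_zero ?_ ?_
  · rw [Ne, cpow_eq_zero_iff]
    exact fun h => hN h.1
  · rw [Ne, cpow_eq_zero_iff]
    exact fun h => two_pi_ne_zero' h.1

theorem differentiable_expFactor : Differentiable ℂ (expFactor N) := by
  have hN : (N : ℂ) ≠ 0 := Nat.cast_ne_zero.mpr (NeZero.ne N)
  exact ((differentiable_id.div_const 2).neg.const_cpow (Or.inl hN)).mul
    (differentiable_id.const_cpow (Or.inl two_pi_ne_zero'))

/-- `L(f, s)` in terms of the completed `L`-function, for all `s`. -/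
theorem L_eq_LamN (f : CuspForm (Gamma0 N) 2) (s : ℂ) :
    ModularForm.L two_pos f s = expFactor N s * (Gamma s)⁻¹ * LamN f s := by
  have hN : (N : ℂ) ≠ 0 := Nat.cast_ne_zero.mpr (NeZero.ne N)
  have h1 : (N : ℂ) ^ (-(s / 2)) * (N : ℂ) ^ (s / 2) = 1 := by
    rw [← cpow_add _ _ hN, neg_add_cancel, cpow_zero]
  have h2 : (2 * (Real.pi : ℂ)) ^ (-s) ≠ 0 := by
    rw [Ne, cpow_eq_zero_iff]
    exact fun h => two_pi_ne_zero' h.1
  have h3 : (2 * (Real.pi : ℂ)) ^ s = ((2 * (Real.pi : ℂ)) ^ (-s))⁻¹ := by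
    rw [cpow_neg, inv_inv]
  have h4 : (2 : ℂ) / Gammaℂ s = ((2 * (Real.pi : ℂ)) ^ (-s))⁻¹ * (Gamma s)⁻¹ := by
    rw [Gammaℂ_def, div_eq_mul_inv, mul_inv, mul_inv]
    rw [← mul_assoc, ← mul_assoc, mul_inv_cancel₀ two_ne_zero, one_mul]
  rw [ModularForm.L, h4, expFactor, LamN, h3]
  linear_combination (-(((2 * (Real.pi : ℂ)) ^ (-s))⁻¹ * (Gamma s)⁻¹ *
    ModularForm.Λ (Γ := ((Gamma0 N : Subgroup SL(2, ℤ)) : Subgroup (GL (Fin 2) ℝ)))
      (k := 2) two_pos f s)) * h1

/-- The trivial zeros. -/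
theorem L_neg_nat (f : CuspForm (Gamma0 N) 2) (n : ℕ) :
    ModularForm.L two_pos f (-(n : ℂ)) = 0 := by
  rw [L_eq_LamN, (Gamma_eq_zero_iff _).mpr ⟨n, rfl⟩, inv_zero, mul_zero, zero_mul]

/-- Away from the poles of `Γ` the functions `L` and `Λ` have the same zeros. -/
theorem L_eq_zero_iff (f : CuspForm (Gamma0 N) 2) {s : ℂ} (hs : ∀ n : ℕ, s ≠ -n) :
    ModularForm.L two_pos f s = 0 ↔ LamN f s = 0 := by
  have h1 : (Gamma s)⁻¹ ≠ 0 := inv_ne_zero (Gamma_ne_zero hs)
  rw [L_eq_LamN, mul_eq_zero, mul_eq_zero]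
  simp [expFactor_ne_zero, Gamma_ne_zero hs]

theorem LamN_ne_zero_of_gt {f : CuspForm (Gamma0 N) 2} (hf : f.IsNormalizedEigenform)
    (hH : IsHasse f) {s : ℂ} (hs : 3 / 2 < s.re) : LamN f s ≠ 0 := by
  intro h
  refine L_ne_zero_of_hasse hf hH hs ?_
  rw [L_eq_LamN, h, mul_zero]

section

variable {f : CuspForm (Gamma0 N) 2} (hf : f.IsNormalizedEigenform) (hH : IsHasse f) {c : ℂ}
  (hc : c ≠ 0) (hFE : ∀ s, LamN f (2 - s) = c * LamN f s)

include hf hH hFE in
theorem LamN_ne_zero_of_lt {s : ℂ} (hs : s.re < 1 / 2) : LamN f s ≠ 0 := by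
  intro h
  have h1 : 3 / 2 < (2 - s).re := by
    rw [sub_re, re_ofNat]
    linarith
  refine LamN_ne_zero_of_gt hf hH h1 ?_
  rw [hFE, h, mul_zero]

include hf hH hFE in
/-- **The zeros of `Λ(f, s)` are in the critical strip.** -/
theorem re_mem_of_LamN_eq_zero {s : ℂ} (h : LamN f s = 0) : s.re ∈ Set.Icc (1 / 2 : ℝ) (3 / 2) := by
  constructor
  · by_contra h1
    exact LamN_ne_zero_of_lt hf hH hFE (not_le.mp h1) h
  · by_contra h1
    exact LamN_ne_zero_of_gt hf hH (not_le.mp h1) h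

include hf hH hFE in
/-- **The zeros of `L(f, s)`** are the trivial zeros `0, -1, -2, …` and zeros in the critical
strip. -/
theorem zero_of_L {s : ℂ} (h : ModularForm.L two_pos f s = 0) :
    (∃ n : ℕ, s = -n) ∨ s.re ∈ Set.Icc (1 / 2 : ℝ) (3 / 2) := by
  by_cases hs : ∃ n : ℕ, s = -n
  · exact Or.inl hs
  · push Not at hs
    exact Or.inr (re_mem_of_LamN_eq_zero hf hH hFE ((L_eq_zero_iff f hs).mp h))

include hf hH hFE in
/-- **The trivial zeros are simple.** -/
theorem analyticOrderAt_L_neg_nat (n : ℕ) :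
    analyticOrderAt (ModularForm.L two_pos f) (-(n : ℂ)) = 1 := by
  have h1 : AnalyticAt ℂ (fun s : ℂ => (Gamma s)⁻¹) (-(n : ℂ)) :=
    differentiable_one_div_Gamma.analyticAt _
  have h2 : AnalyticAt ℂ (expFactor N) (-(n : ℂ)) := differentiable_expFactor.analyticAt _
  have h3 : AnalyticAt ℂ (LamN f) (-(n : ℂ)) := (differentiable_LamN f).analyticAt _
  have h4 : (ModularForm.L two_pos f) = expFactor N * (fun s : ℂ => (Gamma s)⁻¹) * LamN f :=
    funext fun s => L_eq_LamN f s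
  have h5 : LamN f (-(n : ℂ)) ≠ 0 := by
    refine LamN_ne_zero_of_lt hf hH hFE ?_
    rw [neg_re, natCast_re]
    have : (0 : ℝ) ≤ n := Nat.cast_nonneg n
    linarith
  rw [h4, analyticOrderAt_mul (h2.mul h1) h3, analyticOrderAt_mul h2 h1,
    h2.analyticOrderAt_eq_zero.mpr (expFactor_ne_zero _), h3.analyticOrderAt_eq_zero.mpr h5,
    analyticOrderAt_inv_Gamma, zero_add, add_zero]

include hc hFE in
/-- The zeros in the strip `0 < re s < 2` are symmetric. -/
theorem L_eq_zero_iff_two_sub {s : ℂ} (h0 : 0 < s.re) (h2 : s.re < 2) :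
    ModularForm.L two_pos f (2 - s) = 0 ↔ ModularForm.L two_pos f s = 0 := by
  have key : ∀ z : ℂ, 0 < z.re → ∀ n : ℕ, z ≠ -n := by
    intro z hz n hn
    rw [hn, neg_re, natCast_re] at hz
    have : (0 : ℝ) ≤ n := Nat.cast_nonneg n
    linarith
  have h1 : 0 < (2 - s).re := by
    rw [sub_re, re_ofNat]
    linarith
  rw [L_eq_zero_iff f (key _ h1), L_eq_zero_iff f (key _ h0), hFE, mul_eq_zero]
  simp [hc]

end

/-! ### Semistable elliptic curves -/

/-- The description of the zeros of the Hasse-Weil `L`-function `L` of `W` (and its convergence):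

* the Euler product over all primes converges to `L(s)` for `re s > 3/2`, and `L(s) ≠ 0` there;
* `L` has simple zeros at `0, -1, -2, …`;
* all other zeros satisfy `1/2 ≤ re s ≤ 3/2`;
* the zeros with `0 < re s < 2` are symmetric with respect to `s ↦ 2 - s`. -/
structure CriticalStrip (W : WeierstrassCurve ℤ) (L : ℂ → ℂ) : Prop where
  hasProd : ∀ s : ℂ, 3 / 2 < s.re → HasProd (fun p : Nat.Primes => (eulerPoly W p s)⁻¹) (L s)
  ne_zero : ∀ s : ℂ, 3 / 2 < s.re → L s ≠ 0
  trivial : ∀ n : ℕ, analyticOrderAt L (-(n : ℂ)) = 1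
  zero : ∀ s : ℂ, L s = 0 → (∃ n : ℕ, s = -n) ∨ 1 / 2 ≤ s.re ∧ s.re ≤ 3 / 2
  symm : ∀ s : ℂ, 0 < s.re → s.re < 2 → (L (2 - s) = 0 ↔ L s = 0)

section

variable {W : WeierstrassCurve ℤ} (hΔ : W.Δ ≠ 0) {f : CuspForm (Gamma0 W.conductorLevel) 2}
  (hf : f.IsNewform) (ha : ∀ p : ℕ, p.Prime → qCoeff f p = (ap W p : ℂ))

include hΔ hf ha in
theorem isHasse : IsHasse f := by
  refine isHasse_of_newform (W := W) (fun q hq h => (W.prime_dvd_conductorLevel_iff hΔ hq).mpr h)
    hf fun p hp hpN => ?_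
  rw [ha p hp, ap, if_neg fun h => hpN ((W.prime_dvd_conductorLevel_iff hΔ hp).mpr h)]

include hΔ hf ha in
/-- **The zeros of the `L`-function of a semistable elliptic curve.** -/
theorem criticalStrip {L : ℂ → ℂ} (hL : IsHasseWeil W L) : CriticalStrip W L := by
  have hL' : L = ModularForm.L two_pos f := hL.unique (isHasseWeil hΔ hf ha)
  have hH := isHasse hΔ hf ha
  have hc : (rootNumber W : ℂ) ≠ 0 := by
    rcases rootNumber_eq_one_or hΔ ha hf with h | h <;> rw [h] <;> norm_num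
  have hFE := functional_equation hΔ hf ha
  subst hL'
  exact
    { hasProd := fun s hs => by
        simpa only [formPoly_eq hΔ ha] using hasProd_L_of_hasse hf.1 hH hs
      ne_zero := fun s hs => L_ne_zero_of_hasse hf.1 hH hs
      trivial := fun n => analyticOrderAt_L_neg_nat hf.1 hH hFE n
      zero := fun s hs => zero_of_L hf.1 hH hFE hs
      symm := fun s h0 h2 => L_eq_zero_iff_two_sub hc hFE h0 h2 }

end

end Fermat.Agent.Cor.HW
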