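import Fermat.Agent.Corollaries.HW.Unique
import Fermat.Agent.Frob.Charpoly

/-!
# Semistable elliptic curves with almost the same traces of Frobenius

Let `W`, `W'` be semistable Weierstrass equations over `ℤ` with `a_ℓ(W) = a_ℓ(W')` for all primes
`ℓ` outside a finite set. Then

* `apOfModel_eq_of_eventually` : `a_ℓ(W) = a_ℓ(W')` for every prime `ℓ` of good reduction for both
  (this does not need semistability);
* `conductorLevel_eq_of_eventually` : the conductors are the same;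
* `exists_common_newform`, `qCoeff_eq_of_eventually` : the newforms are the same.
-/

set_option autoImplicit false

noncomputable section

open WeierstrassCurve CongruenceSubgroup ModularFormClass Polynomial

namespace Fermat.Agent.Cor.HW

variable {W W' : WeierstrassCurve ℤ}

/-- The congruence modulo one prime `p`: if the traces of Frobenius agree for almost all primes,
they are congruent modulo `p` at every prime `ℓ ≠ p` of good reduction for both curves. -/
theorem dvd_apOfModel_sub (hΔ : W.Δ ≠ 0) (hΔ' : W'.Δ ≠ 0) (S : Finset ℕ)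
    (h : ∀ ℓ : ℕ, ℓ.Prime → ℓ ∉ S → W.apOfModel ℓ = W'.apOfModel ℓ) {p : ℕ} (hp : p.Prime)
    {ℓ : ℕ} (hℓ : ℓ.Prime) (hℓp : ℓ ≠ p) (hg : W.IsGoodPrimeFor ℓ) (hg' : W'.IsGoodPrimeFor ℓ) :
    (p : ℤ) ∣ W.apOfModel ℓ - W'.apOfModel ℓ := by
  have : Fact p.Prime := ⟨hp⟩
  have hQ := Ribet.map_Δ_ne_zero hΔ
  have hQ' := Ribet.map_Δ_ne_zero hΔ'
  obtain ⟨A, hA, σ, hσ⟩ := Frob.exists_frobenius ℓ hℓ
  have key := FrobDensity.residualGaloisRep_charpoly_eq (Ribet.rbar hQ p) (Ribet.rbar hQ' p)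
    ((S ∪ {p} ∪ W.Δ.natAbs.primeFactors ∪ W'.Δ.natAbs.primeFactors : Finset ℕ) : Set ℕ)
    (Finset.finite_toSet _) (by
      intro r hr hrS B hB τ hτ
      simp only [Finset.mem_coe, Finset.mem_union, Finset.mem_singleton, not_or] at hrS
      obtain ⟨⟨⟨hrS, hrp⟩, hrW⟩, hrW'⟩ := hrS
      have : Fact r.Prime := ⟨hr⟩
      have h1 : W.IsGoodPrimeFor r := fun h' => hrW
        (Nat.mem_primeFactors.mpr ⟨hr, Int.natCast_dvd.mp h', Int.natAbs_ne_zero.mpr hΔ⟩)
      have h2 : W'.IsGoodPrimeFor r := fun h' => hrW'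
        (Nat.mem_primeFactors.mpr ⟨hr, Int.natCast_dvd.mp h', Int.natAbs_ne_zero.mpr hΔ'⟩)
      rw [Ribet.charpoly_rbar_frobenius hQ p h1 hrp hB hτ,
        Ribet.charpoly_rbar_frobenius hQ' p h2 hrp hB hτ, h r hr hrS]) σ
  have : Fact ℓ.Prime := ⟨hℓ⟩
  rw [Ribet.charpoly_rbar_frobenius hQ p hg hℓp hA hσ,
    Ribet.charpoly_rbar_frobenius hQ' p hg' hℓp hA hσ] at key
  have h1 : ((W.apOfModel ℓ : ℤ) : IsLocalRing.ResidueField ℤ_[p]) =
      ((W'.apOfModel ℓ : ℤ) : IsLocalRing.ResidueField ℤ_[p]) := by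
    have := congrArg (fun P => P.coeff 1) key
    simpa [coeff_X, coeff_C] using this
  have : CharP (IsLocalRing.ResidueField ℤ_[p]) p :=
    S59aux.charP_of_mem (Tate.natCast_mem_maximalIdeal p)
  rw [← CharP.intCast_eq_zero_iff (IsLocalRing.ResidueField ℤ_[p]) p, Int.cast_sub, h1, sub_self]

/-- **The traces of Frobenius at almost all primes determine those at all primes of good
reduction.** (No semistability.) -/
theorem apOfModel_eq_of_eventually (hΔ : W.Δ ≠ 0) (hΔ' : W'.Δ ≠ 0) (S : Finset ℕ)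
    (h : ∀ ℓ : ℕ, ℓ.Prime → ℓ ∉ S → W.apOfModel ℓ = W'.apOfModel ℓ) {ℓ : ℕ} (hℓ : ℓ.Prime)
    (hg : W.IsGoodPrimeFor ℓ) (hg' : W'.IsGoodPrimeFor ℓ) : W.apOfModel ℓ = W'.apOfModel ℓ := by
  obtain ⟨p, hple, hp⟩ := Nat.exists_infinite_primes
    (ℓ + 1 + (W.apOfModel ℓ - W'.apOfModel ℓ).natAbs)
  have h1 := dvd_apOfModel_sub hΔ hΔ' S h hp hℓ (by omega) hg hg'
  have h2 := Int.eq_zero_of_abs_lt_dvd h1 (by rw [Int.abs_eq_natAbs]; omega)
  omega

section semistable

variable (hΔ : W.Δ ≠ 0) (hW : W.IsSemistableModel) (hΔ' : W'.Δ ≠ 0) (hW' : W'.IsSemistableModel)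
  (S : Finset ℕ) (h : ∀ ℓ : ℕ, ℓ.Prime → ℓ ∉ S → W.apOfModel ℓ = W'.apOfModel ℓ)

include hΔ hW hΔ' hW' h in
/-- Half of the equality of the conductors. -/
theorem conductorLevel_dvd_of_eventually : W.conductorLevel ∣ W'.conductorLevel := by
  refine conductorLevel_dvd hΔ hW W'.conductorLevel_pos.ne' ?_
  obtain ⟨f, hf, ha⟩ := Cor.exists_form_conductor hΔ' hW'
  refine ⟨f, hf, fun p hp hgood hpN => ?_⟩
  have hg' : W'.IsGoodPrimeFor p := fun h' =>
    hpN ((W'.prime_dvd_conductorLevel_iff hΔ' hp).mpr h')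
  rw [ha p hp hg', apOfModel_eq_of_eventually hΔ hΔ' S h hp hgood hg']

include hΔ hW hΔ' hW' h in
/-- **Semistable curves with the same traces of Frobenius at almost all primes have the same
conductor.** -/
theorem conductorLevel_eq_of_eventually : W.conductorLevel = W'.conductorLevel :=
  Nat.dvd_antisymm (conductorLevel_dvd_of_eventually hΔ hW hΔ' hW' S h)
    (conductorLevel_dvd_of_eventually hΔ' hW' hΔ hW S fun ℓ hℓ hℓS => (h ℓ hℓ hℓS).symm)

include hΔ hW hΔ' hW' h in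
/-- The primes of bad reduction are the same. -/
theorem dvd_Δ_iff_of_eventually {p : ℕ} (hp : p.Prime) : (p : ℤ) ∣ W.Δ ↔ (p : ℤ) ∣ W'.Δ := by
  rw [← W.prime_dvd_conductorLevel_iff hΔ hp, ← W'.prime_dvd_conductorLevel_iff hΔ' hp,
    conductorLevel_eq_of_eventually hΔ hW hΔ' hW' S h]

include hΔ hW hΔ' hW' h in
/-- **Strong multiplicity one for semistable elliptic curves**: there is a common newform, of level
the common conductor. -/
theorem exists_common_newform : ∃ f : CuspForm (Gamma0 W.conductorLevel) 2, f.IsNewform ∧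
    (∀ p : ℕ, p.Prime → W.IsGoodPrimeFor p →
      qCoeff f p = (W.apOfModel p : ℂ) ∧ qCoeff f p = (W'.apOfModel p : ℂ)) ∧
    W.conductorLevel = W'.conductorLevel := by
  obtain ⟨f, hf, ha⟩ := exists_newform hΔ hW
  refine ⟨f, hf, fun p hp hg => ⟨ha p hp hg, ?_⟩, conductorLevel_eq_of_eventually hΔ hW hΔ' hW' S h⟩
  rw [ha p hp hg, apOfModel_eq_of_eventually hΔ hΔ' S h hp hg
    (fun h' => hg ((dvd_Δ_iff_of_eventually hΔ hW hΔ' hW' S h hp).mpr h'))]

end semistable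

/-- Newforms of equal levels with the same coefficients at almost all primes have the same
coefficients. -/
theorem qCoeff_eq_of_isNewform {N N' : ℕ} [NeZero N] (hN : N = N')
    {f : CuspForm (Gamma0 N) 2} {f' : CuspForm (Gamma0 N') 2} (hf : f.IsNewform)
    (hf' : f'.IsNewform) (S : Finset ℕ)
    (h : ∀ ℓ : ℕ, ℓ.Prime → ℓ ∉ S → qCoeff f ℓ = qCoeff f' ℓ) (n : ℕ) :
    qCoeff f n = qCoeff f' n := by
  subst hN
  rw [LTF.MultOne.eq_of_isNewform hf hf' S h]

/-- The newforms of two semistable curves with the same traces of Frobenius at almost all primes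
have the same coefficients. -/
theorem qCoeff_eq_of_eventually (hΔ : W.Δ ≠ 0) (hW : W.IsSemistableModel) (hΔ' : W'.Δ ≠ 0)
    (hW' : W'.IsSemistableModel) (S : Finset ℕ)
    (h : ∀ ℓ : ℕ, ℓ.Prime → ℓ ∉ S → W.apOfModel ℓ = W'.apOfModel ℓ)
    {f : CuspForm (Gamma0 W.conductorLevel) 2} (hf : f.IsNewform)
    (ha : ∀ p : ℕ, p.Prime → W.IsGoodPrimeFor p → qCoeff f p = (W.apOfModel p : ℂ))
    {f' : CuspForm (Gamma0 W'.conductorLevel) 2} (hf' : f'.IsNewform)
    (ha' : ∀ p : ℕ, p.Prime → W'.IsGoodPrimeFor p → qCoeff f' p = (W'.apOfModel p : ℂ)) (n : ℕ) :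
    qCoeff f n = qCoeff f' n := by
  refine qCoeff_eq_of_isNewform (conductorLevel_eq_of_eventually hΔ hW hΔ' hW' S h) hf hf'
    W.Δ.natAbs.primeFactors (fun ℓ hℓ hℓS => ?_) n
  have hg : W.IsGoodPrimeFor ℓ := fun h' => hℓS
    (Nat.mem_primeFactors.mpr ⟨hℓ, Int.natCast_dvd.mp h', Int.natAbs_ne_zero.mpr hΔ⟩)
  have hg' : W'.IsGoodPrimeFor ℓ := fun h' =>
    hg ((dvd_Δ_iff_of_eventually hΔ hW hΔ' hW' S h hℓ).mpr h')
  rw [ha ℓ hℓ hg, ha' ℓ hℓ hg', apOfModel_eq_of_eventually hΔ hΔ' S h hℓ hg hg']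

end Fermat.Agent.Cor.HW

end
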