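import Fermat.Agent.Corollaries.HW.Finite
import Fermat.Agent.P1Count.Index

/-!
# An effective criterion for the equality of the `L`-functions of semistable elliptic curves

Let `W`, `W'` be semistable elliptic curves over `ℚ` with the same conductor `N`. If
`a_ℓ(W) = a_ℓ(W')` for all primes `ℓ ≤ σ(N) / 6`, `σ(N)` the sum of the divisors of `N`, then the
`L`-functions of `W` and `W'` are the same (`hasseWeil_of_le`): the newforms of `W` and `W'` are equal
by Sturm's bound.
-/

set_option autoImplicit false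

noncomputable section

open WeierstrassCurve CongruenceSubgroup ModularFormClass FermatAgent.HeckeEigen ModularCurve

namespace Fermat.Agent.Cor.HW

section Forms

variable {N : ℕ} [NeZero N]

omit [NeZero N] in
theorem sturmN_two : sturmN N 2 = (Gamma0 N).index / 6 := by
  have h : (2 * ((Gamma0 N).index : ℤ)).toNat = 2 * (Gamma0 N).index := by omega
  rw [sturmN, h]
  omega

/-- **A normalized eigenform of level `N` is determined by its coefficients at the primes up to
`[SL₂(ℤ) : Γ₀(N)] / 6`.** -/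
theorem eq_of_qCoeff_prime_le {f g : CuspForm (Gamma0 N) 2} (hf : f.IsNormalizedEigenform)
    (hg : g.IsNormalizedEigenform)
    (h : ∀ p : ℕ, p.Prime → p ≤ (Gamma0 N).index / 6 → qCoeff f p = qCoeff g p) : f = g := by
  rw [← sub_eq_zero]
  refine eq_zero_of_forall_le N _ fun n hn => ?_
  rw [sturmN_two] at hn
  rw [qCoeff_sub, sub_eq_zero]
  induction n using Nat.strongRecOn with
  | ind n ih =>
    rcases Nat.lt_or_ge n 2 with hn2 | hn2
    · interval_cases n
      · rw [qCoeff_at_zero, qCoeff_at_zero]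
      · rw [hf.qCoeff_one, hg.qCoeff_one]
    · obtain ⟨p, hp, m, rfl⟩ := Nat.exists_prime_and_dvd (show n ≠ 1 by omega)
      have hmpos : 0 < m := Nat.pos_of_ne_zero (by rintro rfl; omega)
      have hlt : m < p * m := by nlinarith [hp.two_le]
      have hlt2 : m / p < p * m := lt_of_le_of_lt (Nat.div_le_self _ _) hlt
      have hple : p ≤ p * m := Nat.le_mul_of_pos_right p hmpos
      have e1 := coeff_rec_of_eigen (v := f) (χ := fun p => qCoeff f p)
        (heckeOp_eq_of_isNormalizedEigenform hf) ⟨p, hp⟩ m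
      have e2 := coeff_rec_of_eigen (v := g) (χ := fun p => qCoeff g p)
        (heckeOp_eq_of_isNormalizedEigenform hg) ⟨p, hp⟩ m
      simp only at e1 e2
      rw [e1, e2, h p hp (hple.trans hn), ih m hlt (hlt.le.trans hn),
        ih (m / p) hlt2 (hlt2.le.trans hn)]

/-- The index of `Γ₀(N)`, `N` squarefree, is the sum of the divisors of `N`. -/
theorem index_eq_sum_divisors (hN : Squarefree N) : (Gamma0 N).index = ∑ d ∈ N.divisors, d := by
  rw [P1Count.index_Gamma0, dedekindPsi, Finset.filter_true_of_mem fun d hd =>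
    hN.squarefree_of_dvd (Nat.dvd_of_mem_divisors hd)]
  exact Nat.sum_div_divisors N fun d => d

end Forms

variable {W W' : WeierstrassCurve ℤ}

/-- The newform of `W`, the conductor being given as a number. -/
theorem exists_newform_of_eq (hΔ : W.Δ ≠ 0) (hW : W.IsSemistableModel) {N : ℕ} [NeZero N]
    (hN : W.conductorLevel = N) : ∃ f : CuspForm (Gamma0 N) 2, f.IsNewform ∧
      (∀ p : ℕ, p.Prime → qCoeff f p = (ap W p : ℂ)) ∧
        IsHasseWeil W (ModularForm.L (k := 2) two_pos f) := by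
  subst hN
  obtain ⟨f, ⟨hf, ha⟩, -⟩ := existsUnique_newform_ap hΔ hW
  exact ⟨f, hf, ha, isHasseWeil hΔ hf ha⟩

/-- **Effective criterion for the equality of `L`-functions**: `W` and `W'` semistable of the same
conductor `N`, `a_ℓ(W) = a_ℓ(W')` for all primes `ℓ ≤ σ(N) / 6`. -/
theorem hasseWeil_of_le (hΔ : W.Δ ≠ 0) (hW : W.IsSemistableModel) (hΔ' : W'.Δ ≠ 0)
    (hW' : W'.IsSemistableModel) {N : ℕ} (hN : W.conductorLevel = N) (hN' : W'.conductorLevel = N)
    (h : ∀ ℓ : ℕ, ℓ.Prime → ℓ ≤ (∑ d ∈ N.divisors, d) / 6 → ap W ℓ = ap W' ℓ) :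
    ∃ L : ℂ → ℂ, IsHasseWeil W L ∧ IsHasseWeil W' L := by
  have hsq : Squarefree N := hN ▸ W.squarefree_conductorLevel
  have : NeZero N := ⟨hN ▸ W.conductorLevel_pos.ne'⟩
  obtain ⟨f, hf, ha, hL⟩ := exists_newform_of_eq hΔ hW hN
  obtain ⟨g, hg, hb, hL'⟩ := exists_newform_of_eq hΔ' hW' hN'
  have hfg : f = g := eq_of_qCoeff_prime_le hf.1 hg.1 fun p hp hple => by
    rw [index_eq_sum_divisors hsq] at hple
    rw [ha p hp, hb p hp, h p hp hple]
  exact ⟨_, hL, hfg ▸ hL'⟩

/-- **Effective criterion for isomorphic Tate modules**: `W` and `W'` semistable of the same conductor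
`N`, `a_ℓ(W) = a_ℓ(W')` for all primes `ℓ ≤ σ(N) / 6`, and `p = 11` or `p ≥ 17`. -/
theorem tateIso_of_le (hΔ : W.Δ ≠ 0) (hW : W.IsSemistableModel) (hΔ' : W'.Δ ≠ 0)
    (hW' : W'.IsSemistableModel) {N : ℕ} (hN : W.conductorLevel = N) (hN' : W'.conductorLevel = N)
    (h : ∀ ℓ : ℕ, ℓ.Prime → ℓ ≤ (∑ d ∈ N.divisors, d) / 6 → ap W ℓ = ap W' ℓ) {p : ℕ}
    [hp : Fact p.Prime] (hp11 : p = 11 ∨ 17 ≤ p) : TateIso W W' p :=
  (tateIso_iff_hasseWeil hΔ hW hΔ' hW' (by omega)
    (Cor.modRepIsIrreducible hp.out hp11 hΔ hW)).mpr (hasseWeil_of_le hΔ hW hΔ' hW' hN hN' h)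

end Fermat.Agent.Cor.HW

end
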