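import Fermat.Agent.Corollaries.HW.TwistForm
import Fermat.Agent.Corollaries.HW.StripFinal

/-!
# The twists `L(E, χ, s)` of the `L`-function of a semistable elliptic curve over `ℚ`

`exists_entire_twist_curve`: for every Dirichlet character `χ` the Euler product
`∏ (1 - χ(p) a_p p^(-s) + χ(p)² p^(1-2s))⁻¹` (over all primes, without the last term at the bad
ones) converges for `re s > 3/2` and continues to an entire function.
-/

set_option autoImplicit false

noncomputable section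

open UpperHalfPlane hiding I
open CongruenceSubgroup ModularFormClass Complex

namespace Fermat.Agent.Cor.HW.Twist

variable {N m : ℕ}

/-- The polynomial factor at `p` of the twisted `L`-function of an eigenform of weight two. -/
def twPoly (f : CuspForm (Gamma0 N) 2) (χ : DirichletCharacter ℂ m) (p : ℕ) (s : ℂ) : ℂ :=
  1 - χ p * qCoeff f p * (p : ℂ) ^ (-s) + if p ∣ N then 0 else χ p ^ 2 * (p : ℂ) ^ (1 - 2 * s)

/-- The local series at `p` times the polynomial factor is one. -/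
theorem tsum_mul_twPoly {f : CuspForm (Gamma0 N) 2} (hf : f.IsNormalizedEigenform)
    (χ : DirichletCharacter ℂ m) {s : ℂ}
    (hsum : Summable fun n : ℕ => χ n * qCoeff f n / (n : ℂ) ^ s) (p : Nat.Primes) :
    (∑' e : ℕ, χ ((((p : ℕ) ^ e : ℕ)) : ZMod m) * qCoeff f ((p : ℕ) ^ e) /
      (((p : ℕ) ^ e : ℕ) : ℂ) ^ s) * twPoly f χ p s = 1 := by
  set F : ℕ → ℂ := fun n => χ n * qCoeff f n / (n : ℂ) ^ s with hF
  have hF1 : F 1 = 1 := by simp [hF, hf.qCoeff_one]
  have hp0 : ((p : ℕ) : ℂ) ≠ 0 := by exact_mod_cast p.2.ne_zero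
  have hpow : ∀ e : ℕ, (((p : ℕ) ^ e : ℕ) : ℂ) ^ s = ((p : ℂ) ^ s) ^ e := by
    intro e
    rw [Nat.cast_pow, ← natCast_cpow_natCast_mul, cpow_nat_mul]
  have hχ : ∀ e : ℕ, χ ((((p : ℕ) ^ e : ℕ)) : ZMod m) = χ ((p : ℕ) : ZMod m) ^ e := by
    intro e
    rw [Nat.cast_pow, map_pow]
  have hsp : Summable fun e : ℕ => F ((p : ℕ) ^ e) :=
    (hsum.comp_injective (Nat.pow_right_injective p.2.two_le))
  have hps : (p : ℂ) ^ s ≠ 0 := by simp [cpow_eq_zero_iff, hp0]
  rw [twPoly]
  by_cases hpN : (p : ℕ) ∣ N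
  · rw [if_pos hpN]
    refine tsum_mul_of_rec (u := fun e : ℕ => F ((p : ℕ) ^ e))
      (A := χ p * qCoeff f p * (p : ℂ) ^ (-s)) (B := 0) ?_ ?_ ?_ hsp
    · simpa using hF1
    · simp [hF, cpow_neg, div_eq_mul_inv]
    · intro e
      simp only [hF, hpow, hχ]
      rw [hf.qCoeff_prime_pow_of_dvd p e p.2 hpN, cpow_neg]
      field_simp
      ring
  · rw [if_neg hpN]
    refine tsum_mul_of_rec (u := fun e : ℕ => F ((p : ℕ) ^ e))
      (A := χ p * qCoeff f p * (p : ℂ) ^ (-s))
      (B := χ p ^ 2 * (p : ℂ) ^ (1 - 2 * s)) ?_ ?_ ?_ hsp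
    · simpa using hF1
    · simp [hF, cpow_neg, div_eq_mul_inv]
    · intro e
      simp only [hF, hpow, hχ]
      rw [hf.qCoeff_prime_pow_of_not_dvd p e p.2 hpN, cpow_neg, cpow_sub _ _ hp0, cpow_one,
        two_mul s, cpow_add _ _ hp0]
      field_simp
      ring

/-- The twisted Euler product. -/
theorem hasProd_twist {f : CuspForm (Gamma0 N) 2} (hf : f.IsNormalizedEigenform)
    (χ : DirichletCharacter ℂ m) {s : ℂ}
    (hsum : Summable fun n : ℕ => χ n * qCoeff f n / (n : ℂ) ^ s) :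
    HasProd (fun p : Nat.Primes => (twPoly f χ p s)⁻¹)
      (∑' n : ℕ, χ n * qCoeff f n / (n : ℂ) ^ s) := by
  set F : ℕ → ℂ := fun n => χ n * qCoeff f n / (n : ℂ) ^ s with hF
  have hF0 : F 0 = 0 := by simp [hF, FermatAgent.HeckeEigen.qCoeff_at_zero]
  have hF1 : F 1 = 1 := by simp [hF, hf.qCoeff_one]
  have hmul : ∀ {m n : ℕ}, m.Coprime n → F (m * n) = F m * F n := by
    intro m n hmn
    simp only [hF]
    rw [hf.qCoeff_mul_of_coprime m n hmn, Nat.cast_mul, map_mul, Nat.cast_mul,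
      natCast_mul_natCast_cpow]
    ring
  have h := EulerProduct.eulerProduct_hasProd hF1 hmul hsum.norm hF0
  convert h using 1
  funext p
  exact (eq_inv_of_mul_eq_one_left (tsum_mul_twPoly hf χ hsum p)).symm

theorem norm_chi_le (χ : DirichletCharacter ℂ m) (n : ℕ) : ‖χ n‖ ≤ 1 :=
  χ.norm_le_one _

theorem summable_twist {f : CuspForm (Gamma0 N) 2} (hf : f.IsNormalizedEigenform)
    (hH : IsHasse f) (χ : DirichletCharacter ℂ m) {s : ℂ} (hs : 3 / 2 < s.re) :
    Summable fun n : ℕ => χ n * qCoeff f n / (n : ℂ) ^ s := by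
  refine Summable.of_norm_bounded (summable_of_hasse hf hH hs).norm fun n => ?_
  rw [mul_div_assoc, norm_mul]
  exact mul_le_of_le_one_left (norm_nonneg _) (norm_chi_le χ n)

/-- **The twisted `L`-function of an eigenform satisfying the Hasse bound.** -/
theorem exists_entire_of_hasse [NeZero N] [NeZero m] {f : CuspForm (Gamma0 N) 2}
    (hf : f.IsNormalizedEigenform) (hH : IsHasse f) (χ : DirichletCharacter ℂ m) :
    ∃ L : ℂ → ℂ, Differentiable ℂ L ∧ ∀ s : ℂ, 3 / 2 < s.re →
      HasSum (fun n : ℕ => χ n * qCoeff f n / (n : ℂ) ^ s) (L s) ∧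
      HasProd (fun p : Nat.Primes => (twPoly f χ p s)⁻¹) (L s) := by
  obtain ⟨L, hL, hLs⟩ := exists_entire_twist (Γ := Gamma0 N) (k := 2)
    (Gamma0_mem.mpr (by simp [ModularGroup.T])) (by norm_num) f (m := m) (fun x => χ x)
  have hterm : ∀ (s : ℂ) (n : ℕ), LSeries.term (fun n => χ n * qCoeff f n) s n =
      χ n * qCoeff f n / (n : ℂ) ^ s := by
    intro s n
    rcases eq_or_ne n 0 with rfl | hn
    · rw [LSeries.term_zero, FermatAgent.HeckeEigen.qCoeff_at_zero, mul_zero, zero_div]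
    · rw [LSeries.term_of_ne_zero hn]
  have hsummable : ∀ s : ℂ, 3 / 2 < s.re → LSeriesSummable (fun n => χ n * qCoeff f n) s := by
    intro s hs
    exact (summable_twist hf hH χ hs).congr fun n => (hterm s n).symm
  have habs : LSeries.abscissaOfAbsConv (fun n => χ n * qCoeff f n) ≤ ((3 / 2 : ℝ) : EReal) := by
    refine LSeries.abscissaOfAbsConv_le_of_forall_lt_LSeriesSummable fun y hy => ?_
    exact hsummable _ (by simpa using hy)
  set U : Set ℂ := {s : ℂ | 3 / 2 < s.re} with hU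
  have hsub : U ⊆ {s : ℂ | LSeries.abscissaOfAbsConv (fun n => χ n * qCoeff f n) < s.re} := by
    intro z hz
    exact lt_of_le_of_lt habs (EReal.coe_lt_coe_iff.mpr hz)
  have h1 : AnalyticOnNhd ℂ (LSeries (fun n => χ n * qCoeff f n)) U :=
    (LSeries_analyticOnNhd _).mono hsub
  have h2 : AnalyticOnNhd ℂ L U := fun z _ => hL.analyticAt z
  have hconn : IsPreconnected U := (convex_halfSpace_re_gt (3 / 2)).isPreconnected
  have h3 : (3 : ℂ) ∈ U := by
    rw [hU, Set.mem_ofPred_eq]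
    norm_num
  have hev : LSeries (fun n => χ n * qCoeff f n) =ᶠ[nhds 3] L := by
    have hopen : {s : ℂ | 2 < s.re} ∈ nhds (3 : ℂ) :=
      (isOpen_lt continuous_const Complex.continuous_re).mem_nhds (by norm_num)
    filter_upwards [hopen] with z hz
    rw [LSeries, ← (hLs z (by norm_num; exact hz)).tsum_eq]
    exact tsum_congr fun n => hterm z n
  have heq := h1.eqOn_of_preconnected_of_eventuallyEq h2 hconn h3 hev
  refine ⟨L, hL, fun s hs => ?_⟩
  have hS := summable_twist hf hH χ hs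
  have h4 : ∑' n : ℕ, χ n * qCoeff f n / (n : ℂ) ^ s = L s := by
    rw [← heq hs, LSeries]
    exact tsum_congr fun n => (hterm s n).symm
  refine ⟨h4 ▸ hS.hasSum, ?_⟩
  have h5 := hasProd_twist hf χ hS
  rwa [h4] at h5

theorem twPoly_ne_zero {f : CuspForm (Gamma0 N) 2} (hf : f.IsNormalizedEigenform)
    (hH : IsHasse f) (χ : DirichletCharacter ℂ m) {s : ℂ} (hs : 3 / 2 < s.re) (p : Nat.Primes) :
    twPoly f χ p s ≠ 0 := by
  intro h
  have h1 := tsum_mul_twPoly hf χ (summable_twist hf hH χ hs) p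
  rw [h, mul_zero] at h1
  exact zero_ne_one h1

/-- The Euler product of the inverses converges absolutely for `re s > 3/2`. -/
theorem multipliable_twPoly {f : CuspForm (Gamma0 N) 2} (hH : IsHasse f)
    (χ : DirichletCharacter ℂ m) {s : ℂ} (hs : 3 / 2 < s.re) :
    Multipliable fun p : Nat.Primes => twPoly f χ p s := by
  have h1 : Summable fun p : Nat.Primes => 2 * ((p : ℕ) : ℝ) ^ (-(s.re - 1 / 2)) :=
    (Nat.Primes.summable_rpow.mpr (by linarith)).mul_left 2
  have h2 : Summable fun p : Nat.Primes => ((p : ℕ) : ℝ) ^ (-(2 * s.re - 1)) :=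
    Nat.Primes.summable_rpow.mpr (by linarith)
  have h3 : Summable fun p : Nat.Primes => ‖twPoly f χ p s - 1‖ := by
    refine Summable.of_nonneg_of_le (fun _ => norm_nonneg _) (fun p => ?_) (h1.add h2)
    obtain ⟨α, β, hα, hβ, hsum, -⟩ := hH p p.2
    have hp0 : (0 : ℝ) < ((p : ℕ) : ℝ) := by exact_mod_cast p.2.pos
    have hχ := norm_chi_le χ (p : ℕ)
    have ha : ‖χ p * qCoeff f p‖ ≤ 2 * √(p : ℕ) := by
      rw [norm_mul, ← hsum]
      refine (mul_le_of_le_one_left (norm_nonneg _) hχ).trans ((norm_add_le _ _).trans ?_)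
      linarith
    have e1 : twPoly f χ p s - 1 = -(χ p * qCoeff f p * (p : ℂ) ^ (-s)) +
        (if (p : ℕ) ∣ N then 0 else χ p ^ 2 * (p : ℂ) ^ (1 - 2 * s)) := by
      rw [twPoly]
      ring
    rw [e1]
    refine (norm_add_le _ _).trans (add_le_add ?_ ?_)
    · rw [norm_neg, norm_mul, norm_natCast_cpow_of_pos p.2.pos, neg_re]
      have e2 : ((p : ℕ) : ℝ) ^ (-(s.re - 1 / 2)) = √(p : ℕ) * ((p : ℕ) : ℝ) ^ (-s.re) := by
        rw [Real.sqrt_eq_rpow, ← Real.rpow_add hp0]
        congr 1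
        ring
      rw [e2, ← mul_assoc]
      exact mul_le_mul_of_nonneg_right ha (Real.rpow_nonneg hp0.le _)
    · split_ifs
      · rw [norm_zero]
        exact Real.rpow_nonneg hp0.le _
      · rw [norm_mul, norm_pow, norm_natCast_cpow_of_pos p.2.pos]
        refine (mul_le_of_le_one_left (Real.rpow_nonneg hp0.le _)
          (pow_le_one₀ (norm_nonneg _) hχ)).trans (le_of_eq ?_)
        congr 1
        simp [sub_re, mul_re]
  have h4 := multipliable_one_add_of_summable h3
  refine h4.congr fun p => ?_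
  ring

/-! ### Elliptic curves -/

/-- The polynomial factor at `p` of the `L`-function of `W` twisted by `χ`. -/
def eulerPolyTw (W : WeierstrassCurve ℤ) (χ : DirichletCharacter ℂ m) (p : ℕ) (s : ℂ) : ℂ :=
  1 - χ p * ap W p * (p : ℂ) ^ (-s) +
    if (p : ℤ) ∣ W.Δ then 0 else χ p ^ 2 * (p : ℂ) ^ (1 - 2 * s)

/-- `L` is the `L`-function of `W` twisted by the Dirichlet character `χ`, continued to an entire
function: for `re s > 3/2` it is the product of the twisted Euler factors over all primes. -/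
def IsTwist (W : WeierstrassCurve ℤ) (χ : DirichletCharacter ℂ m) (L : ℂ → ℂ) : Prop :=
  Differentiable ℂ L ∧ ∀ s : ℂ, 3 / 2 < s.re →
    HasProd (fun p : Nat.Primes => (eulerPolyTw W χ p s)⁻¹) (L s)

theorem IsTwist.unique {W : WeierstrassCurve ℤ} {χ : DirichletCharacter ℂ m} {L₁ L₂ : ℂ → ℂ}
    (h₁ : IsTwist W χ L₁) (h₂ : IsTwist W χ L₂) : L₁ = L₂ := by
  have a₁ : AnalyticOnNhd ℂ L₁ Set.univ := fun z _ => h₁.1.analyticAt z
  have a₂ : AnalyticOnNhd ℂ L₂ Set.univ := fun z _ => h₂.1.analyticAt z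
  refine a₁.eq_of_eventuallyEq a₂ (z₀ := 3) ?_
  have hopen : {s : ℂ | 3 / 2 < s.re} ∈ nhds (3 : ℂ) :=
    (isOpen_lt continuous_const Complex.continuous_re).mem_nhds (by norm_num)
  filter_upwards [hopen] with z hz
  exact (h₁.2 z hz).unique (h₂.2 z hz)

/-- **The twisted `L`-functions of a semistable elliptic curve over `ℚ` are entire**: for every
Dirichlet character `χ` (any modulus, primitive or not) the Euler product of `L(E, χ, s)` over all
primes converges for `re s > 3/2` and continues to an entire function, which has no zeros with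
`re s > 3/2`. -/
theorem exists_isTwist {W : WeierstrassCurve ℤ} (hΔ : W.Δ ≠ 0) (hW : W.IsSemistableModel)
    [NeZero m] (χ : DirichletCharacter ℂ m) :
    ∃ L : ℂ → ℂ, IsTwist W χ L ∧ ∀ s : ℂ, 3 / 2 < s.re → L s ≠ 0 := by
  obtain ⟨f, ⟨hf, ha⟩, -⟩ := existsUnique_newform_ap hΔ hW
  have hH := isHasse hΔ hf ha
  obtain ⟨L, hL, hLs⟩ := exists_entire_of_hasse hf.1 hH χ
  have hpoly : ∀ (p : Nat.Primes) (s : ℂ), twPoly f χ p s = eulerPolyTw W χ p s := by
    intro p s
    rw [twPoly, eulerPolyTw, ha p p.2]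
    congr 1
    exact if_congr (W.prime_dvd_conductorLevel_iff hΔ p.2) rfl rfl
  refine ⟨L, ⟨hL, fun s hs => ?_⟩, fun s hs h0 => ?_⟩
  · simpa only [hpoly] using (hLs s hs).2
  · obtain ⟨M, hM⟩ := multipliable_twPoly hH χ hs
    have h := (hLs s hs).2.mul hM
    have h1 : (fun p : Nat.Primes => (twPoly f χ p s)⁻¹ * twPoly f χ p s) = fun _ => 1 :=
      funext fun p => inv_mul_cancel₀ (twPoly_ne_zero hf.1 hH χ hs p)
    rw [h1, h0, zero_mul] at h
    exact zero_ne_one (h.unique hasProd_one)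

end Fermat.Agent.Cor.HW.Twist
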