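import Fermat.Agent.Corollaries.HW.Twist

/-!
# The functional equation of the twists `L(E, χ, s)`

Let `E` be a semistable elliptic curve over `ℚ` of conductor `N` and `χ` a primitive Dirichlet
character modulo `m`, `m` prime to `N`. The function
`Λ(E, χ, s) = (N m²)^(s/2) (2π)^(-s) Γ(s) L(E, χ, s)` is entire, and
`Λ(E, χ, 2 - s) = w(E) χ(N) g(χ)² / m * Λ(E, χ⁻¹, s)`, `g(χ)` the Gauss sum.
-/

set_option autoImplicit false

noncomputable section

open UpperHalfPlane hiding I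
open CongruenceSubgroup ModularFormClass Complex ZMod
open scoped MatrixGroups ModularForm Real

namespace Fermat.Agent.Cor.HW.Twist

section gauss

variable {m : ℕ} [NeZero m] {χ : DirichletCharacter ℂ m}

omit [NeZero m] in
theorem isPrimitive_inv (hχ : χ.IsPrimitive) : χ⁻¹.IsPrimitive := by
  rw [DirichletCharacter.isPrimitive_def, DirichletCharacter.conductor_inv]
  exact hχ

/-- `g(χ) g(χ⁻¹) = χ(-1) m` for primitive `χ`. -/
theorem gauss_mul_gauss (hχ : χ.IsPrimitive) :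
    gaussSum χ stdAddChar * gaussSum χ⁻¹ stdAddChar = χ (-1) * m := by
  have h1 := congrFun (dft_dft (χ : ZMod m → ℂ)) 1
  have h2 : 𝓕 (χ : ZMod m → ℂ) = fun k => χ⁻¹ (-k) * gaussSum χ stdAddChar :=
    funext fun k => hχ.fourierTransform_eq_inv_mul_gaussSum k
  have h3 : 𝓕 (fun k : ZMod m => χ⁻¹ (-k)) = fun k => 𝓕 (fun k : ZMod m => χ⁻¹ k) (-k) :=
    dft_comp_neg (fun k : ZMod m => χ⁻¹ k)
  rw [h2, dft_mul_const, h3] at h1
  simp only at h1
  rw [show (fun k : ZMod m => χ⁻¹ k) = ⇑(χ⁻¹) from rfl,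
    (isPrimitive_inv hχ).fourierTransform_eq_inv_mul_gaussSum, inv_inv, neg_neg, map_one,
    one_mul, smul_eq_mul] at h1
  rw [mul_comm, h1, mul_comm]

theorem gauss_ne_zero (hχ : χ.IsPrimitive) : gaussSum χ stdAddChar ≠ 0 := by
  intro h
  have h1 := gauss_mul_gauss hχ
  rw [h, zero_mul] at h1
  have h2 : χ (-1) ≠ 0 := ((isUnit_one.neg).map χ).ne_zero
  exact mul_ne_zero h2 (Nat.cast_ne_zero.mpr (NeZero.ne m)) h1.symm

end gauss

/-! ### The Fricke involution on the additive twists -/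

section slash

variable {N m : ℕ} [NeZero N] [NeZero m]

/-- the scalar matrix `m` -/
def scal (m : ℕ) [NeZero m] : GL (Fin 2) ℝ :=
  Matrix.GeneralLinearGroup.mkOfDetNeZero !![(m : ℝ), 0; 0, (m : ℝ)] (by
    have : (m : ℝ) ≠ 0 := Nat.cast_ne_zero.mpr (NeZero.ne m)
    rw [Matrix.det_fin_two_of]
    simpa using this)

theorem slash_scal (f : ℍ → ℂ) : f ∣[(2 : ℤ)] (scal m) = f := by
  have hm0 : (0 : ℝ) < m := by exact_mod_cast Nat.pos_of_ne_zero (NeZero.ne m)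
  have hm : (m : ℂ) ≠ 0 := Nat.cast_ne_zero.mpr (NeZero.ne m)
  have hval : ((scal m : GL (Fin 2) ℝ) : Matrix (Fin 2) (Fin 2) ℝ) = !![(m : ℝ), 0; 0, (m : ℝ)] :=
    rfl
  have hdet : ((scal m).det : ℝ) = m * m := by
    rw [Matrix.GeneralLinearGroup.val_det_apply, hval, Matrix.det_fin_two_of]
    ring
  have hpos : 0 < ((scal m).det : ℝ) := by rw [hdet]; positivity
  funext τ
  have h1 : UpperHalfPlane.denom (scal m) τ = (m : ℂ) := by
    simp [UpperHalfPlane.denom, hval]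
  have h2 : UpperHalfPlane.σ (scal m) = ContinuousAlgEquiv.refl ℝ ℂ := by
    rw [UpperHalfPlane.σ, if_pos hpos]
  have h3 : |((scal m).det : ℝ)| = m * m := by
    rw [abs_of_pos hpos, hdet]
  have h4 : scal m • τ = τ := by
    ext
    rw [UpperHalfPlane.coe_smul_of_det_pos hpos]
    simp only [UpperHalfPlane.num, UpperHalfPlane.denom, hval]
    simp
    field_simp
  rw [ModularForm.slash_apply, h1, h2, h3, h4]
  simp only [ContinuousAlgEquiv.coe_refl', id_eq]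
  push_cast
  rw [zpow_one, zpow_neg, show (2 : ℤ) = ((2 : ℕ) : ℤ) from rfl, zpow_natCast]
  field_simp

omit [NeZero N] in
/-- the matrix identity behind the functional equation. -/
theorem mat_identity {W V : GL (Fin 2) ℝ}
    (hW : (W : Matrix (Fin 2) (Fin 2) ℝ) = !![0, -1; (N : ℝ), 0])
    (hV : (V : Matrix (Fin 2) (Fin 2) ℝ) = !![0, -1; ((N * m ^ 2 : ℕ) : ℝ), 0]) {u v : ℕ} {d : ℤ}
    (hd : (N : ℤ) * u * v + 1 = m * d) :
    ∃ γ ∈ Gamma0 N, tr ((u : ℝ) / m) * V =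
      scal m * W * (Matrix.SpecialLinearGroup.mapGL ℝ γ) * tr ((v : ℝ) / m) := by
  have hm : (m : ℝ) ≠ 0 := Nat.cast_ne_zero.mpr (NeZero.ne m)
  have hd' : (N : ℝ) * u * v + 1 = m * d := by exact_mod_cast hd
  let γ : SL(2, ℤ) := ⟨!![(m : ℤ), -(v : ℤ); -((u : ℤ) * N), d], by
    rw [Matrix.det_fin_two_of]
    linear_combination -hd⟩
  refine ⟨γ, ?_, ?_⟩
  · rw [Gamma0_mem]
    change ((-((u : ℤ) * N) : ℤ) : ZMod N) = 0
    simp
  · have hγ : ((Matrix.SpecialLinearGroup.mapGL ℝ γ : GL (Fin 2) ℝ) :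
        Matrix (Fin 2) (Fin 2) ℝ) = !![(m : ℝ), -(v : ℝ); -((u : ℝ) * N), (d : ℝ)] := by
      ext i j
      fin_cases i <;> fin_cases j
      · change (((m : ℤ)) : ℝ) = m
        push_cast
        rfl
      · change ((-(v : ℤ) : ℤ) : ℝ) = -v
        push_cast
        rfl
      · change ((-((u : ℤ) * N) : ℤ) : ℝ) = -(u * N)
        push_cast
        rfl
      · rfl
    refine Units.ext ?_
    have hval : ((scal m : GL (Fin 2) ℝ) : Matrix (Fin 2) (Fin 2) ℝ) =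
      !![(m : ℝ), 0; 0, (m : ℝ)] := rfl
    rw [Units.val_mul, Units.val_mul, Units.val_mul, Units.val_mul, hW, hV, hval, hγ]
    ext i j
    fin_cases i <;> fin_cases j <;>
      simp [Matrix.mul_apply, Fin.sum_univ_two, tr] <;> field_simp <;>
      first | ring1 | linear_combination hd' | linear_combination -hd'

theorem smul_slash_of_pos (c : ℂ) (f : ℍ → ℂ) {A : GL (Fin 2) ℝ} (hA : 0 < (A.det : ℝ)) :
    (c • f) ∣[(2 : ℤ)] A = c • (f ∣[(2 : ℤ)] A) := by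
  rw [ModularForm.smul_slash, UpperHalfPlane.σ, if_pos hA]
  rfl

theorem tr_det (r : ℝ) : 0 < ((tr r).det : ℝ) := by
  simp [tr, Matrix.GeneralLinearGroup.val_det_apply]

omit [NeZero N] in
/-- The Fricke involution of level `N m²` on `f(z + u/m)`. -/
theorem slash_add {W V : GL (Fin 2) ℝ}
    (hW : (W : Matrix (Fin 2) (Fin 2) ℝ) = !![0, -1; (N : ℝ), 0])
    (hV : (V : Matrix (Fin 2) (Fin 2) ℝ) = !![0, -1; ((N * m ^ 2 : ℕ) : ℝ), 0]) {u v : ℕ}
    (huv : (m : ℤ) ∣ (N : ℤ) * u * v + 1) {f : CuspForm (Gamma0 N) 2} {c : ℂ}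
    (hf : (⇑f : ℍ → ℂ) ∣[(2 : ℤ)] W = c • ⇑f) :
    ((⇑f : ℍ → ℂ) ∣[(2 : ℤ)] tr ((u : ℝ) / m)) ∣[(2 : ℤ)] V =
      c • ((⇑f : ℍ → ℂ) ∣[(2 : ℤ)] tr ((v : ℝ) / m)) := by
  obtain ⟨d, hd⟩ := huv
  obtain ⟨γ, hγ, hmat⟩ := mat_identity hW hV hd
  have h1 : (⇑f : ℍ → ℂ) ∣[(2 : ℤ)] (Matrix.SpecialLinearGroup.mapGL ℝ γ) = ⇑f :=
    SlashInvariantFormClass.slash_action_eq f _ (Subgroup.mem_map_of_mem _ hγ)
  have h2 : 0 < ((Matrix.SpecialLinearGroup.mapGL ℝ γ : GL (Fin 2) ℝ).det : ℝ) := by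
    simp
  rw [← SlashAction.slash_mul, hmat, SlashAction.slash_mul, SlashAction.slash_mul,
    SlashAction.slash_mul, slash_scal, hf, smul_slash_of_pos _ _ h2, h1,
    smul_slash_of_pos _ _ (tr_det _)]

/-- `f(z + u/m)` -/
def addT (f : CuspForm (Gamma0 N) 2) (u : ZMod m) : ℍ → ℂ :=
  (⇑f : ℍ → ℂ) ∣[(2 : ℤ)] tr ((u.val : ℝ) / m)

/-- `∑ χ(u) f(z + u/m)` -/
def GT (f : CuspForm (Gamma0 N) 2) (χ : DirichletCharacter ℂ m) : ℍ → ℂ :=
  ∑ u : (ZMod m)ˣ, χ u • addT f (u : ZMod m)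

/-- the twist `∑ χ(n) a_n q^n` -/
def FT (f : CuspForm (Gamma0 N) 2) (χ : DirichletCharacter ℂ m) : ℍ → ℂ :=
  ∑ u : ZMod m, ((m : ℂ)⁻¹ * 𝓕 (χ : ZMod m → ℂ) u) • addT f u

omit [NeZero m] in
theorem chi_neg_one_sq (χ : DirichletCharacter ℂ m) : χ (-1) * χ (-1) = 1 := by
  rw [← map_mul, neg_mul_neg, one_mul, map_one]

omit [NeZero m] in
theorem inv_chi_neg_one (χ : DirichletCharacter ℂ m) : χ⁻¹ (-1) = χ (-1) := by
  rw [MulChar.inv_apply_eq_inv', inv_eq_of_mul_eq_one_left (chi_neg_one_sq χ)]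

omit [NeZero N] in
theorem FT_eq {χ : DirichletCharacter ℂ m} (hχ : χ.IsPrimitive) (f : CuspForm (Gamma0 N) 2) :
    FT f χ = ((m : ℂ)⁻¹ * gaussSum χ stdAddChar * χ (-1)) • GT f χ⁻¹ := by
  rw [FT, GT, Finset.smul_sum]
  symm
  refine Fintype.sum_of_injective (Units.val : (ZMod m)ˣ → ZMod m) Units.val_injective _ _
    (fun u hu => ?_) (fun u => ?_)
  · have hu' : ¬ IsUnit u := fun ⟨v, hv⟩ => hu ⟨v, hv⟩
    have h1 : χ⁻¹ (-u) = 0 := MulChar.map_nonunit _ (by rwa [IsUnit.neg_iff])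
    rw [hχ.fourierTransform_eq_inv_mul_gaussSum, h1, zero_mul, mul_zero, zero_smul]
  · rw [hχ.fourierTransform_eq_inv_mul_gaussSum, smul_smul]
    congr 1
    have h1 : χ⁻¹ (-(u : ZMod m)) = χ (-1) * χ⁻¹ u := by
      rw [← inv_chi_neg_one, ← map_mul, neg_one_mul]
    rw [h1]
    ring

/-- The Fricke involution on the twists. -/
theorem GT_slash {W V : GL (Fin 2) ℝ}
    (hW : (W : Matrix (Fin 2) (Fin 2) ℝ) = !![0, -1; (N : ℝ), 0])
    (hV : (V : Matrix (Fin 2) (Fin 2) ℝ) = !![0, -1; ((N * m ^ 2 : ℕ) : ℝ), 0])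
    (hNm : N.Coprime m) {f : CuspForm (Gamma0 N) 2} {c : ℂ}
    (hf : (⇑f : ℍ → ℂ) ∣[(2 : ℤ)] W = c • ⇑f) (χ : DirichletCharacter ℂ m) :
    GT f χ ∣[(2 : ℤ)] V = (c * χ (-1) * χ⁻¹ N) • GT f χ⁻¹ := by
  have hM : NeZero (N * m ^ 2) := ⟨mul_ne_zero (NeZero.ne N) (pow_ne_zero _ (NeZero.ne m))⟩
  have hVpos : 0 < (V.det : ℝ) := det_pos_of_val (N := N * m ^ 2) hV
  let n : (ZMod m)ˣ := ZMod.unitOfCoprime N hNm
  have hn : (n : ZMod m) = N := ZMod.coe_unitOfCoprime N hNm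
  let e : (ZMod m)ˣ → (ZMod m)ˣ := fun u => -(n * u)⁻¹
  have hprop : ∀ u : (ZMod m)ˣ, n * u * e u = -1 := by
    intro u
    simp only [e]
    rw [mul_neg, mul_inv_cancel]
  have he : Function.Involutive e := by
    intro u
    have h1 := hprop (e u)
    have h2 := hprop u
    rw [mul_right_comm] at h2
    exact mul_left_cancel (h1.trans h2.symm)
  have key : ∀ u : (ZMod m)ˣ, addT f (u : ZMod m) ∣[(2 : ℤ)] V = c • addT f ((e u : (ZMod m)ˣ) : ZMod m) := by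
    intro u
    refine slash_add hW hV ?_ hf
    rw [← ZMod.intCast_zmod_eq_zero_iff_dvd]
    push_cast
    rw [ZMod.natCast_zmod_val, ZMod.natCast_zmod_val, ← hn]
    have h1 : (n : ZMod m) * u * ((e u : (ZMod m)ˣ) : ZMod m) = -1 := by
      rw [← Units.val_mul, ← Units.val_mul, hprop, Units.val_neg, Units.val_one]
    rw [h1, neg_add_cancel]
  have h2 : ∀ u : (ZMod m)ˣ, χ u = χ (-1) * χ⁻¹ N * χ⁻¹ ((e u : (ZMod m)ˣ) : ZMod m) := by
    intro u
    have h3 : (-1 : ZMod m) * (N : ZMod m) * ((e u : (ZMod m)ˣ) : ZMod m) =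
        (((u⁻¹ : (ZMod m)ˣ)) : ZMod m) := by
      rw [← hn, ← Units.val_one, ← Units.val_neg, ← Units.val_mul, ← Units.val_mul]
      congr 1
      simp only [e]
      rw [neg_one_mul, neg_mul_neg, mul_inv_rev, mul_inv_cancel_comm_assoc]
    rw [← inv_chi_neg_one, ← map_mul, ← map_mul, h3, MulChar.inv_apply, Ring.inverse_unit,
      inv_inv]
  rw [GT, GT, SlashAction.sum_slash, Finset.smul_sum]
  rw [← Equiv.sum_comp he.toPerm (fun u : (ZMod m)ˣ =>
    (c * χ (-1) * χ⁻¹ N) • χ⁻¹ u • addT f (u : ZMod m))]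
  refine Finset.sum_congr rfl fun u _ => ?_
  rw [smul_slash_of_pos _ _ hVpos, key u, h2 u, smul_smul, smul_smul]
  congr 1
  simp only [Function.Involutive.coe_toPerm]
  ring

/-- **The Fricke involution of level `N m²` maps the twist by `χ` to the twist by `χ⁻¹`.** -/
theorem FT_slash {W V : GL (Fin 2) ℝ}
    (hW : (W : Matrix (Fin 2) (Fin 2) ℝ) = !![0, -1; (N : ℝ), 0])
    (hV : (V : Matrix (Fin 2) (Fin 2) ℝ) = !![0, -1; ((N * m ^ 2 : ℕ) : ℝ), 0])
    (hNm : N.Coprime m) {f : CuspForm (Gamma0 N) 2} {c : ℂ}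
    (hf : (⇑f : ℍ → ℂ) ∣[(2 : ℤ)] W = c • ⇑f) {χ : DirichletCharacter ℂ m}
    (hχ : χ.IsPrimitive) :
    FT f χ ∣[(2 : ℤ)] V = (c * χ N * gaussSum χ stdAddChar ^ 2 / m) • FT f χ⁻¹ := by
  have hM : NeZero (N * m ^ 2) := ⟨mul_ne_zero (NeZero.ne N) (pow_ne_zero _ (NeZero.ne m))⟩
  have hVpos : 0 < (V.det : ℝ) := det_pos_of_val (N := N * m ^ 2) hV
  have hm : (m : ℂ) ≠ 0 := Nat.cast_ne_zero.mpr (NeZero.ne m)
  rw [FT_eq hχ, FT_eq (isPrimitive_inv hχ), smul_slash_of_pos _ _ hVpos,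
    GT_slash hW hV hNm hf, inv_inv, smul_smul, smul_smul, inv_chi_neg_one]
  congr 1
  have h1 := gauss_mul_gauss hχ
  have h2 := chi_neg_one_sq χ
  field_simp
  linear_combination (-(c * χ N * gaussSum χ stdAddChar)) * h1 * χ (-1) +
    (c * χ N * gaussSum χ stdAddChar * 0) * h2

end slash

/-! ### Mellin transforms -/

section mellin

variable {M : ℕ} [NeZero M]

theorem apply_inv_pair {V : GL (Fin 2) ℝ}
    (hV : (V : Matrix (Fin 2) (Fin 2) ℝ) = !![0, -1; (M : ℝ), 0]) {F G : ℍ → ℂ}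
    (hF : F ∣[(2 : ℤ)] V = G) {t : ℝ} (ht : 0 < t) :
    F (ofComplex (I * (((M : ℝ) * t)⁻¹ : ℝ))) = -M * ((t : ℂ) ^ (2 : ℂ) * G (ofComplex (I * (t : ℂ)))) := by
  have hM : (M : ℂ) ≠ 0 := Nat.cast_ne_zero.mpr (NeZero.ne M)
  have ht' : (t : ℂ) ≠ 0 := by exact_mod_cast ht.ne'
  have h1 := congrFun hF (ofComplex (I * (t : ℂ)))
  rw [slash_of_val hV, smul_ofComplex_I hV ht, coe_ofComplex_I ht] at h1
  rw [← h1, show (2 : ℤ) - 1 = 1 from rfl, zpow_one, zpow_neg,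
    show (2 : ℤ) = ((2 : ℕ) : ℤ) from rfl, zpow_natCast,
    show (2 : ℂ) = ((2 : ℕ) : ℂ) from rfl, cpow_natCast]
  have h2 : (I : ℂ) ^ 2 = -1 := I_sq
  generalize F (ofComplex (I * (((M : ℝ) * t)⁻¹ : ℝ))) = X
  field_simp
  linear_combination X * h2

theorem mellin_pair {V : GL (Fin 2) ℝ}
    (hV : (V : Matrix (Fin 2) (Fin 2) ℝ) = !![0, -1; (M : ℝ), 0]) {F G : ℍ → ℂ}
    (hF : F ∣[(2 : ℤ)] V = G) (s : ℂ) :
    (M : ℂ) ^ (2 - s) * mellin (fun t : ℝ => F (ofComplex (I * (t : ℂ)))) (2 - s) =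
      -M * mellin (fun t : ℝ => G (ofComplex (I * (t : ℂ)))) s := by
  have hM0 : (0 : ℝ) < M := by exact_mod_cast Nat.pos_of_ne_zero (NeZero.ne M)
  set H : ℝ → ℂ := fun t => F (ofComplex (I * (t : ℂ))) with hH
  have e1 : mellin (fun t : ℝ => (fun u => H u⁻¹) ((M : ℝ) * t)) (s - 2) =
      mellin (fun t : ℝ => (-(M : ℂ)) • ((t : ℂ) ^ (2 : ℂ) • G (ofComplex (I * (t : ℂ)))))
        (s - 2) := by
    refine MeasureTheory.setIntegral_congr_fun measurableSet_Ioi fun t ht => ?_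
    simp only
    rw [hH]
    simp only
    rw [apply_inv_pair hV hF ht, smul_eq_mul, smul_eq_mul, smul_eq_mul]
    rfl
  have e3 := mellin_comp_mul_left (fun u => H u⁻¹) (s - 2) hM0
  rw [mellin_comp_inv] at e3
  rw [mellin_const_smul, mellin_cpow_smul, e3, smul_eq_mul, smul_eq_mul] at e1
  have e4 : -(s - (2 : ℂ)) = 2 - s := by ring
  have e5 : s - (2 : ℂ) + 2 = s := by ring
  rw [e4, e5] at e1
  rw [← e1]
  norm_cast

theorem mellin_sum {ι : Type*} (S : Finset ι) (c : ι → ℂ) (g : ι → ℝ → ℂ) (s : ℂ)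
    (h : ∀ i ∈ S, MellinConvergent (g i) s) :
    HasMellin (fun t => ∑ i ∈ S, c i * g i t) s (∑ i ∈ S, c i * mellin (g i) s) := by
  classical
  induction S using Finset.induction_on with
  | empty =>
    simp only [Finset.sum_empty]
    refine ⟨?_, ?_⟩
    · simp [MellinConvergent]
    · simp [mellin]
  | insert a S ha ih =>
    have h1 := ih fun i hi => h i (Finset.mem_insert_of_mem hi)
    have h2 := hasMellin_const_smul (h a (Finset.mem_insert_self a S)) (c a)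
    simp only [Finset.sum_insert ha]
    have h3 := hasMellin_add h2.1 h1.1
    rw [h1.2, h2.2] at h3
    exact h3

end mellin

/-! ### The twisted `L`-functions as Mellin transforms -/

section twist

variable {N m : ℕ} [NeZero N] [NeZero m]

theorem T_mem_Gamma0 (N : ℕ) : ModularGroup.T ∈ Gamma0 N :=
  Gamma0_mem.mpr (by simp [ModularGroup.T])

omit [NeZero N] [NeZero m] in
theorem addT_eq (f : CuspForm (Gamma0 N) 2) (u : ZMod m) :
    addT f u = ⇑(shift f ((((u.val : ℚ) / m : ℚ)) : ℝ)) := by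
  have h : ((((u.val : ℚ) / m : ℚ)) : ℝ) = (u.val : ℝ) / m := by push_cast; rfl
  rw [addT, ← h]
  rfl

omit [NeZero m] in
/-- The Mellin transform of `f(z + u/m)` on the imaginary axis. -/
theorem mellin_addT (f : CuspForm (Gamma0 N) 2) (u : ZMod m) :
    (∀ s : ℂ, MellinConvergent (fun t : ℝ => addT f u (ofComplex (I * (t : ℂ)))) s) ∧
    Differentiable ℂ (mellin fun t : ℝ => addT f u (ofComplex (I * (t : ℂ)))) ∧
    Differentiable ℂ (fun s => mellin (fun t : ℝ => addT f u (ofComplex (I * (t : ℂ)))) s *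
      (2 / Gammaℂ s)) ∧
    ∀ s : ℂ, 2 < s.re → HasSum (fun n : ℕ => Complex.exp (2 * π * I * (n *
      (((u.val : ℚ) / m : ℚ) : ℂ))) * qCoeff f n / (n : ℂ) ^ s)
      (mellin (fun t : ℝ => addT f u (ofComplex (I * (t : ℂ)))) s * (2 / Gammaℂ s)) := by
  have := isArithmetic_conjT (Gamma0 N : Subgroup (GL (Fin 2) ℝ)) ((u.val : ℚ) / m)
  have h0 := CuspForm.isStrongFEPair (k := 2) two_pos (shift f ((((u.val : ℚ) / m : ℚ)) : ℝ))
  have h1 := CuspForm.Λ_eq_mellin (k := 2) two_pos (shift f ((((u.val : ℚ) / m : ℚ)) : ℝ))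
  have h2 := CuspForm.differentiable_Λ (k := 2) two_pos (shift f ((((u.val : ℚ) / m : ℚ)) : ℝ))
  have h3 := CuspForm.differentiable_L (k := 2) two_pos (shift f ((((u.val : ℚ) / m : ℚ)) : ℝ))
  rw [addT_eq]
  refine ⟨fun s => (h0.hasMellin s).1, h1 ▸ h2, ?_, fun s hs => ?_⟩
  · rw [← h1]
    exact h3
  · have h := CuspForm.hasSum_L (k := 2) two_pos (shift f ((((u.val : ℚ) / m : ℚ)) : ℝ)) (s := s)
      (by norm_num; linarith)
    rw [strictWidthInfty_conjT (T_mem_Gamma0 N)] at h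
    rw [← h1]
    have h4 := coeff_shift (T_mem_Gamma0 N) f ((u.val : ℚ) / m)
    simp only [h4, ofReal_one, one_cpow, one_mul] at h
    exact h

/-- The Mellin transform of the twist of `f` by `χ` on the imaginary axis. -/
def LamT (f : CuspForm (Gamma0 N) 2) (χ : DirichletCharacter ℂ m) (s : ℂ) : ℂ :=
  mellin (fun t : ℝ => FT f χ (ofComplex (I * (t : ℂ)))) s

theorem LamT_eq (f : CuspForm (Gamma0 N) 2) (χ : DirichletCharacter ℂ m) :
    LamT f χ = fun s => ∑ u : ZMod m, ((m : ℂ)⁻¹ * 𝓕 (χ : ZMod m → ℂ) u) *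
      mellin (fun t : ℝ => addT f u (ofComplex (I * (t : ℂ)))) s := by
  funext s
  have h := mellin_sum (Finset.univ : Finset (ZMod m))
    (fun u => (m : ℂ)⁻¹ * 𝓕 (χ : ZMod m → ℂ) u)
    (fun u (t : ℝ) => addT f u (ofComplex (I * (t : ℂ)))) s fun u _ => (mellin_addT f u).1 s
  rw [← h.2, LamT]
  congr 1
  funext t
  rw [FT, Finset.sum_apply]
  rfl

theorem differentiable_LamT (f : CuspForm (Gamma0 N) 2) (χ : DirichletCharacter ℂ m) :
    Differentiable ℂ (LamT f χ) := by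
  rw [LamT_eq]
  exact Differentiable.fun_sum fun u _ => (mellin_addT f u).2.1.const_mul _

/-- The twist by `χ` of the `L`-function of `f`. -/
def LT (f : CuspForm (Gamma0 N) 2) (χ : DirichletCharacter ℂ m) (s : ℂ) : ℂ :=
  LamT f χ s * (2 / Gammaℂ s)

theorem LT_eq (f : CuspForm (Gamma0 N) 2) (χ : DirichletCharacter ℂ m) :
    LT f χ = fun s => ∑ u : ZMod m, ((m : ℂ)⁻¹ * 𝓕 (χ : ZMod m → ℂ) u) *
      (mellin (fun t : ℝ => addT f u (ofComplex (I * (t : ℂ)))) s * (2 / Gammaℂ s)) := by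
  funext s
  rw [LT, LamT_eq, Finset.sum_mul]
  exact Finset.sum_congr rfl fun u _ => by ring

theorem differentiable_LT (f : CuspForm (Gamma0 N) 2) (χ : DirichletCharacter ℂ m) :
    Differentiable ℂ (LT f χ) := by
  rw [LT_eq]
  exact Differentiable.fun_sum fun u _ => (mellin_addT f u).2.2.1.const_mul _

/-- `χ(n)` as a combination of exponentials. -/
theorem chi_eq (χ : DirichletCharacter ℂ m) (n : ℕ) :
    χ n = ∑ u : ZMod m, ((m : ℂ)⁻¹ * 𝓕 (χ : ZMod m → ℂ) u) *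
      Complex.exp (2 * π * I * (n * (((u.val : ℚ) / m : ℚ) : ℂ))) := by
  have h1 : χ n = (m : ℂ)⁻¹ * ∑ u : ZMod m, stdAddChar (u * (n : ZMod m)) *
      𝓕 (χ : ZMod m → ℂ) u := by
    have h2 := invDFT_apply (𝓕 (χ : ZMod m → ℂ)) (n : ZMod m)
    rwa [LinearEquiv.symm_apply_apply, smul_eq_mul] at h2
  rw [h1, Finset.mul_sum]
  refine Finset.sum_congr rfl fun u _ => ?_
  have h4 : u * (n : ZMod m) = (((u.val : ℤ) * (n : ℤ) : ℤ) : ZMod m) := by
    push_cast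
    rw [ZMod.natCast_zmod_val]
  have h3 : stdAddChar (u * (n : ZMod m)) =
      Complex.exp (2 * π * I * (n * (((u.val : ℚ) / m : ℚ) : ℂ))) := by
    rw [h4, stdAddChar_coe]
    congr 1
    push_cast
    ring
  rw [h3]
  ring

theorem hasSum_LT (f : CuspForm (Gamma0 N) 2) (χ : DirichletCharacter ℂ m) {s : ℂ}
    (hs : 2 < s.re) : HasSum (fun n : ℕ => χ n * qCoeff f n / (n : ℂ) ^ s) (LT f χ s) := by
  rw [LT_eq]
  have h := hasSum_sum fun (u : ZMod m) (_ : u ∈ Finset.univ) =>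
    ((mellin_addT f u).2.2.2 s hs).mul_left ((m : ℂ)⁻¹ * 𝓕 (χ : ZMod m → ℂ) u)
  have hfun : (fun n : ℕ => χ n * qCoeff f n / (n : ℂ) ^ s) = fun n : ℕ =>
      ∑ u : ZMod m, (m : ℂ)⁻¹ * 𝓕 (χ : ZMod m → ℂ) u * (Complex.exp (2 * π * I * (n *
        (((u.val : ℚ) / m : ℚ) : ℂ))) * qCoeff f n / (n : ℂ) ^ s) := by
    funext n
    rw [chi_eq, mul_div_assoc, Finset.sum_mul]
    exact Finset.sum_congr rfl fun u _ => by ring
  rw [hfun]
  exact h

/-- `M^{s/2}` times the Mellin transform, `M = N m²`: the functional equation. -/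
theorem LamT_two_sub (hNm : N.Coprime m) {W : GL (Fin 2) ℝ}
    (hW : (W : Matrix (Fin 2) (Fin 2) ℝ) = !![0, -1; (N : ℝ), 0])
    {f : CuspForm (Gamma0 N) 2} {c : ℂ}
    (hf : (⇑f : ℍ → ℂ) ∣[(2 : ℤ)] W = c • ⇑f) {χ : DirichletCharacter ℂ m}
    (hχ : χ.IsPrimitive) (s : ℂ) :
    ((N * m ^ 2 : ℕ) : ℂ) ^ ((2 - s) / 2) * LamT f χ (2 - s) =
      -(c * χ N * gaussSum χ stdAddChar ^ 2 / m) *
        (((N * m ^ 2 : ℕ) : ℂ) ^ (s / 2) * LamT f χ⁻¹ s) := by
  have hM : NeZero (N * m ^ 2) := ⟨mul_ne_zero (NeZero.ne N) (pow_ne_zero _ (NeZero.ne m))⟩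
  have hMR : ((N * m ^ 2 : ℕ) : ℝ) ≠ 0 := Nat.cast_ne_zero.mpr hM.out
  have hMC : ((N * m ^ 2 : ℕ) : ℂ) ≠ 0 := Nat.cast_ne_zero.mpr hM.out
  have hdet : (!![0, -1; ((N * m ^ 2 : ℕ) : ℝ), 0] : Matrix (Fin 2) (Fin 2) ℝ).det ≠ 0 := by
    rw [Matrix.det_fin_two_of]
    simpa using hMR
  set V : GL (Fin 2) ℝ := Matrix.GeneralLinearGroup.mkOfDetNeZero _ hdet with hVdef
  have hV : (V : Matrix (Fin 2) (Fin 2) ℝ) = !![0, -1; ((N * m ^ 2 : ℕ) : ℝ), 0] := rfl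
  have h1 := mellin_pair (M := N * m ^ 2) hV (FT_slash hW hV hNm hf hχ) s
  have h2 : mellin (fun t : ℝ => ((c * χ N * gaussSum χ stdAddChar ^ 2 / m) • FT f χ⁻¹)
      (ofComplex (I * (t : ℂ)))) s =
      (c * χ N * gaussSum χ stdAddChar ^ 2 / m) * LamT f χ⁻¹ s := by
    generalize c * χ N * gaussSum χ stdAddChar ^ 2 / m = w
    rw [LamT, ← smul_eq_mul, ← mellin_const_smul]
    rfl
  rw [h2] at h1
  change _ * LamT f χ (2 - s) = _ at h1
  generalize ((N * m ^ 2 : ℕ) : ℂ) = A at h1 hMC ⊢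
  have e1 : A ^ ((2 - s) / 2) ≠ 0 := by
    rw [Ne, Complex.cpow_eq_zero_iff]
    exact fun h => hMC h.1
  have e2 : A ^ (2 - s) = A ^ ((2 - s) / 2) * A ^ ((2 - s) / 2) := by
    rw [← Complex.cpow_add _ _ hMC]
    congr 1
    ring
  have e3 : A = A ^ ((2 - s) / 2) * A ^ (s / 2) := by
    rw [← Complex.cpow_add _ _ hMC]
    conv_lhs => rw [← Complex.cpow_one A]
    congr 1
    ring
  refine mul_left_cancel₀ e1 ?_
  rw [← mul_assoc, ← e2, h1]
  generalize LamT f χ⁻¹ s = X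
  generalize (c * χ N * gaussSum χ stdAddChar ^ 2 / m) = w
  linear_combination (-w * X) * e3

end twist

/-! ### Elliptic curves -/

section curve

variable {m : ℕ} [NeZero m] {W : WeierstrassCurve ℤ}

/-- The twist of the newform of `W` gives the twisted `L`-function of `W`. -/
theorem isTwist_LT (hΔ : W.Δ ≠ 0)
    {f : CuspForm (Gamma0 W.conductorLevel) 2} (hf : f.IsNewform)
    (ha : ∀ p : ℕ, p.Prime → qCoeff f p = (ap W p : ℂ)) (χ : DirichletCharacter ℂ m) :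
    IsTwist W χ (LT f χ) := by
  have hH := isHasse hΔ hf ha
  obtain ⟨L, hL, hLs⟩ := exists_entire_of_hasse hf.1 hH χ
  have hpoly : ∀ (p : Nat.Primes) (s : ℂ), twPoly f χ p s = eulerPolyTw W χ p s := by
    intro p s
    rw [twPoly, eulerPolyTw, ha p p.2]
    congr 1
    exact if_congr (W.prime_dvd_conductorLevel_iff hΔ p.2) rfl rfl
  have h1 : LT f χ = L := by
    have a₁ : AnalyticOnNhd ℂ (LT f χ) Set.univ := fun z _ => (differentiable_LT f χ).analyticAt z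
    have a₂ : AnalyticOnNhd ℂ L Set.univ := fun z _ => hL.analyticAt z
    refine a₁.eq_of_eventuallyEq a₂ (z₀ := 3) ?_
    have hopen : {s : ℂ | 2 < s.re} ∈ nhds (3 : ℂ) :=
      (isOpen_lt continuous_const Complex.continuous_re).mem_nhds (by norm_num)
    filter_upwards [hopen] with z hz
    have hz' : (2 : ℝ) < z.re := hz
    exact (hasSum_LT f χ hz').unique (hLs z (by linarith)).1
  rw [h1]
  exact ⟨hL, fun s hs => by simpa only [hpoly] using (hLs s hs).2⟩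

/-- **The functional equation of the twisted `L`-functions of a semistable elliptic curve over
`ℚ`**: let `χ` be a primitive Dirichlet character modulo `m`, `m` prime to the conductor `N` of
`W`. Then `Λ(χ, s) = (N m²)^(s/2) (2π)^(-s) Γ(s) L(W, χ, s)` is entire and
`Λ(χ, 2 - s) = w χ(N) g(χ)² / m * Λ(χ⁻¹, s)`, where `w` is the root number of `W` and `g(χ)` the
Gauss sum of `χ`. -/
theorem twist_functional_equation (hΔ : W.Δ ≠ 0) (hW : W.IsSemistableModel)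
    (hm : W.conductorLevel.Coprime m) {χ : DirichletCharacter ℂ m} (hχ : χ.IsPrimitive)
    {L L' : ℂ → ℂ} (hL : IsTwist W χ L) (hL' : IsTwist W χ⁻¹ L') :
    ∃ Λ Λ' : ℂ → ℂ, Differentiable ℂ Λ ∧ Differentiable ℂ Λ' ∧
      (∀ s : ℂ, 0 < s.re → Λ s = ((W.conductorLevel * m ^ 2 : ℕ) : ℂ) ^ (s / 2) *
        ((2 * (π : ℂ)) ^ (-s) * Gamma s * L s)) ∧
      (∀ s : ℂ, 0 < s.re → Λ' s = ((W.conductorLevel * m ^ 2 : ℕ) : ℂ) ^ (s / 2) *
        ((2 * (π : ℂ)) ^ (-s) * Gamma s * L' s)) ∧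
      ∀ s : ℂ, Λ (2 - s) =
        rootNumber W * χ W.conductorLevel * gaussSum χ stdAddChar ^ 2 / m * Λ' s := by
  obtain ⟨f, ⟨hf, ha⟩, -⟩ := existsUnique_newform_ap hΔ hW
  have e1 : L = LT f χ := hL.unique (isTwist_LT hΔ hf ha χ)
  have e2 : L' = LT f χ⁻¹ := hL'.unique (isTwist_LT hΔ hf ha χ⁻¹)
  have hN0 : (W.conductorLevel : ℝ) ≠ 0 := by exact_mod_cast W.conductorLevel_pos.ne'
  have hdet : (!![0, -1; (W.conductorLevel : ℝ), 0] : Matrix (Fin 2) (Fin 2) ℝ).det ≠ 0 := by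
    rw [Matrix.det_fin_two_of]
    simpa using hN0
  set A : GL (Fin 2) ℝ := Matrix.GeneralLinearGroup.mkOfDetNeZero _ hdet with hA
  have hval : (A : Matrix (Fin 2) (Fin 2) ℝ) = !![0, -1; (W.conductorLevel : ℝ), 0] := rfl
  have hM : NeZero (W.conductorLevel * m ^ 2) :=
    ⟨mul_ne_zero W.conductorLevel_pos.ne' (pow_ne_zero _ (NeZero.ne m))⟩
  have hMC : ((W.conductorLevel * m ^ 2 : ℕ) : ℂ) ≠ 0 := Nat.cast_ne_zero.mpr hM.out
  have hdiff : ∀ ψ : DirichletCharacter ℂ m, Differentiable ℂ fun s : ℂ =>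
      ((W.conductorLevel * m ^ 2 : ℕ) : ℂ) ^ (s / 2) * LamT f ψ s := by
    intro ψ
    refine Differentiable.mul (fun s => ?_) (differentiable_LamT f ψ)
    exact (differentiableAt_id.div_const 2).const_cpow (Or.inl hMC)
  have hform : ∀ (ψ : DirichletCharacter ℂ m) (s : ℂ), 0 < s.re →
      ((W.conductorLevel * m ^ 2 : ℕ) : ℂ) ^ (s / 2) * LamT f ψ s =
      ((W.conductorLevel * m ^ 2 : ℕ) : ℂ) ^ (s / 2) *
        ((2 * (π : ℂ)) ^ (-s) * Gamma s * LT f ψ s) := by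
    intro ψ s hs
    have hG : Gamma s ≠ 0 := Gamma_ne_zero_of_re_pos hs
    have hp : (2 * (π : ℂ)) ^ (-s) ≠ 0 := by
      rw [Ne, Complex.cpow_eq_zero_iff]
      exact fun h => (mul_ne_zero two_ne_zero (ofReal_ne_zero.mpr Real.pi_ne_zero)) h.1
    rw [LT, Gammaℂ_def]
    congr 1
    field_simp
  refine ⟨_, _, hdiff χ, hdiff χ⁻¹, ?_, ?_, fun s => ?_⟩
  · rw [e1]
    exact hform χ
  · rw [e2]
    exact hform χ⁻¹
  · rw [LamT_two_sub hm hval (slash_fricke W.squarefree_conductorLevel hf hval) hχ s,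
      rootNumber_cast hΔ ha]
    ring

omit [NeZero m] in
/-- The completed function and `L` have the same order of vanishing at the centre. -/
theorem analyticOrderAt_completed {M : ℕ} (hM : (M : ℂ) ≠ 0) {L Λ : ℂ → ℂ}
    (hL : Differentiable ℂ L) (h : ∀ s : ℂ, 0 < s.re →
      Λ s = (M : ℂ) ^ (s / 2) * ((2 * (π : ℂ)) ^ (-s) * Gamma s * L s)) :
    analyticOrderAt Λ 1 = analyticOrderAt L 1 := by
  have hpi : (2 * (π : ℂ)) ≠ 0 := mul_ne_zero two_ne_zero (ofReal_ne_zero.mpr Real.pi_ne_zero)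
  set u : ℂ → ℂ := fun s => (M : ℂ) ^ (s / 2) * ((2 * (π : ℂ)) ^ (-s) * Gamma s) with hu
  have hopen : IsOpen {s : ℂ | 0 < s.re} := isOpen_lt continuous_const Complex.continuous_re
  have hmem : {s : ℂ | 0 < s.re} ∈ nhds (1 : ℂ) := hopen.mem_nhds (by simp)
  have hud : DifferentiableOn ℂ u {s : ℂ | 0 < s.re} := by
    intro s hs
    refine DifferentiableAt.differentiableWithinAt ?_
    refine ((differentiableAt_id.div_const 2).const_cpow (Or.inl hM)).mul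
      ((differentiableAt_id.neg.const_cpow (Or.inl hpi)).mul (differentiableAt_Gamma s ?_))
    intro n hn
    have h1 : 0 < s.re := hs
    rw [hn, neg_re, natCast_re] at h1
    have h2 : (0 : ℝ) ≤ n := Nat.cast_nonneg n
    linarith
  have hua : AnalyticAt ℂ u 1 := hud.analyticAt hmem
  have hu1 : u 1 ≠ 0 := by
    rw [hu]
    refine mul_ne_zero ?_ (mul_ne_zero ?_ (Gamma_ne_zero_of_re_pos (by simp)))
    · rw [Ne, cpow_eq_zero_iff]
      exact fun h => hM h.1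
    · rw [Ne, cpow_eq_zero_iff]
      exact fun h => hpi h.1
  have hcongr : Λ =ᶠ[nhds 1] u * L := by
    filter_upwards [hmem] with s hs
    rw [h s hs, Pi.mul_apply, hu]
    ring
  rw [analyticOrderAt_congr hcongr, analyticOrderAt_mul hua (hL.analyticAt 1),
    hua.analyticOrderAt_eq_zero.mpr hu1, zero_add]

/-- **Quadratic twists**: for a primitive quadratic character `χ` modulo `m`, `m` prime to the
conductor `N`, the sign of the functional equation of `L(W, χ, s)` is `w χ(-N)`. -/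
theorem quad_functional_equation (hΔ : W.Δ ≠ 0) (hW : W.IsSemistableModel)
    (hm : W.conductorLevel.Coprime m) {χ : DirichletCharacter ℂ m} (hχ : χ.IsPrimitive)
    (hq : MulChar.IsQuadratic χ) {L : ℂ → ℂ} (hL : IsTwist W χ L) :
    ∃ Λ : ℂ → ℂ, Differentiable ℂ Λ ∧
      (∀ s : ℂ, 0 < s.re → Λ s = ((W.conductorLevel * m ^ 2 : ℕ) : ℂ) ^ (s / 2) *
        ((2 * (π : ℂ)) ^ (-s) * Gamma s * L s)) ∧
      ∀ s : ℂ, Λ (2 - s) = rootNumber W * χ (-(W.conductorLevel : ZMod m)) * Λ s := by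
  have hinv : χ⁻¹ = χ := hq.inv
  obtain ⟨Λ, Λ', hΛ, hΛ', h1, h2, h3⟩ := twist_functional_equation hΔ hW hm hχ hL
    (show IsTwist W χ⁻¹ L by rwa [hinv])
  have h4 : Λ = Λ' := by
    have a₁ : AnalyticOnNhd ℂ Λ Set.univ := fun z _ => hΛ.analyticAt z
    have a₂ : AnalyticOnNhd ℂ Λ' Set.univ := fun z _ => hΛ'.analyticAt z
    refine a₁.eq_of_eventuallyEq a₂ (z₀ := 3) ?_
    have hopen : {s : ℂ | 0 < s.re} ∈ nhds (3 : ℂ) :=
      (isOpen_lt continuous_const Complex.continuous_re).mem_nhds (by norm_num)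
    filter_upwards [hopen] with z hz
    rw [h1 z hz, h2 z hz]
  refine ⟨Λ, hΛ, h1, fun s => ?_⟩
  have hm0 : (m : ℂ) ≠ 0 := Nat.cast_ne_zero.mpr (NeZero.ne m)
  have h5 := gauss_mul_gauss hχ
  rw [hinv] at h5
  rw [h3, ← h4, neg_eq_neg_one_mul, map_mul, sq, h5]
  field_simp

/-- **Parity for quadratic twists**: the order of vanishing of `L(W, χ, s)` at `s = 1` is even iff
`w χ(-N) = 1`. -/
theorem quad_parity (hΔ : W.Δ ≠ 0) (hW : W.IsSemistableModel)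
    (hm : W.conductorLevel.Coprime m) {χ : DirichletCharacter ℂ m} (hχ : χ.IsPrimitive)
    (hq : MulChar.IsQuadratic χ) {L : ℂ → ℂ} (hL : IsTwist W χ L) :
    rootNumber W * χ (-(W.conductorLevel : ZMod m)) = (-1 : ℂ) ^ analyticOrderNatAt L 1 := by
  obtain ⟨Λ, hΛ, h1, h2⟩ := quad_functional_equation hΔ hW hm hχ hq hL
  have hMC : ((W.conductorLevel * m ^ 2 : ℕ) : ℂ) ≠ 0 :=
    Nat.cast_ne_zero.mpr (mul_ne_zero W.conductorLevel_pos.ne' (pow_ne_zero _ (NeZero.ne m)))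
  have hord := analyticOrderAt_completed hMC hL.1 h1
  have hL0 : L ≠ 0 := by
    obtain ⟨L₂, hL₂, h3⟩ := exists_isTwist hΔ hW χ
    rw [hL.unique hL₂]
    intro h0
    exact h3 2 (by norm_num) (congrFun h0 2)
  have hne : Λ ≠ 0 := by
    intro h0
    have h3 : analyticOrderAt Λ 1 = ⊤ := by
      rw [h0]
      exact analyticOrderAt_eq_top.mpr (Filter.Eventually.of_forall fun _ => rfl)
    rw [hord] at h3
    exact hL0 ((AnalyticOnNhd.analyticOrderAt_eq_top_iff_eq_zero 1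
      (fun z => hL.1.analyticAt z)).mp h3)
  have h := sign_eq_neg_one_pow hΛ hne h2
  rwa [analyticOrderNatAt, hord, ← analyticOrderNatAt] at h

/-- If `w χ(-N) ≠ 1` then `L(W, χ, 1) = 0`. -/
theorem quad_vanish (hΔ : W.Δ ≠ 0) (hW : W.IsSemistableModel)
    (hm : W.conductorLevel.Coprime m) {χ : DirichletCharacter ℂ m} (hχ : χ.IsPrimitive)
    (hq : MulChar.IsQuadratic χ) {L : ℂ → ℂ} (hL : IsTwist W χ L)
    (hsign : rootNumber W * χ (-(W.conductorLevel : ZMod m)) ≠ 1) : L 1 = 0 := by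
  by_contra h
  have h1 := quad_parity hΔ hW hm hχ hq hL
  have h2 : analyticOrderNatAt L 1 = 0 := by
    rw [analyticOrderNatAt, (hL.1.analyticAt 1).analyticOrderAt_eq_zero.mpr h]
    rfl
  rw [h2, pow_zero] at h1
  exact hsign h1

end curve

end Fermat.Agent.Cor.HW.Twist
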