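import Mathlib.NumberTheory.ModularForms.LFunction
import Mathlib.NumberTheory.ModularForms.CongruenceSubgroups
import Mathlib.Analysis.Fourier.ZMod

/-!
# Twists of the `L`-function of a cusp form by functions on `ℤ / m`

Let `f` be a cusp form of weight `k > 0` for a finite index subgroup `Γ` of `SL(2, ℤ)` containing
`T`, `a_n` its coefficients, and `ψ : ZMod m → ℂ` any function. Then `∑ ψ(n) a_n n^{-s}` extends to
an entire function of `s`: `ψ(n)` is a linear combination of the `exp(2 π i u n / m)`, and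
`f(z + u / m)` is a cusp form for an arithmetic group of the same width.
-/

set_option autoImplicit false

noncomputable section

open UpperHalfPlane hiding I
open ModularForm MatrixGroups Complex ConjAct Pointwise ZMod
open scoped Real

namespace Fermat.Agent.Cor.HW.Twist

open Matrix.GeneralLinearGroup

/-- the translation by `r`. -/
abbrev tr (r : ℝ) : GL (Fin 2) ℝ := upperRightHom r

theorem tr_map (r : ℚ) : (upperRightHom r : GL (Fin 2) ℚ).map (Rat.castHom ℝ) = tr (r : ℝ) := by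
  ext i j
  fin_cases i <;> fin_cases j <;> simp [tr]

theorem tr_inv (r : ℝ) : (tr r)⁻¹ = tr (-r) := (AddChar.map_neg_eq_inv _ r).symm

/-- the conjugate group. -/
abbrev conjT (Γ : Subgroup (GL (Fin 2) ℝ)) (r : ℝ) : Subgroup (GL (Fin 2) ℝ) :=
  toConjAct (tr r)⁻¹ • Γ

theorem isArithmetic_conjT (Γ : Subgroup (GL (Fin 2) ℝ)) [Γ.IsArithmetic] (r : ℚ) :
    (conjT Γ (r : ℝ)).IsArithmetic := by
  have h := Subgroup.IsArithmetic.conj Γ (upperRightHom (-r))
  rw [tr_map] at h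
  rw [conjT, tr_inv]
  convert h using 4
  push_cast
  rfl

theorem strictPeriods_conjT (Γ : Subgroup (GL (Fin 2) ℝ)) (r : ℝ) :
    (conjT Γ r).strictPeriods = Γ.strictPeriods := by
  ext x
  rw [Subgroup.mem_strictPeriods_iff, Subgroup.mem_strictPeriods_iff, conjT, map_inv,
    Subgroup.mem_inv_pointwise_smul_iff, toConjAct_smul]
  have h : tr r * upperRightHom x * (tr r)⁻¹ = upperRightHom x := by
    rw [tr, ← AddChar.map_add_eq_mul, add_comm, AddChar.map_add_eq_mul, mul_inv_cancel_right]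
  rw [h]

theorem strictWidthInfty_conjT {Γ : Subgroup SL(2, ℤ)} (hΓ : ModularGroup.T ∈ Γ) (r : ℝ) :
    (conjT (Γ : Subgroup (GL (Fin 2) ℝ)) r).strictWidthInfty = 1 := by
  have hsp : (conjT (Γ : Subgroup (GL (Fin 2) ℝ)) r).strictPeriods = AddSubgroup.zmultiples 1 := by
    rw [strictPeriods_conjT]
    exact Subgroup.strictPeriods_eq_zmultiples_one_of_T_mem hΓ
  have : DiscreteTopology (conjT (Γ : Subgroup (GL (Fin 2) ℝ)) r).strictPeriods := by
    rw [hsp]
    infer_instance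
  rw [Subgroup.strictPeriods_eq_zmultiples_strictWidthInfty, Eq.comm,
    AddSubgroup.zmultiples_eq_zmultiples_iff
      (not_isOfFinAddOrder_of_isAddTorsionFree one_ne_zero)] at hsp
  have := (conjT (Γ : Subgroup (GL (Fin 2) ℝ)) r).strictWidthInfty_nonneg
  grind

section form

variable {Γ : Subgroup SL(2, ℤ)} {k : ℤ}

/-- `f (z + r)`. -/
def shift (f : CuspForm (Γ : Subgroup (GL (Fin 2) ℝ)) k) (r : ℝ) :
    CuspForm (conjT (Γ : Subgroup (GL (Fin 2) ℝ)) r) k :=
  CuspForm.translate f (tr r)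

theorem shift_apply (f : CuspForm (Γ : Subgroup (GL (Fin 2) ℝ)) k) (r : ℝ) (τ : ℍ) :
    shift f r τ = f (r +ᵥ τ) := by
  change (⇑f ∣[k] (tr r)) τ = _
  have h1 : (tr r) • τ = r +ᵥ τ := by
    ext
    rw [coe_smul_of_det_pos (by simp)]
    simp [num, denom, add_comm]
  rw [ModularForm.slash_def]
  simp only [h1]
  simp [σ, denom]

variable [Γ.FiniteIndex] (hΓ : ModularGroup.T ∈ Γ)

omit [Γ.FiniteIndex] in
include hΓ in
theorem one_mem : (1 : ℝ) ∈ (Γ : Subgroup (GL (Fin 2) ℝ)).strictPeriods := by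
  rw [Subgroup.strictPeriods_eq_zmultiples_one_of_T_mem hΓ]
  exact AddSubgroup.mem_zmultiples 1

include hΓ in
/-- the coefficients of `f (z + r)`. -/
theorem coeff_shift (f : CuspForm (Γ : Subgroup (GL (Fin 2) ℝ)) k) (r : ℚ) (n : ℕ) :
    (qExpansion 1 (shift f (r : ℝ))).coeff n =
      Complex.exp (2 * π * I * (n * r)) * (qExpansion 1 f).coeff n := by
  have := isArithmetic_conjT (Γ : Subgroup (GL (Fin 2) ℝ)) r
  have h1 : (1 : ℝ) ∈ (conjT (Γ : Subgroup (GL (Fin 2) ℝ)) (r : ℝ)).strictPeriods := by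
    rw [strictPeriods_conjT]
    exact one_mem hΓ
  symm
  refine ModularFormClass.qExpansion_coeff_unique (f := shift f (r : ℝ)) one_pos h1
    (c := fun n => Complex.exp (2 * π * I * (n * r)) * (qExpansion 1 f).coeff n) ?_ n
  intro τ
  have h2 := hasSum_qExpansion f one_pos (one_mem hΓ) ((r : ℝ) +ᵥ τ)
  rw [shift_apply]
  convert h2 using 2 with m
  have h3 : Function.Periodic.qParam 1 (((r : ℝ) +ᵥ τ : ℍ) : ℂ) =
      Complex.exp (2 * π * I * r) * Function.Periodic.qParam 1 (τ : ℂ) := by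
    rw [Function.Periodic.qParam, Function.Periodic.qParam, ← Complex.exp_add, coe_vadd]
    congr 1
    push_cast
    ring
  rw [h3, mul_pow, ← Complex.exp_nat_mul, smul_eq_mul]
  have h4 : (m : ℂ) * (2 * π * I * r) = 2 * π * I * (m * r) := by ring
  rw [h4]
  ring

include hΓ in
/-- The `L`-function of `f (z + r)`, without the width. -/
theorem hasSum_L_shift (hk : 0 < k) (f : CuspForm (Γ : Subgroup (GL (Fin 2) ℝ)) k) (r : ℚ) :
    ∃ L : ℂ → ℂ, Differentiable ℂ L ∧ ∀ s : ℂ, (k : ℝ) / 2 + 1 < s.re →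
      HasSum (fun n : ℕ => Complex.exp (2 * π * I * (n * r)) * (qExpansion 1 f).coeff n /
        (n : ℂ) ^ s) (L s) := by
  have := isArithmetic_conjT (Γ : Subgroup (GL (Fin 2) ℝ)) r
  refine ⟨ModularForm.L hk (shift f (r : ℝ)), CuspForm.differentiable_L hk _, fun s hs => ?_⟩
  have h := CuspForm.hasSum_L hk (shift f (r : ℝ)) (s := s) hs
  rw [strictWidthInfty_conjT hΓ] at h
  simpa [coeff_shift hΓ] using h

include hΓ in
/-- **The `L`-function of a cusp form twisted by any function on `ℤ / m` is entire.** -/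
theorem exists_entire_twist (hk : 0 < k) (f : CuspForm (Γ : Subgroup (GL (Fin 2) ℝ)) k)
    {m : ℕ} [NeZero m] (ψ : ZMod m → ℂ) :
    ∃ L : ℂ → ℂ, Differentiable ℂ L ∧ ∀ s : ℂ, (k : ℝ) / 2 + 1 < s.re →
      HasSum (fun n : ℕ => ψ n * (qExpansion 1 f).coeff n / (n : ℂ) ^ s) (L s) := by
  choose L hL hs using fun u : ZMod m => hasSum_L_shift hΓ hk f ((u.val : ℚ) / m)
  refine ⟨fun s => ∑ u : ZMod m, ((m : ℂ)⁻¹ * 𝓕 ψ u) * L u s,
    Differentiable.fun_sum fun u _ => (hL u).const_mul _, fun s hre => ?_⟩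
  have h := hasSum_sum fun (u : ZMod m) (_ : u ∈ Finset.univ) =>
    (hs u s hre).mul_left ((m : ℂ)⁻¹ * 𝓕 ψ u)
  suffices hfun : ∀ n : ℕ, ψ n * (qExpansion 1 f).coeff n / (n : ℂ) ^ s =
      ∑ u : ZMod m, (m : ℂ)⁻¹ * 𝓕 ψ u * (Complex.exp (2 * π * I *
        (n * (((u.val : ℚ) / m : ℚ) : ℂ))) * (qExpansion 1 f).coeff n / (n : ℂ) ^ s) by
    simp only [hfun]
    exact h
  intro n
  have h1 : ψ n = (m : ℂ)⁻¹ * ∑ u : ZMod m, stdAddChar (u * (n : ZMod m)) * 𝓕 ψ u := by
    have h2 := invDFT_apply (𝓕 ψ) (n : ZMod m)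
    rwa [LinearEquiv.symm_apply_apply, smul_eq_mul] at h2
  have h3 : ∀ u : ZMod m, stdAddChar (u * (n : ZMod m)) =
      Complex.exp (2 * π * I * (n * (((u.val : ℚ) / m : ℚ) : ℂ))) := by
    intro u
    have h4 : u * (n : ZMod m) = (((u.val : ℤ) * (n : ℤ) : ℤ) : ZMod m) := by
      push_cast
      rw [ZMod.natCast_zmod_val]
    rw [h4, stdAddChar_coe]
    congr 1
    push_cast
    ring
  rw [h1, mul_div_assoc, mul_assoc, Finset.sum_mul, Finset.mul_sum]
  refine Finset.sum_congr rfl fun u _ => ?_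
  rw [h3]
  ring

end form

end Fermat.Agent.Cor.HW.Twist
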