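import Fermat.Agent.Corollaries.HW.TwistFE
import Fermat.Agent.Corollaries.HW.Hardy
import Fermat.Agent.Corollaries.HW.CountZeros
import Fermat.Agent.Corollaries.Twist.CuspTwist

/-!
# The zeros of the quadratic twists of `L(E, s)`

Let `E` be a semistable elliptic curve over `ℚ` of conductor `N` and `χ` a primitive quadratic
character modulo `m`, `m` prime to `N`. The twist `g` of the newform of `E` by `χ` is a normalised
eigenform on `Γ₀(N m²)` with `g | W = ∓ g`; so Hardy's theorem (infinitely many zeros with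
`re s = 1`) and the estimate `O(T log T)` for the number of zeros hold for `L(E, χ, s)`.
-/

set_option autoImplicit false

noncomputable section

open UpperHalfPlane hiding I
open CongruenceSubgroup ModularFormClass Complex MeasureTheory Filter Topology Set ZMod
open scoped MatrixGroups ModularForm Real ComplexConjugate

namespace Fermat.Agent.Cor.HW.Twist

variable {N m : ℕ} [NeZero N] [NeZero m]

omit [NeZero N] in
/-- The `q`-expansion at `τ`. -/
theorem hasSum_q (f : CuspForm (Gamma0 N) 2) (τ : ℍ) :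
    HasSum (fun n : ℕ => qCoeff f n * Function.Periodic.qParam 1 τ ^ n) (f τ) := by
  have : Fact (IsCusp OnePoint.infty (Gamma0 N : Subgroup (GL (Fin 2) ℝ))) :=
    ⟨Subgroup.isCusp_of_mem_strictPeriods one_pos (one_mem_strictPeriods_Gamma0 N)⟩
  exact ModularForm.hasSum_qExpansion f one_pos (one_mem_strictPeriods_Gamma0 N) τ

omit [NeZero N] in
/-- The `q`-expansion of the twist. -/
theorem hasSum_FT (f : CuspForm (Gamma0 N) 2) (χ : DirichletCharacter ℂ m) (τ : ℍ) :
    HasSum (fun n : ℕ => χ n * qCoeff f n * Function.Periodic.qParam 1 τ ^ n) (FT f χ τ) := by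
  have h1 : ∀ u : ZMod m, HasSum (fun n : ℕ => ((m : ℂ)⁻¹ * 𝓕 (χ : ZMod m → ℂ) u) *
      (Complex.exp (2 * π * I * (n * (((u.val : ℚ) / m : ℚ) : ℂ))) *
        (qCoeff f n * Function.Periodic.qParam 1 τ ^ n)))
      (((m : ℂ)⁻¹ * 𝓕 (χ : ZMod m → ℂ) u) * addT f u τ) := by
    intro u
    refine HasSum.mul_left _ ?_
    rw [addT_eq, shift_apply]
    refine (hasSum_q f _).congr_fun fun n => ?_
    have h2 : Function.Periodic.qParam 1 ((((((u.val : ℚ) / m : ℚ)) : ℝ) +ᵥ τ : ℍ) : ℂ) =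
        Complex.exp (2 * π * I * (((u.val : ℚ) / m : ℚ) : ℂ)) * Function.Periodic.qParam 1 τ := by
      rw [Function.Periodic.qParam, Function.Periodic.qParam, ← Complex.exp_add, coe_vadd]
      congr 1
      push_cast
      ring
    rw [h2, mul_pow, ← Complex.exp_nat_mul]
    rw [show (n : ℂ) * (2 * π * I * (((u.val : ℚ) / m : ℚ) : ℂ)) =
      2 * π * I * (n * (((u.val : ℚ) / m : ℚ) : ℂ)) by ring]
    ring
  have h3 := hasSum_sum fun (u : ZMod m) (_ : u ∈ Finset.univ) => h1 u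
  have h4 : FT f χ τ = ∑ u : ZMod m, ((m : ℂ)⁻¹ * 𝓕 (χ : ZMod m → ℂ) u) * addT f u τ := by
    rw [FT, Finset.sum_apply]
    rfl
  rw [h4]
  refine h3.congr_fun fun n => ?_
  rw [chi_eq, Finset.sum_mul, Finset.sum_mul]
  exact Finset.sum_congr rfl fun u _ => by ring

omit [NeZero N] in
/-- A form with the coefficients of the twist is the twist. -/
theorem coe_eq_FT {M : ℕ} [NeZero M] {f : CuspForm (Gamma0 N) 2} {χ : DirichletCharacter ℂ m}
    {g : CuspForm (Gamma0 M) 2} (hg : ∀ n : ℕ, qCoeff g n = χ n * qCoeff f n) :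
    (⇑g : ℍ → ℂ) = FT f χ := by
  funext τ
  refine ((hasSum_q g τ).congr_fun fun n => ?_).unique (hasSum_FT f χ τ)
  rw [hg n]

omit [NeZero N] [NeZero m] in
/-- The Hasse bound for the twist. -/
theorem isHasse_twist {f : CuspForm (Gamma0 N) 2} (hH : IsHasse f) {χ : DirichletCharacter ℂ m}
    (hq : MulChar.IsQuadratic χ) {g : CuspForm (Gamma0 (m * (m * N))) 2}
    (hg : ∀ n : ℕ, qCoeff g n = χ n * qCoeff f n) : IsHasse g := by
  intro p hp
  obtain ⟨α, β, hα, hβ, hab, hm⟩ := hH p hp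
  by_cases hpm : p ∣ m
  · have h0 : χ (p : ZMod m) = 0 := by
      refine χ.map_nonunit fun hu => ?_
      rw [ZMod.isUnit_iff_coprime, Nat.coprime_comm] at hu
      exact hp.one_lt.ne' (Nat.eq_one_of_dvd_coprimes hu hpm dvd_rfl)
    refine ⟨0, 0, by simp, by simp, ?_, ?_⟩
    · rw [hg, h0]
      ring
    · rw [if_pos (hpm.mul_right _), mul_zero]
  · have hu : IsUnit (p : ZMod m) := (ZMod.isUnit_iff_coprime p m).mpr
      ((Nat.Prime.coprime_iff_not_dvd hp).mpr hpm)
    have hsq : χ (p : ZMod m) * χ (p : ZMod m) = 1 := by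
      rcases hq (p : ZMod m) with h | h | h
      · exact absurd h (hu.map χ).ne_zero
      · rw [h, one_mul]
      · rw [h]
        ring
    have hn : ‖χ (p : ZMod m)‖ = 1 := by
      rcases hq (p : ZMod m) with h | h | h
      · exact absurd h (hu.map χ).ne_zero
      · rw [h, norm_one]
      · rw [h, norm_neg, norm_one]
    refine ⟨χ p * α, χ p * β, by rw [norm_mul, hn, one_mul]; exact hα,
      by rw [norm_mul, hn, one_mul]; exact hβ, ?_, ?_⟩
    · rw [hg, ← hab]
      ring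
    · have e : χ (p : ZMod m) * α * (χ (p : ZMod m) * β) = α * β := by
        linear_combination α * β * hsq
      rw [e, hm]
      refine if_congr ?_ rfl rfl
      constructor
      · intro h
        exact (h.mul_left m).mul_left m
      · intro h
        rcases hp.dvd_mul.mp h with h | h
        · exact absurd h hpm
        · exact (hp.dvd_mul.mp h).resolve_left hpm

/-- **The twist `g` of a newform of an elliptic curve by a primitive quadratic character.** -/
theorem exists_twist_form {W : WeierstrassCurve ℤ} (hΔ : W.Δ ≠ 0) (hW : W.IsSemistableModel)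
    (hm : W.conductorLevel.Coprime m) {χ : DirichletCharacter ℂ m} (hχ : χ.IsPrimitive)
    (hq : MulChar.IsQuadratic χ) {L : ℂ → ℂ} (hL : IsTwist W χ L) :
    ∃ (M : ℕ) (_ : NeZero M) (g : CuspForm (Gamma0 M) 2) (A : GL (Fin 2) ℝ) (w : ℝ),
      M = W.conductorLevel * m ^ 2 ∧
      (A : Matrix (Fin 2) (Fin 2) ℝ) = !![0, -1; (M : ℝ), 0] ∧ (w = 1 ∨ w = -1) ∧
      (w : ℂ) = rootNumber W * χ (-(W.conductorLevel : ZMod m)) ∧
      (⇑g : ℍ → ℂ) ∣[(2 : ℤ)] A = (-(w : ℂ)) • ⇑g ∧
      (∀ n, conj (qCoeff g n) = qCoeff g n) ∧ g.IsNormalizedEigenform ∧ IsHasse g ∧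
      L = ModularForm.L two_pos g := by
  obtain ⟨f, ⟨hf, ha⟩, -⟩ := existsUnique_newform_ap hΔ hW
  have hH := isHasse hΔ hf ha
  have hinv : χ⁻¹ = χ := hq.inv
  have hsq : χ ^ 2 = 1 := by rw [sq]; nth_rewrite 1 [← hinv]; exact inv_mul_cancel χ
  obtain ⟨g, hge, hg⟩ := Cor.Twist.exists_eigenform_twist hsq hf.1
  have hcoe := coe_eq_FT hg
  have hM0 : ((m * (m * W.conductorLevel) : ℕ) : ℝ) ≠ 0 := Nat.cast_ne_zero.mpr (NeZero.ne _)
  have hdetM : (!![0, -1; ((m * (m * W.conductorLevel) : ℕ) : ℝ), 0] :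
      Matrix (Fin 2) (Fin 2) ℝ).det ≠ 0 := by
    rw [Matrix.det_fin_two_of]
    simpa using hM0
  set V : GL (Fin 2) ℝ := Matrix.GeneralLinearGroup.mkOfDetNeZero _ hdetM with hVdef
  have hV : (V : Matrix (Fin 2) (Fin 2) ℝ) =
      !![0, -1; ((m * (m * W.conductorLevel) : ℕ) : ℝ), 0] := rfl
  have hV' : (V : Matrix (Fin 2) (Fin 2) ℝ) =
      !![0, -1; ((W.conductorLevel * m ^ 2 : ℕ) : ℝ), 0] := by
    rw [hV]
    congr 5
    ring
  have hN0 : (W.conductorLevel : ℝ) ≠ 0 := by exact_mod_cast W.conductorLevel_pos.ne'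
  have hdet : (!![0, -1; (W.conductorLevel : ℝ), 0] : Matrix (Fin 2) (Fin 2) ℝ).det ≠ 0 := by
    rw [Matrix.det_fin_two_of]
    simpa using hN0
  set A : GL (Fin 2) ℝ := Matrix.GeneralLinearGroup.mkOfDetNeZero _ hdet with hA
  have hval : (A : Matrix (Fin 2) (Fin 2) ℝ) = !![0, -1; (W.conductorLevel : ℝ), 0] := rfl
  have hsl := slash_fricke W.squarefree_conductorLevel hf hval
  have hFT := FT_slash hval hV' hm hsl hχ
  have hm0 : (m : ℂ) ≠ 0 := Nat.cast_ne_zero.mpr (NeZero.ne m)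
  have h5 := gauss_mul_gauss hχ
  rw [hinv, ← sq] at h5
  obtain ⟨w, hw, hwc⟩ : ∃ w : ℝ, (w = 1 ∨ w = -1) ∧
      (w : ℂ) = rootNumber W * χ (-(W.conductorLevel : ZMod m)) := by
    have hu : IsUnit (-(W.conductorLevel : ZMod m)) :=
      ((ZMod.isUnit_iff_coprime _ m).mpr hm).neg
    have h1 := (hq (-(W.conductorLevel : ZMod m))).resolve_left (hu.map χ).ne_zero
    rcases rootNumber_eq_one_or hΔ ha hf with h | h <;> rcases h1 with h' | h' <;> rw [h, h']
    · exact ⟨1, Or.inl rfl, by norm_num⟩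
    · exact ⟨-1, Or.inr rfl, by norm_num⟩
    · exact ⟨-1, Or.inr rfl, by norm_num⟩
    · exact ⟨1, Or.inl rfl, by norm_num⟩
  have hgV : (⇑g : ℍ → ℂ) ∣[(2 : ℤ)] V = (-(w : ℂ)) • ⇑g := by
    rw [hcoe, hFT, hinv, h5, hwc, rootNumber_cast hΔ ha]
    congr 1
    rw [neg_eq_neg_one_mul (W.conductorLevel : ZMod m), map_mul]
    field_simp
  have hreal : ∀ n, conj (qCoeff g n) = qCoeff g n := by
    intro n
    obtain ⟨a, h⟩ := exists_int_qCoeff hf.1 (fun p hp => ⟨ap W p, ha p hp⟩) n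
    have h1 : conj (χ (n : ZMod m)) = χ (n : ZMod m) := by
      rcases hq (n : ZMod m) with h' | h' | h' <;> rw [h'] <;> simp
    rw [hg n, map_mul, h1, h, ← ofReal_intCast, conj_ofReal]
  have hLg : L = ModularForm.L two_pos g := by
    rw [hL.unique (isTwist_LT hΔ hf ha χ)]
    have a₁ : AnalyticOnNhd ℂ (LT f χ) Set.univ := fun z _ => (differentiable_LT f χ).analyticAt z
    have a₂ : AnalyticOnNhd ℂ (ModularForm.L two_pos g) Set.univ := fun z _ =>
      (CuspForm.differentiable_L two_pos g).analyticAt z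
    refine a₁.eq_of_eventuallyEq a₂ (z₀ := 3) ?_
    have hopen : {s : ℂ | 2 < s.re} ∈ nhds (3 : ℂ) :=
      (isOpen_lt continuous_const Complex.continuous_re).mem_nhds (by norm_num)
    filter_upwards [hopen] with z hz
    refine (hasSum_LT f χ hz).unique ((hasSum_L_two g hz).congr_fun fun n => ?_)
    rw [hg n]
  exact ⟨m * (m * W.conductorLevel), inferInstance, g, V, w, by ring, hV, hw, hwc, hgV, hreal, hge,
    isHasse_twist hH hq hg, hLg⟩

/-- **Hardy's theorem for the quadratic twists of a semistable elliptic curve `E` over `ℚ`**: for a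
primitive quadratic character `χ` modulo `m`, `m` prime to the conductor, `L(E, χ, s)` has
infinitely many zeros on the line `re s = 1`. -/
theorem infinite_zeros_critical_line_twist {W : WeierstrassCurve ℤ} (hΔ : W.Δ ≠ 0)
    (hW : W.IsSemistableModel) (hm : W.conductorLevel.Coprime m) {χ : DirichletCharacter ℂ m}
    (hχ : χ.IsPrimitive) (hq : MulChar.IsQuadratic χ) {L : ℂ → ℂ} (hL : IsTwist W χ L) :
    {s : ℂ | s.re = 1 ∧ L s = 0}.Infinite := by
  obtain ⟨M, hM, g, A, w, -, hA, hw, -, hsl, hreal, hg, hH, hLg⟩ :=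
    exists_twist_form hΔ hW hm hχ hq hL
  have h := hardy hA hw hsl hreal hg hH
  rw [← hLg] at h
  refine (h.image (f := fun t : ℝ => (1 : ℂ) + t * I) (fun t _ t' _ htt => ?_)).mono ?_
  · have := congrArg Complex.im htt
    simpa using this
  · rintro s ⟨t, ht, rfl⟩
    exact ⟨by simp, ht⟩

/-- **The number of zeros of `L(E, χ, s)` with `0 < re s`, `|im s| ≤ T`**, counted with
multiplicity, is at most `C T log T`. -/
theorem count_zeros_twist {W : WeierstrassCurve ℤ} (hΔ : W.Δ ≠ 0)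
    (hW : W.IsSemistableModel) (hm : W.conductorLevel.Coprime m) {χ : DirichletCharacter ℂ m}
    (hχ : χ.IsPrimitive) (hq : MulChar.IsQuadratic χ) {L : ℂ → ℂ} (hL : IsTwist W χ L) :
    ∃ C : ℝ, ∀ T : ℝ, 2 ≤ T → {s : ℂ | L s = 0 ∧ 0 < s.re ∧ |s.im| ≤ T}.Finite ∧
      ((∑ᶠ s ∈ {s : ℂ | L s = 0 ∧ 0 < s.re ∧ |s.im| ≤ T}, analyticOrderNatAt L s : ℕ) : ℝ) ≤
        C * (T * Real.log T) := by
  obtain ⟨M, hM, g, A, w, -, hA, hw, -, hsl, hreal, hg, hH, hLg⟩ :=
    exists_twist_form hΔ hW hm hχ hq hL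
  rw [hLg]
  exact count_zeros_L hg hH (LamN_two_sub hA hsl)

/-- The `L`-function of a form with real coefficients is real. -/
theorem L_conj {f : CuspForm (Gamma0 N) 2} (hreal : ∀ n, conj (qCoeff f n) = qCoeff f n) (s : ℂ) :
    ModularForm.L two_pos f (conj s) = conj (ModularForm.L two_pos f s) := by
  have hd : Differentiable ℂ (ModularForm.L two_pos f) := CuspForm.differentiable_L two_pos f
  have hd' : Differentiable ℂ (conj ∘ ModularForm.L two_pos f ∘ conj) := fun z => by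
    have h := (hd (conj z)).conj_conj
    rwa [Complex.conj_conj] at h
  have h : conj ∘ ModularForm.L two_pos f ∘ conj = ModularForm.L two_pos f := by
    have a₁ : AnalyticOnNhd ℂ (conj ∘ ModularForm.L two_pos f ∘ conj) Set.univ :=
      fun z _ => hd'.analyticAt z
    have a₂ : AnalyticOnNhd ℂ (ModularForm.L two_pos f) Set.univ := fun z _ => hd.analyticAt z
    refine a₁.eq_of_eventuallyEq a₂ (z₀ := 3) ?_
    have hopen : {s : ℂ | 2 < s.re} ∈ nhds (3 : ℂ) :=
      (isOpen_lt continuous_const Complex.continuous_re).mem_nhds (by norm_num)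
    filter_upwards [hopen] with z hz
    have hz' : 2 < (conj z).re := by rw [conj_re]; exact hz
    have h1 := (hasSum_L_two f hz').map (starRingEnd ℂ) continuous_conj
    refine h1.unique ((hasSum_L_two f hz).congr_fun fun n => ?_)
    have h2 : conj ((n : ℂ) ^ conj z) = (n : ℂ) ^ z := by
      rw [Complex.cpow_conj _ _ (by rw [natCast_arg]; exact Real.pi_ne_zero.symm), conj_natCast,
        Complex.conj_conj]
    rw [Function.comp_apply, map_div₀, hreal n, h2]
  have h' := congrFun h s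
  rw [← h', Function.comp_apply, Function.comp_apply, Complex.conj_conj]

/-- **The zeros of `L(E, χ, s)`**: simple zeros at `0, -1, -2, …`, all the other ones have
`1/2 ≤ re s ≤ 3/2` and they are symmetric with respect to `re s = 1` and the real axis. -/
theorem zeros_twist {W : WeierstrassCurve ℤ} (hΔ : W.Δ ≠ 0)
    (hW : W.IsSemistableModel) (hm : W.conductorLevel.Coprime m) {χ : DirichletCharacter ℂ m}
    (hχ : χ.IsPrimitive) (hq : MulChar.IsQuadratic χ) {L : ℂ → ℂ} (hL : IsTwist W χ L) :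
    (∀ n : ℕ, analyticOrderAt L (-n) = 1) ∧
    (∀ s : ℂ, L s = 0 → (∃ n : ℕ, s = -n) ∨ s.re ∈ Set.Icc (1 / 2 : ℝ) (3 / 2)) ∧
    (∀ s : ℂ, 0 < s.re → s.re < 2 → (L (2 - s) = 0 ↔ L s = 0)) ∧
    ∀ s : ℂ, L (conj s) = conj (L s) := by
  obtain ⟨M, hM, g, A, w, -, hA, hw, -, hsl, hreal, hg, hH, hLg⟩ :=
    exists_twist_form hΔ hW hm hχ hq hL
  have hFE := LamN_two_sub hA hsl
  have hc : (- -(w : ℂ)) ≠ 0 := by
    rcases hw with h | h <;> rw [h] <;> norm_num
  rw [hLg]
  refine ⟨fun n => analyticOrderAt_L_neg_nat hg hH hFE n, fun s hs => zero_of_L hg hH hFE hs,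
    fun s h0 h2 => L_eq_zero_iff_two_sub hc hFE h0 h2, fun s => L_conj hreal s⟩

end Fermat.Agent.Cor.HW.Twist

end
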