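import Fermat.Agent.LTF.MultOne
import Fermat.Agent.LTF.Pet3
import Fermat.Agent.SO.NewForms
import Fermat.Agent.S44w.Dichotomy

/-!
# A Hecke operator onto the line of a newform, and the Atkin-Lehner involution on it

* `exists_annihilator`: in a reduced ring finite over `ℤ` the kernel of a character to `ℤ` is killed
  by an element on which the character does not vanish;
* `w_eq_of_joint`: `w_q h = - a_q(f) h` for every `h` with the eigenvalues of the newform `f` outside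
  the level;
* `exists_hecke_newform`: a Hecke polynomial `t` outside the level with `w_q t = - a_q(f) t` on all
  cusp forms, non-zero on `f`.
-/

set_option autoImplicit false
set_option linter.style.haveILetI false

noncomputable section

open CongruenceSubgroup CuspForm ModularFormClass
open Fermat.Agent.GalRep Fermat.Agent.Oldforms FermatAgent.HeckeEigen Fermat.Agent.S44w
open scoped MatrixGroups ModularForm

namespace Fermat.Agent.Cor.HW

/-! ### Commutative algebra -/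

section Alg

variable {T : Type*} [CommRing T] [IsReduced T]

theorem exists_annihilator_one [Algebra.IsIntegral ℤ T] (χ : T →+* ℤ) {x : T} (hx : χ x = 0) :
    ∃ t : T, χ t ≠ 0 ∧ t * x = 0 := by
  obtain ⟨P, hP, hPx⟩ := Algebra.IsIntegral.isIntegral (R := ℤ) x
  obtain ⟨Q, hQ, hQ0⟩ := Polynomial.exists_eq_pow_rootMultiplicity_mul_and_not_dvd P hP.ne_zero 0
  rw [map_zero, sub_zero] at hQ hQ0
  set k := Polynomial.rootMultiplicity 0 P with hk
  rw [Polynomial.X_dvd_iff] at hQ0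
  refine ⟨Polynomial.aeval x Q, ?_, ?_⟩
  · have h1 : χ (Polynomial.aeval x Q) = Polynomial.aeval (χ x) Q := by
      rw [Polynomial.aeval_def, Polynomial.hom_eval₂, Polynomial.aeval_def]
      congr 1
      exact RingHom.ext_int _ _
    rw [h1, hx, Polynomial.aeval_def, Polynomial.eval₂_at_zero]
    simpa using hQ0
  · have h1 : x ^ k * Polynomial.aeval x Q = 0 := by
      have h2 : Polynomial.aeval x P = 0 := hPx
      rw [hQ, map_mul, map_pow, Polynomial.aeval_X] at h2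
      exact h2
    have h2 : (Polynomial.aeval x Q * x) ^ (k + 1) = 0 := by
      rw [mul_pow, pow_succ (x), mul_comm _ (x ^ k * x), mul_comm (x ^ k) x, pow_succ, mul_assoc,
        ← mul_assoc (x ^ k), mul_comm (x ^ k * _)]
      rw [show x * (Polynomial.aeval x Q * (x ^ k * (Polynomial.aeval x Q) ^ k)) =
        x * (Polynomial.aeval x Q) ^ k * (x ^ k * Polynomial.aeval x Q) by ring, h1, mul_zero]
    exact pow_eq_zero_iff (Nat.succ_ne_zero k) |>.mp h2

theorem exists_annihilator [Module.Finite ℤ T] (χ : T →+* ℤ) :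
    ∃ t : T, χ t ≠ 0 ∧ ∀ x, χ x = 0 → t * x = 0 := by
  classical
  have : Algebra.IsIntegral ℤ T := Algebra.IsIntegral.of_finite ℤ T
  have : IsNoetherianRing T := IsNoetherianRing.of_finite ℤ T
  obtain ⟨s, hs⟩ := IsNoetherian.noetherian (RingHom.ker χ)
  have hs : Ideal.span (s : Set T) = RingHom.ker χ := hs
  have h1 : ∀ x ∈ s, ∃ t : T, χ t ≠ 0 ∧ t * x = 0 := fun x hx =>
    exists_annihilator_one χ (RingHom.mem_ker.mp (hs ▸ Ideal.subset_span hx))
  choose! τ hτ hτx using h1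
  refine ⟨∏ x ∈ s, τ x, ?_, fun y hy => ?_⟩
  · rw [map_prod]
    exact Finset.prod_ne_zero_iff.mpr hτ
  · have hy' : y ∈ Ideal.span (s : Set T) := by rw [hs]; exact RingHom.mem_ker.mpr hy
    clear hy
    induction hy' using Submodule.span_induction with
    | mem x hx =>
      have hx' : x ∈ s := hx
      rw [← Finset.prod_erase_mul s τ hx', mul_assoc, hτx x hx', mul_zero]
    | zero => rw [mul_zero]
    | add x z _ _ hx hz => rw [mul_add, hx, hz, add_zero]
    | smul a x _ hx => rw [smul_eq_mul, mul_left_comm, hx, mul_zero]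

end Alg

/-! ### The Atkin-Lehner involution on the line of a newform -/

section Forms

variable {m q : ℕ} [NeZero m] [NeZero (m * q)] (D : ALData (m * q) m q) (hm : ¬ q ∣ m)
  {f : CuspForm (Gamma0 (m * q)) 2} (hf : f.IsNewform)

include hf in
/-- a form with the eigenvalues of the newform `f` outside the level has trace zero -/
theorem tr_eq_zero_of_joint {h : CuspForm (Gamma0 (m * q)) 2}
    (hh : ∀ ℓ : Nat.Primes, ¬ (ℓ : ℕ) ∣ m * q → heckeOp (m * q) 2 ℓ h = qCoeff ⇑f ℓ • h) :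
    D.tr h = 0 := by
  by_contra h0
  obtain ⟨g, hg, hg2⟩ := exists_eigenform_of_joint (N := m) {p : Nat.Primes | ¬ (p : ℕ) ∣ m * q}
    (fun p => qCoeff ⇑f p) (D.tr h) h0 (fun p hp => by
      have hpq : (p : ℕ) ≠ q := fun he => hp (he ▸ dvd_mul_left _ _)
      rw [← D.tr_heckeOp p hpq, hh p hp, map_smul])
  refine hf.2 m (dvd_mul_right m q) (fun he => ?_) ⟨g, hg, fun ℓ hℓ hℓN => hg2 ⟨ℓ, hℓ⟩ hℓN⟩
  have h1 : m * 1 = m * q := by rw [mul_one]; exact he
  exact D.hq.one_lt.ne (Nat.eq_of_mul_eq_mul_left (Nat.pos_of_ne_zero (NeZero.ne m)) h1)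

include D hf hm in
theorem qCoeff_mul_self : qCoeff ⇑f q * qCoeff ⇑f q = 1 := by
  rw [← pow_two]
  refine (newformBadPrimeCoeff (m * q) f hf q D.hq (dvd_mul_left q m)).1 fun h => hm ?_
  rw [pow_two] at h
  exact Nat.dvd_of_mul_dvd_mul_right D.hq.pos h

include hf hm in
/-- **`w_q h = - a_q(f) h`** for every form `h` with the eigenvalues of the newform `f` outside the
level. -/
theorem w_eq_of_joint {h : CuspForm (Gamma0 (m * q)) 2}
    (hh : ∀ ℓ : Nat.Primes, ¬ (ℓ : ℕ) ∣ m * q → heckeOp (m * q) 2 ℓ h = qCoeff ⇑f ℓ • h) :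
    D.w 2 h = -(qCoeff ⇑f q • h) := by
  have hw : ∀ ℓ : Nat.Primes, ¬ (ℓ : ℕ) ∣ m * q →
      heckeOp (m * q) 2 ℓ (D.w 2 h) = qCoeff ⇑f ℓ • D.w 2 h := fun p hp => by
    have hpq : (p : ℕ) ≠ q := fun he => hp (he ▸ dvd_mul_left _ _)
    rw [← D.w_heckeOp 2 p hpq, hh p hp, map_smul]
  obtain ⟨e1, e2⟩ := SO.heckeOp_of_trN_eq_zero D h (tr_eq_zero_of_joint D hf hh)
    (tr_eq_zero_of_joint D hf hw)
  have hε := qCoeff_mul_self D hm hf
  set ε := qCoeff ⇑f q with hεdef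
  by_contra hne
  set k : CuspForm (Gamma0 (m * q)) 2 := D.w 2 h + ε • h with hk
  have hk0 : k ≠ 0 := fun h0 => hne (eq_neg_of_add_eq_zero_left h0)
  have hkU : heckeOp (m * q) 2 D.qp k = (-ε) • k := by
    rw [hk, map_add, map_smul, e1, e2, smul_add, smul_neg, neg_smul, neg_smul, smul_smul, hε,
      one_smul]
    abel
  classical
  obtain ⟨g, hg, hg2⟩ := exists_eigenform_of_joint (N := m * q)
    ({p : Nat.Primes | ¬ (p : ℕ) ∣ m * q} ∪ {D.qp})
    (fun p => if (p : ℕ) = q then -ε else qCoeff ⇑f p) k hk0 (fun p hp => by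
      rcases hp with hp | hp
      · have hpq : (p : ℕ) ≠ q := fun he => hp (he ▸ dvd_mul_left _ _)
        rw [if_neg hpq, hk, map_add, map_smul, hw p hp, hh p hp, smul_add, smul_comm]
      · have hp' : p = D.qp := hp
        rw [hp', if_pos rfl, hkU])
  have hgℓ : ∀ ℓ : ℕ, ℓ.Prime → ¬ ℓ ∣ m * q → qCoeff ⇑g ℓ = qCoeff ⇑f ℓ := fun ℓ hℓ hℓN => by
    have hpq : ℓ ≠ q := fun he => hℓN (he ▸ dvd_mul_left _ _)
    have h1 := hg2 ⟨ℓ, hℓ⟩ (Or.inl hℓN)
    rw [if_neg hpq] at h1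
    exact h1
  have hgN : g.IsNewform := ⟨hg, fun M hM hMne ⟨g', hg', h1⟩ => hf.2 M hM hMne ⟨g', hg',
    fun ℓ hℓ hℓN => (h1 ℓ hℓ hℓN).trans (hgℓ ℓ hℓ hℓN)⟩⟩
  have hfg : f = g := LTF.MultOne.eq_of_isNewform hf hgN (m * q).primeFactors
    (fun ℓ hℓ hℓS => (hgℓ ℓ hℓ fun hd =>
      hℓS (Nat.mem_primeFactors.mpr ⟨hℓ, hd, NeZero.ne _⟩)).symm)
  have h1 := hg2 D.qp (Or.inr rfl)
  rw [if_pos rfl, ← hfg] at h1
  have h2 : ε = -ε := h1
  have h3 : ε = 0 := self_eq_neg.mp h2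
  rw [h3, mul_zero] at hε
  exact zero_ne_one hε

/-- the operator of a generator -/
theorem coe_evS_X (N : ℕ) [NeZero N] (S : Set ℕ) (ℓ : {ℓ : Nat.Primes // (ℓ : ℕ) ∉ S}) :
    ((evS N S (MvPolynomial.X ℓ) : heckeAlgebra N 2 S) : Module.End ℂ (CuspForm (Gamma0 N) 2)) =
      heckeOp N 2 ℓ.1 := by
  rw [evS, MvPolynomial.aeval_X, genS]
  by_cases h : (ℓ.1 : ℕ) ∣ N
  · rw [dif_pos h, heckeOp_of_dvd h]; rfl
  · rw [dif_neg h, heckeOp_of_not_dvd h]; rfl

include hf hm in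
/-- **A Hecke polynomial outside the level, non-zero on the newform `f`, such that
`w_q t = - a_q(f) t` on all cusp forms.** -/
theorem exists_hecke_newform {a : ℕ → ℤ}
    (ha : ∀ ℓ : ℕ, ℓ.Prime → ¬ ℓ ∣ m * q → qCoeff ⇑f ℓ = ((a ℓ : ℤ) : ℂ)) :
    ∃ t : HeckeAlgS (↑(m * q).primeFactors : Set ℕ), thetaZ (m * q).primeFactors a t ≠ 0 ∧
      ∀ g : CuspForm (Gamma0 (m * q)) 2,
        D.w 2 ((evS (m * q) (↑(m * q).primeFactors : Set ℕ) t :
          Module.End ℂ (CuspForm (Gamma0 (m * q)) 2)) g) =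
        -(qCoeff ⇑f q • (evS (m * q) (↑(m * q).primeFactors : Set ℕ) t :
          Module.End ℂ (CuspForm (Gamma0 (m * q)) 2)) g) := by
  classical
  set S : Finset ℕ := (m * q).primeFactors with hS
  have hSN : ∀ ℓ : Nat.Primes, (ℓ : ℕ) ∉ (↑S : Set ℕ) ↔ ¬ (ℓ : ℕ) ∣ m * q := fun ℓ => by
    rw [Finset.mem_coe, hS, Nat.mem_primeFactors]
    exact not_congr ⟨fun h => h.2.1, fun h => ⟨ℓ.2, h, NeZero.ne _⟩⟩
  haveI : Module.Finite ℤ (heckeAlgebra (m * q) 2 (↑S : Set ℕ)) :=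
    Fermat.Agent.S22.result (m * q) 2 _
  haveI : IsReduced (heckeAlgebra (m * q) 2 (↑S : Set ℕ)) :=
    LTF.Pet2.isReduced_heckeAlgebra (fun r hr hd => by
      by_contra h
      exact (hSN ⟨r, hr⟩).mp h hd)
  -- the character of `f`
  have heig : ∀ t : HeckeAlgS (↑S : Set ℕ),
      ((evS (m * q) (↑S : Set ℕ) t : heckeAlgebra (m * q) 2 (↑S : Set ℕ)) :
        Module.End ℂ (CuspForm (Gamma0 (m * q)) 2)) f = ((thetaZ S a t : ℤ) : ℂ) • f := fun t =>
    S35aux.evS_apply_of_eigen (N := m * q) (S := S) ((Int.castRingHom ℂ).comp (thetaZ S a)) f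
      (fun ℓ => by
        rw [heckeOp_eq_of_isNormalizedEigenform hf.1, RingHom.comp_apply, thetaZ_X,
          ha _ ℓ.1.2 ((hSN ℓ.1).mp ℓ.2)]
        rfl) t
  let χ : heckeAlgebra (m * q) 2 (↑S : Set ℕ) →+* ℤ :=
    RingHom.liftOfSurjective (evS (m * q) (↑S : Set ℕ)).toRingHom
      (S35aux.evS_surjective (m * q) (↑S : Set ℕ)) ⟨thetaZ S a, fun t ht => by
        have h1 := heig t
        have h2 : evS (m * q) (↑S : Set ℕ) t = 0 := ht
        rw [h2] at h1
        have h3 : (((thetaZ S a t : ℤ) : ℂ)) • f = 0 := h1.symm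
        rcases smul_eq_zero.mp h3 with h4 | h4
        · exact_mod_cast h4
        · exact absurd h4 hf.1.ne_zero⟩
  have hχ : ∀ t, χ (evS (m * q) (↑S : Set ℕ) t) = thetaZ S a t := fun t =>
    RingHom.liftOfRightInverse_comp_apply _ _ _ _ t
  obtain ⟨t₀, ht₀, hann⟩ := exists_annihilator χ
  obtain ⟨t, rfl⟩ := S35aux.evS_surjective (m * q) (↑S : Set ℕ) t₀
  refine ⟨t, by rwa [hχ] at ht₀, fun g => ?_⟩
  refine w_eq_of_joint D hm hf fun ℓ hℓ => ?_
  have hℓS : (ℓ : ℕ) ∉ (↑S : Set ℕ) := (hSN ℓ).mpr hℓ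
  have h1 := hann (evS (m * q) (↑S : Set ℕ) (MvPolynomial.X ⟨ℓ, hℓS⟩ -
    ((a (ℓ : ℕ) : ℤ) : HeckeAlgS (↑S : Set ℕ)))) (by
      rw [hχ, map_sub, thetaZ_X, map_intCast, Int.cast_id, sub_self])
  rw [map_sub, map_intCast, mul_comm (evS (m * q) (↑S : Set ℕ) t), sub_mul, sub_eq_zero] at h1
  have h2 := congrArg (fun x : heckeAlgebra (m * q) 2 (↑S : Set ℕ) =>
    (x : Module.End ℂ (CuspForm (Gamma0 (m * q)) 2)) g) h1
  simp only [Subalgebra.coe_mul, Module.End.mul_apply, coe_evS_X] at h2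
  rw [h2, ha _ ℓ.2 hℓ]
  have h3 : (((a (ℓ : ℕ) : ℤ) : heckeAlgebra (m * q) 2 (↑S : Set ℕ)) :
      Module.End ℂ (CuspForm (Gamma0 (m * q)) 2)) =
      ((a (ℓ : ℕ) : ℤ) : Module.End ℂ (CuspForm (Gamma0 (m * q)) 2)) := by push_cast; rfl
  rw [h3, Module.End.intCast_apply, Int.cast_smul_eq_zsmul]

end Forms

end Fermat.Agent.Cor.HW

end
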