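import Fermat.Agent.Corollaries.HW.Iwasawa
import Mathlib.RingTheory.PowerSeries.WeierstrassPreparation

/-!
# Iwasawa invariants and the number of zeros of a branch
-/

set_option autoImplicit false

noncomputable section

open DirichletCharacter Filter Topology PowerSeries IsLocalRing

namespace Fermat.Agent.Cor.HW.Per

universe u v

variable {p : ℕ} [hp : Fact p.Prime]

/-- **Weierstrass preparation** for a power series over `ℚ_p` with bounded coefficients. -/
theorem exists_weierstrass {F : PowerSeries ℚ_[p]} (hF : F ≠ 0) {B : ℝ}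
    (hB : ∀ k, ‖F.coeff k‖ ≤ B) :
    ∃ (m : ℤ) (f : Polynomial ℤ_[p]) (w : PowerSeries ℤ_[p]),
      f.IsDistinguishedAt (maximalIdeal ℤ_[p]) ∧ IsUnit w ∧
        ∀ k, F.coeff k = (p : ℚ_[p]) ^ m * ((((f : PowerSeries ℤ_[p]) * w).coeff k : ℤ_[p]) : ℚ_[p]) := by
  have hp1 : (1 : ℝ) < p := by exact_mod_cast hp.out.one_lt
  obtain ⟨e, he⟩ := pow_unbounded_of_one_lt B hp1
  obtain ⟨k₁, hk₁⟩ : ∃ k, F.coeff k ≠ 0 := by
    by_contra h
    push Not at h
    exact hF (PowerSeries.ext fun k => by rw [h k, map_zero])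
  obtain ⟨m, ⟨k₀, hk₀, hm⟩, hmin⟩ := Int.exists_least_of_bdd
    (P := fun z => ∃ k, F.coeff k ≠ 0 ∧ (F.coeff k).valuation = z) ⟨-e, by
      rintro z ⟨k, hk, rfl⟩
      have h1 := hB k
      rw [Padic.norm_eq_zpow_neg_valuation hk] at h1
      have h2 : (p : ℝ) ^ (-(F.coeff k).valuation) < (p : ℝ) ^ (e : ℤ) := by
        rw [zpow_natCast]
        exact lt_of_le_of_lt h1 he
      have h3 := (zpow_lt_zpow_iff_right₀ hp1).mp h2
      omega⟩ ⟨_, k₁, hk₁, rfl⟩
  have hp0 : (p : ℚ_[p]) ≠ 0 := Nat.cast_ne_zero.mpr hp.out.ne_zero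
  have hpr : (p : ℝ) ≠ 0 := Nat.cast_ne_zero.mpr hp.out.ne_zero
  have hn : ∀ k, ‖(p : ℚ_[p]) ^ (-m) * F.coeff k‖ ≤ 1 := by
    intro k
    rcases eq_or_ne (F.coeff k) 0 with h | h
    · rw [h, mul_zero, norm_zero]
      exact zero_le_one
    · rw [norm_mul, norm_zpow, Padic.norm_p, inv_zpow', neg_neg,
        Padic.norm_eq_zpow_neg_valuation h, ← zpow_add₀ hpr]
      refine zpow_le_one_of_nonpos₀ hp1.le ?_
      have := hmin _ ⟨k, h, rfl⟩
      omega
  let G : PowerSeries ℤ_[p] := PowerSeries.mk fun k => ⟨(p : ℚ_[p]) ^ (-m) * F.coeff k, hn k⟩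
  have hG : ∀ k, ((G.coeff k : ℤ_[p]) : ℚ_[p]) = (p : ℚ_[p]) ^ (-m) * F.coeff k := fun k =>
    congrArg (fun x : ℤ_[p] => (x : ℚ_[p])) (PowerSeries.coeff_mk k _)
  have hres : G.map (IsLocalRing.residue ℤ_[p]) ≠ 0 := by
    intro h
    have h1 := congrArg (fun g => PowerSeries.coeff k₀ g) h
    simp only [PowerSeries.coeff_map, map_zero] at h1
    have h2 : IsUnit (G.coeff k₀) := by
      rw [PadicInt.isUnit_iff, PadicInt.norm_def, hG, norm_mul, norm_zpow, Padic.norm_p, inv_zpow',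
        neg_neg, Padic.norm_eq_zpow_neg_valuation hk₀, ← zpow_add₀ hpr, hm, add_neg_cancel,
        zpow_zero]
    exact (IsLocalRing.residue_ne_zero_iff_isUnit _).mpr h2 h1
  obtain ⟨f, w, h⟩ := G.exists_isWeierstrassFactorization hres
  refine ⟨m, f, w, h.isDistinguishedAt, h.isUnit, fun k => ?_⟩
  rw [← h.eq_mul, hG, ← mul_assoc, ← zpow_add₀ hp0, add_neg_cancel, zpow_zero, one_mul]

section Eval

variable {C : Type v} [NormedField C] [NormedAlgebra ℚ_[p] C]

/-- The embedding of `ℤ_p` in `C`. -/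
def inc (C : Type v) [NormedField C] [NormedAlgebra ℚ_[p] C] : ℤ_[p] →+* C :=
  (algebraMap ℚ_[p] C).comp PadicInt.Coe.ringHom

theorem norm_inc_le (a : ℤ_[p]) : ‖inc C a‖ ≤ 1 := by
  change ‖algebraMap ℚ_[p] C (a : ℚ_[p])‖ ≤ 1
  rw [norm_algebraMap']
  exact PadicInt.norm_le_one a

/-- The value at `z`, `|z| < 1`, of a power series over `ℤ_p`. -/
def ev (z : C) (g : PowerSeries ℤ_[p]) : C := ∑' k, inc C (g.coeff k) * z ^ k

theorem summable_ev {z : C} (hz : ‖z‖ < 1) (g : PowerSeries ℤ_[p]) :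
    Summable fun k => ‖inc C (g.coeff k) * z ^ k‖ := by
  refine Summable.of_nonneg_of_le (fun _ => norm_nonneg _) (fun k => ?_)
    (summable_geometric_of_lt_one (norm_nonneg z) hz)
  rw [norm_mul, norm_pow]
  exact mul_le_of_le_one_left (pow_nonneg (norm_nonneg _) _) (norm_inc_le _)

theorem ev_mul [CompleteSpace C] {z : C} (hz : ‖z‖ < 1) (g h : PowerSeries ℤ_[p]) :
    ev z (g * h) = ev z g * ev z h := by
  rw [ev, ev, ev, tsum_mul_tsum_eq_tsum_sum_antidiagonal_of_summable_norm (summable_ev hz g)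
    (summable_ev hz h)]
  refine tsum_congr fun k => ?_
  rw [PowerSeries.coeff_mul, map_sum, Finset.sum_mul]
  refine Finset.sum_congr rfl fun w hw => ?_
  rw [← Finset.HasAntidiagonal.mem_antidiagonal.mp hw, map_mul, pow_add]
  ring

theorem ev_coe (z : C) (f : Polynomial ℤ_[p]) : ev z (f : PowerSeries ℤ_[p]) = f.eval₂ (inc C) z := by
  rw [Polynomial.eval₂_eq_sum_range, ev, tsum_eq_sum (s := Finset.range (f.natDegree + 1))]
  · exact Finset.sum_congr rfl fun k _ => by rw [Polynomial.coeff_coe]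
  · intro k hk
    rw [Finset.mem_range, not_lt] at hk
    rw [Polynomial.coeff_coe, Polynomial.coeff_eq_zero_of_natDegree_lt hk, map_zero, zero_mul]

/-- **The number of zeros.** A non-zero power series over `ℚ_p` with bounded coefficients has only
finitely many zeros in the open unit disc; their number is bounded independently of the field. -/
theorem exists_bound_zeros {F : PowerSeries ℚ_[p]} (hF : F ≠ 0) {B : ℝ}
    (hB : ∀ k, ‖F.coeff k‖ ≤ B) :
    ∃ d : ℕ, ∀ (C : Type v) [NormedField C] [NormedAlgebra ℚ_[p] C] [CompleteSpace C]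
      (S : Finset C), (∀ z ∈ S, ‖z‖ < 1 ∧
        HasSum (fun k => algebraMap ℚ_[p] C (F.coeff k) * z ^ k) 0) → S.card ≤ d := by
  classical
  obtain ⟨m, f, w, hf, hw, hFm⟩ := exists_weierstrass hF hB
  refine ⟨f.natDegree, fun C _ _ _ S hS => ?_⟩
  have hmonic : (f.map (inc C)).Monic := hf.monic.map _
  have hsub : S ⊆ (f.map (inc C)).roots.toFinset := by
    intro z hzS
    obtain ⟨hz, hsum⟩ := hS z hzS
    have hp0 : algebraMap ℚ_[p] C ((p : ℚ_[p]) ^ m) ≠ 0 := by
      rw [Ne, _root_.map_eq_zero]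
      exact zpow_ne_zero _ (Nat.cast_ne_zero.mpr hp.out.ne_zero)
    have h1 : algebraMap ℚ_[p] C ((p : ℚ_[p]) ^ m) * ev z ((f : PowerSeries ℤ_[p]) * w) = 0 := by
      rw [ev, ← tsum_mul_left, ← hsum.tsum_eq]
      refine tsum_congr fun k => ?_
      rw [hFm k, (algebraMap ℚ_[p] C).map_mul ((p : ℚ_[p]) ^ m) _, mul_assoc]
      rfl
    have h2 := (mul_eq_zero.mp h1).resolve_left hp0
    rw [ev_mul hz] at h2
    obtain ⟨w', hw'⟩ := hw.exists_right_inv
    have h3 : ev z w ≠ 0 := by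
      intro h0
      have h4 := ev_mul hz w w'
      rw [hw', h0, zero_mul, ← Polynomial.coe_one, ev_coe, Polynomial.eval₂_one] at h4
      exact one_ne_zero h4
    have h5 := (mul_eq_zero.mp h2).resolve_right h3
    rw [ev_coe] at h5
    rw [Multiset.mem_toFinset, Polynomial.mem_roots hmonic.ne_zero, Polynomial.IsRoot,
      Polynomial.eval_map, h5]
  calc S.card ≤ (f.map (inc C)).roots.toFinset.card := Finset.card_le_card hsub
    _ ≤ (f.map (inc C)).roots.card := Multiset.toFinset_card_le _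
    _ ≤ (f.map (inc C)).natDegree := Polynomial.card_roots' _
    _ ≤ f.natDegree := Polynomial.natDegree_map_le

end Eval

end Fermat.Agent.Cor.HW.Per
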